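import Fermat.Prelude.Def_FLTPrelim_Ramification
import Mathlib.Tactic

/-!
# Inertia basics (S05 cluster, task T1)

For a valuation subring `A` of a field `L` (an algebra over `K`) and `σ` in the inertia subgroup
`A.inertiaSubgroupIn K ≤ (L ≃ₐ[K] L)`:
* `σ` preserves `A` and `A.nonunits`, and the valuation;
* `σ x - x ∈ A.nonunits` for every `x ∈ A`;
* for a unit `u` of `A`, `σ u / u - 1 ∈ A.nonunits`.

For `A.LiesOverPrime q`, `q` prime:
* integers lie in `A`, and `(n : L) ∈ A.nonunits ↔ q ∣ n`.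
-/

set_option autoImplicit false

namespace Fermat.Agent.S05.helper4

open ValuationSubring
open scoped Pointwise

section Inertia

variable {K L : Type*} [Field K] [Field L] [Algebra K L] {A : ValuationSubring L}

/-- Unfolding membership in `inertiaSubgroupIn`. -/
lemma mem_inertiaSubgroupIn_iff {σ : L ≃ₐ[K] L} :
    σ ∈ A.inertiaSubgroupIn K ↔
      ∃ g : A.decompositionSubgroup K, g ∈ A.inertiaSubgroup K ∧ (g : L ≃ₐ[K] L) = σ := by
  unfold ValuationSubring.inertiaSubgroupIn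
  rw [Subgroup.mem_map]
  rfl

/-- Elements of the inertia subgroup lie in the decomposition subgroup. -/
lemma mem_decompositionSubgroup_of_mem_inertiaSubgroupIn {σ : L ≃ₐ[K] L}
    (hσ : σ ∈ A.inertiaSubgroupIn K) : σ ∈ A.decompositionSubgroup K := by
  obtain ⟨g, -, rfl⟩ := mem_inertiaSubgroupIn_iff.1 hσ
  exact g.2

lemma smul_eq_of_mem_decompositionSubgroup {σ : L ≃ₐ[K] L}
    (hσ : σ ∈ A.decompositionSubgroup K) : σ • A = A :=
  MulAction.mem_stabilizer_iff.1 hσ

/-- An element of the decomposition group maps `A` into `A`. -/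
lemma apply_mem_of_mem_decompositionSubgroup {σ : L ≃ₐ[K] L}
    (hσ : σ ∈ A.decompositionSubgroup K) {x : L} (hx : x ∈ A) : σ x ∈ A := by
  have h := ValuationSubring.smul_mem_pointwise_smul σ x A hx
  rw [smul_eq_of_mem_decompositionSubgroup hσ] at h
  exact h

lemma apply_mem_iff_of_mem_decompositionSubgroup {σ : L ≃ₐ[K] L}
    (hσ : σ ∈ A.decompositionSubgroup K) {x : L} : σ x ∈ A ↔ x ∈ A := by
  refine ⟨fun h => ?_, apply_mem_of_mem_decompositionSubgroup hσ⟩
  have hσ' : σ⁻¹ ∈ A.decompositionSubgroup K := Subgroup.inv_mem _ hσ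
  have := apply_mem_of_mem_decompositionSubgroup hσ' h
  simpa using this

/-- An element of the inertia group maps `A` into `A`. -/
lemma apply_mem {σ : L ≃ₐ[K] L} (hσ : σ ∈ A.inertiaSubgroupIn K) {x : L} (hx : x ∈ A) :
    σ x ∈ A :=
  apply_mem_of_mem_decompositionSubgroup (mem_decompositionSubgroup_of_mem_inertiaSubgroupIn hσ) hx

lemma apply_mem_iff {σ : L ≃ₐ[K] L} (hσ : σ ∈ A.inertiaSubgroupIn K) {x : L} :
    σ x ∈ A ↔ x ∈ A :=
  apply_mem_iff_of_mem_decompositionSubgroup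
    (mem_decompositionSubgroup_of_mem_inertiaSubgroupIn hσ)

/-- **Key property of inertia**: `σ x ≡ x` modulo the maximal ideal, for `x ∈ A`. -/
lemma apply_sub_mem_nonunits {σ : L ≃ₐ[K] L} (hσ : σ ∈ A.inertiaSubgroupIn K) {x : L}
    (hx : x ∈ A) : σ x - x ∈ A.nonunits := by
  obtain ⟨g, hg, rfl⟩ := mem_inertiaSubgroupIn_iff.1 hσ
  have hker : MulSemiringAction.toRingAut (A.decompositionSubgroup K)
      (IsLocalRing.ResidueField A) g = 1 := hg
  have h1 : g • (IsLocalRing.residue A ⟨x, hx⟩) = IsLocalRing.residue A ⟨x, hx⟩ := by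
    have := congrArg (fun e : RingAut (IsLocalRing.ResidueField A) =>
      e (IsLocalRing.residue A ⟨x, hx⟩)) hker
    simpa using this
  rw [← IsLocalRing.ResidueField.residue_smul] at h1
  have h2 : (g • (⟨x, hx⟩ : A)) - ⟨x, hx⟩ ∈ IsLocalRing.maximalIdeal A := by
    rw [← Ideal.Quotient.eq]
    exact h1
  have h3 := ValuationSubring.coe_mem_nonunits_iff.2 h2
  exact h3

/-- Elements of the decomposition group preserve the nonunits. -/
lemma apply_mem_nonunits_of_mem_decompositionSubgroup {σ : L ≃ₐ[K] L}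
    (hσ : σ ∈ A.decompositionSubgroup K) {x : L} (hx : x ∈ A.nonunits) : σ x ∈ A.nonunits := by
  rw [ValuationSubring.mem_nonunits_iff_or] at hx ⊢
  rcases hx with rfl | hx
  · left; simp
  · right
    intro h
    apply hx
    rw [← map_inv₀] at h
    exact (apply_mem_iff_of_mem_decompositionSubgroup hσ).1 h

lemma apply_mem_nonunits_iff_of_mem_decompositionSubgroup {σ : L ≃ₐ[K] L}
    (hσ : σ ∈ A.decompositionSubgroup K) {x : L} : σ x ∈ A.nonunits ↔ x ∈ A.nonunits := by
  refine ⟨fun h => ?_, apply_mem_nonunits_of_mem_decompositionSubgroup hσ⟩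
  have hσ' : σ⁻¹ ∈ A.decompositionSubgroup K := Subgroup.inv_mem _ hσ
  have := apply_mem_nonunits_of_mem_decompositionSubgroup hσ' h
  simpa using this

lemma apply_mem_nonunits_iff {σ : L ≃ₐ[K] L} (hσ : σ ∈ A.inertiaSubgroupIn K) {x : L} :
    σ x ∈ A.nonunits ↔ x ∈ A.nonunits :=
  apply_mem_nonunits_iff_of_mem_decompositionSubgroup
    (mem_decompositionSubgroup_of_mem_inertiaSubgroupIn hσ)

/-- For `x` algebraic over `K`, some positive power of `σ` fixes `x`. -/
lemma exists_pow_apply_eq (σ : L ≃ₐ[K] L) {x : L} (hx : IsAlgebraic K x) :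
    ∃ k : ℕ, 0 < k ∧ (σ ^ k) x = x := by
  have hfin : ((minpoly K x).rootSet L).Finite := Polynomial.rootSet_finite _ _
  have hmem : ∀ n : ℕ, (σ ^ n) x ∈ (minpoly K x).rootSet L := by
    intro n
    rw [Polynomial.mem_rootSet]
    refine ⟨minpoly.ne_zero hx.isIntegral, ?_⟩
    have h := Polynomial.aeval_algHom_apply ((σ ^ n : L ≃ₐ[K] L) : L →ₐ[K] L) x (minpoly K x)
    rw [minpoly.aeval, map_zero] at h
    exact h
  obtain ⟨i, j, hij, h⟩ := hfin.exists_lt_map_eq_of_forall_mem hmem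
  refine ⟨j - i, Nat.sub_pos_of_lt hij, ?_⟩
  have hj : σ ^ j = σ ^ i * σ ^ (j - i) := by
    rw [← pow_add, Nat.add_sub_cancel' hij.le]
  rw [hj, AlgEquiv.mul_apply] at h
  exact ((σ ^ i).injective h).symm

lemma pow_apply_div_mem_nonunits {σ : L ≃ₐ[K] L}
    (hσ : σ ∈ A.decompositionSubgroup K) {x : L} (h : σ x / x ∈ A.nonunits) (k : ℕ) :
    (σ ^ (k + 1)) x / x ∈ A.nonunits := by
  induction k with
  | zero => simpa using h
  | succ k ih =>
    by_cases hx0 : x = 0
    · subst hx0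
      simp only [map_zero, div_zero]
      exact A.nonunits.zero_mem
    have h1 : σ ((σ ^ (k + 1)) x / x) ∈ A.nonunits :=
      apply_mem_nonunits_of_mem_decompositionSubgroup hσ ih
    have h2 := A.nonunits.mul_mem h1 h
    have e : σ ((σ ^ (k + 1)) x / x) * (σ x / x) = (σ ^ (k + 1 + 1)) x / x := by
      rw [map_div₀, pow_succ' σ (k + 1), AlgEquiv.mul_apply]
      have hσx : σ x ≠ 0 := by simpa using hx0
      field_simp
    rwa [e] at h2

/-- For `x` algebraic over `K` and `σ` in the decomposition group, `σ x / x` is not in the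
maximal ideal. -/
lemma apply_div_not_mem_nonunits {σ : L ≃ₐ[K] L}
    (hσ : σ ∈ A.decompositionSubgroup K) {x : L} (hx0 : x ≠ 0) (hx : IsAlgebraic K x) :
    σ x / x ∉ A.nonunits := by
  intro h
  obtain ⟨k, hk, hkx⟩ := exists_pow_apply_eq σ hx
  obtain ⟨m, rfl⟩ : ∃ m, k = m + 1 := ⟨k - 1, by omega⟩
  have := pow_apply_div_mem_nonunits hσ h m
  rw [hkx, div_self hx0] at this
  rw [ValuationSubring.mem_nonunits_iff_or] at this
  simp at this

/-- Elements of the decomposition group preserve the valuation of algebraic elements. -/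
lemma valuation_apply_of_mem_decompositionSubgroup {σ : L ≃ₐ[K] L}
    (hσ : σ ∈ A.decompositionSubgroup K) {x : L} (hx : IsAlgebraic K x) :
    A.valuation (σ x) = A.valuation x := by
  by_cases hx0 : x = 0
  · simp [hx0]
  have h1 := apply_div_not_mem_nonunits hσ hx0 hx
  have h2 := apply_div_not_mem_nonunits hσ (inv_ne_zero hx0) hx.inv
  rw [ValuationSubring.mem_nonunits_iff] at h1 h2
  rw [map_inv₀] at h2
  simp only [map_div₀, map_inv₀, not_lt] at h1 h2
  have hvx : A.valuation x ≠ 0 := (Valuation.ne_zero_iff _).2 hx0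
  have hvσx : A.valuation (σ x) ≠ 0 := (Valuation.ne_zero_iff _).2 (by simpa using hx0)
  apply le_antisymm
  · -- from h2 : 1 ≤ (v σx)⁻¹ / (v x)⁻¹
    rw [inv_div_inv] at h2
    exact (one_le_div₀ (zero_lt_iff.2 hvσx)).1 h2
  · exact (one_le_div₀ (zero_lt_iff.2 hvx)).1 h1

lemma valuation_apply {σ : L ≃ₐ[K] L} (hσ : σ ∈ A.inertiaSubgroupIn K) {x : L}
    (hx : IsAlgebraic K x) : A.valuation (σ x) = A.valuation x :=
  valuation_apply_of_mem_decompositionSubgroup
    (mem_decompositionSubgroup_of_mem_inertiaSubgroupIn hσ) hx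

/-- For a unit `u` of `A` (i.e. `u ∈ A`, `u⁻¹ ∈ A`), `σ u / u ≡ 1` modulo the maximal ideal. -/
lemma apply_div_sub_one_mem_nonunits {σ : L ≃ₐ[K] L} (hσ : σ ∈ A.inertiaSubgroupIn K) {u : L}
    (hu0 : u ≠ 0) (hu : u ∈ A) (hu' : u⁻¹ ∈ A) : σ u / u - 1 ∈ A.nonunits := by
  have h := apply_sub_mem_nonunits hσ hu
  have e : σ u / u - 1 = (σ u - u) * u⁻¹ := by field_simp
  rw [e]
  rw [ValuationSubring.mem_nonunits_iff] at h ⊢
  rw [map_mul]
  have hle : A.valuation u⁻¹ ≤ 1 := (A.valuation_le_one_iff _).2 hu'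
  calc A.valuation (σ u - u) * A.valuation u⁻¹ ≤ A.valuation (σ u - u) * 1 := by gcongr
    _ = A.valuation (σ u - u) := mul_one _
    _ < 1 := h

end Inertia

section LiesOver

variable {L : Type*} [Field L] {A : ValuationSubring L}

lemma intCast_mem' (n : ℤ) : (n : L) ∈ A := intCast_mem A n

lemma natCast_mem' (n : ℕ) : (n : L) ∈ A := natCast_mem A n

/-- If `x ∈ A` is not in the maximal ideal then `x⁻¹ ∈ A`. -/
lemma inv_mem_of_not_mem_nonunits {x : L} (hx : x ∉ A.nonunits) : x⁻¹ ∈ A := by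
  rw [ValuationSubring.mem_nonunits_iff_or, not_or, not_not] at hx
  exact hx.2

lemma ne_zero_of_not_mem_nonunits {x : L} (hx : x ∉ A.nonunits) : x ≠ 0 := by
  rintro rfl
  exact hx A.nonunits.zero_mem

/-- The maximal ideal absorbs multiplication by elements of `A`. -/
lemma mul_mem_nonunits_left {x y : L} (hx : x ∈ A) (hy : y ∈ A.nonunits) :
    x * y ∈ A.nonunits := by
  rw [ValuationSubring.mem_nonunits_iff] at hy ⊢
  rw [map_mul]
  have hle : A.valuation x ≤ 1 := (A.valuation_le_one_iff _).2 hx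
  calc A.valuation x * A.valuation y ≤ 1 * A.valuation y := by gcongr
    _ = A.valuation y := one_mul _
    _ < 1 := hy

lemma mul_mem_nonunits_right {x y : L} (hx : x ∈ A.nonunits) (hy : y ∈ A) :
    x * y ∈ A.nonunits := by
  rw [mul_comm]; exact mul_mem_nonunits_left hy hx

lemma one_not_mem_nonunits : (1 : L) ∉ A.nonunits := by
  rw [ValuationSubring.mem_nonunits_iff]
  simp

/-- For `A` lying over the prime `q`, an integer is in the maximal ideal iff `q` divides it. -/
lemma intCast_mem_nonunits_iff {q : ℕ} (hq : q.Prime) (hA : A.LiesOverPrime q) (n : ℤ) :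
    (n : L) ∈ A.nonunits ↔ (q : ℤ) ∣ n := by
  have hqA : (q : L) ∈ A.nonunits := hA
  constructor
  · intro hn
    by_contra hdvd
    have hcop : IsCoprime (q : ℤ) n :=
      (Nat.prime_iff_prime_int.1 hq).coprime_iff_not_dvd.2 hdvd
    obtain ⟨u, v, huv⟩ := hcop
    have h1 : ((u : L) * (q : L) + (v : L) * (n : L)) ∈ A.nonunits :=
      A.nonunits.add_mem (mul_mem_nonunits_left (intCast_mem' u) hqA)
        (mul_mem_nonunits_left (intCast_mem' v) hn)
    have h2 : ((u : L) * (q : L) + (v : L) * (n : L)) = 1 := by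
      have := congrArg (fun z : ℤ => (z : L)) huv
      push_cast at this
      exact this
    rw [h2] at h1
    exact one_not_mem_nonunits h1
  · rintro ⟨m, rfl⟩
    push_cast
    exact mul_mem_nonunits_right hqA (intCast_mem' m)

lemma natCast_mem_nonunits_iff {q : ℕ} (hq : q.Prime) (hA : A.LiesOverPrime q) (n : ℕ) :
    (n : L) ∈ A.nonunits ↔ q ∣ n := by
  have := intCast_mem_nonunits_iff hq hA (n : ℤ)
  rw [Int.cast_natCast, Int.natCast_dvd_natCast] at this
  exact this

/-- Integers prime to `q` are units of `A`. -/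
lemma intCast_inv_mem {q : ℕ} (hq : q.Prime) (hA : A.LiesOverPrime q) {n : ℤ}
    (hn : ¬ (q : ℤ) ∣ n) : ((n : L))⁻¹ ∈ A :=
  inv_mem_of_not_mem_nonunits (mt (intCast_mem_nonunits_iff hq hA n).1 hn)

lemma intCast_ne_zero {q : ℕ} (hq : q.Prime) (hA : A.LiesOverPrime q) {n : ℤ}
    (hn : ¬ (q : ℤ) ∣ n) : (n : L) ≠ 0 :=
  ne_zero_of_not_mem_nonunits (mt (intCast_mem_nonunits_iff hq hA n).1 hn)

lemma natCast_inv_mem {q : ℕ} (hq : q.Prime) (hA : A.LiesOverPrime q) {n : ℕ}
    (hn : ¬ q ∣ n) : ((n : L))⁻¹ ∈ A :=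
  inv_mem_of_not_mem_nonunits (mt (natCast_mem_nonunits_iff hq hA n).1 hn)

lemma natCast_ne_zero {q : ℕ} (hq : q.Prime) (hA : A.LiesOverPrime q) {n : ℕ}
    (hn : ¬ q ∣ n) : (n : L) ≠ 0 :=
  ne_zero_of_not_mem_nonunits (mt (natCast_mem_nonunits_iff hq hA n).1 hn)

/-- A prime `p ≠ q` is a unit of `A` when `A` lies over `q`. -/
lemma prime_inv_mem {p q : ℕ} (hp : p.Prime) (hq : q.Prime) (hpq : p ≠ q)
    (hA : A.LiesOverPrime q) : ((p : L))⁻¹ ∈ A :=
  natCast_inv_mem hq hA (fun h => hpq ((Nat.prime_dvd_prime_iff_eq hq hp).1 h).symm)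

/-- The valuation of an integer prime to `q` is `1`. -/
lemma valuation_intCast_eq_one {q : ℕ} (hq : q.Prime) (hA : A.LiesOverPrime q) {n : ℤ}
    (hn : ¬ (q : ℤ) ∣ n) : A.valuation (n : L) = 1 := by
  have h1 : A.valuation (n : L) ≤ 1 := (A.valuation_le_one_iff _).2 (intCast_mem' n)
  have h2 : ¬ A.valuation (n : L) < 1 := by
    rw [← ValuationSubring.mem_nonunits_iff]
    exact mt (intCast_mem_nonunits_iff hq hA n).1 hn
  exact le_antisymm h1 (not_lt.1 h2)

end LiesOver

end Fermat.Agent.S05.helper4
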