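import Mathlib.Tactic
import Mathlib.FieldTheory.Minpoly.Field
import Mathlib.RingTheory.Algebraic.Basic
import Fermat.Prelude.Def_FLTPrelim_Ramification
import Fermat.Prelude.Def_FLTPrelim_GaloisRep

/-!
# S05 glue (helper92): inertia subgroup basics and the Galois action on points

`K ⊆ L` fields, `A : ValuationSubring L`.  All statements are about the Prelude's
`ValuationSubring.inertiaSubgroupIn` (image in `L ≃ₐ[K] L` of Mathlib's inertia subgroup)
and Mathlib's `ValuationSubring.decompositionSubgroup`.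
-/

set_option autoImplicit false

open scoped Pointwise

namespace Fermat.Agent.S05.helper92

section General

variable {K L : Type*} [Field K] [Field L] [Algebra K L]

/-- Membership in the inertia subgroup (Prelude version), unfolded. -/
theorem mem_inertiaSubgroupIn_iff (A : ValuationSubring L) (σ : L ≃ₐ[K] L) :
    σ ∈ A.inertiaSubgroupIn K ↔
      ∃ hσ : σ ∈ A.decompositionSubgroup K,
        (⟨σ, hσ⟩ : A.decompositionSubgroup K) ∈ A.inertiaSubgroup K := by
  unfold ValuationSubring.inertiaSubgroupIn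
  constructor
  · rintro ⟨τ, hτ, rfl⟩
    exact ⟨τ.2, hτ⟩
  · rintro ⟨hσ, h⟩
    exact ⟨⟨σ, hσ⟩, h, rfl⟩

theorem mem_decompositionSubgroup_of_mem_inertiaSubgroupIn {A : ValuationSubring L}
    {σ : L ≃ₐ[K] L} (h : σ ∈ A.inertiaSubgroupIn K) : σ ∈ A.decompositionSubgroup K :=
  ((mem_inertiaSubgroupIn_iff A σ).1 h).1

/-- Elements of the decomposition group preserve the valuation subring. -/
theorem apply_mem_of_mem_decompositionSubgroup {A : ValuationSubring L} {σ : L ≃ₐ[K] L}
    (hσ : σ ∈ A.decompositionSubgroup K) {x : L} (hx : x ∈ A) : σ x ∈ A := by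
  have h1 : σ • A = A := hσ
  have h2 : σ • x ∈ σ • A := ValuationSubring.smul_mem_pointwise_smul σ x A hx
  rw [h1] at h2
  exact h2

theorem apply_mem_iff_of_mem_decompositionSubgroup {A : ValuationSubring L} {σ : L ≃ₐ[K] L}
    (hσ : σ ∈ A.decompositionSubgroup K) {x : L} : σ x ∈ A ↔ x ∈ A := by
  constructor
  · intro h
    have h' := apply_mem_of_mem_decompositionSubgroup (inv_mem hσ) h
    have h3 : σ⁻¹ (σ x) = x := by
      change σ.symm (σ x) = x
      exact σ.symm_apply_apply x
    rwa [h3] at h'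
  · exact apply_mem_of_mem_decompositionSubgroup hσ

/-- Elements of the decomposition group preserve the maximal ideal. -/
theorem apply_mem_nonunits_iff_of_mem_decompositionSubgroup {A : ValuationSubring L}
    {σ : L ≃ₐ[K] L} (hσ : σ ∈ A.decompositionSubgroup K) {x : L} :
    σ x ∈ A.nonunits ↔ x ∈ A.nonunits := by
  rw [ValuationSubring.mem_nonunits_iff_or, ValuationSubring.mem_nonunits_iff_or]
  have h0 : σ x = 0 ↔ x = 0 := by
    constructor
    · intro h
      have := congrArg σ.symm h
      simpa using this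
    · rintro rfl
      simp
  have h1 : (σ x)⁻¹ ∈ A ↔ x⁻¹ ∈ A := by
    rw [← map_inv₀]
    exact apply_mem_iff_of_mem_decompositionSubgroup hσ
  rw [h0, h1]

/-- Elements of the inertia group act trivially on the residue field: `σ x - x ∈ 𝔪`. -/
theorem apply_sub_mem_nonunits_of_mem_inertiaSubgroupIn {A : ValuationSubring L}
    {σ : L ≃ₐ[K] L} (hσ : σ ∈ A.inertiaSubgroupIn K) {x : L} (hx : x ∈ A) :
    σ x - x ∈ A.nonunits := by
  obtain ⟨hd, hi⟩ := (mem_inertiaSubgroupIn_iff A σ).1 hσ
  have h1 : MulSemiringAction.toRingAut (A.decompositionSubgroup K)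
      (IsLocalRing.ResidueField A) ⟨σ, hd⟩ = 1 := hi
  have h2 : (⟨σ, hd⟩ : A.decompositionSubgroup K) • (IsLocalRing.residue A ⟨x, hx⟩) =
      IsLocalRing.residue A ⟨x, hx⟩ := by
    have := congrArg (fun f : RingAut (IsLocalRing.ResidueField A) =>
      f (IsLocalRing.residue A ⟨x, hx⟩)) h1
    simpa using this
  rw [← IsLocalRing.ResidueField.residue_smul] at h2
  have h3 : IsLocalRing.residue A ((⟨σ, hd⟩ : A.decompositionSubgroup K) • (⟨x, hx⟩ : A) -
      ⟨x, hx⟩) = 0 := by
    rw [map_sub, h2, sub_self]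
  rw [IsLocalRing.residue_eq_zero_iff] at h3
  have h4 := ValuationSubring.coe_mem_nonunits_iff.2 h3
  exact h4

/-- In an algebraic extension every element has finite orbit under any automorphism. -/
theorem exists_pow_apply_eq_self [Algebra.IsAlgebraic K L] (σ : L ≃ₐ[K] L) (x : L) :
    ∃ k : ℕ, 0 < k ∧ (σ ^ k) x = x := by
  classical
  have hx : IsIntegral K x := (Algebra.IsAlgebraic.isAlgebraic (R := K) x).isIntegral
  have hfin : ((minpoly K x).rootSet L).Finite := Polynomial.rootSet_finite _ _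
  have hmem : ∀ i : ℕ, (σ ^ i) x ∈ (minpoly K x).rootSet L := by
    intro i
    rw [Polynomial.mem_rootSet]
    refine ⟨minpoly.ne_zero hx, ?_⟩
    have h1 : Polynomial.aeval ((σ ^ i) x) (minpoly K x) =
        (σ ^ i) (Polynomial.aeval x (minpoly K x)) :=
      Polynomial.aeval_algHom_apply ((σ ^ i : L ≃ₐ[K] L) : L →ₐ[K] L) x (minpoly K x)
    rw [h1, minpoly.aeval, map_zero]
  have : Finite ((minpoly K x).rootSet L) := hfin
  obtain ⟨i, j, hij, h⟩ := Finite.exists_ne_map_eq_of_infinite
    (fun i : ℕ => (⟨(σ ^ i) x, hmem i⟩ : (minpoly K x).rootSet L))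
  have h' : (σ ^ i) x = (σ ^ j) x := congrArg Subtype.val h
  -- wlog i < j
  rcases lt_or_gt_of_ne hij with hlt | hlt
  · refine ⟨j - i, Nat.sub_pos_of_lt hlt, ?_⟩
    have hj : σ ^ j = σ ^ i * σ ^ (j - i) := by
      rw [← pow_add, Nat.add_sub_cancel' hlt.le]
    rw [hj, AlgEquiv.mul_apply] at h'
    exact ((σ ^ i).injective h').symm
  · refine ⟨i - j, Nat.sub_pos_of_lt hlt, ?_⟩
    have hi : σ ^ i = σ ^ j * σ ^ (i - j) := by
      rw [← pow_add, Nat.add_sub_cancel' hlt.le]
    rw [hi, AlgEquiv.mul_apply] at h'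
    exact (σ ^ j).injective h'

private theorem prod_pow_apply_div (σ : L ≃ₐ[K] L) {x : L} (hx : x ≠ 0) (k : ℕ) :
    ∏ i ∈ Finset.range k, (σ ^ i) (σ x / x) = (σ ^ k) x / x := by
  induction k with
  | zero =>
    simp [div_self hx]
  | succ n ih =>
    rw [Finset.prod_range_succ, ih, map_div₀]
    have h1 : (σ ^ n) (σ x) = (σ ^ (n + 1)) x := by
      rw [pow_succ, AlgEquiv.mul_apply]
    have h2 : (σ ^ n) x ≠ 0 := by
      intro h
      apply hx
      exact (map_eq_zero_iff (σ ^ n) (σ ^ n).injective).1 h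
    rw [h1]
    field_simp

private theorem not_mem_nonunits_div [Algebra.IsAlgebraic K L] {A : ValuationSubring L}
    {σ : L ≃ₐ[K] L} (hσ : σ ∈ A.decompositionSubgroup K) {x : L} (hx : x ≠ 0) :
    σ x / x ∉ A.nonunits := by
  intro hy
  obtain ⟨k, hk, hkx⟩ := exists_pow_apply_eq_self σ x
  have hprod := prod_pow_apply_div σ hx k
  rw [hkx, div_self hx] at hprod
  have hmem : ∀ i : ℕ, (σ ^ i) (σ x / x) ∈ A.nonunits := by
    intro i
    exact (apply_mem_nonunits_iff_of_mem_decompositionSubgroup (pow_mem hσ i)).2 hy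
  have hprod_mem : ∀ n : ℕ, ∏ i ∈ Finset.range (n + 1), (σ ^ i) (σ x / x) ∈ A.nonunits := by
    intro n
    induction n with
    | zero => simpa using hmem 0
    | succ m ih =>
      rw [Finset.prod_range_succ]
      exact A.nonunits.mul_mem ih (hmem _)
  obtain ⟨n, rfl⟩ : ∃ n, k = n + 1 := ⟨k - 1, by omega⟩
  have h1 := hprod_mem n
  rw [hprod] at h1
  rw [ValuationSubring.mem_nonunits_iff] at h1
  simp at h1

/-- Elements of the decomposition group preserve the valuation (algebraic extensions). -/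
theorem valuation_apply_of_mem_decompositionSubgroup [Algebra.IsAlgebraic K L]
    {A : ValuationSubring L} {σ : L ≃ₐ[K] L} (hσ : σ ∈ A.decompositionSubgroup K) (x : L) :
    A.valuation (σ x) = A.valuation x := by
  by_cases hx : x = 0
  · subst hx; simp
  have hσx : σ x ≠ 0 := by
    intro h
    apply hx
    have := congrArg σ.symm h
    simpa using this
  have h1 : ¬ A.valuation (σ x / x) < 1 := by
    intro h
    exact not_mem_nonunits_div hσ hx ((ValuationSubring.mem_nonunits_iff A).2 h)
  have h2 : ¬ A.valuation (x / σ x) < 1 := by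
    intro h
    have h3 : σ⁻¹ (σ x) = x := by
      change σ.symm (σ x) = x
      exact σ.symm_apply_apply x
    have h4 := not_mem_nonunits_div (inv_mem hσ) hσx
    rw [h3] at h4
    exact h4 ((ValuationSubring.mem_nonunits_iff A).2 h)
  rw [map_div₀] at h1 h2
  have hvx : A.valuation x ≠ 0 := (Valuation.ne_zero_iff _).2 hx
  have hvσx : A.valuation (σ x) ≠ 0 := (Valuation.ne_zero_iff _).2 hσx
  rw [div_lt_one₀ (zero_lt_iff.2 hvx)] at h1
  rw [div_lt_one₀ (zero_lt_iff.2 hvσx)] at h2
  exact le_antisymm (not_lt.1 h2) (not_lt.1 h1)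

theorem valuation_apply_of_mem_inertiaSubgroupIn [Algebra.IsAlgebraic K L]
    {A : ValuationSubring L} {σ : L ≃ₐ[K] L} (hσ : σ ∈ A.inertiaSubgroupIn K) (x : L) :
    A.valuation (σ x) = A.valuation x :=
  valuation_apply_of_mem_decompositionSubgroup
    (mem_decompositionSubgroup_of_mem_inertiaSubgroupIn hσ) x

/-- The maximal ideal absorbs multiplication by elements of `A`. -/
theorem mul_mem_nonunits {A : ValuationSubring L} {x a : L} (hx : x ∈ A.nonunits) (ha : a ∈ A) :
    x * a ∈ A.nonunits := by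
  rw [ValuationSubring.mem_nonunits_iff] at hx ⊢
  rw [map_mul]
  have h1 : A.valuation a ≤ 1 := (A.valuation_le_one_iff a).2 ha
  calc A.valuation x * A.valuation a ≤ A.valuation x * 1 := by gcongr
    _ = A.valuation x := mul_one _
    _ < 1 := hx

theorem mul_mem_nonunits' {A : ValuationSubring L} {x a : L} (ha : a ∈ A) (hx : x ∈ A.nonunits) :
    a * x ∈ A.nonunits := by
  rw [mul_comm]; exact mul_mem_nonunits hx ha

theorem mem_of_mem_nonunits {A : ValuationSubring L} {x : L} (hx : x ∈ A.nonunits) : x ∈ A :=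
  A.nonunits_subset hx

theorem one_not_mem_nonunits (A : ValuationSubring L) : (1 : L) ∉ A.nonunits := by
  rw [ValuationSubring.mem_nonunits_iff]
  simp

/-- An element congruent to `1` modulo the maximal ideal with `ζ ^ n = 1`, `n` a unit of `A`,
is `1`. -/
theorem eq_one_of_pow_eq_one_of_sub_one_mem_nonunits {A : ValuationSubring L} {ζ : L} {n : ℕ}
    (hn : (n : L) ∉ A.nonunits) (hζ : ζ ^ n = 1) (h1 : ζ - 1 ∈ A.nonunits) : ζ = 1 := by
  have hζA : ζ ∈ A := by
    have : ζ = (ζ - 1) + 1 := by ring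
    rw [this]
    exact A.add_mem _ _ (mem_of_mem_nonunits h1) A.one_mem
  have hgeom : (∑ i ∈ Finset.range n, ζ ^ i) * (ζ - 1) = ζ ^ n - 1 := geom_sum_mul ζ n
  rw [hζ, sub_self] at hgeom
  have hpow : ∀ i : ℕ, ζ ^ i - 1 ∈ A.nonunits := by
    intro i
    have h2 : ζ ^ i - 1 = (ζ - 1) * ∑ j ∈ Finset.range i, ζ ^ j := by
      rw [mul_comm, geom_sum_mul]
    rw [h2]
    exact mul_mem_nonunits h1 (sum_mem fun j _ => pow_mem hζA j)
  have hS : (∑ i ∈ Finset.range n, ζ ^ i) - (n : L) ∈ A.nonunits := by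
    have h3 : (∑ i ∈ Finset.range n, ζ ^ i) - (n : L) = ∑ i ∈ Finset.range n, (ζ ^ i - 1) := by
      rw [Finset.sum_sub_distrib]
      simp
    rw [h3]
    exact sum_mem fun i _ => hpow i
  have hS0 : (∑ i ∈ Finset.range n, ζ ^ i) ≠ 0 := by
    intro h0
    rw [h0, zero_sub] at hS
    exact hn (by simpa using A.nonunits.neg_mem hS)
  rcases mul_eq_zero.1 hgeom with h | h
  · exact absurd h hS0
  · exact sub_eq_zero.1 h

/-- Inertia fixes every unit `u` of `A` some power `u ^ n` of which (`n` a unit of `A`) is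
fixed.  In particular it fixes square roots of rational units when the residue
characteristic is odd. -/
theorem apply_eq_self_of_pow_fixed {A : ValuationSubring L} {σ : L ≃ₐ[K] L}
    (hσ : σ ∈ A.inertiaSubgroupIn K) {u : L} {n : ℕ} (hu : u ∈ A) (hu' : u⁻¹ ∈ A)
    (hn : (n : L) ∉ A.nonunits) (hfix : σ (u ^ n) = u ^ n) : σ u = u := by
  by_cases h0 : u = 0
  · subst h0; simp
  have h1 : σ u / u - 1 ∈ A.nonunits := by
    have : σ u / u - 1 = (σ u - u) * u⁻¹ := by field_simp
    rw [this]
    exact mul_mem_nonunits (apply_sub_mem_nonunits_of_mem_inertiaSubgroupIn hσ hu) hu'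
  have h2 : (σ u / u) ^ n = 1 := by
    rw [div_pow, ← map_pow, hfix, div_self (pow_ne_zero n h0)]
  have h3 := eq_one_of_pow_eq_one_of_sub_one_mem_nonunits hn h2 h1
  exact (div_eq_one_iff_eq h0).1 h3

/-- Inertia fixes every unit `u` of `A` whose image is congruent to a fixed... : if `σ r = r`
and `u * r` is arbitrary then `σ (u * r) / (u * r) - 1 ∈ 𝔪` for a unit `u`. -/
theorem apply_div_self_sub_one_mem_nonunits {A : ValuationSubring L} {σ : L ≃ₐ[K] L}
    (hσ : σ ∈ A.inertiaSubgroupIn K) {u r : L} (hu : u ∈ A) (hu' : u⁻¹ ∈ A) (hr : σ r = r)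
    (hr0 : r ≠ 0) (hu0 : u ≠ 0) : σ (u * r) / (u * r) - 1 ∈ A.nonunits := by
  have : σ (u * r) / (u * r) - 1 = (σ u - u) * u⁻¹ := by
    rw [map_mul, hr]
    field_simp
  rw [this]
  exact mul_mem_nonunits (apply_sub_mem_nonunits_of_mem_inertiaSubgroupIn hσ hu) hu'

end General

section Integers

variable {L : Type*} [Field L]

theorem intCast_mem_valuationSubring (A : ValuationSubring L) (n : ℤ) : (n : L) ∈ A :=
  intCast_mem A n

theorem natCast_mem_valuationSubring (A : ValuationSubring L) (n : ℕ) : (n : L) ∈ A :=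
  natCast_mem A n

/-- For a valuation subring lying over the prime `q`, an integer lies in the maximal ideal
iff it is divisible by `q`. -/
theorem intCast_mem_nonunits_iff {A : ValuationSubring L} {q : ℕ} (hq : q.Prime)
    (hA : A.LiesOverPrime q) (n : ℤ) : (n : L) ∈ A.nonunits ↔ (q : ℤ) ∣ n := by
  constructor
  · intro hn
    by_contra hdvd
    have hcop : IsCoprime (q : ℤ) n := by
      rw [Int.isCoprime_iff_gcd_eq_one]
      have hq' : Prime (q : ℤ) := Nat.prime_iff_prime_int.1 hq
      exact Int.isCoprime_iff_gcd_eq_one.1 ((Prime.coprime_iff_not_dvd hq').2 hdvd)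
    obtain ⟨a, b, hab⟩ := hcop
    have h1 : ((a : L) * (q : L) + (b : L) * (n : L)) = 1 := by
      have := congrArg (fun z : ℤ => (z : L)) hab
      simpa using this
    have h2 : ((a : L) * (q : L) + (b : L) * (n : L)) ∈ A.nonunits :=
      A.nonunits.add_mem (mul_mem_nonunits' (intCast_mem A a) hA)
        (mul_mem_nonunits' (intCast_mem A b) hn)
    rw [h1] at h2
    exact one_not_mem_nonunits A h2
  · rintro ⟨k, rfl⟩
    push_cast
    exact mul_mem_nonunits hA (intCast_mem A k)

theorem natCast_mem_nonunits_iff {A : ValuationSubring L} {q : ℕ} (hq : q.Prime)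
    (hA : A.LiesOverPrime q) (n : ℕ) : (n : L) ∈ A.nonunits ↔ q ∣ n := by
  have := intCast_mem_nonunits_iff hq hA (n : ℤ)
  rw [Int.natCast_dvd_natCast] at this
  simpa using this

/-- If `q ∤ n` then `n` is a unit of `A`. -/
theorem inv_intCast_mem_of_not_dvd {A : ValuationSubring L} {q : ℕ} (hq : q.Prime)
    (hA : A.LiesOverPrime q) {n : ℤ} (hn : ¬ (q : ℤ) ∣ n) : ((n : L))⁻¹ ∈ A := by
  have h1 : (n : L) ∉ A.nonunits := fun h => hn ((intCast_mem_nonunits_iff hq hA n).1 h)
  rw [ValuationSubring.mem_nonunits_iff_or, not_or, not_not] at h1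
  exact h1.2

theorem valuation_intCast_eq_one_of_not_dvd {A : ValuationSubring L} {q : ℕ} (hq : q.Prime)
    (hA : A.LiesOverPrime q) {n : ℤ} (hn : ¬ (q : ℤ) ∣ n) : A.valuation (n : L) = 1 := by
  have h1 : (n : L) ∉ A.nonunits := fun h => hn ((intCast_mem_nonunits_iff hq hA n).1 h)
  rw [ValuationSubring.mem_nonunits_iff] at h1
  exact le_antisymm ((A.valuation_le_one_iff _).2 (intCast_mem A n)) (not_lt.1 h1)

/-- The residue characteristic is `q`: in particular `char L = 0` forces `(q : L) ≠ 0`... and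
`(2 : L)` is a unit of `A` when `q` is odd. -/
theorem two_not_mem_nonunits {A : ValuationSubring L} {q : ℕ} (hq : q.Prime)
    (hA : A.LiesOverPrime q) (hq2 : q ≠ 2) : (2 : L) ∉ A.nonunits := by
  intro h
  have h2 : ((2 : ℕ) : L) ∈ A.nonunits := by simpa using h
  have := (natCast_mem_nonunits_iff hq hA 2).1 h2
  exact hq2 ((Nat.prime_dvd_prime_iff_eq hq Nat.prime_two).1 this)

end Integers

section Points

open WeierstrassCurve WeierstrassCurve.Affine WeierstrassCurve.Affine.Point

variable {R : Type*} {S : Type*} {K : Type*} [CommRing R] [CommRing S] [Field K]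
  [DecidableEq K] {W' : Affine R} [Algebra R S] [Algebra R K] [Algebra S K]
  [IsScalarTower R S K]

/-- The Galois action on affine points is coordinatewise. -/
theorem smul_some (σ : K ≃ₐ[S] K) {x y : K} (h : (W'⁄K).Nonsingular x y) :
    σ • (Point.some x y h : (W'⁄K).Point) =
      Point.some (σ x) (σ y) ((W'.baseChange_nonsingular σ.toAlgHom.injective ..).mpr h) :=
  rfl

theorem smul_zero' (σ : K ≃ₐ[S] K) : σ • (0 : (W'⁄K).Point) = 0 :=
  rfl

/-- The Galois action on the `n`-torsion is the restriction of the action on points. -/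
theorem coe_smul_torsionBy (n : ℕ) (σ : K ≃ₐ[S] K)
    (P : Submodule.torsionBy ℤ (W'⁄K).Point n) :
    ((σ • P : Submodule.torsionBy ℤ (W'⁄K).Point n) : (W'⁄K).Point) = σ • (P : (W'⁄K).Point) :=
  rfl

end Points

section Unramified

open WeierstrassCurve WeierstrassCurve.Affine WeierstrassCurve.Affine.Point

variable {R : Type*} {S : Type*} {K : Type*} [CommRing R] [Field S] [Field K]
  [DecidableEq K] [Algebra R S] [Algebra R K] [Algebra S K] [IsScalarTower R S K]

/-- Unramifiedness of the mod-`n` representation at `q`, in terms of points. -/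
theorem galoisRepUnramifiedAt_iff (W' : Affine R) (n q : ℕ) :
    GaloisRepUnramifiedAt S K W' n q ↔
      ∀ A : ValuationSubring K, A.LiesOverPrime q → ∀ σ ∈ A.inertiaSubgroupIn S,
        ∀ P : (W'⁄K).Point, (n : ℤ) • P = 0 → σ • P = P := by
  constructor
  · intro h A hA σ hσ P hP
    have hmem : P ∈ Submodule.torsionBy ℤ (W'⁄K).Point n := by
      rw [Submodule.mem_torsionBy_iff]
      exact hP
    have := h A hA σ hσ ⟨P, hmem⟩
    exact congrArg Subtype.val this
  · intro h A hA σ hσ x
    apply Subtype.ext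
    have hx : (n : ℤ) • (x : (W'⁄K).Point) = 0 := by
      have := x.2
      rw [Submodule.mem_torsionBy_iff] at this
      exact this
    exact h A hA σ hσ x hx

end Unramified

end Fermat.Agent.S05.helper92
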