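/-
S05, multiplicative (node) case, part 1: algebraic identities for the group law
in "node coordinates" `X = x - e`, `M = 2 y + a₁ x + a₃`.
-/
import Mathlib.AlgebraicGeometry.EllipticCurve.Affine.Point
import Mathlib.Tactic.LinearCombination
import Mathlib.Tactic.FieldSimp

set_option autoImplicit false

namespace Fermat.Agent.S05.helper7

open WeierstrassCurve

variable {K : Type*} [Field K]

/-- The shifted `x`-coordinate. -/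
def nX (e x : K) : K := x - e

/-- The completed-square `y`-coordinate (times two). -/
def nM (W : WeierstrassCurve K) (x y : K) : K := 2 * y + W.a₁ * x + W.a₃

/-- `W` is given, in the coordinates `X = x - e`, `M = 2 y + a₁ x + a₃`, by
`M ^ 2 = 4 * X ^ 3 + C2 * X ^ 2 + C1 * X`. -/
structure NodeModel (W : WeierstrassCurve K) (e C1 C2 : K) : Prop where
  hC2 : C2 = W.b₂ + 12 * e
  hC1 : C1 = 12 * e ^ 2 + 2 * W.b₂ * e + 2 * W.b₄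
  he : 4 * e ^ 3 + W.b₂ * e ^ 2 + 2 * W.b₄ * e + W.b₆ = 0

variable {W : WeierstrassCurve K} {e C1 C2 : K}

lemma NodeModel.equation (hm : NodeModel W e C1 C2) {x y : K} (h : W.toAffine.Equation x y) :
    nM W x y ^ 2 = 4 * nX e x ^ 3 + C2 * nX e x ^ 2 + C1 * nX e x := by
  rw [Affine.equation_iff] at h
  have he := hm.he
  rw [hm.hC1, hm.hC2]
  simp only [nM, nX, WeierstrassCurve.b₂, WeierstrassCurve.b₄, WeierstrassCurve.b₆] at he ⊢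
  linear_combination 4 * h + he

lemma nM_negY (x y : K) : nM W x (W.toAffine.negY x y) = - nM W x y := by
  simp only [nM, Affine.negY]
  ring

/-- Data of the line through two points, in node coordinates. -/
lemma exists_slope_data [DecidableEq K] (hm : NodeModel W e C1 C2) {x₁ x₂ y₁ y₂ : K}
    (h₁ : W.toAffine.Equation x₁ y₁) (h₂ : W.toAffine.Equation x₂ y₂)
    (hxy : ¬(x₁ = x₂ ∧ y₁ = W.toAffine.negY x₂ y₂)) :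
    ∃ L : K,
      4 * nX e (W.toAffine.addX x₁ x₂ (W.toAffine.slope x₁ x₂ y₁ y₂)) =
        L ^ 2 - C2 - 4 * nX e x₁ - 4 * nX e x₂ ∧
      nM W (W.toAffine.addX x₁ x₂ (W.toAffine.slope x₁ x₂ y₁ y₂))
        (W.toAffine.addY x₁ x₂ y₁ (W.toAffine.slope x₁ x₂ y₁ y₂)) =
        -(L * (nX e (W.toAffine.addX x₁ x₂ (W.toAffine.slope x₁ x₂ y₁ y₂)) - nX e x₁)
          + nM W x₁ y₁) ∧
      ((x₁ ≠ x₂ ∧ L * (nX e x₁ - nX e x₂) = nM W x₁ y₁ - nM W x₂ y₂) ∨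
        (x₁ = x₂ ∧ y₁ = y₂ ∧ nM W x₁ y₁ ≠ 0 ∧
          2 * L * nM W x₁ y₁ = 12 * nX e x₁ ^ 2 + 2 * C2 * nX e x₁ + C1)) := by
  by_cases hx : x₁ = x₂
  · have hy : y₁ ≠ W.toAffine.negY x₂ y₂ := fun h => hxy ⟨hx, h⟩
    have hyy : y₁ = y₂ := by
      rcases Affine.Y_eq_of_X_eq h₁ h₂ hx with h | h
      · exact h
      · exact absurd h hy
    subst hx hyy
    have hM : nM W x₁ y₁ ≠ 0 := by
      intro h0
      apply hy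
      simp only [nM] at h0
      simp only [Affine.negY]
      linear_combination h0
    have hden : y₁ - W.toAffine.negY x₁ y₁ = nM W x₁ y₁ := by
      simp only [nM, Affine.negY]; ring
    refine ⟨2 * W.toAffine.slope x₁ x₁ y₁ y₁ + W.a₁, ?_, ?_, Or.inr ⟨rfl, rfl, hM, ?_⟩⟩
    · rw [hm.hC2]
      simp only [nX, Affine.addX, WeierstrassCurve.b₂]
      ring
    · simp only [nM, nX, Affine.addY, Affine.negAddY, Affine.negY, Affine.addX]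
      ring
    · rw [Affine.slope_of_Y_ne rfl hy, hden, hm.hC1, hm.hC2]
      have : 2 * (2 * ((3 * x₁ ^ 2 + 2 * W.toAffine.a₂ * x₁ + W.toAffine.a₄ - W.toAffine.a₁ * y₁) /
          nM W x₁ y₁) + W.a₁) * nM W x₁ y₁ =
          4 * (3 * x₁ ^ 2 + 2 * W.toAffine.a₂ * x₁ + W.toAffine.a₄ - W.toAffine.a₁ * y₁)
            + 2 * W.a₁ * nM W x₁ y₁ := by
        field_simp
        ring
      rw [this]
      simp only [nM, nX, WeierstrassCurve.b₂, WeierstrassCurve.b₄]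
      ring
  · refine ⟨2 * W.toAffine.slope x₁ x₂ y₁ y₂ + W.a₁, ?_, ?_, Or.inl ⟨hx, ?_⟩⟩
    · rw [hm.hC2]
      simp only [nX, Affine.addX, WeierstrassCurve.b₂]
      ring
    · simp only [nM, nX, Affine.addY, Affine.negAddY, Affine.negY, Affine.addX]
      ring
    · rw [Affine.slope_of_X_ne hx]
      have hx' : x₁ - x₂ ≠ 0 := sub_ne_zero.mpr hx
      simp only [nM, nX]
      field_simp
      ring


section PureAlgebra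

variable {X₁ X₂ X₃ M₁ M₂ M₃ L : K}

/-- Chord case, Vieta: the intercept identity. -/
lemma chord_I1 (h₁ : M₁ ^ 2 = 4 * X₁ ^ 3 + C2 * X₁ ^ 2 + C1 * X₁)
    (h₂ : M₂ ^ 2 = 4 * X₂ ^ 3 + C2 * X₂ ^ 2 + C1 * X₂)
    (hX₃ : 4 * X₃ = L ^ 2 - C2 - 4 * X₁ - 4 * X₂)
    (hL : L * (X₁ - X₂) = M₁ - M₂) :
    4 * X₁ * X₂ * X₃ * (X₁ - X₂) ^ 2 = (M₂ * X₁ - M₁ * X₂) ^ 2 := by
  linear_combination X₁ * X₂ * (X₁ - X₂) ^ 2 * hX₃ + X₁ * X₂ * (L * (X₁ - X₂) + M₁ - M₂) * hL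
    + (X₁ - X₂) * X₂ * h₁ - (X₁ - X₂) * X₁ * h₂

/-- The intercept `μ = M₁ - L X₁` of the line satisfies `μ² = 4 X₁ X₂ X₃` (both cases). -/
lemma intercept_sq (h₁ : M₁ ^ 2 = 4 * X₁ ^ 3 + C2 * X₁ ^ 2 + C1 * X₁)
    (h₂ : M₂ ^ 2 = 4 * X₂ ^ 3 + C2 * X₂ ^ 2 + C1 * X₂)
    (hX₃ : 4 * X₃ = L ^ 2 - C2 - 4 * X₁ - 4 * X₂)
    (hcase : (X₁ ≠ X₂ ∧ L * (X₁ - X₂) = M₁ - M₂) ∨
      (X₁ = X₂ ∧ M₁ = M₂ ∧ M₁ ≠ 0 ∧ 2 * L * M₁ = 12 * X₁ ^ 2 + 2 * C2 * X₁ + C1)) :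
    (M₁ - L * X₁) ^ 2 = 4 * X₁ * X₂ * X₃ := by
  rcases hcase with ⟨hne, hL⟩ | ⟨rfl, rfl, -, hL⟩
  · have hd : (X₁ - X₂) ^ 2 ≠ 0 := pow_ne_zero _ (sub_ne_zero.mpr hne)
    apply mul_right_cancel₀ hd
    have hI1 := chord_I1 h₁ h₂ hX₃ hL
    linear_combination -hI1 - X₁ * ((M₁ - L * X₁) * (X₁ - X₂) + M₂ * X₁ - M₁ * X₂) * hL
  · linear_combination h₁ - X₁ * hL - X₁ ^ 2 * hX₃

/-- The intercept can be computed from either point. -/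
lemma intercept_eq
    (hcase : (X₁ ≠ X₂ ∧ L * (X₁ - X₂) = M₁ - M₂) ∨
      (X₁ = X₂ ∧ M₁ = M₂ ∧ M₁ ≠ 0 ∧ 2 * L * M₁ = 12 * X₁ ^ 2 + 2 * C2 * X₁ + C1)) :
    M₂ - L * X₂ = M₁ - L * X₁ := by
  rcases hcase with ⟨-, hL⟩ | ⟨rfl, rfl, -, -⟩
  · linear_combination hL
  · rfl

lemma node_I3 (h₁ : M₁ ^ 2 = 4 * X₁ ^ 3 + C2 * X₁ ^ 2 + C1 * X₁)
    (h₂ : M₂ ^ 2 = 4 * X₂ ^ 3 + C2 * X₂ ^ 2 + C1 * X₂)
    (hX₃ : 4 * X₃ = L ^ 2 - C2 - 4 * X₁ - 4 * X₂)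
    (hM₃ : M₃ = -(L * (X₃ - X₁) + M₁))
    (hcase : (X₁ ≠ X₂ ∧ L * (X₁ - X₂) = M₁ - M₂) ∨
      (X₁ = X₂ ∧ M₁ = M₂ ∧ M₁ ≠ 0 ∧ 2 * L * M₁ = 12 * X₁ ^ 2 + 2 * C2 * X₁ + C1)) :
    (M₃ * X₁ + M₁ * X₃) ^ 2 = 4 * (X₃ - X₁) ^ 2 * (X₁ * X₂ * X₃) := by
  have hμ := intercept_sq h₁ h₂ hX₃ hcase
  rw [hM₃]
  linear_combination (X₃ - X₁) ^ 2 * hμ

lemma node_I3' (h₁ : M₁ ^ 2 = 4 * X₁ ^ 3 + C2 * X₁ ^ 2 + C1 * X₁)
    (h₂ : M₂ ^ 2 = 4 * X₂ ^ 3 + C2 * X₂ ^ 2 + C1 * X₂)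
    (hX₃ : 4 * X₃ = L ^ 2 - C2 - 4 * X₁ - 4 * X₂)
    (hM₃ : M₃ = -(L * (X₃ - X₁) + M₁))
    (hcase : (X₁ ≠ X₂ ∧ L * (X₁ - X₂) = M₁ - M₂) ∨
      (X₁ = X₂ ∧ M₁ = M₂ ∧ M₁ ≠ 0 ∧ 2 * L * M₁ = 12 * X₁ ^ 2 + 2 * C2 * X₁ + C1)) :
    (M₃ * X₂ + M₂ * X₃) ^ 2 = 4 * (X₃ - X₂) ^ 2 * (X₁ * X₂ * X₃) := by
  have hμ := intercept_sq h₁ h₂ hX₃ hcase
  have hμ' := intercept_eq (C1 := C1) (C2 := C2) hcase
  have hM₃' : M₃ = -(L * (X₃ - X₂) + M₂) := by rw [hM₃]; linear_combination hμ'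
  rw [hM₃']
  have : (M₂ - L * X₂) ^ 2 = 4 * X₁ * X₂ * X₃ := by rw [hμ']; exact hμ
  linear_combination (X₃ - X₂) ^ 2 * this

lemma node_I2 (h₁ : M₁ ^ 2 = 4 * X₁ ^ 3 + C2 * X₁ ^ 2 + C1 * X₁)
    (h₂ : M₂ ^ 2 = 4 * X₂ ^ 3 + C2 * X₂ ^ 2 + C1 * X₂)
    (hX₃ : 4 * X₃ = L ^ 2 - C2 - 4 * X₁ - 4 * X₂)
    (hcase : (X₁ ≠ X₂ ∧ L * (X₁ - X₂) = M₁ - M₂) ∨
      (X₁ = X₂ ∧ M₁ = M₂ ∧ M₁ ≠ 0 ∧ 2 * L * M₁ = 12 * X₁ ^ 2 + 2 * C2 * X₁ + C1)) :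
    4 * X₃ * (M₁ * X₂ + M₂ * X₁) ^ 2 = X₁ * X₂ * (4 * X₁ * X₂ - C1) ^ 2 := by
  rcases hcase with ⟨hne, hL⟩ | ⟨rfl, rfl, -, hL⟩
  · by_cases hX : X₁ * X₂ = 0
    · rcases mul_eq_zero.mp hX with h0 | h0
      · have hM : M₁ = 0 := by
          have : M₁ ^ 2 = 0 := by rw [h₁, h0]; ring
          exact pow_eq_zero_iff (two_ne_zero) |>.mp this
        rw [h0, hM]; ring
      · have hM : M₂ = 0 := by
          have : M₂ ^ 2 = 0 := by rw [h₂, h0]; ring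
          exact pow_eq_zero_iff (two_ne_zero) |>.mp this
        rw [h0, hM]; ring
    · have hd : (X₁ - X₂) ^ 2 ≠ 0 := pow_ne_zero _ (sub_ne_zero.mpr hne)
      have hd' : X₁ * X₂ * (X₁ - X₂) ^ 2 ≠ 0 := mul_ne_zero hX hd
      apply mul_right_cancel₀ hd'
      have hI1 := chord_I1 h₁ h₂ hX₃ hL
      have hSD : (M₁ * X₂ + M₂ * X₁) * (M₂ * X₁ - M₁ * X₂) =
          -(X₁ * X₂ * (X₁ - X₂) * (4 * X₁ * X₂ - C1)) := by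
        linear_combination X₁ ^ 2 * h₂ - X₂ ^ 2 * h₁
      linear_combination (M₁ * X₂ + M₂ * X₁) ^ 2 * hI1
        + ((M₁ * X₂ + M₂ * X₁) * (M₂ * X₁ - M₁ * X₂)
            - (X₁ * X₂ * (X₁ - X₂) * (4 * X₁ * X₂ - C1))) * hSD
  · linear_combination 4 * M₁ ^ 2 * X₁ ^ 2 * hX₃ + X₁ ^ 2 * (2 * L * M₁ +
      (12 * X₁ ^ 2 + 2 * C2 * X₁ + C1)) * hL - 4 * X₁ ^ 2 * (C2 + 8 * X₁) * h₁

end PureAlgebra

end Fermat.Agent.S05.helper7
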