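/-
S05, multiplicative (node) case, part 2: valuation estimates in node coordinates.
-/
import Mathlib.RingTheory.Valuation.Basic
import Fermat.Agent.S05.helper7_NodeAlg

set_option autoImplicit false
set_option linter.unusedSimpArgs false
set_option linter.unusedVariables false

namespace Fermat.Agent.S05.helper7

variable {K : Type*} [Field K] {Γ₀ : Type*} [LinearOrderedCommGroupWithZero Γ₀]
  {v : Valuation K Γ₀} {C1 C2 : K}

/-- Valuation hypotheses on the node model `M ^ 2 = 4 X ^ 3 + C2 X ^ 2 + C1 X`. -/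
structure NodeVal (v : Valuation K Γ₀) (C1 C2 : K) : Prop where
  v2 : v 2 = 1
  vC2 : v C2 = 1
  vC1 : v C1 < 1

/-- `(X, M)` is a point of the node model. -/
def IsPt (C1 C2 X M : K) : Prop := M ^ 2 = 4 * X ^ 3 + C2 * X ^ 2 + C1 * X

/-- `X` is near the node, but not too near: `v C1 < v X < 1`. -/
def Mid (v : Valuation K Γ₀) (C1 X : K) : Prop := v C1 < v X ∧ v X < 1

lemma NodeVal.v4 (hv : NodeVal v C1 C2) : v 4 = 1 := by
  have h : (4 : K) = 2 * 2 := by norm_num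
  rw [h, map_mul, hv.v2, one_mul]

lemma Mid.ne_zero {X : K} (h : Mid v C1 X) : v X ≠ 0 :=
  ne_of_gt (lt_of_le_of_lt zero_le h.1)

lemma Mid.pos {X : K} (h : Mid v C1 X) : 0 < v X :=
  lt_of_le_of_lt zero_le h.1

lemma Mid.X_ne_zero {X : K} (h : Mid v C1 X) : X ≠ 0 :=
  (Valuation.ne_zero_iff v).mp h.ne_zero

/-- The lower order terms `4 X ^ 3 + C1 X` are small compared with `X ^ 2`. -/
lemma v_lower_lt (hv : NodeVal v C1 C2) {X : K} (hX : Mid v C1 X) :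
    v (4 * X ^ 3 + C1 * X) < v X ^ 2 := by
  have h1 : v (4 * X ^ 3) < v X ^ 2 := by
    rw [map_mul, hv.v4, one_mul, map_pow, pow_succ]
    exact mul_lt_of_lt_one_right (pow_pos hX.pos 2) hX.2
  have h2 : v (C1 * X) < v X ^ 2 := by
    rw [map_mul, pow_two]
    exact mul_lt_mul_of_pos_right hX.1 hX.pos
  exact lt_of_le_of_lt (Valuation.map_add _ _ _) (max_lt h1 h2)

/-- `v M = v X` for a point near the node. -/
lemma v_M_eq (hv : NodeVal v C1 C2) {X M : K} (hp : IsPt C1 C2 X M) (hX : Mid v C1 X) :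
    v M = v X := by
  have h : v (M ^ 2) = v X ^ 2 := by
    have e : M ^ 2 = (4 * X ^ 3 + C1 * X) + C2 * X ^ 2 := by rw [hp]; ring
    rw [e, Valuation.map_add_eq_of_lt_right]
    · rw [map_mul, hv.vC2, one_mul, map_pow]
    · rw [map_mul, hv.vC2, one_mul, map_pow]
      exact v_lower_lt hv hX
  rw [map_pow] at h
  exact pow_left_injective (M := Γ₀) (two_ne_zero) h

lemma IsPt.M_ne_zero (hv : NodeVal v C1 C2) {X M : K} (hp : IsPt C1 C2 X M) (hX : Mid v C1 X) :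
    M ≠ 0 := by
  rw [← Valuation.ne_zero_iff v, v_M_eq hv hp hX]
  exact hX.ne_zero


/-- "Same sign": the sum `M₁ X₂ + M₂ X₁` is as large as possible. -/
def SameS (v : Valuation K Γ₀) (X₁ M₁ X₂ M₂ : K) : Prop :=
  v (M₁ * X₂ + M₂ * X₁) = v (X₁ * X₂)

/-- "Opposite sign": the sum `M₁ X₂ + M₂ X₁` is small. -/
def OppS (v : Valuation K Γ₀) (X₁ M₁ X₂ M₂ : K) : Prop :=
  v (M₁ * X₂ + M₂ * X₁) < v (X₁ * X₂)

lemma SameS.symm {X₁ M₁ X₂ M₂ : K} (h : SameS v X₁ M₁ X₂ M₂) : SameS v X₂ M₂ X₁ M₁ := by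
  unfold SameS at h ⊢
  rw [add_comm, mul_comm X₂ X₁]
  exact h

lemma OppS.symm {X₁ M₁ X₂ M₂ : K} (h : OppS v X₁ M₁ X₂ M₂) : OppS v X₂ M₂ X₁ M₁ := by
  unfold OppS at h ⊢
  rw [add_comm, mul_comm X₂ X₁]
  exact h

lemma sameS_self (hv : NodeVal v C1 C2) {X M : K} (hp : IsPt C1 C2 X M) (hX : Mid v C1 X) :
    SameS v X M X M := by
  unfold SameS
  have : M * X + M * X = 2 * (M * X) := by ring
  rw [this, map_mul, hv.v2, one_mul, map_mul, map_mul, v_M_eq hv hp hX]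

lemma not_sameS_and_oppS {X₁ M₁ X₂ M₂ : K} (h : SameS v X₁ M₁ X₂ M₂) (h' : OppS v X₁ M₁ X₂ M₂) :
    False := by
  unfold SameS at h
  unfold OppS at h'
  exact absurd h (ne_of_lt h')

/-- If the signs are opposite then the difference is as large as possible. -/
lemma OppS.v_sub (hv : NodeVal v C1 C2) {X₁ M₁ X₂ M₂ : K} (hp₂ : IsPt C1 C2 X₂ M₂)
    (hX₂ : Mid v C1 X₂) (h : OppS v X₁ M₁ X₂ M₂) :
    v (M₂ * X₁ - M₁ * X₂) = v (X₁ * X₂) := by
  unfold OppS at h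
  have e : M₂ * X₁ - M₁ * X₂ = 2 * (M₂ * X₁) - (M₁ * X₂ + M₂ * X₁) := by ring
  have h2 : v (2 * (M₂ * X₁)) = v (X₁ * X₂) := by
    rw [map_mul, hv.v2, one_mul, map_mul, map_mul, v_M_eq hv hp₂ hX₂, mul_comm]
  rw [e, Valuation.map_sub_eq_of_lt_left, h2]
  rw [h2]
  exact h

section Rules

variable {X₁ M₁ X₂ M₂ X₃ M₃ : K}

/-- Same sign, product of valuations above `v C1`: valuations multiply, sign is kept. -/
lemma rule_same_gt (hv : NodeVal v C1 C2)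
    (hX₁ : Mid v C1 X₁) (hX₂ : Mid v C1 X₂) (hS : SameS v X₁ M₁ X₂ M₂)
    (I2 : 4 * X₃ * (M₁ * X₂ + M₂ * X₁) ^ 2 = X₁ * X₂ * (4 * X₁ * X₂ - C1) ^ 2)
    (I3 : (M₃ * X₁ + M₁ * X₃) ^ 2 = 4 * (X₃ - X₁) ^ 2 * (X₁ * X₂ * X₃))
    (I3' : (M₃ * X₂ + M₂ * X₃) ^ 2 = 4 * (X₃ - X₂) ^ 2 * (X₁ * X₂ * X₃))
    (hgt : v C1 < v X₁ * v X₂) :
    v X₃ = v X₁ * v X₂ ∧ SameS v X₃ M₃ X₁ M₁ ∧ SameS v X₃ M₃ X₂ M₂ := by
  have h12 : v X₁ * v X₂ ≠ 0 := mul_ne_zero hX₁.ne_zero hX₂.ne_zero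
  have hT : v (4 * X₁ * X₂ - C1) = v X₁ * v X₂ := by
    have : v (4 * X₁ * X₂) = v X₁ * v X₂ := by
      rw [map_mul, map_mul, hv.v4, one_mul]
    rw [Valuation.map_sub_eq_of_lt_left, this]
    rw [this]; exact hgt
  have hX₃ : v X₃ = v X₁ * v X₂ := by
    have := congrArg v I2
    simp only [map_mul, map_pow, hv.v4, one_mul, hT] at this
    unfold SameS at hS
    rw [hS, map_mul] at this
    have h3 : v X₃ * (v X₁ * v X₂) ^ 2 = (v X₁ * v X₂) * (v X₁ * v X₂) ^ 2 := this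
    exact (mul_left_inj' (pow_ne_zero 2 h12)).mp h3
  have hlt₁ : v X₃ < v X₁ := by
    rw [hX₃]; exact mul_lt_of_lt_one_right hX₁.pos hX₂.2
  have hlt₂ : v X₃ < v X₂ := by
    rw [hX₃]; exact mul_lt_of_lt_one_left hX₂.pos hX₁.2
  refine ⟨hX₃, ?_, ?_⟩
  · unfold SameS
    have := congrArg v I3
    simp only [map_mul, map_pow, hv.v4, one_mul] at this
    rw [Valuation.map_sub_eq_of_lt_right _ hlt₁] at this
    have h3 : v (M₃ * X₁ + M₁ * X₃) ^ 2 = (v X₃ * v X₁) ^ 2 := by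
      rw [this, hX₃]; simp only [pow_two, mul_assoc, mul_comm, mul_left_comm]
    rw [map_mul]
    exact pow_left_injective (M := Γ₀) (two_ne_zero) h3
  · unfold SameS
    have := congrArg v I3'
    simp only [map_mul, map_pow, hv.v4, one_mul] at this
    rw [Valuation.map_sub_eq_of_lt_right _ hlt₂] at this
    have h3 : v (M₃ * X₂ + M₂ * X₃) ^ 2 = (v X₃ * v X₂) ^ 2 := by
      rw [this, hX₃]; simp only [pow_two, mul_assoc, mul_comm, mul_left_comm]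
    rw [map_mul]
    exact pow_left_injective (M := Γ₀) (two_ne_zero) h3


/-- Criterion for opposite signs from the identity `I3`. -/
lemma oppS_of_I3 (hv : NodeVal v C1 C2) (h₁ : v X₁ ≠ 0) (h₃ : v X₃ ≠ 0)
    (I3 : (M₃ * X₁ + M₁ * X₃) ^ 2 = 4 * (X₃ - X₁) ^ 2 * (X₁ * X₂ * X₃))
    (h : v (X₃ - X₁) ^ 2 * v X₂ < v X₁ * v X₃) : OppS v X₃ M₃ X₁ M₁ := by
  unfold OppS
  have := congrArg v I3
  simp only [map_mul, map_pow, hv.v4, one_mul] at this
  have h13 : 0 < v X₁ * v X₃ := zero_lt_iff.mpr (mul_ne_zero h₁ h₃)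
  have hlt : v (M₃ * X₁ + M₁ * X₃) ^ 2 < (v X₃ * v X₁) ^ 2 := by
    rw [this]
    calc v (X₃ - X₁) ^ 2 * (v X₁ * v X₂ * v X₃)
        = (v (X₃ - X₁) ^ 2 * v X₂) * (v X₁ * v X₃) := by
          simp only [pow_two, mul_assoc, mul_comm, mul_left_comm]
      _ < (v X₁ * v X₃) * (v X₁ * v X₃) := mul_lt_mul_of_pos_right h h13
      _ = (v X₃ * v X₁) ^ 2 := by simp only [pow_two, mul_assoc, mul_comm, mul_left_comm]
  rw [map_mul]
  by_contra hcon
  rw [not_lt] at hcon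
  exact absurd (pow_le_pow_left₀ zero_le hcon 2) (not_le.mpr hlt)

/-- Same sign, product of valuations below `v C1`: the valuation comes back, sign flips. -/
lemma rule_same_lt (hv : NodeVal v C1 C2)
    (hX₁ : Mid v C1 X₁) (hX₂ : Mid v C1 X₂) (hS : SameS v X₁ M₁ X₂ M₂)
    (I2 : 4 * X₃ * (M₁ * X₂ + M₂ * X₁) ^ 2 = X₁ * X₂ * (4 * X₁ * X₂ - C1) ^ 2)
    (I3 : (M₃ * X₁ + M₁ * X₃) ^ 2 = 4 * (X₃ - X₁) ^ 2 * (X₁ * X₂ * X₃))
    (I3' : (M₃ * X₂ + M₂ * X₃) ^ 2 = 4 * (X₃ - X₂) ^ 2 * (X₁ * X₂ * X₃))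
    (hlt : v X₁ * v X₂ < v C1) :
    v X₃ * (v X₁ * v X₂) = v C1 ^ 2 ∧ OppS v X₃ M₃ X₁ M₁ ∧ OppS v X₃ M₃ X₂ M₂ := by
  have h12 : v X₁ * v X₂ ≠ 0 := mul_ne_zero hX₁.ne_zero hX₂.ne_zero
  have hC1 : v C1 ≠ 0 := ne_of_gt (lt_of_le_of_lt zero_le hlt)
  have hT : v (4 * X₁ * X₂ - C1) = v C1 := by
    have : v (4 * X₁ * X₂) = v X₁ * v X₂ := by
      rw [map_mul, map_mul, hv.v4, one_mul]
    rw [Valuation.map_sub_eq_of_lt_right]
    rw [this]; exact hlt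
  have hX₃ : v X₃ * (v X₁ * v X₂) = v C1 ^ 2 := by
    have := congrArg v I2
    simp only [map_mul, map_pow, hv.v4, one_mul, hT] at this
    unfold SameS at hS
    rw [hS, map_mul] at this
    have h3 : (v X₃ * (v X₁ * v X₂)) * (v X₁ * v X₂) = v C1 ^ 2 * (v X₁ * v X₂) := by
      rw [mul_comm (v C1 ^ 2), ← this]
      simp only [pow_two, mul_assoc, mul_comm, mul_left_comm]
    exact (mul_left_inj' h12).mp h3
  have h3ne : v X₃ ≠ 0 := by
    intro h0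
    rw [h0, zero_mul] at hX₃
    exact (pow_ne_zero 2 hC1) hX₃.symm
  have h3pos : 0 < v X₃ := zero_lt_iff.mpr h3ne
  -- `v X₁ * v X₂ < v X₃`
  have hprod_lt : v X₁ * v X₂ < v X₃ := by
    by_contra hcon
    rw [not_lt] at hcon
    have h1 : v X₃ * (v X₁ * v X₂) ≤ (v X₁ * v X₂) * (v X₁ * v X₂) :=
      mul_le_mul_left hcon _
    have h2 : (v X₁ * v X₂) * (v X₁ * v X₂) < v C1 * v C1 :=
      mul_lt_mul'' hlt hlt zero_le zero_le
    rw [hX₃, pow_two] at h1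
    exact absurd h1 (not_le.mpr h2)
  -- the key estimate, symmetric in the two points
  have key : ∀ (Y₁ Y₂ : K), Mid v C1 Y₁ → Mid v C1 Y₂ → v X₃ * (v Y₁ * v Y₂) = v C1 ^ 2 →
      v Y₁ * v Y₂ < v X₃ → v (X₃ - Y₁) ^ 2 * v Y₂ < v Y₁ * v X₃ := by
    intro Y₁ Y₂ hY₁ hY₂ hprod hpl
    have hle : v (X₃ - Y₁) ≤ max (v X₃) (v Y₁) := Valuation.map_sub _ _ _
    rcases le_total (v X₃) (v Y₁) with h31 | h13
    · rw [max_eq_right h31] at hle
      calc v (X₃ - Y₁) ^ 2 * v Y₂ ≤ v Y₁ ^ 2 * v Y₂ :=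
            mul_le_mul_left (pow_le_pow_left₀ zero_le hle 2) _
        _ = v Y₁ * (v Y₁ * v Y₂) := by simp only [pow_two, mul_assoc]
        _ < v Y₁ * v X₃ := mul_lt_mul_of_pos_left hpl hY₁.pos
    · rw [max_eq_left h13] at hle
      have hlt' : v X₃ * v Y₂ < v Y₁ := by
        have h1 : (v X₃ * v Y₂) * v Y₁ < v Y₁ * v Y₁ := by
          calc (v X₃ * v Y₂) * v Y₁ = v X₃ * (v Y₁ * v Y₂) := by
                simp only [mul_assoc, mul_comm, mul_left_comm]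
            _ = v C1 ^ 2 := hprod
            _ = v C1 * v C1 := pow_two _
            _ < v Y₁ * v Y₁ := mul_lt_mul'' hY₁.1 hY₁.1 zero_le zero_le
        exact lt_of_mul_lt_mul_right' h1
      calc v (X₃ - Y₁) ^ 2 * v Y₂ ≤ v X₃ ^ 2 * v Y₂ :=
            mul_le_mul_left (pow_le_pow_left₀ zero_le hle 2) _
        _ = (v X₃ * v Y₂) * v X₃ := by simp only [pow_two, mul_assoc, mul_comm, mul_left_comm]
        _ < v Y₁ * v X₃ := mul_lt_mul_of_pos_right hlt' h3pos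
  refine ⟨hX₃, ?_, ?_⟩
  · exact oppS_of_I3 hv hX₁.ne_zero h3ne I3 (key X₁ X₂ hX₁ hX₂ hX₃ hprod_lt)
  · have I3'' : (M₃ * X₂ + M₂ * X₃) ^ 2 = 4 * (X₃ - X₂) ^ 2 * (X₂ * X₁ * X₃) := by
      rw [I3']; ring
    refine oppS_of_I3 hv hX₂.ne_zero h3ne I3'' (key X₂ X₁ hX₂ hX₁ ?_ ?_)
    · rw [mul_comm (v X₂)]; exact hX₃
    · rw [mul_comm (v X₂)]; exact hprod_lt

/-- Same sign, product of valuations equal to `v C1`: the sum is very near the node. -/
lemma rule_same_eq (hv : NodeVal v C1 C2)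
    (hX₁ : Mid v C1 X₁) (hX₂ : Mid v C1 X₂) (hS : SameS v X₁ M₁ X₂ M₂)
    (I2 : 4 * X₃ * (M₁ * X₂ + M₂ * X₁) ^ 2 = X₁ * X₂ * (4 * X₁ * X₂ - C1) ^ 2)
    (heq : v X₁ * v X₂ = v C1) :
    v X₃ ≤ v C1 := by
  have h12 : v X₁ * v X₂ ≠ 0 := mul_ne_zero hX₁.ne_zero hX₂.ne_zero
  have hT : v (4 * X₁ * X₂ - C1) ≤ v C1 := by
    have : v (4 * X₁ * X₂) = v C1 := by
      rw [map_mul, map_mul, hv.v4, one_mul, heq]
    refine le_trans (Valuation.map_sub _ _ _) ?_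
    rw [this, max_self]
  have := congrArg v I2
  simp only [map_mul, map_pow, hv.v4, one_mul] at this
  unfold SameS at hS
  rw [hS, map_mul, heq] at this
  -- `v X₃ * v C1 ^ 2 = v C1 * v (4 X₁ X₂ - C1) ^ 2 ≤ v C1 * v C1 ^ 2`
  have hC1 : v C1 ≠ 0 := heq ▸ h12
  have h3 : v X₃ * v C1 ^ 2 ≤ v C1 * v C1 ^ 2 := by
    rw [this]
    exact mul_le_mul_right (pow_le_pow_left₀ zero_le hT 2) _
  exact le_of_mul_le_mul_right h3 (zero_lt_iff.mpr (pow_ne_zero 2 hC1))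

/-- Opposite signs, different valuations: valuations divide, the sign is opposite to the
one of the point further from the node. -/
lemma rule_opp_lt (hv : NodeVal v C1 C2)
    (hp₂ : IsPt C1 C2 X₂ M₂)
    (hX₁ : Mid v C1 X₁) (hX₂ : Mid v C1 X₂) (hO : OppS v X₁ M₁ X₂ M₂)
    (I1 : 4 * X₁ * X₂ * X₃ * (X₁ - X₂) ^ 2 = (M₂ * X₁ - M₁ * X₂) ^ 2)
    (I3 : (M₃ * X₁ + M₁ * X₃) ^ 2 = 4 * (X₃ - X₁) ^ 2 * (X₁ * X₂ * X₃))
    (hlt : v X₂ < v X₁) :
    v X₃ * v X₁ = v X₂ ∧ OppS v X₃ M₃ X₁ M₁ := by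
  have hD := hO.v_sub hv hp₂ hX₂
  have hd : v (X₁ - X₂) = v X₁ := Valuation.map_sub_eq_of_lt_left _ hlt
  have hX₃ : v X₃ * v X₁ = v X₂ := by
    have := congrArg v I1
    simp only [map_mul, map_pow, hv.v4, one_mul, hd, hD] at this
    have h3 : (v X₃ * v X₁) * (v X₁ ^ 2 * v X₂) = v X₂ * (v X₁ ^ 2 * v X₂) := by
      calc (v X₃ * v X₁) * (v X₁ ^ 2 * v X₂) = v X₁ * v X₂ * v X₃ * v X₁ ^ 2 := by
            simp only [pow_two, mul_assoc, mul_comm, mul_left_comm]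
        _ = (v X₁ * v X₂) ^ 2 := this
        _ = v X₂ * (v X₁ ^ 2 * v X₂) := by
            simp only [pow_two, mul_assoc, mul_comm, mul_left_comm]
    exact (mul_left_inj' (mul_ne_zero (pow_ne_zero 2 hX₁.ne_zero) hX₂.ne_zero)).mp h3
  have h3ne : v X₃ ≠ 0 := by
    intro h0
    rw [h0, zero_mul] at hX₃
    exact hX₂.ne_zero hX₃.symm
  have h3lt : v X₃ < 1 := by
    by_contra hcon
    rw [not_lt] at hcon
    have : v X₁ ≤ v X₃ * v X₁ := by
      calc v X₁ = 1 * v X₁ := (one_mul _).symm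
        _ ≤ v X₃ * v X₁ := mul_le_mul_left hcon _
    rw [hX₃] at this
    exact absurd this (not_le.mpr hlt)
  refine ⟨hX₃, oppS_of_I3 hv hX₁.ne_zero h3ne I3 ?_⟩
  have hle : v (X₃ - X₁) < 1 :=
    lt_of_le_of_lt (Valuation.map_sub _ _ _) (max_lt h3lt hX₁.2)
  have hsq : v (X₃ - X₁) ^ 2 < 1 := by
    calc v (X₃ - X₁) ^ 2 ≤ v (X₃ - X₁) := by
          rw [pow_two]
          exact mul_le_of_le_one_left zero_le hle.le
      _ < 1 := hle
  calc v (X₃ - X₁) ^ 2 * v X₂ < 1 * v X₂ := mul_lt_mul_of_pos_right hsq hX₂.pos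
    _ = v X₂ := one_mul _
    _ = v X₁ * v X₃ := by rw [← hX₃, mul_comm]

/-- Opposite signs, equal valuations, different `X`: the sum is not near the node. -/
lemma rule_opp_eq (hv : NodeVal v C1 C2)
    (hp₂ : IsPt C1 C2 X₂ M₂)
    (hX₁ : Mid v C1 X₁) (hX₂ : Mid v C1 X₂) (hO : OppS v X₁ M₁ X₂ M₂)
    (I1 : 4 * X₁ * X₂ * X₃ * (X₁ - X₂) ^ 2 = (M₂ * X₁ - M₁ * X₂) ^ 2)
    (hne : X₁ ≠ X₂) (heq : v X₁ = v X₂) :
    1 ≤ v X₃ := by
  have hD := hO.v_sub hv hp₂ hX₂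
  have hd : v (X₁ - X₂) ≤ v X₁ := by
    refine le_trans (Valuation.map_sub _ _ _) ?_
    rw [heq, max_self]
  have hd0 : v (X₁ - X₂) ≠ 0 := (Valuation.ne_zero_iff v).mpr (sub_ne_zero.mpr hne)
  have := congrArg v I1
  simp only [map_mul, map_pow, hv.v4, one_mul, hD] at this
  by_contra hcon
  rw [not_le] at hcon
  have h1 : v X₁ * v X₂ * v X₃ * v (X₁ - X₂) ^ 2 < (v X₁ * v X₂) ^ 2 := by
    calc v X₁ * v X₂ * v X₃ * v (X₁ - X₂) ^ 2
        = v X₃ * ((v X₁ * v X₂) * v (X₁ - X₂) ^ 2) := by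
          simp only [pow_two, mul_assoc, mul_comm, mul_left_comm]
      _ < 1 * ((v X₁ * v X₂) * v (X₁ - X₂) ^ 2) :=
          mul_lt_mul_of_pos_right hcon (zero_lt_iff.mpr
            (mul_ne_zero (mul_ne_zero hX₁.ne_zero hX₂.ne_zero) (pow_ne_zero 2 hd0)))
      _ = (v X₁ * v X₂) * v (X₁ - X₂) ^ 2 := one_mul _
      _ ≤ (v X₁ * v X₂) * v X₁ ^ 2 :=
          mul_le_mul_right (pow_le_pow_left₀ zero_le hd 2) _
      _ = (v X₁ * v X₂) ^ 2 := by
          rw [heq]; simp only [pow_two, mul_assoc, mul_comm, mul_left_comm]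
  exact absurd this (ne_of_lt h1)

/-- Doubling a point which is very near the node gives a point which is not near the node. -/
lemma rule_double_small (hv : NodeVal v C1 C2) {X M : K}
    (hp : IsPt C1 C2 X M) (hX0 : X ≠ 0) (hM0 : M ≠ 0) (hX : v X ≤ v C1)
    (I2 : 4 * X₃ * (M * X + M * X) ^ 2 = X * X * (4 * X * X - C1) ^ 2) :
    1 ≤ v X₃ := by
  have hXne : v X ≠ 0 := (Valuation.ne_zero_iff v).mpr hX0
  have hMne : v M ≠ 0 := (Valuation.ne_zero_iff v).mpr hM0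
  have hXpos : 0 < v X := zero_lt_iff.mpr hXne
  have hXlt : v X < 1 := lt_of_le_of_lt hX hv.vC1
  have hsq : v X * v X < v C1 :=
    lt_of_lt_of_le (mul_lt_of_lt_one_left hXpos hXlt) hX
  have hT : v (4 * X * X - C1) = v C1 := by
    have : v (4 * X * X) = v X * v X := by
      rw [map_mul, map_mul, hv.v4, one_mul]
    rw [Valuation.map_sub_eq_of_lt_right]
    rw [this]; exact hsq
  have hMM : v (M * X + M * X) = v M * v X := by
    have : M * X + M * X = 2 * (M * X) := by ring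
    rw [this, map_mul, hv.v2, one_mul, map_mul]
  have hMle : v M ^ 2 ≤ v C1 ^ 2 := by
    have e : M ^ 2 = X * (4 * X ^ 2 + C2 * X + C1) := by rw [hp]; ring
    have h1 : v (4 * X ^ 2 + C2 * X + C1) ≤ v C1 := by
      refine le_trans (Valuation.map_add _ _ _) (max_le ?_ le_rfl)
      refine le_trans (Valuation.map_add _ _ _) (max_le ?_ ?_)
      · rw [map_mul, hv.v4, one_mul, map_pow, pow_two]
        exact hsq.le
      · rw [map_mul, hv.vC2, one_mul]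
        exact hX
    rw [← map_pow, e, map_mul]
    calc v X * v (4 * X ^ 2 + C2 * X + C1) ≤ v C1 * v C1 := mul_le_mul' hX h1
      _ = v C1 ^ 2 := (pow_two _).symm
  have := congrArg v I2
  simp only [map_mul, map_pow, hv.v4, one_mul, hT, hMM] at this
  by_contra hcon
  rw [not_le] at hcon
  have h1 : v X₃ * (v M * v X) ^ 2 < v X * v X * v C1 ^ 2 := by
    calc v X₃ * (v M * v X) ^ 2 < 1 * (v M * v X) ^ 2 :=
          mul_lt_mul_of_pos_right hcon (zero_lt_iff.mpr (pow_ne_zero 2 (mul_ne_zero hMne hXne)))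
      _ = v X * v X * v M ^ 2 := by
          simp only [one_mul, pow_two, mul_assoc, mul_comm, mul_left_comm]
      _ ≤ v X * v X * v C1 ^ 2 := mul_le_mul_right hMle _
  exact absurd this (ne_of_lt h1)

/-- The inertia step: if `X'` is congruent to `X` relative to `v X` and the signs agree,
then the difference point is in the kernel of reduction. -/
lemma rule_inertia (hv : NodeVal v C1 C2) {X M X' M' Xq : K}
    (hX : v X ≠ 0) (hX' : v X' = v X) (hne : X' ≠ X) (hd : v (X' - X) < v X)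
    (hS : v (M * X' + M' * X) = v X * v X')
    (I1 : 4 * X' * X * Xq * (X' - X) ^ 2 = (M * X' + M' * X) ^ 2) :
    1 < v Xq := by
  have hd0 : v (X' - X) ≠ 0 := (Valuation.ne_zero_iff v).mpr (sub_ne_zero.mpr hne)
  have := congrArg v I1
  simp only [map_mul, map_pow, hv.v4, one_mul, hS, hX'] at this
  by_contra hcon
  rw [not_lt] at hcon
  have h1 : v X * v X * v Xq * v (X' - X) ^ 2 < (v X * v X) ^ 2 := by
    calc v X * v X * v Xq * v (X' - X) ^ 2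
        = v Xq * ((v X * v X) * v (X' - X) ^ 2) := by
          simp only [pow_two, mul_assoc, mul_comm, mul_left_comm]
      _ ≤ 1 * ((v X * v X) * v (X' - X) ^ 2) := mul_le_mul_left hcon _
      _ = (v X * v X) * v (X' - X) ^ 2 := one_mul _
      _ < (v X * v X) * v X ^ 2 :=
          mul_lt_mul_of_pos_left (pow_lt_pow_left₀ hd zero_le two_ne_zero)
            (zero_lt_iff.mpr (mul_ne_zero hX hX))
      _ = (v X * v X) ^ 2 := by simp only [pow_two, mul_assoc, mul_comm, mul_left_comm]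
  exact absurd this (ne_of_lt h1)

end Rules

end Fermat.Agent.S05.helper7
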