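/-
S05, multiplicative (node) case, part 3: node coordinates of points and the
identities for sums of points.
-/
import Mathlib.AlgebraicGeometry.EllipticCurve.Affine.Point
import Fermat.Agent.S05.helper7_NodeVal

set_option autoImplicit false
set_option linter.unusedSimpArgs false
set_option linter.unusedVariables false
set_option linter.unusedSectionVars false

namespace Fermat.Agent.S05.helper7

open WeierstrassCurve

variable {K : Type*} [Field K] [DecidableEq K] (W : WeierstrassCurve K) (e : K)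

/-- The shifted `x`-coordinate of a point (junk value `0` at the zero point). -/
def pX : W.toAffine.Point → K
  | .zero => 0
  | .some x _ _ => nX e x

/-- The coordinate `M = 2 y + a₁ x + a₃` of a point (junk value `0` at the zero point). -/
def pM : W.toAffine.Point → K
  | .zero => 0
  | .some x y _ => nM W x y

variable {W e} {C1 C2 : K}

@[simp] lemma pX_some {x y : K} (h : W.toAffine.Nonsingular x y) :
    pX W e (.some x y h) = x - e := rfl

@[simp] lemma pM_some {x y : K} (h : W.toAffine.Nonsingular x y) :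
    pM W (.some x y h) = 2 * y + W.a₁ * x + W.a₃ := rfl

lemma pX_neg (Q : W.toAffine.Point) : pX W e (-Q) = pX W e Q := by
  cases Q with
  | zero => rfl
  | some x y h => rfl

lemma pM_neg (Q : W.toAffine.Point) : pM W (-Q) = - pM W Q := by
  cases Q with
  | zero => simp [pM, ← Affine.Point.zero_def]
  | some x y h =>
    simp only [Affine.Point.neg_some, pM_some, Affine.negY]
    ring

lemma isPt_of_ne_zero (hm : NodeModel W e C1 C2) {Q : W.toAffine.Point} (hQ : Q ≠ 0) :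
    IsPt C1 C2 (pX W e Q) (pM W Q) := by
  cases Q with
  | zero => exact absurd rfl hQ
  | some x y h => exact hm.equation h.1

/-- Two nonzero points with the same node coordinates are equal. -/
lemma eq_of_pX_eq_of_pM_eq (h2 : (2 : K) ≠ 0) {Q₁ Q₂ : W.toAffine.Point} (h₁ : Q₁ ≠ 0)
    (h₂ : Q₂ ≠ 0) (hX : pX W e Q₁ = pX W e Q₂) (hM : pM W Q₁ = pM W Q₂) : Q₁ = Q₂ := by
  cases Q₁ with
  | zero => exact absurd rfl h₁
  | some x₁ y₁ h₁' =>
    cases Q₂ with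
    | zero => exact absurd rfl h₂
    | some x₂ y₂ h₂' =>
      simp only [pX_some, pM_some] at hX hM
      have hx : x₁ = x₂ := by linear_combination hX
      subst hx
      have hy : y₁ = y₂ := by
        have : 2 * (y₁ - y₂) = 0 := by linear_combination hM
        rcases mul_eq_zero.mp this with h | h
        · exact absurd h h2
        · exact sub_eq_zero.mp h
      subst hy
      rfl

/-- Two nonzero points with the same `X` and opposite `M` are opposite. -/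
lemma eq_neg_of_pX_eq_of_pM_eq_neg (h2 : (2 : K) ≠ 0) {Q₁ Q₂ : W.toAffine.Point} (h₁ : Q₁ ≠ 0)
    (h₂ : Q₂ ≠ 0) (hX : pX W e Q₁ = pX W e Q₂) (hM : pM W Q₁ = - pM W Q₂) : Q₁ = -Q₂ := by
  have h₂' : -Q₂ ≠ 0 := neg_ne_zero.mpr h₂
  apply eq_of_pX_eq_of_pM_eq (e := e) h2 h₁ h₂'
  · rw [pX_neg]; exact hX
  · rw [pM_neg]; exact hM

/-- Two nonzero points with the same `X` are equal or opposite. -/
lemma eq_or_eq_neg_of_pX_eq (hm : NodeModel W e C1 C2) (h2 : (2 : K) ≠ 0)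
    {Q₁ Q₂ : W.toAffine.Point} (h₁ : Q₁ ≠ 0)
    (h₂ : Q₂ ≠ 0) (hX : pX W e Q₁ = pX W e Q₂) : Q₁ = Q₂ ∨ Q₁ = -Q₂ := by
  have e₁ := isPt_of_ne_zero hm h₁
  have e₂ := isPt_of_ne_zero hm h₂
  unfold IsPt at e₁ e₂
  rw [hX, ← e₂] at e₁
  rcases sq_eq_sq_iff_eq_or_eq_neg.mp e₁ with h | h
  · exact Or.inl (eq_of_pX_eq_of_pM_eq h2 h₁ h₂ hX h)
  · exact Or.inr (eq_neg_of_pX_eq_of_pM_eq_neg h2 h₁ h₂ hX h)

/-- A nonzero point with `M = 0` is `2`-torsion. -/
lemma add_self_eq_zero_of_pM_eq_zero (h2 : (2 : K) ≠ 0) {Q : W.toAffine.Point} (hQ : Q ≠ 0)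
    (hM : pM W Q = 0) : Q + Q = 0 := by
  have : Q = -Q := eq_neg_of_pX_eq_of_pM_eq_neg (e := (0 : K)) h2 hQ hQ rfl (by rw [hM, neg_zero])
  calc Q + Q = Q + -Q := by rw [← this]
    _ = 0 := add_neg_cancel Q

/-- The identities for the sum of two nonzero points with nonzero sum. -/
lemma add_identities (hm : NodeModel W e C1 C2) {Q₁ Q₂ : W.toAffine.Point} (h₁ : Q₁ ≠ 0)
    (h₂ : Q₂ ≠ 0) (h₁₂ : Q₁ + Q₂ ≠ 0) :
    4 * pX W e (Q₁ + Q₂) * (pM W Q₁ * pX W e Q₂ + pM W Q₂ * pX W e Q₁) ^ 2 =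
        pX W e Q₁ * pX W e Q₂ * (4 * pX W e Q₁ * pX W e Q₂ - C1) ^ 2 ∧
    (pM W (Q₁ + Q₂) * pX W e Q₁ + pM W Q₁ * pX W e (Q₁ + Q₂)) ^ 2 =
        4 * (pX W e (Q₁ + Q₂) - pX W e Q₁) ^ 2 *
          (pX W e Q₁ * pX W e Q₂ * pX W e (Q₁ + Q₂)) ∧
    (pM W (Q₁ + Q₂) * pX W e Q₂ + pM W Q₂ * pX W e (Q₁ + Q₂)) ^ 2 =
        4 * (pX W e (Q₁ + Q₂) - pX W e Q₂) ^ 2 *
          (pX W e Q₁ * pX W e Q₂ * pX W e (Q₁ + Q₂)) ∧
    (pX W e Q₁ ≠ pX W e Q₂ →
      4 * pX W e Q₁ * pX W e Q₂ * pX W e (Q₁ + Q₂) * (pX W e Q₁ - pX W e Q₂) ^ 2 =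
        (pM W Q₂ * pX W e Q₁ - pM W Q₁ * pX W e Q₂) ^ 2) := by
  cases Q₁ with
  | zero => exact absurd rfl h₁
  | some x₁ y₁ n₁ =>
    cases Q₂ with
    | zero => exact absurd rfl h₂
    | some x₂ y₂ n₂ =>
      have hxy : ¬(x₁ = x₂ ∧ y₁ = W.toAffine.negY x₂ y₂) := by
        intro h
        exact h₁₂ (Affine.Point.add_of_Y_eq h.1 h.2)
      rw [Affine.Point.add_some hxy]
      obtain ⟨L, hX₃, hM₃, hcase⟩ := exists_slope_data hm n₁.1 n₂.1 hxy
      have e₁ := hm.equation n₁.1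
      have e₂ := hm.equation n₂.1
      have hcase' : (nX e x₁ ≠ nX e x₂ ∧ L * (nX e x₁ - nX e x₂) = nM W x₁ y₁ - nM W x₂ y₂) ∨
          (nX e x₁ = nX e x₂ ∧ nM W x₁ y₁ = nM W x₂ y₂ ∧ nM W x₁ y₁ ≠ 0 ∧
            2 * L * nM W x₁ y₁ = 12 * nX e x₁ ^ 2 + 2 * C2 * nX e x₁ + C1) := by
        rcases hcase with ⟨hne, hL⟩ | ⟨rfl, rfl, hM, hL⟩
        · refine Or.inl ⟨?_, hL⟩
          intro h
          apply hne
          simp only [nX] at h
          linear_combination h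
        · exact Or.inr ⟨rfl, rfl, hM, hL⟩
      refine ⟨node_I2 e₁ e₂ hX₃ hcase', node_I3 e₁ e₂ hX₃ hM₃ hcase',
        node_I3' e₁ e₂ hX₃ hM₃ hcase', ?_⟩
      intro hne
      rcases hcase' with ⟨-, hL⟩ | ⟨heq, -⟩
      · exact chord_I1 e₁ e₂ hX₃ hL
      · exact absurd heq hne

end Fermat.Agent.S05.helper7
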