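/-
S05, multiplicative (node) case, part 4: the "sawtooth" induction.

For a point `P` of odd prime order `p` all of whose nonzero multiples reduce to the node,
the valuation of the node coordinate `X` of `P` is a power of some `γ0` with
`γ0 ^ p = v C1 ^ 2`.
-/
import Mathlib.GroupTheory.OrderOfElement
import Mathlib.Data.Int.GCD
import Mathlib.Order.Interval.Finset.Nat
import Fermat.Agent.S05.helper7_NodePoint

set_option autoImplicit false
set_option linter.unusedSimpArgs false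
set_option linter.unusedVariables false
set_option linter.unusedSectionVars false

namespace Fermat.Agent.S05.helper7

open WeierstrassCurve

section PrimeOrder

variable {G : Type*} [AddCommGroup G] {p : ℕ}

lemma nsmul_eq_zero_iff_of_prime (hp : p.Prime) {P : G} (hpP : p • P = 0) (hP : P ≠ 0)
    (k : ℕ) : k • P = 0 ↔ p ∣ k := by
  have := Fact.mk hp
  rw [← addOrderOf_dvd_iff_nsmul_eq_zero, addOrderOf_eq_prime hpP hP]

lemma nsmul_mod_prime (hp : p.Prime) {P : G} (hpP : p • P = 0) (hP : P ≠ 0) (k : ℕ) :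
    (k % p) • P = k • P := by
  have := Fact.mk hp
  have := mod_addOrderOf_nsmul P k
  rwa [addOrderOf_eq_prime hpP hP] at this

lemma exists_nsmul_eq_of_nsmul_ne_zero (hp : p.Prime) {P : G} (hpP : p • P = 0) {k : ℕ}
    (hk : k • P ≠ 0) : ∃ j : ℕ, j • (k • P) = P := by
  have hP : P ≠ 0 := by
    intro h
    apply hk
    rw [h, smul_zero]
  have hpk : ¬ p ∣ k := fun h => hk ((nsmul_eq_zero_iff_of_prime hp hpP hP k).mpr h)
  have hcop : Nat.Coprime k p := ((Nat.Prime.coprime_iff_not_dvd hp).mpr hpk).symm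
  obtain ⟨m, -, hm⟩ := Nat.exists_mul_mod_eq_one_of_coprime hcop hp.one_lt
  refine ⟨m, ?_⟩
  rw [← mul_nsmul, ← nsmul_mod_prime hp hpP hP, hm, one_nsmul]

lemma nsmul_ne_zero_of_pos_of_lt (hp : p.Prime) {P : G} (hpP : p • P = 0) (hP : P ≠ 0)
    {k : ℕ} (hk0 : 0 < k) (hkp : k < p) : k • P ≠ 0 := by
  intro h
  rw [nsmul_eq_zero_iff_of_prime hp hpP hP] at h
  exact absurd (Nat.le_of_dvd hk0 h) (not_le.mpr hkp)

end PrimeOrder

variable {K : Type*} [Field K] [DecidableEq K] {Γ₀ : Type*} [LinearOrderedCommGroupWithZero Γ₀]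
  {v : Valuation K Γ₀} {W : WeierstrassCurve K} {e C1 C2 : K}

lemma two_ne_zero_of_nodeVal (hv : NodeVal v C1 C2) : (2 : K) ≠ 0 := by
  intro h
  have := hv.v2
  rw [h, map_zero] at this
  exact zero_ne_one this

/-- A nonzero point near the node whose double is nonzero and also near the node lies in the
middle region. -/
lemma mid_of_double (hm : NodeModel W e C1 C2) (hv : NodeVal v C1 C2) {Q : W.toAffine.Point}
    (hQ : Q ≠ 0) (hQQ : Q + Q ≠ 0) (h1 : v (pX W e Q) < 1) (h2 : v (pX W e (Q + Q)) < 1) :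
    Mid v C1 (pX W e Q) := by
  have h2K := two_ne_zero_of_nodeVal hv
  have hp := isPt_of_ne_zero hm hQ
  have hM0 : pM W Q ≠ 0 := fun h => hQQ (add_self_eq_zero_of_pM_eq_zero h2K hQ h)
  have hX0 : pX W e Q ≠ 0 := by
    intro h
    apply hM0
    unfold IsPt at hp
    rw [h] at hp
    have : pM W Q ^ 2 = 0 := by rw [hp]; ring
    exact (pow_eq_zero_iff two_ne_zero).mp this
  refine ⟨?_, h1⟩
  by_contra hcon
  rw [not_lt] at hcon
  obtain ⟨I2, -, -, -⟩ := add_identities hm hQ hQ hQQ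
  exact absurd (rule_double_small hv hp hX0 hM0 hcon I2) (not_le.mpr h2)

/-- The invariant of the sawtooth induction. -/
def SawInv (v : Valuation K Γ₀) (C1 : K) (γ0 : Γ₀) (m : ℕ) (X M X0 M0 : K) : Prop :=
  (v X = γ0 ^ m ∧ v C1 < γ0 ^ m ∧ SameS v X M X0 M0) ∨
  (v X * γ0 ^ m = v C1 ^ 2 ∧ γ0 ^ m < v C1 ∧ OppS v X M X0 M0)

lemma sawtooth_step (hm : NodeModel W e C1 C2) (hv : NodeVal v C1 C2)
    {Q0 Q : W.toAffine.Point} (hQ0 : Q0 ≠ 0) (hQ : Q ≠ 0) (hsum : Q0 + Q ≠ 0)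
    (hmid0 : Mid v C1 (pX W e Q0)) (hmid : Mid v C1 (pX W e Q))
    (hmidS : Mid v C1 (pX W e (Q0 + Q)))
    (hmax : v (pX W e Q) ≤ v (pX W e Q0)) {m : ℕ}
    (hinv : SawInv v C1 (v (pX W e Q0)) m (pX W e Q) (pM W Q) (pX W e Q0) (pM W Q0)) :
    SawInv v C1 (v (pX W e Q0)) (m + 1) (pX W e (Q0 + Q)) (pM W (Q0 + Q))
      (pX W e Q0) (pM W Q0) := by
  obtain ⟨I2, I3, I3', I1⟩ := add_identities hm hQ0 hQ hsum
  have hp0 := isPt_of_ne_zero hm hQ0
  have hpQ := isPt_of_ne_zero hm hQ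
  rcases hinv with ⟨hval, hgt, hS⟩ | ⟨hval, hlt, hO⟩
  · -- same sign
    have hprod : v (pX W e Q0) * v (pX W e Q) = v (pX W e Q0) ^ (m + 1) := by
      rw [hval, pow_succ']
    rcases lt_trichotomy (v C1) (v (pX W e Q0) * v (pX W e Q)) with h | h | h
    · obtain ⟨h3, hS3, -⟩ := rule_same_gt hv hmid0 hmid hS.symm I2 I3 I3' h
      exact Or.inl ⟨by rw [h3, hprod], by rw [← hprod]; exact h, hS3⟩
    · exact absurd (rule_same_eq hv hmid0 hmid hS.symm I2 h.symm) (not_le.mpr hmidS.1)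
    · obtain ⟨h3, hO3, -⟩ := rule_same_lt hv hmid0 hmid hS.symm I2 I3 I3' h
      exact Or.inr ⟨by rw [← hprod]; exact h3, by rw [← hprod]; exact h, hO3⟩
  · -- opposite sign
    rcases lt_or_eq_of_le hmax with hlt' | heq
    · have hne : pX W e Q0 ≠ pX W e Q := by
        intro h
        rw [h] at hlt'
        exact lt_irrefl _ hlt'
      obtain ⟨h3, hO3⟩ := rule_opp_lt hv hpQ hmid0 hmid hO.symm (I1 hne) I3 hlt'
      refine Or.inr ⟨?_, ?_, hO3⟩
      · rw [pow_succ', ← mul_assoc, h3, hval]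
      · calc v (pX W e Q0) ^ (m + 1) = v (pX W e Q0) ^ m * v (pX W e Q0) := pow_succ _ _
          _ ≤ v (pX W e Q0) ^ m := mul_le_of_le_one_right' hmid0.2.le
          _ < v C1 := hlt
    · by_cases hne : pX W e Q0 = pX W e Q
      · rcases eq_or_eq_neg_of_pX_eq hm (two_ne_zero_of_nodeVal hv) hQ0 hQ hne with h | h
        · rw [← h] at hO
          exact (not_sameS_and_oppS (sameS_self hv hp0 hmid0) hO).elim
        · exact absurd (by rw [h]; exact neg_add_cancel Q) hsum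
      · exact absurd (rule_opp_eq hv hpQ hmid0 hmid hO.symm (I1 hne) hne heq.symm)
          (not_le.mpr hmidS.2)

section Induction

variable {p : ℕ} {Q0 : W.toAffine.Point}

lemma sawtooth_ind (hm : NodeModel W e C1 C2) (hv : NodeVal v C1 C2) (hp : p.Prime)
    (hpQ : p • Q0 = 0) (hQ0 : Q0 ≠ 0)
    (hMid : ∀ k : ℕ, k • Q0 ≠ 0 → Mid v C1 (pX W e (k • Q0)))
    (hmax : ∀ k : ℕ, k • Q0 ≠ 0 → v (pX W e (k • Q0)) ≤ v (pX W e Q0)) :
    ∀ m : ℕ, 1 ≤ m → m < p →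
      SawInv v C1 (v (pX W e Q0)) m (pX W e (m • Q0)) (pM W (m • Q0))
        (pX W e Q0) (pM W Q0) := by
  have hmid0 : Mid v C1 (pX W e Q0) := by
    have := hMid 1 (by rw [one_nsmul]; exact hQ0)
    rwa [one_nsmul] at this
  intro m hm1
  induction m, hm1 using Nat.le_induction with
  | base =>
    intro _
    rw [one_nsmul]
    exact Or.inl ⟨(pow_one _).symm, by rw [pow_one]; exact hmid0.1,
      sameS_self hv (isPt_of_ne_zero hm hQ0) hmid0⟩
  | succ m hm1 ih =>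
    intro hlt
    have hmlt : m < p := Nat.lt_of_succ_lt hlt
    have hQm : m • Q0 ≠ 0 := nsmul_ne_zero_of_pos_of_lt hp hpQ hQ0 hm1 hmlt
    have hQm1 : (m + 1) • Q0 ≠ 0 :=
      nsmul_ne_zero_of_pos_of_lt hp hpQ hQ0 (Nat.succ_pos m) hlt
    have hsum : Q0 + m • Q0 ≠ 0 := by rw [← succ_nsmul']; exact hQm1
    have hmidS : Mid v C1 (pX W e (Q0 + m • Q0)) := by
      rw [← succ_nsmul']; exact hMid (m + 1) hQm1
    have := sawtooth_step hm hv hQ0 hQm hsum hmid0 (hMid m hQm) hmidS (hmax m hQm) (ih hmlt)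
    rw [succ_nsmul']
    exact this

lemma sawtooth_pow_eq (hm : NodeModel W e C1 C2) (hv : NodeVal v C1 C2) (hp : p.Prime)
    (hpQ : p • Q0 = 0) (hQ0 : Q0 ≠ 0)
    (hMid : ∀ k : ℕ, k • Q0 ≠ 0 → Mid v C1 (pX W e (k • Q0)))
    (hmax : ∀ k : ℕ, k • Q0 ≠ 0 → v (pX W e (k • Q0)) ≤ v (pX W e Q0)) :
    v (pX W e Q0) ^ p = v C1 ^ 2 := by
  have hmid0 : Mid v C1 (pX W e Q0) := by
    have := hMid 1 (by rw [one_nsmul]; exact hQ0)
    rwa [one_nsmul] at this
  have h2 := hp.two_le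
  have h1 : 1 ≤ p - 1 := by omega
  have hinv := sawtooth_ind hm hv hp hpQ hQ0 hMid hmax (p - 1) h1 (by omega)
  have hneg : (p - 1) • Q0 = -Q0 := by
    have : (p - 1) • Q0 + Q0 = 0 := by
      rw [← succ_nsmul, Nat.sub_add_cancel hp.one_le]
      exact hpQ
    exact eq_neg_of_add_eq_zero_left this
  rw [hneg, pX_neg, pM_neg] at hinv
  rcases hinv with ⟨-, -, hS⟩ | ⟨hval, -, -⟩
  · exfalso
    unfold SameS at hS
    have : -pM W Q0 * pX W e Q0 + pM W Q0 * pX W e Q0 = 0 := by ring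
    rw [this, map_zero, map_mul] at hS
    exact (mul_ne_zero hmid0.ne_zero hmid0.ne_zero) hS.symm
  · calc v (pX W e Q0) ^ p = v (pX W e Q0) ^ (p - 1 + 1) := by
          rw [Nat.sub_add_cancel hp.one_le]
      _ = v (pX W e Q0) * v (pX W e Q0) ^ (p - 1) := pow_succ' _ _
      _ = v C1 ^ 2 := hval

end Induction

/-- All nonzero multiples of a point of odd prime order whose multiples are near the node
lie in the middle region. -/
lemma mid_of_torsion (hm : NodeModel W e C1 C2) (hv : NodeVal v C1 C2) {p : ℕ} (hp : p.Prime)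
    (hp2 : p ≠ 2) {P : W.toAffine.Point} (hpP : p • P = 0) (hP : P ≠ 0)
    (hE0 : ∀ k : ℕ, k • P ≠ 0 → v (pX W e (k • P)) < 1) :
    ∀ k : ℕ, k • P ≠ 0 → Mid v C1 (pX W e (k • P)) := by
  intro k hk
  have hkk' : (k + k) • P ≠ 0 := by
    intro h
    rw [nsmul_eq_zero_iff_of_prime hp hpP hP] at h
    have h2 : p ∣ 2 * k := by rwa [two_mul]
    have : p ∣ k := by
      rcases (Nat.Prime.dvd_mul hp).mp h2 with h' | h'
      · exact absurd ((Nat.prime_dvd_prime_iff_eq hp Nat.prime_two).mp h') hp2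
      · exact h'
    exact hk ((nsmul_eq_zero_iff_of_prime hp hpP hP k).mpr this)
  have hkk : k • P + k • P ≠ 0 := by rw [← add_nsmul]; exact hkk'
  refine mid_of_double hm hv hk hkk (hE0 k hk) ?_
  rw [← add_nsmul]
  exact hE0 (k + k) hkk'

/-- **The sawtooth theorem.** -/
theorem sawtooth (hm : NodeModel W e C1 C2) (hv : NodeVal v C1 C2) {p : ℕ} (hp : p.Prime)
    (hp2 : p ≠ 2) {P : W.toAffine.Point} (hpP : p • P = 0) (hP : P ≠ 0)
    (hE0 : ∀ k : ℕ, k • P ≠ 0 → v (pX W e (k • P)) < 1) :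
    ∃ γ0 : Γ₀, γ0 ≠ 0 ∧ γ0 ^ p = v C1 ^ 2 ∧ ∃ j : ℕ, v (pX W e P) = γ0 ^ j := by
  have hMidP := mid_of_torsion hm hv hp hp2 hpP hP hE0
  have h2 := hp.two_le
  obtain ⟨k0, hk0mem, hk0max⟩ := Finset.exists_max_image (Finset.Icc 1 (p - 1))
    (fun k => v (pX W e (k • P))) ⟨1, Finset.mem_Icc.mpr ⟨le_rfl, by omega⟩⟩
  rw [Finset.mem_Icc] at hk0mem
  have hQ0 : k0 • P ≠ 0 :=
    nsmul_ne_zero_of_pos_of_lt hp hpP hP (by omega) (by omega)
  have hpQ0 : p • (k0 • P) = 0 := by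
    rw [smul_comm, hpP, smul_zero]
  have hmult : ∀ k : ℕ, k • (k0 • P) ≠ 0 →
      ∃ i, 1 ≤ i ∧ i ≤ p - 1 ∧ k • (k0 • P) = i • P := by
    intro k hk
    have e1 : k • (k0 • P) = ((k0 * k) % p) • P := by
      rw [nsmul_mod_prime hp hpP hP, mul_nsmul]
    refine ⟨(k0 * k) % p, ?_, ?_, e1⟩
    · rcases Nat.eq_zero_or_pos ((k0 * k) % p) with h0 | h0
      · exfalso
        apply hk
        rw [e1, h0, zero_nsmul]
      · exact h0
    · have := Nat.mod_lt (k0 * k) hp.pos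
      omega
  have hMid : ∀ k : ℕ, k • (k0 • P) ≠ 0 → Mid v C1 (pX W e (k • (k0 • P))) := by
    intro k hk
    obtain ⟨i, -, -, hi⟩ := hmult k hk
    rw [hi]
    exact hMidP i (by rw [← hi]; exact hk)
  have hmax : ∀ k : ℕ, k • (k0 • P) ≠ 0 →
      v (pX W e (k • (k0 • P))) ≤ v (pX W e (k0 • P)) := by
    intro k hk
    obtain ⟨i, hi1, hi2, hi⟩ := hmult k hk
    rw [hi]
    exact hk0max i (Finset.mem_Icc.mpr ⟨hi1, hi2⟩)
  have hmid0 : Mid v C1 (pX W e (k0 • P)) := hMidP k0 hQ0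
  refine ⟨v (pX W e (k0 • P)), hmid0.ne_zero,
    sawtooth_pow_eq hm hv hp hpQ0 hQ0 hMid hmax, ?_⟩
  obtain ⟨j, hj⟩ := exists_nsmul_eq_of_nsmul_ne_zero hp hpP hQ0
  have hj' : (j % p) • (k0 • P) = P := by
    rw [nsmul_mod_prime hp hpQ0 hQ0, hj]
  have hjpos : 0 < j % p := by
    rcases Nat.eq_zero_or_pos (j % p) with h0 | h0
    · exfalso
      apply hP
      rw [← hj', h0, zero_nsmul]
    · exact h0
  have hjlt : j % p < p := Nat.mod_lt j hp.pos
  have hinv := sawtooth_ind hm hv hp hpQ0 hQ0 hMid hmax (j % p) hjpos hjlt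
  rw [hj'] at hinv
  rcases hinv with ⟨hval, -, -⟩ | ⟨hval, -, -⟩
  · exact ⟨j % p, hval⟩
  · refine ⟨p - j % p, ?_⟩
    have hpow := sawtooth_pow_eq hm hv hp hpQ0 hQ0 hMid hmax
    have hsplit : v (pX W e (k0 • P)) ^ p =
        v (pX W e (k0 • P)) ^ (p - j % p) * v (pX W e (k0 • P)) ^ (j % p) := by
      rw [← pow_add, Nat.sub_add_cancel hjlt.le]
    have : v (pX W e P) * v (pX W e (k0 • P)) ^ (j % p) =
        v (pX W e (k0 • P)) ^ (p - j % p) * v (pX W e (k0 • P)) ^ (j % p) := by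
      rw [hval, ← hsplit, hpow]
    exact (mul_left_inj' (pow_ne_zero _ hmid0.ne_zero)).mp this

end Fermat.Agent.S05.helper7
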