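import Fermat.Agent.S05.Comp2

set_option autoImplicit false
set_option linter.unusedSectionVars false
set_option linter.unusedVariables false

namespace Fermat.Agent.S05

open WeierstrassCurve WeierstrassCurve.Affine

variable {K : Type*} [Field K] [DecidableEq K]
variable {Γ₀ : Type*} [LinearOrderedCommGroupWithZero Γ₀]
variable {v : Valuation K Γ₀} {W : Affine K}

/-- if `R - f R` lies in the kernel of reduction whenever it is nonzero, then `f R = R` for
torsion points of order prime to the residue characteristic -/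
lemma IsTwoNF.fix_of_sub_E1 (hW : IsTwoNF W) (ha : v W.a₂ ≤ 1) (hb : v W.a₄ ≤ 1)
    (n : ℕ) (hn : v (n : K) = 1) (f : W.Point →+ W.Point) (R : W.Point) (hR : n • R = 0)
    (h : R ≠ f R → ∃ x₃ y₃, ∃ h₃ : W.Nonsingular x₃ y₃,
      R - f R = Point.some x₃ y₃ h₃ ∧ 1 < v x₃) : f R = R := by
  by_contra hne
  obtain ⟨x₃, y₃, h₃, hsub, hx₃⟩ := h (Ne.symm hne)
  have h0 : n • (R - f R) = 0 := by
    rw [smul_sub, ← map_nsmul, hR, map_zero, sub_zero]
  rw [hsub] at h0
  exact hW.E1_torsion_free v ha hb h₃ hx₃ n hn h0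

/-- nonsingularity of the reduction at points with `y ≡ 0`, good reduction case -/
lemma hns_good {a b x : K} (ha : v a ≤ 1) (hb : v b ≤ 1) (hx : v x ≤ 1)
    (hΔ : v (b * (a ^ 2 - 4 * b)) = 1) (hu : v (x ^ 2 + a * x + b) < 1) :
    v (x ^ 2 - b) = 1 := by
  by_contra hw
  have hw1 : v (x ^ 2 - b) ≤ 1 := by
    apply v.map_sub_le _ hb
    rw [map_pow]; exact pow_le_one₀ zero_le hx
  have hw2 : v (x ^ 2 - b) < 1 := lt_of_le_of_ne hw1 hw
  obtain ⟨u, hu'⟩ : ∃ u, u = x ^ 2 + a * x + b := ⟨_, rfl⟩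
  obtain ⟨w, hw'⟩ : ∃ w, w = x ^ 2 - b := ⟨_, rfl⟩
  rw [← hu'] at hu
  rw [← hw'] at hw2
  have hid : b * (a ^ 2 - 4 * b) = (u - w) ^ 2 - 4 * b * (u - w) - a ^ 2 * w := by
    rw [hu', hw']; ring
  have huw : v (u - w) < 1 := v.map_sub_lt hu hw2
  have h4 : v (4 : K) ≤ 1 := by
    have := val_natCast_le_one v 4
    simpa using this
  have : v (b * (a ^ 2 - 4 * b)) < 1 := by
    rw [hid]
    apply v.map_sub_lt
    · apply v.map_sub_lt
      · rw [map_pow]; exact pow_lt_one₀ zero_le huw (by norm_num)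
      · rw [map_mul, map_mul]
        calc v 4 * v b * v (u - w) ≤ 1 * 1 * v (u - w) := by gcongr
          _ = v (u - w) := by rw [one_mul, one_mul]
          _ < 1 := huw
    · rw [map_mul, map_pow]
      calc v a ^ 2 * v w ≤ 1 * v w := by
            gcongr
            exact pow_le_one₀ zero_le ha
        _ = v w := one_mul _
        _ < 1 := hw2
  rw [hΔ] at this
  exact lt_irrefl _ this

/-- the unit case of the main theorem -/
lemma IsTwoNF.fix_unit (hW : IsTwoNF W) (hv2 : v 2 = 1) (ha : v W.a₂ ≤ 1) (hb : v W.a₄ ≤ 1)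
    (n : ℕ) (hn : v (n : K) = 1)
    (σ : K →+* K) (hσ : ∀ x, v x ≤ 1 → v (σ x - x) < 1)
    (f : W.Point →+ W.Point)
    (hf : ∀ x y (h : W.Nonsingular x y), ∃ h', f (Point.some x y h) = Point.some (σ x) (σ y) h')
    (hred : v (W.a₄ * (W.a₂ ^ 2 - 4 * W.a₄)) = 1 ∨ v W.a₄ < 1)
    {x y : K} (h : W.Nonsingular x y) (hx : v x = 1) (hR : n • Point.some x y h = 0) :
    f (Point.some x y h) = Point.some x y h := by
  apply hW.fix_of_sub_E1 ha hb n hn f _ hR
  intro hne
  obtain ⟨h', hf'⟩ := hf x y h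
  rw [hf'] at hne ⊢
  have hy : v y ≤ 1 := hW.val_y_le_one v ha hb h hx.le
  apply hW.sub_of_close_unit v ha hb hv2 h h' hx
  · rw [Valuation.map_sub_swap]; exact hσ x hx.le
  · rw [Valuation.map_sub_swap]; exact hσ y hy
  · intro hu
    rcases hred with hΔ | hb1
    · exact hns_good ha hb hx.le hΔ hu
    · apply val_sub_eq_one v _ hb1
      rw [map_pow, hx, one_pow]
  · exact hne

/-- the node case of the main theorem -/
lemma IsTwoNF.fix_node (hW : IsTwoNF W) (hv2 : v 2 = 1) (ha : v W.a₂ = 1) (hb : v W.a₄ < 1)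
    (n : ℕ) (hn : v (n : K) = 1)
    (σ : K →+* K) (hσ : ∀ x, v x ≤ 1 → v (σ x - x) < 1)
    (f : W.Point →+ W.Point)
    (hf : ∀ x y (h : W.Nonsingular x y), ∃ h', f (Point.some x y h) = Point.some (σ x) (σ y) h')
    {x y : K} (h : W.Nonsingular x y) (hxl : v W.a₄ < v x) (hxu : v x < 1)
    (hclose : v (σ x - x) < v x) (hR : n • Point.some x y h = 0) :
    f (Point.some x y h) = Point.some x y h := by
  apply hW.fix_of_sub_E1 ha.le hb.le n hn f _ hR
  intro hne
  obtain ⟨h', hf'⟩ := hf x y h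
  rw [hf'] at hne ⊢
  have hx0 : x ≠ 0 := by rintro rfl; simp at hxl
  have hα := hW.val_alpha_node v ha h hxl hxu
  apply hW.sub_of_close_node v ha.le hv2 h h' hx0 hxu.le
  · rw [Valuation.map_sub_swap]; exact hclose
  · exact hα
  · rw [← map_div₀, Valuation.map_sub_swap]; exact hσ _ hα.le
  · exact hne

lemma val_eq_pow_of_pow_eq {π ξ β : Γ₀} {p m i j : ℕ} (hp : p ≠ 0) (hβ0 : β ≠ 0) (hβ1 : β < 1)
    (hξ : ξ ≤ 1) (hβ : β = π ^ (p * m)) (h : ξ ^ p * β ^ (2 * i) = β ^ (2 * j)) :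
    ∃ k : ℕ, ξ = π ^ k := by
  have hβpos : 0 < β := zero_lt_iff.mpr hβ0
  have hij : i ≤ j := by
    by_contra hlt
    rw [not_le] at hlt
    have h1 : β ^ (2 * j) ≤ β ^ (2 * i) := by
      rw [← h]
      calc ξ ^ p * β ^ (2 * i) ≤ 1 * β ^ (2 * i) := by
            gcongr
            exact pow_le_one₀ zero_le hξ
        _ = β ^ (2 * i) := one_mul _
    have h2 : β ^ (2 * i) < β ^ (2 * j) :=
      pow_lt_pow_right_of_lt_one₀ hβpos hβ1 (by omega)
    exact absurd h1 (not_le.mpr h2)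
  obtain ⟨e, rfl⟩ : ∃ e, j = i + e := ⟨j - i, by omega⟩
  have h3 : ξ ^ p = β ^ (2 * e) := by
    have : β ^ (2 * (i + e)) = β ^ (2 * e) * β ^ (2 * i) := by
      rw [← pow_add]; congr 1; ring
    rw [this] at h
    exact mul_right_cancel₀ (pow_ne_zero _ hβ0) h
  refine ⟨m * (2 * e), ?_⟩
  have h4 : ξ ^ p = (π ^ (m * (2 * e))) ^ p := by
    rw [h3, hβ, ← pow_mul, ← pow_mul]; congr 1; ring
  exact (pow_left_inj₀ zero_le zero_le hp).mp h4

/-- **Main theorem of the local theory**: a map on points induced by an "inertial" automorphism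
fixes all `p`-torsion points. -/
theorem IsTwoNF.fixes_torsion (hW : IsTwoNF W) (hv2 : v 2 = 1) (ha : v W.a₂ ≤ 1)
    (hb : v W.a₄ ≤ 1) (hb0 : W.a₄ ≠ 0)
    (p : ℕ) (hp : p.Prime) (hp2 : p ≠ 2) (hvp : v (p : K) = 1)
    (σ : K →+* K) (hσ : ∀ x, v x ≤ 1 → v (σ x - x) < 1) (hσb : σ W.a₄ = W.a₄)
    (f : W.Point →+ W.Point)
    (hf : ∀ x y (h : W.Nonsingular x y), ∃ h', f (Point.some x y h) = Point.some (σ x) (σ y) h')
    (hred : v (W.a₄ * (W.a₂ ^ 2 - 4 * W.a₄)) = 1 ∨
      (v W.a₂ = 1 ∧ v W.a₄ < 1 ∧ ∃ (ϖ : K) (m : ℕ), σ ϖ = ϖ ∧ v W.a₄ = v ϖ ^ (p * m)))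
    (P : W.Point) (hP : p • P = 0) : f P = P := by
  rcases P with _ | ⟨x, y, h⟩
  · exact map_zero f
  have hx1 : v x ≤ 1 := by
    by_contra hx
    rw [not_le] at hx
    exact hW.E1_torsion_free v ha hb h hx p hvp hP
  have hβpos : 0 < v W.a₄ := val_pos v hb0
  -- the 2-torsion point
  have hTT := hW.T_add_T hb0
  obtain ⟨T, hT⟩ : ∃ T, T = Point.some 0 0 (hW.nonsingular_zero hb0) := ⟨_, rfl⟩
  rw [← hT] at hTT
  have hT0 : T ≠ 0 := by rw [hT]; exact Point.some_ne_zero _
  have hfT : f T = T := by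
    obtain ⟨h', hf'⟩ := hf 0 0 (hW.nonsingular_zero hb0)
    rw [hT, hf']
    obtain ⟨h'', e⟩ := some_congr h' (map_zero σ) (map_zero σ)
    exact e
  have h2T : (2 : ℕ) • T = 0 := by rw [two_smul]; exact hTT
  have hpT : p • T = T := by
    obtain ⟨k, hk⟩ := hp.odd_of_ne_two hp2
    rw [hk, add_smul, one_smul, mul_comm, mul_smul, h2T, smul_zero, zero_add]
  have h2p : v ((2 * p : ℕ) : K) = 1 := by
    rw [Nat.cast_mul, map_mul, hvp, mul_one]
    exact_mod_cast hv2
  have hP2 : (2 * p) • (Point.some x y h + T) = 0 := by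
    rw [smul_add, mul_smul, hP, smul_zero, zero_add, mul_comm, mul_smul, h2T, smul_zero]
  -- reduction to `P + T`
  have hred_T : f (Point.some x y h + T) = Point.some x y h + T →
      f (Point.some x y h) = Point.some x y h := by
    intro e
    rw [map_add, hfT] at e
    exact add_right_cancel e
  rcases eq_or_lt_of_le hx1 with hx | hx
  · -- unit case
    apply hW.fix_unit hv2 ha hb p hvp σ hσ f hf _ h hx hP
    rcases hred with hΔ | ⟨-, hb1, -⟩
    · exact Or.inl hΔ
    · exact Or.inr hb1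
  -- now `v x < 1`
  have hx0 : x ≠ 0 := by
    rintro rfl
    have hy : y = 0 := by
      have := hW.eq_of_nonsingular h
      simpa using this
    subst hy
    have : Point.some 0 0 h = T := by rw [hT]
    rw [this, hpT] at hP
    exact hT0 hP
  have hX : 0 < v x := val_pos v hx0
  obtain ⟨h', hadd⟩ := hW.add_T hb0 h hx0
  rw [← hT] at hadd
  have hbig : ¬ (1 < v (W.a₄ / x)) := by
    intro hlt
    rw [hadd] at hP2
    exact hW.E1_torsion_free v ha hb h' hlt (2 * p) h2p hP2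
  have hunitT : v (W.a₄ / x) = 1 → f (Point.some x y h) = Point.some x y h := by
    intro hu
    apply hred_T
    rw [hadd]
    rw [hadd] at hP2
    apply hW.fix_unit hv2 ha hb (2 * p) h2p σ hσ f hf _ h' hu hP2
    rcases hred with hΔ | ⟨-, hb1, -⟩
    · exact Or.inl hΔ
    · exact Or.inr hb1
  rcases hred with hΔ | ⟨ha1, hb1, ϖ, m, hσϖ, hβ⟩
  · -- good reduction: `v b = 1`, so `P + T` is in the kernel of reduction
    exfalso
    apply hbig
    have hvb : v W.a₄ = 1 := by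
      rw [map_mul] at hΔ
      have h1 : v (W.a₂ ^ 2 - 4 * W.a₄) ≤ 1 := by
        apply v.map_sub_le
        · rw [map_pow]; exact pow_le_one₀ zero_le ha
        · rw [map_mul]
          have h4 : v (4 : K) ≤ 1 := by
            have := val_natCast_le_one v 4
            simpa using this
          calc v 4 * v W.a₄ ≤ 1 * 1 := by gcongr
            _ = 1 := one_mul 1
      by_contra hne
      have hlt : v W.a₄ < 1 := lt_of_le_of_ne hb hne
      have : v W.a₄ * v (W.a₂ ^ 2 - 4 * W.a₄) < 1 := by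
        calc v W.a₄ * v (W.a₂ ^ 2 - 4 * W.a₄) ≤ v W.a₄ * 1 := by gcongr
          _ = v W.a₄ := mul_one _
          _ < 1 := hlt
      rw [hΔ] at this
      exact lt_irrefl _ this
    rw [map_div₀, hvb, one_lt_div₀ hX]
    exact hx
  · -- multiplicative reduction
    rcases lt_trichotomy (v x) (v W.a₄) with hc | hc | hc
    · exfalso
      apply hbig
      rw [map_div₀, one_lt_div₀ hX]
      exact hc
    · apply hunitT
      rw [map_div₀, hc, div_self hβpos.ne']
    · -- the node case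
      obtain ⟨i, j, hij⟩ := hW.node_torsion_val ha1 hb0 hb1 hv2 h hc hx p hP
      obtain ⟨k, hk⟩ := val_eq_pow_of_pow_eq hp.ne_zero hβpos.ne' hb1 hx.le hβ hij
      have hϖ0 : ϖ ≠ 0 := by
        rintro rfl
        rw [map_zero] at hk
        rcases Nat.eq_zero_or_pos k with h0 | h0
        · rw [h0, pow_zero] at hk
          rw [hk] at hx
          exact lt_irrefl _ hx
        · rw [zero_pow h0.ne'] at hk
          exact hX.ne' hk
      have hπk : 0 < v ϖ ^ k := pow_pos (val_pos v hϖ0) k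
      apply hW.fix_node hv2 ha1 hb1 p hvp σ hσ f hf h hc hx _ hP
      obtain ⟨ε, hε⟩ : ∃ ε, ε = x / ϖ ^ k := ⟨_, rfl⟩
      have hvε : v ε = 1 := by
        rw [hε, map_div₀, map_pow, hk, div_self hπk.ne']
      have hxε : x = ϖ ^ k * ε := by
        rw [hε]; field_simp
      have : σ x - x = ϖ ^ k * (σ ε - ε) := by
        rw [hxε, map_mul, map_pow, hσϖ]; ring
      rw [this, map_mul, map_pow, hk]
      calc v ϖ ^ k * v (σ ε - ε) < v ϖ ^ k * 1 :=
            mul_lt_mul_of_pos_left (hσ ε hvε.le) hπk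
        _ = v ϖ ^ k := mul_one _

end Fermat.Agent.S05
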