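import Mathlib

set_option autoImplicit false
set_option linter.unusedSectionVars false
set_option linter.unusedVariables false

namespace Fermat.Agent.S05

variable {K : Type*} [Field K]
variable {Γ₀ : Type*} [LinearOrderedCommGroupWithZero Γ₀]
variable (v : Valuation K Γ₀)

lemma val_add3_eq {A B C : K} (hB : v B < v A) (hC : v C < v A) : v (A + B + C) = v A := by
  rw [v.map_add_eq_of_lt_left (x := A + B) (y := C), v.map_add_eq_of_lt_left hB]
  rwa [v.map_add_eq_of_lt_left hB]

lemma val_natCast_le_one (n : ℕ) : v (n : K) ≤ 1 := by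
  induction n with
  | zero => simp
  | succ k ih =>
    rw [Nat.cast_succ]
    exact v.map_add_le ih (by simp)

lemma val_two_le_one : v (2 : K) ≤ 1 := by
  have := val_natCast_le_one v 2
  simpa using this

lemma val_pos {x : K} (hx : x ≠ 0) : 0 < v x := by
  rw [zero_lt_iff]; simpa using hx

lemma ne_zero_of_val_pos {x : K} (hx : 0 < v x) : x ≠ 0 := by
  rintro rfl; simp at hx

lemma ne_zero_of_one_lt_val {x : K} (hx : 1 < v x) : x ≠ 0 := by
  rintro rfl; simp at hx

lemma ne_zero_of_one_le_val {x : K} (hx : 1 ≤ v x) : x ≠ 0 := by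
  rintro rfl; simp at hx

lemma ne_zero_of_val_eq_one {x : K} (hx : v x = 1) : x ≠ 0 := by
  rintro rfl; simp at hx

lemma one_lt_of_one_lt_sq {g : Γ₀} (h : 1 < g ^ 2) : 1 < g := by
  by_contra hg
  rw [not_lt] at hg
  exact absurd h (not_lt.mpr (pow_le_one₀ zero_le hg))

lemma lt_one_of_sq_lt_one {g : Γ₀} (h : g ^ 2 < 1) : g < 1 := by
  by_contra hg
  rw [not_lt] at hg
  exact absurd h (not_lt.mpr (one_le_pow₀ hg))

lemma eq_one_of_sq_eq_one {g : Γ₀} (h : g ^ 2 = 1) : g = 1 := by
  rcases lt_trichotomy g 1 with h1 | h1 | h1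
  · exact absurd h (ne_of_lt (pow_lt_one₀ zero_le h1 (by norm_num)))
  · exact h1
  · exact absurd h (ne_of_gt (one_lt_pow₀ h1 (by norm_num)))

lemma le_one_of_sq_le_one {g : Γ₀} (h : g ^ 2 ≤ 1) : g ≤ 1 := by
  by_contra hg
  rw [not_le] at hg
  exact absurd h (not_le.mpr (one_lt_pow₀ hg (by norm_num)))

/-- `v (1 + x) = 1` style: unit plus small is unit -/
lemma val_add_eq_one {u x : K} (hu : v u = 1) (hx : v x < 1) : v (u + x) = 1 := by
  rw [v.map_add_eq_of_lt_left (by rw [hu]; exact hx), hu]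

lemma val_sub_eq_one {u x : K} (hu : v u = 1) (hx : v x < 1) : v (u - x) = 1 := by
  rw [v.map_sub_eq_of_lt_left (by rw [hu]; exact hx), hu]

end Fermat.Agent.S05
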