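import Mathlib
import Fermat.Agent.S05.Val

set_option autoImplicit false
set_option linter.unusedSectionVars false
set_option linter.unusedVariables false

namespace Fermat.Agent.S05

open WeierstrassCurve WeierstrassCurve.Affine

variable {K : Type*} [Field K] [DecidableEq K]

/-- The curve is of the form `y² = x³ + a x² + b x`. -/
structure IsTwoNF (W : Affine K) : Prop where
  a₁ : W.a₁ = 0
  a₃ : W.a₃ = 0
  a₆ : W.a₆ = 0

variable {W : Affine K}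

lemma IsTwoNF.equation_iff (hW : IsTwoNF W) (x y : K) :
    W.Equation x y ↔ y ^ 2 = x ^ 3 + W.a₂ * x ^ 2 + W.a₄ * x := by
  rw [Affine.equation_iff, hW.a₁, hW.a₃, hW.a₆]; simp

lemma IsTwoNF.eq_of_nonsingular (hW : IsTwoNF W) {x y : K} (h : W.Nonsingular x y) :
    y ^ 2 = x ^ 3 + W.a₂ * x ^ 2 + W.a₄ * x :=
  (hW.equation_iff x y).mp h.1

/-- the equation in terms of `α = y / x` -/
lemma IsTwoNF.alpha_sq (hW : IsTwoNF W) {x y : K} (h : W.Nonsingular x y) (hx : x ≠ 0) :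
    (y / x) ^ 2 * x = x ^ 2 + W.a₂ * x + W.a₄ := by
  have := hW.eq_of_nonsingular h
  field_simp
  linear_combination this

lemma IsTwoNF.negY (hW : IsTwoNF W) (x y : K) : W.negY x y = -y := by
  simp [Affine.negY, hW.a₁, hW.a₃]

lemma IsTwoNF.nonsingular_zero (hW : IsTwoNF W) (hb : W.a₄ ≠ 0) : W.Nonsingular 0 0 := by
  rw [Affine.nonsingular_zero]
  exact ⟨hW.a₆, Or.inr hb⟩

lemma some_congr {x y x' y' : K} (h : W.Nonsingular x y) (hx : x = x') (hy : y = y') :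
    ∃ h' : W.Nonsingular x' y', Point.some x y h = Point.some x' y' h' := by
  subst hx hy
  exact ⟨h, rfl⟩

lemma IsTwoNF.neg_some (hW : IsTwoNF W) {x y : K} (h : W.Nonsingular x y) :
    ∃ h' : W.Nonsingular x (-y), -Point.some x y h = Point.some x (-y) h' := by
  rw [Point.neg_some]
  exact some_congr _ rfl (hW.negY x y)

/-- slope in `(s, d)` form -/
lemma IsTwoNF.slope_eq (hW : IsTwoNF W) {x₁ x₂ y₁ y₂ : K} (h₁ : W.Nonsingular x₁ y₁)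
    (h₂ : W.Nonsingular x₂ y₂) (hx₁ : x₁ ≠ 0) (hx₂ : x₂ ≠ 0) (hs : y₁ / x₁ + y₂ / x₂ ≠ 0) :
    ¬(x₁ = x₂ ∧ y₁ = W.negY x₂ y₂) ∧
    W.slope x₁ x₂ y₁ y₂ = y₁ / x₁ + (x₁ * x₂ - W.a₄) / (x₁ * (y₁ / x₁ + y₂ / x₂)) := by
  have e₁ := hW.alpha_sq h₁ hx₁
  have e₂ := hW.alpha_sq h₂ hx₂
  obtain ⟨α₁, rfl⟩ : ∃ α₁, y₁ = α₁ * x₁ := ⟨y₁ / x₁, by field_simp⟩
  obtain ⟨α₂, rfl⟩ : ∃ α₂, y₂ = α₂ * x₂ := ⟨y₂ / x₂, by field_simp⟩
  simp only [mul_div_cancel_right₀ _ hx₁, mul_div_cancel_right₀ _ hx₂] at e₁ e₂ hs ⊢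
  by_cases hx : x₁ = x₂
  · subst hx
    have hy : α₁ = α₂ := by
      have h : (α₁ - α₂) * (α₁ + α₂) * x₁ = 0 := by linear_combination e₁ - e₂
      rcases mul_eq_zero.mp h with h | h
      · rcases mul_eq_zero.mp h with h | h
        · exact sub_eq_zero.mp h
        · exact absurd h hs
      · exact absurd h hx₁
    subst hy
    have hne : α₁ * x₁ ≠ W.negY x₁ (α₁ * x₁) := by
      rw [hW.negY]; intro h; apply hs
      have : (α₁ + α₁) * x₁ = 0 := by linear_combination h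
      rcases mul_eq_zero.mp this with h | h
      · exact h
      · exact absurd h hx₁
    refine ⟨fun h => hne h.2, ?_⟩
    rw [slope_of_Y_ne rfl hne, hW.negY, hW.a₁]
    have hy2' : α₁ * x₁ - -(α₁ * x₁) ≠ 0 := by
      intro h; apply hne; rw [hW.negY]; linear_combination h
    have hα : α₁ ≠ 0 := by rintro rfl; simp at hs
    have h2 : (2 : K) ≠ 0 := by
      intro h; apply hs; linear_combination α₁ * h
    have hs2 : α₁ + α₁ = 2 * α₁ := by ring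
    rw [hs2, sub_neg_eq_add, ← two_mul, zero_mul, sub_zero]
    field_simp
    linear_combination (-2 : K) * e₁
  · refine ⟨fun h => hx h.1, ?_⟩
    rw [slope_of_X_ne hx]
    have hx' : x₁ - x₂ ≠ 0 := sub_ne_zero.mpr hx
    obtain ⟨s, hs'⟩ : ∃ s, s = α₁ + α₂ := ⟨_, rfl⟩
    rw [← hs'] at hs ⊢
    field_simp
    subst hs'
    linear_combination x₂ * e₁ - x₁ * e₂

/-- the addition law in `(s, d)` form -/
theorem IsTwoNF.add_sd (hW : IsTwoNF W) {x₁ x₂ y₁ y₂ : K} (h₁ : W.Nonsingular x₁ y₁)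
    (h₂ : W.Nonsingular x₂ y₂) (hx₁ : x₁ ≠ 0) (hx₂ : x₂ ≠ 0) (hs : y₁ / x₁ + y₂ / x₂ ≠ 0) :
    ∃ x₃ y₃ h₃, Point.some x₁ y₁ h₁ + Point.some x₂ y₂ h₂ = Point.some x₃ y₃ h₃ ∧
      x₃ * (x₁ * x₂ * (y₁ / x₁ + y₂ / x₂) ^ 2) = (x₁ * x₂ - W.a₄) ^ 2 ∧
      y₃ = -((y₁ / x₁ + (x₁ * x₂ - W.a₄) / (x₁ * (y₁ / x₁ + y₂ / x₂))) * x₃)
            + (x₁ * x₂ - W.a₄) / (y₁ / x₁ + y₂ / x₂) := by
  obtain ⟨hxy, hsl⟩ := hW.slope_eq h₁ h₂ hx₁ hx₂ hs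
  refine ⟨_, _, _, Point.add_some hxy, ?_, ?_⟩
  · have e₁ := hW.alpha_sq h₁ hx₁
    have e₂ := hW.alpha_sq h₂ hx₂
    rw [hsl, Affine.addX, hW.a₁]
    obtain ⟨α₁, rfl⟩ : ∃ α₁, y₁ = α₁ * x₁ := ⟨y₁ / x₁, by field_simp⟩
    obtain ⟨α₂, rfl⟩ : ∃ α₂, y₂ = α₂ * x₂ := ⟨y₂ / x₂, by field_simp⟩
    simp only [mul_div_cancel_right₀ _ hx₁, mul_div_cancel_right₀ _ hx₂] at e₁ e₂ hs ⊢
    obtain ⟨s, hs'⟩ : ∃ s, s = α₁ + α₂ := ⟨_, rfl⟩
    rw [← hs'] at hs ⊢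
    field_simp
    subst hs'
    grind
  · rw [hsl, Affine.addY, hW.negY, Affine.negAddY]
    have hd : (y₁ / x₁ + (x₁ * x₂ - W.a₄) / (x₁ * (y₁ / x₁ + y₂ / x₂))) * x₁ =
        y₁ + (x₁ * x₂ - W.a₄) / (y₁ / x₁ + y₂ / x₂) := by
      field_simp
    linear_combination hd

/-- translation by the 2-torsion point `T = (0, 0)` -/
theorem IsTwoNF.add_T (hW : IsTwoNF W) (hb : W.a₄ ≠ 0) {x y : K} (h : W.Nonsingular x y)
    (hx : x ≠ 0) :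
    ∃ h', Point.some x y h + Point.some 0 0 (hW.nonsingular_zero hb) =
      Point.some (W.a₄ / x) (-(W.a₄ * y / x ^ 2)) h' := by
  rw [Point.add_of_X_ne hx]
  have e := hW.eq_of_nonsingular h
  have hsl : W.slope x 0 y 0 = y / x := by
    rw [slope_of_X_ne hx]; simp
  apply some_congr
  · rw [hsl, Affine.addX, hW.a₁]
    field_simp
    linear_combination e
  · rw [hsl, Affine.addY, hW.negY, Affine.negAddY, Affine.addX, hW.a₁]
    field_simp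
    linear_combination (-y) * e

theorem IsTwoNF.T_add_T (hW : IsTwoNF W) (hb : W.a₄ ≠ 0) :
    Point.some 0 0 (hW.nonsingular_zero hb) + Point.some 0 0 (hW.nonsingular_zero hb) = 0 := by
  apply Point.add_of_Y_eq rfl
  rw [hW.negY]; simp

/-- the algebraic identity behind the formal group law (to first order) -/
lemma F4_identity (x₁ x₂ α₁ α₂ a b x₃ y₃ s d m : K)
    (e₁ : α₁ ^ 2 * x₁ = x₁ ^ 2 + a * x₁ + b)
    (e₂ : α₂ ^ 2 * x₂ = x₂ ^ 2 + a * x₂ + b)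
    (hx₁ : x₁ ≠ 0) (hx₂ : x₂ ≠ 0) (hs0 : s ≠ 0) (hs : s = α₁ + α₂) (hd : d = x₁ * x₂ - b)
    (hα₁ : α₁ ≠ 0) (hα₂ : α₂ ≠ 0) (hy₃0 : y₃ ≠ 0)
    (hm : m = α₁ * s + d / x₁)
    (hx₃ : x₃ * (x₁ * x₂ * s ^ 2) = d ^ 2)
    (hy₃ : y₃ = -((α₁ + d / (x₁ * s)) * x₃) + d / s) :
    (x₃ / y₃ - 1 / α₁ - 1 / α₂) * (d ^ 2 + a * d * m + b * m ^ 2) =
      -(s * (2 * b * m + a * d)) := by
  have hx₃' : x₃ = d ^ 2 / (x₁ * x₂ * s ^ 2) := by
    field_simp; linear_combination hx₃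
  have key : (x₃ * α₁ * α₂ - y₃ * (α₁ + α₂)) * (d ^ 2 + a * d * m + b * m ^ 2) =
      -(s * (2 * b * m + a * d)) * (y₃ * α₁ * α₂) := by
    rw [hy₃, hx₃', hm]
    field_simp
    subst hs hd
    clear hy₃0 hx₃ hx₃' hy₃
    grind
  field_simp
  linear_combination key

end Fermat.Agent.S05
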