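import Mathlib
import Fermat.Agent.S05.Formulas

set_option autoImplicit false
set_option linter.unusedSectionVars false
set_option linter.unusedVariables false

namespace Fermat.Agent.S05

open WeierstrassCurve WeierstrassCurve.Affine

variable {K : Type*} [Field K] [DecidableEq K]

/-- `W` is of the form `y² + x y = x³ + a₂ x² + a₄ x`, and `W'` is the curve
`η² = X³ + a₂' X² + a₄' X` obtained from it by `X = x - e`, `η = y + x / 2`, where `e` is a root of
`x³ + (a₂ + 1/4) x² + a₄ x`. -/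
structure IsShift (W W' : Affine K) (e : K) : Prop where
  two : (2 : K) ≠ 0
  a₁ : W.a₁ = 1
  a₃ : W.a₃ = 0
  a₆ : W.a₆ = 0
  nf : IsTwoNF W'
  a₂' : 4 * W'.a₂ = 4 * W.a₂ + 1 + 12 * e
  a₄' : 2 * W'.a₄ = 2 * W.a₄ + (4 * W.a₂ + 1) * e + 6 * e ^ 2
  root : 4 * e ^ 3 + (4 * W.a₂ + 1) * e ^ 2 + 4 * W.a₄ * e = 0

variable {W W' : Affine K} {e : K}

lemma IsShift.equation (h : IsShift W W' e) {x y : K} (hxy : W.Equation x y) :
    W'.Equation (x - e) (y + x / 2) := by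
  rw [h.nf.equation_iff]
  rw [Affine.equation_iff, h.a₁, h.a₃, h.a₆] at hxy
  have h2 := h.two
  have e2 := h.a₂'
  have e4 := h.a₄'
  have er := h.root
  field_simp
  linear_combination 4 * hxy + er - (x - e) ^ 2 * e2 - 2 * (x - e) * e4

lemma IsShift.nonsingular (h : IsShift W W' e) {x y : K} (hxy : W.Nonsingular x y) :
    W'.Nonsingular (x - e) (y + x / 2) := by
  rw [Affine.nonsingular_iff'] at hxy ⊢
  refine ⟨h.equation hxy.1, ?_⟩
  have h2 := h.two
  have e2 := h.a₂'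
  have e4 := h.a₄'
  have er := h.root
  rw [h.a₁, h.a₃] at hxy
  rw [h.nf.a₁, h.nf.a₃]
  by_contra hcon
  simp only [not_or, not_not] at hcon
  obtain ⟨c1, c2⟩ := hcon
  have hY : 2 * y + x = 0 := by
    have : 2 * (y + x / 2) = 2 * y + x := by field_simp
    rw [← this]; linear_combination c2
  rcases hxy.2 with h1 | h1
  · apply h1
    have h4 : (4 : K) ≠ 0 := by
      have : (4 : K) = 2 * 2 := by norm_num
      rw [this]; exact mul_ne_zero h2 h2
    apply mul_left_cancel₀ h4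
    linear_combination 4 * c1 + 2 * (x - e) * e2 + 2 * e4 + 2 * hY
  · exact h1 (by linear_combination hY)

lemma IsShift.negY (h : IsShift W W' e) (x y : K) :
    W'.negY (x - e) (y + x / 2) = W.negY x y + x / 2 := by
  rw [h.nf.negY]
  simp only [Affine.negY, h.a₁, h.a₃]
  have h2 := h.two
  field_simp
  ring

lemma IsShift.negY_iff (h : IsShift W W' e) (x₁ x₂ y₁ y₂ : K) :
    (x₁ - e = x₂ - e ∧ y₁ + x₁ / 2 = W'.negY (x₂ - e) (y₂ + x₂ / 2)) ↔
      (x₁ = x₂ ∧ y₁ = W.negY x₂ y₂) := by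
  rw [h.negY]
  constructor
  · rintro ⟨hx, hy⟩
    have hx' : x₁ = x₂ := by linear_combination hx
    subst hx'
    exact ⟨rfl, by linear_combination hy⟩
  · rintro ⟨hx, hy⟩
    subst hx
    exact ⟨rfl, by rw [hy]⟩

lemma IsShift.slope (h : IsShift W W' e) {x₁ x₂ y₁ y₂ : K} (h₁ : W.Equation x₁ y₁)
    (h₂ : W.Equation x₂ y₂) (hxy : ¬(x₁ = x₂ ∧ y₁ = W.negY x₂ y₂)) :
    W'.slope (x₁ - e) (x₂ - e) (y₁ + x₁ / 2) (y₂ + x₂ / 2) = W.slope x₁ x₂ y₁ y₂ + 1 / 2 := by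
  have h2 := h.two
  have e2 := h.a₂'
  have e4 := h.a₄'
  by_cases hx : x₁ = x₂
  · subst hx
    have hy : y₁ ≠ W.negY x₁ y₂ := fun hy => hxy ⟨rfl, hy⟩
    have hy' : y₁ + x₁ / 2 ≠ W'.negY (x₁ - e) (y₂ + x₁ / 2) := by
      intro hcon
      exact hxy ((h.negY_iff x₁ x₁ y₁ y₂).mp ⟨rfl, hcon⟩)
    have hyy : y₁ = y₂ := Affine.Y_eq_of_Y_ne h₁ h₂ rfl hy
    subst hyy
    rw [Affine.slope_of_Y_ne rfl hy, Affine.slope_of_Y_ne rfl hy']
    rw [h.negY] at hy' ⊢
    have hd : y₁ - W.negY x₁ y₁ ≠ 0 := sub_ne_zero.mpr hy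
    have hd' : y₁ + x₁ / 2 - (W.negY x₁ y₁ + x₁ / 2) ≠ 0 := sub_ne_zero.mpr hy'
    rw [h.nf.a₁, h.a₁]
    simp only [Affine.negY, h.a₁, h.a₃] at hd hd' ⊢
    have h4 : (4 : K) ≠ 0 := by
      have : (4 : K) = 2 * 2 := by norm_num
      rw [this]; exact mul_ne_zero h2 h2
    have ea2 : W'.a₂ = (4 * W.a₂ + 1 + 12 * e) / 4 := by field_simp; linear_combination e2
    have ea4 : W'.a₄ = (2 * W.a₄ + (4 * W.a₂ + 1) * e + 6 * e ^ 2) / 2 := by
      field_simp; linear_combination e4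
    rw [ea2, ea4]
    have hd2 : y₁ + x₁ / 2 - (-y₁ - 1 * x₁ - 0 + x₁ / 2) = 2 * y₁ + x₁ := by ring
    have hd3 : y₁ - (-y₁ - 1 * x₁ - 0) = 2 * y₁ + x₁ := by ring
    rw [hd3] at hd
    rw [hd2, hd3]
    field_simp
    ring
  · have hx' : x₁ - e ≠ x₂ - e := fun hcon => hx (by linear_combination hcon)
    rw [Affine.slope_of_X_ne hx, Affine.slope_of_X_ne hx']
    have hd : x₁ - x₂ ≠ 0 := sub_ne_zero.mpr hx
    have hd' : x₁ - e - (x₂ - e) = x₁ - x₂ := by ring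
    rw [hd']
    field_simp
    ring

lemma IsShift.addX (h : IsShift W W' e) (x₁ x₂ ℓ : K) :
    W'.addX (x₁ - e) (x₂ - e) (ℓ + 1 / 2) = W.addX x₁ x₂ ℓ - e := by
  have h2 := h.two
  have e2 := h.a₂'
  have h4 : (4 : K) ≠ 0 := by
    have : (4 : K) = 2 * 2 := by norm_num
    rw [this]; exact mul_ne_zero h2 h2
  have ea2 : W'.a₂ = (4 * W.a₂ + 1 + 12 * e) / 4 := by field_simp; linear_combination e2
  simp only [Affine.addX, h.a₁, h.nf.a₁, ea2]
  field_simp
  ring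

lemma IsShift.addY (h : IsShift W W' e) (x₁ x₂ y₁ ℓ : K) :
    W'.addY (x₁ - e) (x₂ - e) (y₁ + x₁ / 2) (ℓ + 1 / 2) =
      W.addY x₁ x₂ y₁ ℓ + W.addX x₁ x₂ ℓ / 2 := by
  have h2 := h.two
  simp only [Affine.addY, Affine.negAddY, h.addX]
  rw [h.nf.negY]
  simp only [Affine.negY, h.a₁, h.a₃]
  field_simp
  ring

/-- the transport map on points -/
noncomputable def IsShift.toFun (h : IsShift W W' e) : W.Point → W'.Point
  | 0 => 0
  | .some x y hxy => .some (x - e) (y + x / 2) (h.nonsingular hxy)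

/-- the transport map as an additive homomorphism -/
noncomputable def IsShift.hom (h : IsShift W W' e) : W.Point →+ W'.Point where
  toFun := h.toFun
  map_zero' := rfl
  map_add' := by
    rintro (_ | ⟨x₁, y₁, h₁⟩) (_ | ⟨x₂, y₂, h₂⟩)
    any_goals rfl
    by_cases hxy : x₁ = x₂ ∧ y₁ = W.negY x₂ y₂
    · rw [Point.add_of_Y_eq hxy.left hxy.right]
      have := (h.negY_iff x₁ x₂ y₁ y₂).mpr hxy
      simp only [IsShift.toFun]
      rw [Point.add_of_Y_eq this.1 this.2]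
    · have hxy' : ¬(x₁ - e = x₂ - e ∧ y₁ + x₁ / 2 = W'.negY (x₂ - e) (y₂ + x₂ / 2)) :=
        fun hcon => hxy ((h.negY_iff x₁ x₂ y₁ y₂).mp hcon)
      rw [Point.add_some hxy]
      simp only [IsShift.toFun]
      rw [Point.add_some hxy']
      rw [Point.some.injEq]
      rw [h.slope h₁.1 h₂.1 hxy, h.addX, h.addY]
      exact ⟨rfl, rfl⟩

lemma IsShift.hom_some (h : IsShift W W' e) {x y : K} (hxy : W.Nonsingular x y) :
    h.hom (Point.some x y hxy) = Point.some (x - e) (y + x / 2) (h.nonsingular hxy) := rfl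

lemma IsShift.hom_injective (h : IsShift W W' e) : Function.Injective h.hom := by
  rintro (_ | ⟨x₁, y₁, h₁⟩) (_ | ⟨x₂, y₂, h₂⟩) hPQ
  · rfl
  · exact absurd hPQ (by rw [IsShift.hom_some]; exact (Point.some_ne_zero _).symm)
  · exact absurd hPQ (by rw [IsShift.hom_some]; exact (Point.some_ne_zero _))
  · rw [IsShift.hom_some, IsShift.hom_some, Point.some.injEq] at hPQ
    obtain ⟨hx, hy⟩ := hPQ
    have hx' : x₁ = x₂ := by linear_combination hx
    subst hx'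
    have hy' : y₁ = y₂ := by linear_combination hy
    subst hy'
    rfl

end Fermat.Agent.S05
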