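import Mathlib.Tactic
import Fermat.Prelude.Def_FLTPrelim_FreyPackage
import Fermat.Prelude.Def_FLTPrelim_Ramification
import Fermat.Prelude.Def_FLTPrelim_GaloisRep
import Fermat.Agent.S04.Wiring
import Fermat.Agent.S05.helper92_Inertia

/-!
# S05 glue (helper92): the Frey curve over `Qbar`, local data at an odd prime `q`

Everything is stated for the Weierstrass curve `(P.freyCurve)⁄K`, `K` a field extension of `ℚ`
(in the application `K = AlgebraicClosure ℚ`), in the original model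
`y² + x y = x³ + a₂ x² + a₄ x`.
-/

set_option autoImplicit false
set_option linter.unusedSectionVars false

open WeierstrassCurve WeierstrassCurve.Affine

namespace Fermat.Agent.S05.helper92

section Coefficients

variable (P : FreyPackage) (K : Type*) [Field K]

/-- `A = a^p` in `K`. -/
abbrev fA : K := ((P.a : ℤ) : K) ^ P.p
/-- `B = b^p` in `K`. -/
abbrev fB : K := ((P.b : ℤ) : K) ^ P.p
/-- `C = c^p` in `K`. -/
abbrev fC : K := ((P.c : ℤ) : K) ^ P.p

theorem fA_add_fB : fA P K + fB P K = fC P K := by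
  have h := congrArg (fun z : ℤ => (z : K)) P.hFLT
  simpa using h

variable [Algebra ℚ K]

/-- The base-changed Frey curve. -/
abbrev freyK : Affine K := (P.freyCurve : Affine ℚ)⁄K

theorem freyK_eq_map_int :
    freyK P K = (P.freyCurveInt.map (Int.castRingHom K) : WeierstrassCurve K) := by
  have h := Fermat.Agent.S04.freyCurveInt_map P
  have h2 : freyK P K = (P.freyCurveInt.map (Int.castRingHom ℚ)).map (algebraMap ℚ K) := by
    rw [h]
    rfl
  rw [h2, WeierstrassCurve.map_map]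
  congr 1
  exact RingHom.ext_int _ _

theorem freyK_a₁ : (freyK P K).a₁ = 1 := by
  rw [freyK_eq_map_int]; simp [FreyPackage.freyCurveInt]

theorem freyK_a₃ : (freyK P K).a₃ = 0 := by
  rw [freyK_eq_map_int]; simp [FreyPackage.freyCurveInt]

theorem freyK_a₆ : (freyK P K).a₆ = 0 := by
  rw [freyK_eq_map_int]; simp [FreyPackage.freyCurveInt]

theorem freyK_a₂ : (freyK P K).a₂ = ((P.freyCurveInt.a₂ : ℤ) : K) := by
  rw [freyK_eq_map_int]; simp

theorem freyK_a₄ : (freyK P K).a₄ = ((P.freyCurveInt.a₄ : ℤ) : K) := by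
  rw [freyK_eq_map_int]; simp

theorem four_mul_freyK_a₂ : 4 * (freyK P K).a₂ = fB P K - 1 - fA P K := by
  rw [freyK_a₂]
  have h := congrArg (fun z : ℤ => (z : K)) (Fermat.Agent.S04.four_mul_a₂ P)
  simpa using h

theorem sixteen_mul_freyK_a₄ : 16 * (freyK P K).a₄ = -(fA P K * fB P K) := by
  rw [freyK_a₄]
  have h := congrArg (fun z : ℤ => (z : K)) (Fermat.Agent.S04.sixteen_mul_a₄ P)
  simpa using h

theorem freyK_a₂_mem (A : ValuationSubring K) : (freyK P K).a₂ ∈ A := by
  rw [freyK_a₂]; exact intCast_mem A _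

theorem freyK_a₄_mem (A : ValuationSubring K) : (freyK P K).a₄ ∈ A := by
  rw [freyK_a₄]; exact intCast_mem A _

theorem freyK_a₁_mem (A : ValuationSubring K) : (freyK P K).a₁ ∈ A := by
  rw [freyK_a₁]; exact A.one_mem

theorem freyK_a₃_mem (A : ValuationSubring K) : (freyK P K).a₃ ∈ A := by
  rw [freyK_a₃]; exact A.zero_mem

theorem freyK_a₆_mem (A : ValuationSubring K) : (freyK P K).a₆ ∈ A := by
  rw [freyK_a₆]; exact A.zero_mem

/-- The Weierstrass equation of the Frey curve, with the square completed. -/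
theorem freyK_equation_iff [CharZero K] (x y : K) :
    (freyK P K).Equation x y ↔
      (y + x / 2) ^ 2 = x * (x - fA P K / 4) * (x + fB P K / 4) := by
  rw [WeierstrassCurve.Affine.equation_iff, freyK_a₁, freyK_a₃, freyK_a₆]
  have h2 := four_mul_freyK_a₂ P K
  have h4 := sixteen_mul_freyK_a₄ P K
  constructor
  · intro h
    linear_combination h + (x ^ 2 / 4) * h2 + (x / 16) * h4
  · intro h
    linear_combination h - (x ^ 2 / 4) * h2 - (x / 16) * h4

theorem freyK_evalEval_polynomialY [CharZero K] (x y : K) :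
    (freyK P K).polynomialY.evalEval x y = 2 * (y + x / 2) := by
  rw [WeierstrassCurve.Affine.evalEval_polynomialY, freyK_a₁, freyK_a₃]
  ring

/-- `W_X = η - f'(x)` with `η = y + x/2` and `f = x (x - A/4) (x + B/4)`. -/
theorem freyK_evalEval_polynomialX [CharZero K] (x y : K) :
    (freyK P K).polynomialX.evalEval x y =
      (y + x / 2) - ((x - fA P K / 4) * (x + fB P K / 4) + x * (x + fB P K / 4) +
        x * (x - fA P K / 4)) := by
  rw [WeierstrassCurve.Affine.evalEval_polynomialX, freyK_a₁]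
  have h2 := four_mul_freyK_a₂ P K
  have h4 := sixteen_mul_freyK_a₄ P K
  linear_combination (-(x / 2)) * h2 - (1 / 16) * h4

end Coefficients

section ValuationBasics

variable {K : Type*} [Field K] {A : ValuationSubring K}

/-- The maximal ideal of a valuation subring is prime. -/
theorem mem_nonunits_or_of_mul_mem {x y : K} (hx : x ∈ A) (hy : y ∈ A)
    (h : x * y ∈ A.nonunits) : x ∈ A.nonunits ∨ y ∈ A.nonunits := by
  by_contra hcon
  rw [not_or] at hcon
  obtain ⟨h1, h2⟩ := hcon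
  rw [ValuationSubring.mem_nonunits_iff] at h h1 h2
  have hx1 : A.valuation x = 1 :=
    le_antisymm ((A.valuation_le_one_iff x).2 hx) (not_lt.1 h1)
  have hy1 : A.valuation y = 1 :=
    le_antisymm ((A.valuation_le_one_iff y).2 hy) (not_lt.1 h2)
  rw [map_mul, hx1, hy1, mul_one] at h
  exact lt_irrefl _ h

theorem mem_nonunits_of_pow_mem {x : K} (hx : x ∈ A) {n : ℕ} (h : x ^ n ∈ A.nonunits) :
    x ∈ A.nonunits := by
  induction n with
  | zero => exact absurd (by simpa using h) (one_not_mem_nonunits A)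
  | succ k ih =>
    rw [pow_succ] at h
    rcases mem_nonunits_or_of_mul_mem (pow_mem hx k) hx h with h1 | h1
    · exact ih h1
    · exact h1

theorem pow_mem_nonunits {x : K} (h : x ∈ A.nonunits) {n : ℕ} (hn : n ≠ 0) :
    x ^ n ∈ A.nonunits := by
  obtain ⟨k, rfl⟩ := Nat.exists_eq_succ_of_ne_zero hn
  rw [pow_succ]
  exact mul_mem_nonunits' (pow_mem (mem_of_mem_nonunits h) k) h

/-- A unit times a non-unit is a non-unit; dividing by a unit. -/
theorem div_mem_of_mem {x u : K} (hx : x ∈ A) (hu : u⁻¹ ∈ A) : x / u ∈ A := by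
  rw [div_eq_mul_inv]; exact A.mul_mem _ _ hx hu

theorem div_mem_nonunits {x u : K} (hx : x ∈ A.nonunits) (hu : u⁻¹ ∈ A) :
    x / u ∈ A.nonunits := by
  rw [div_eq_mul_inv]; exact mul_mem_nonunits hx hu

theorem mem_nonunits_of_div_mem_nonunits {x u : K} (hu : u ∈ A) (hu0 : u ≠ 0)
    (h : x / u ∈ A.nonunits) : x ∈ A.nonunits := by
  have : x = x / u * u := by field_simp
  rw [this]
  exact mul_mem_nonunits h hu

theorem sub_mem_nonunits_iff_left {x y : K} (hy : y ∈ A.nonunits) :
    x - y ∈ A.nonunits ↔ x ∈ A.nonunits := by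
  constructor
  · intro h
    have : x = (x - y) + y := by ring
    rw [this]; exact A.nonunits.add_mem h hy
  · intro h
    exact A.nonunits.sub_mem h hy

theorem add_mem_nonunits_iff_left {x y : K} (hy : y ∈ A.nonunits) :
    x + y ∈ A.nonunits ↔ x ∈ A.nonunits := by
  constructor
  · intro h
    have : x = (x + y) - y := by ring
    rw [this]; exact A.nonunits.sub_mem h hy
  · intro h
    exact A.nonunits.add_mem h hy

end ValuationBasics

section FreyLocal

variable (P : FreyPackage) {K : Type*} [Field K] [Algebra ℚ K] [CharZero K]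
  {A : ValuationSubring K} {q : ℕ}

omit [Algebra ℚ K] [CharZero K] in
theorem fA_mem : fA P K ∈ A := pow_mem (intCast_mem A _) _
omit [Algebra ℚ K] [CharZero K] in
theorem fB_mem : fB P K ∈ A := pow_mem (intCast_mem A _) _
omit [Algebra ℚ K] [CharZero K] in
theorem fC_mem : fC P K ∈ A := pow_mem (intCast_mem A _) _

omit [Algebra ℚ K] [CharZero K] in
theorem fA_mem_nonunits_iff (hq : q.Prime) (hA : A.LiesOverPrime q) :
    fA P K ∈ A.nonunits ↔ (q : ℤ) ∣ P.a := by
  constructor
  · intro h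
    exact (intCast_mem_nonunits_iff hq hA _).1 (mem_nonunits_of_pow_mem (intCast_mem A _) h)
  · intro h
    exact pow_mem_nonunits ((intCast_mem_nonunits_iff hq hA _).2 h) P.hp0

omit [Algebra ℚ K] [CharZero K] in
theorem fB_mem_nonunits_iff (hq : q.Prime) (hA : A.LiesOverPrime q) :
    fB P K ∈ A.nonunits ↔ (q : ℤ) ∣ P.b := by
  constructor
  · intro h
    exact (intCast_mem_nonunits_iff hq hA _).1 (mem_nonunits_of_pow_mem (intCast_mem A _) h)
  · intro h
    exact pow_mem_nonunits ((intCast_mem_nonunits_iff hq hA _).2 h) P.hp0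

omit [Algebra ℚ K] [CharZero K] in
theorem fC_mem_nonunits_iff (hq : q.Prime) (hA : A.LiesOverPrime q) :
    fC P K ∈ A.nonunits ↔ (q : ℤ) ∣ P.c := by
  constructor
  · intro h
    exact (intCast_mem_nonunits_iff hq hA _).1 (mem_nonunits_of_pow_mem (intCast_mem A _) h)
  · intro h
    exact pow_mem_nonunits ((intCast_mem_nonunits_iff hq hA _).2 h) P.hp0

omit [Algebra ℚ K] [CharZero K] in
theorem inv_two_mem (hq : q.Prime) (hA : A.LiesOverPrime q) (hq2 : q ≠ 2) : (2 : K)⁻¹ ∈ A := by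
  have h := two_not_mem_nonunits hq hA hq2
  rw [ValuationSubring.mem_nonunits_iff_or, not_or, not_not] at h
  exact h.2

omit [Algebra ℚ K] [CharZero K] in
theorem inv_four_mem (hq : q.Prime) (hA : A.LiesOverPrime q) (hq2 : q ≠ 2) : (4 : K)⁻¹ ∈ A := by
  have h := inv_two_mem hq hA hq2
  have : (4 : K)⁻¹ = (2 : K)⁻¹ * (2 : K)⁻¹ := by rw [← mul_inv]; norm_num
  rw [this]; exact A.mul_mem _ _ h h

omit [Algebra ℚ K] [CharZero K] in
theorem inv_sixteen_mem (hq : q.Prime) (hA : A.LiesOverPrime q) (hq2 : q ≠ 2) :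
    (16 : K)⁻¹ ∈ A := by
  have h := inv_four_mem hq hA hq2
  have : (16 : K)⁻¹ = (4 : K)⁻¹ * (4 : K)⁻¹ := by rw [← mul_inv]; norm_num
  rw [this]; exact A.mul_mem _ _ h h


/-! ### Coprimality -/

omit [Algebra ℚ K] [CharZero K] in
theorem not_dvd_of_gcd_eq_one {a b : ℤ} (h : gcd a b = 1) (hq : q.Prime)
    (ha : (q : ℤ) ∣ a) : ¬ (q : ℤ) ∣ b := by
  intro hb
  have h1 : (q : ℤ) ∣ gcd a b := dvd_gcd ha hb
  rw [h] at h1
  have h2 : q ∣ 1 := by exact_mod_cast h1
  exact hq.one_lt.ne' (Nat.dvd_one.1 h2)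

omit [Algebra ℚ K] [CharZero K] in
theorem not_dvd_b_of_dvd_a (hq : q.Prime) (h : (q : ℤ) ∣ P.a) : ¬ (q : ℤ) ∣ P.b :=
  not_dvd_of_gcd_eq_one P.hgcdab hq h

omit [Algebra ℚ K] [CharZero K] in
theorem not_dvd_c_of_dvd_a (hq : q.Prime) (h : (q : ℤ) ∣ P.a) : ¬ (q : ℤ) ∣ P.c :=
  not_dvd_of_gcd_eq_one P.hgcdac hq h

omit [Algebra ℚ K] [CharZero K] in
theorem not_dvd_a_of_dvd_b (hq : q.Prime) (h : (q : ℤ) ∣ P.b) : ¬ (q : ℤ) ∣ P.a :=
  fun h' => not_dvd_b_of_dvd_a P hq h' h

omit [Algebra ℚ K] [CharZero K] in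
theorem not_dvd_c_of_dvd_b (hq : q.Prime) (h : (q : ℤ) ∣ P.b) : ¬ (q : ℤ) ∣ P.c :=
  not_dvd_of_gcd_eq_one P.hgcdbc hq h

omit [Algebra ℚ K] [CharZero K] in
theorem not_dvd_a_of_dvd_c (hq : q.Prime) (h : (q : ℤ) ∣ P.c) : ¬ (q : ℤ) ∣ P.a :=
  fun h' => not_dvd_c_of_dvd_a P hq h' h

omit [Algebra ℚ K] [CharZero K] in
theorem not_dvd_b_of_dvd_c (hq : q.Prime) (h : (q : ℤ) ∣ P.c) : ¬ (q : ℤ) ∣ P.b :=
  fun h' => not_dvd_c_of_dvd_b P hq h' h

omit [Algebra ℚ K] [CharZero K] in
theorem dvd_abc_iff (hq : q.Prime) :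
    (q : ℤ) ∣ P.a * P.b * P.c ↔ (q : ℤ) ∣ P.a ∨ (q : ℤ) ∣ P.b ∨ (q : ℤ) ∣ P.c := by
  have hq' : Prime (q : ℤ) := Nat.prime_iff_prime_int.1 hq
  rw [hq'.dvd_mul, hq'.dvd_mul, or_assoc]

omit [Algebra ℚ K] [CharZero K] in
theorem dvd_ab_iff (hq : q.Prime) :
    (q : ℤ) ∣ P.a * P.b ↔ (q : ℤ) ∣ P.a ∨ (q : ℤ) ∣ P.b :=
  (Nat.prime_iff_prime_int.1 hq).dvd_mul

/-! ### Singular reduction of integral points -/

omit [Algebra ℚ K] [CharZero K] in
/-- Membership of products `A*B`, `A*C`, `B*C` in the maximal ideal. -/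
theorem fA_mul_fB_mem_nonunits_iff (hq : q.Prime) (hA : A.LiesOverPrime q) :
    fA P K * fB P K ∈ A.nonunits ↔ (q : ℤ) ∣ P.a ∨ (q : ℤ) ∣ P.b := by
  rw [← fA_mem_nonunits_iff P hq hA, ← fB_mem_nonunits_iff P hq hA]
  constructor
  · exact mem_nonunits_or_of_mul_mem (fA_mem P) (fB_mem P)
  · rintro (h | h)
    · exact mul_mem_nonunits h (fB_mem P)
    · exact mul_mem_nonunits' (fA_mem P) h

omit [Algebra ℚ K] [CharZero K] in
theorem fA_mul_fC_mem_nonunits_iff (hq : q.Prime) (hA : A.LiesOverPrime q) :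
    fA P K * fC P K ∈ A.nonunits ↔ (q : ℤ) ∣ P.a ∨ (q : ℤ) ∣ P.c := by
  rw [← fA_mem_nonunits_iff P hq hA, ← fC_mem_nonunits_iff P hq hA]
  constructor
  · exact mem_nonunits_or_of_mul_mem (fA_mem P) (fC_mem P)
  · rintro (h | h)
    · exact mul_mem_nonunits h (fC_mem P)
    · exact mul_mem_nonunits' (fA_mem P) h

omit [Algebra ℚ K] [CharZero K] in
theorem fB_mul_fC_mem_nonunits_iff (hq : q.Prime) (hA : A.LiesOverPrime q) :
    fB P K * fC P K ∈ A.nonunits ↔ (q : ℤ) ∣ P.b ∨ (q : ℤ) ∣ P.c := by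
  rw [← fB_mem_nonunits_iff P hq hA, ← fC_mem_nonunits_iff P hq hA]
  constructor
  · exact mem_nonunits_or_of_mul_mem (fB_mem P) (fC_mem P)
  · rintro (h | h)
    · exact mul_mem_nonunits h (fC_mem P)
    · exact mul_mem_nonunits' (fB_mem P) h

/-- `η = y + x/2` lies in the maximal ideal as soon as `W_Y` does (`q` odd). -/
theorem eta_mem_nonunits (hq : q.Prime) (hA : A.LiesOverPrime q) (hq2 : q ≠ 2) {x y : K}
    (hY : (freyK P K).polynomialY.evalEval x y ∈ A.nonunits) :
    y + x / 2 ∈ A.nonunits := by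
  rw [freyK_evalEval_polynomialY] at hY
  have h := div_mem_nonunits hY (inv_two_mem hq hA hq2)
  have h2 : (2 : K) ≠ 0 := two_ne_zero
  have : 2 * (y + x / 2) / 2 = y + x / 2 := by field_simp
  rwa [this] at h

/-- **Singular reduction, location of the node**: if an integral point of the Frey curve has
singular reduction at a place over the odd prime `q`, then `x` is congruent to one of the three
roots `0`, `A/4`, `-B/4`, and the derivative of the cubic at that root is a non-unit. -/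
theorem freyK_singular_cases (hq : q.Prime) (hA : A.LiesOverPrime q) (hq2 : q ≠ 2) {x y : K}
    (hx : x ∈ A) (h : (freyK P K).Equation x y)
    (hX : (freyK P K).polynomialX.evalEval x y ∈ A.nonunits)
    (hY : (freyK P K).polynomialY.evalEval x y ∈ A.nonunits) :
    (x ∈ A.nonunits ∧ ((q : ℤ) ∣ P.a ∨ (q : ℤ) ∣ P.b)) ∨
    (x - fA P K / 4 ∈ A.nonunits ∧ ((q : ℤ) ∣ P.a ∨ (q : ℤ) ∣ P.c)) ∨
    (x + fB P K / 4 ∈ A.nonunits ∧ ((q : ℤ) ∣ P.b ∨ (q : ℤ) ∣ P.c)) := by
  have hη := eta_mem_nonunits P hq hA hq2 hY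
  have h4 := inv_four_mem (K := K) hq hA hq2
  have h16 := inv_sixteen_mem (K := K) hq hA hq2
  have hA4 : fA P K / 4 ∈ A := div_mem_of_mem (fA_mem P) h4
  have hB4 : fB P K / 4 ∈ A := div_mem_of_mem (fB_mem P) h4
  have hC4 : fC P K / 4 ∈ A := div_mem_of_mem (fC_mem P) h4
  have hu : x ∈ A := hx
  have hv : x - fA P K / 4 ∈ A := sub_mem hx hA4
  have hw : x + fB P K / 4 ∈ A := A.add_mem _ _ hx hB4
  have hABC : fA P K + fB P K = fC P K := fA_add_fB P K
  -- f'(x) ∈ m
  have hf' : (x - fA P K / 4) * (x + fB P K / 4) + x * (x + fB P K / 4) +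
      x * (x - fA P K / 4) ∈ A.nonunits := by
    rw [freyK_evalEval_polynomialX] at hX
    have := A.nonunits.sub_mem hη hX
    have e : (y + x / 2) - ((y + x / 2) - ((x - fA P K / 4) * (x + fB P K / 4) +
        x * (x + fB P K / 4) + x * (x - fA P K / 4))) =
        (x - fA P K / 4) * (x + fB P K / 4) + x * (x + fB P K / 4) +
        x * (x - fA P K / 4) := by ring
    rwa [e] at this
  -- f(x) ∈ m
  have hf : x * (x - fA P K / 4) * (x + fB P K / 4) ∈ A.nonunits := by
    rw [freyK_equation_iff] at h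
    rw [← h]
    exact pow_mem_nonunits hη two_ne_zero
  rcases mem_nonunits_or_of_mul_mem (A.mul_mem _ _ hu hv) hw hf with h1 | h1
  · rcases mem_nonunits_or_of_mul_mem hu hv h1 with h2 | h2
    · -- x ∈ m
      left
      refine ⟨h2, ?_⟩
      rw [← fA_mul_fB_mem_nonunits_iff P hq hA]
      -- v*w ∈ m
      have h3 : (x - fA P K / 4) * (x + fB P K / 4) ∈ A.nonunits := by
        have t1 : x * (x + fB P K / 4) ∈ A.nonunits := mul_mem_nonunits h2 hw
        have t2 : x * (x - fA P K / 4) ∈ A.nonunits := mul_mem_nonunits h2 hv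
        have := A.nonunits.sub_mem (A.nonunits.sub_mem hf' t2) t1
        have e : (x - fA P K / 4) * (x + fB P K / 4) + x * (x + fB P K / 4) +
            x * (x - fA P K / 4) - x * (x - fA P K / 4) - x * (x + fB P K / 4) =
            (x - fA P K / 4) * (x + fB P K / 4) := by ring
        rwa [e] at this
      -- v*w = x*(x + B/4 - A/4) - AB/16
      have t3 : x * (x + fB P K / 4 - fA P K / 4) ∈ A.nonunits :=
        mul_mem_nonunits h2 (sub_mem hw hA4)
      have := A.nonunits.sub_mem t3 h3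
      have e : x * (x + fB P K / 4 - fA P K / 4) - (x - fA P K / 4) * (x + fB P K / 4) =
          fA P K * fB P K / 16 := by ring
      rw [e] at this
      exact mem_nonunits_of_div_mem_nonunits (by norm_num : (16 : K) ∈ A) (by norm_num) this
    · -- x - A/4 ∈ m
      right; left
      refine ⟨h2, ?_⟩
      rw [← fA_mul_fC_mem_nonunits_iff P hq hA]
      have h3 : x * (x + fB P K / 4) ∈ A.nonunits := by
        have t1 : (x - fA P K / 4) * (x + fB P K / 4) ∈ A.nonunits := mul_mem_nonunits h2 hw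
        have t2 : x * (x - fA P K / 4) ∈ A.nonunits := mul_mem_nonunits' hu h2
        have := A.nonunits.sub_mem (A.nonunits.sub_mem hf' t2) t1
        have e : (x - fA P K / 4) * (x + fB P K / 4) + x * (x + fB P K / 4) +
            x * (x - fA P K / 4) - x * (x - fA P K / 4) - (x - fA P K / 4) * (x + fB P K / 4) =
            x * (x + fB P K / 4) := by ring
        rwa [e] at this
      -- u*w = v*(v + A/4 + C/4) + AC/16
      have t3 : (x - fA P K / 4) * (x + fB P K / 4 + fA P K / 4) ∈ A.nonunits :=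
        mul_mem_nonunits h2 (A.add_mem _ _ hw hA4)
      have := A.nonunits.sub_mem h3 t3
      have e : x * (x + fB P K / 4) - (x - fA P K / 4) * (x + fB P K / 4 + fA P K / 4) =
          fA P K * fC P K / 16 := by rw [← hABC]; ring
      rw [e] at this
      exact mem_nonunits_of_div_mem_nonunits (by norm_num : (16 : K) ∈ A) (by norm_num) this
  · -- x + B/4 ∈ m
    right; right
    refine ⟨h1, ?_⟩
    rw [← fB_mul_fC_mem_nonunits_iff P hq hA]
    have h3 : x * (x - fA P K / 4) ∈ A.nonunits := by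
      have t1 : (x - fA P K / 4) * (x + fB P K / 4) ∈ A.nonunits := mul_mem_nonunits' hv h1
      have t2 : x * (x + fB P K / 4) ∈ A.nonunits := mul_mem_nonunits' hu h1
      have := A.nonunits.sub_mem (A.nonunits.sub_mem hf' t2) t1
      have e : (x - fA P K / 4) * (x + fB P K / 4) + x * (x + fB P K / 4) +
          x * (x - fA P K / 4) - x * (x + fB P K / 4) - (x - fA P K / 4) * (x + fB P K / 4) =
          x * (x - fA P K / 4) := by ring
      rwa [e] at this
    -- u*v = w*(w - B/4 - C/4) + BC/16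
    have t3 : (x + fB P K / 4) * (x - fA P K / 4 - fB P K / 4) ∈ A.nonunits :=
      mul_mem_nonunits h1 (sub_mem hv hB4)
    have := A.nonunits.sub_mem h3 t3
    have e : x * (x - fA P K / 4) - (x + fB P K / 4) * (x - fA P K / 4 - fB P K / 4) =
        fB P K * fC P K / 16 := by rw [← hABC]; ring
    rw [e] at this
    exact mem_nonunits_of_div_mem_nonunits (by norm_num : (16 : K) ∈ A) (by norm_num) this

/-- **Good reduction**: for an odd prime `q ∤ abc`, every integral point of the Frey curve has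
nonsingular reduction at every place over `q`. -/
theorem freyK_good_reduction (hq : q.Prime) (hA : A.LiesOverPrime q) (hq2 : q ≠ 2)
    (hqabc : ¬ (q : ℤ) ∣ P.a * P.b * P.c) {x y : K} (hx : x ∈ A)
    (h : (freyK P K).Equation x y) :
    (freyK P K).polynomialX.evalEval x y ∉ A.nonunits ∨
      (freyK P K).polynomialY.evalEval x y ∉ A.nonunits := by
  by_contra hcon
  rw [not_or, not_not, not_not] at hcon
  rw [dvd_abc_iff P hq] at hqabc
  rcases freyK_singular_cases P hq hA hq2 hx h hcon.1 hcon.2 with h1 | h1 | h1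
  · rcases h1.2 with h2 | h2
    · exact hqabc (Or.inl h2)
    · exact hqabc (Or.inr (Or.inl h2))
  · rcases h1.2 with h2 | h2
    · exact hqabc (Or.inl h2)
    · exact hqabc (Or.inr (Or.inr h2))
  · rcases h1.2 with h2 | h2
    · exact hqabc (Or.inr (Or.inl h2))
    · exact hqabc (Or.inr (Or.inr h2))

/-- **Node location, case `q ∣ ab`**: an integral point with singular reduction has
`x ∈ 𝔪` (and `η = y + x/2 ∈ 𝔪`). -/
theorem freyK_node_ab (hq : q.Prime) (hA : A.LiesOverPrime q) (hq2 : q ≠ 2)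
    (hqab : (q : ℤ) ∣ P.a * P.b) {x y : K} (hx : x ∈ A)
    (h : (freyK P K).Equation x y)
    (hX : (freyK P K).polynomialX.evalEval x y ∈ A.nonunits)
    (hY : (freyK P K).polynomialY.evalEval x y ∈ A.nonunits) :
    x ∈ A.nonunits ∧ y + x / 2 ∈ A.nonunits := by
  refine ⟨?_, eta_mem_nonunits P hq hA hq2 hY⟩
  have h4 := inv_four_mem (K := K) hq hA hq2
  rw [dvd_ab_iff P hq] at hqab
  rcases freyK_singular_cases P hq hA hq2 hx h hX hY with h1 | h1 | h1
  · exact h1.1
  · -- x - A/4 ∈ m, q ∣ a or q ∣ c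
    rcases hqab with ha | hb
    · -- A ∈ m
      have hAm : fA P K / 4 ∈ A.nonunits :=
        div_mem_nonunits ((fA_mem_nonunits_iff P hq hA).2 ha) h4
      exact (sub_mem_nonunits_iff_left hAm).1 h1.1
    · rcases h1.2 with h2 | h2
      · exact absurd h2 (not_dvd_a_of_dvd_b P hq hb)
      · exact absurd h2 (not_dvd_c_of_dvd_b P hq hb)
  · rcases hqab with ha | hb
    · rcases h1.2 with h2 | h2
      · exact absurd h2 (not_dvd_b_of_dvd_a P hq ha)
      · exact absurd h2 (not_dvd_c_of_dvd_a P hq ha)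
    · have hBm : fB P K / 4 ∈ A.nonunits :=
        div_mem_nonunits ((fB_mem_nonunits_iff P hq hA).2 hb) h4
      exact (add_mem_nonunits_iff_left hBm).1 h1.1

/-- **Node location, case `q ∣ c`**: an integral point with singular reduction has
`x - A/4 ∈ 𝔪` (and `η = y + x/2 ∈ 𝔪`). -/
theorem freyK_node_c (hq : q.Prime) (hA : A.LiesOverPrime q) (hq2 : q ≠ 2)
    (hqc : (q : ℤ) ∣ P.c) {x y : K} (hx : x ∈ A)
    (h : (freyK P K).Equation x y)
    (hX : (freyK P K).polynomialX.evalEval x y ∈ A.nonunits)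
    (hY : (freyK P K).polynomialY.evalEval x y ∈ A.nonunits) :
    x - fA P K / 4 ∈ A.nonunits ∧ y + x / 2 ∈ A.nonunits := by
  refine ⟨?_, eta_mem_nonunits P hq hA hq2 hY⟩
  have h4 := inv_four_mem (K := K) hq hA hq2
  rcases freyK_singular_cases P hq hA hq2 hx h hX hY with h1 | h1 | h1
  · rcases h1.2 with h2 | h2
    · exact absurd h2 (not_dvd_a_of_dvd_c P hq hqc)
    · exact absurd h2 (not_dvd_b_of_dvd_c P hq hqc)
  · exact h1.1
  · -- x + B/4 ∈ m and C/4 ∈ m ⇒ x - A/4 = x + B/4 - C/4 ∈ m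
    have hCm : fC P K / 4 ∈ A.nonunits :=
      div_mem_nonunits ((fC_mem_nonunits_iff P hq hA).2 hqc) h4
    have := A.nonunits.sub_mem h1.1 hCm
    have e : x + fB P K / 4 - fC P K / 4 = x - fA P K / 4 := by
      rw [← fA_add_fB P K]; ring
    rwa [e] at this


/-! ### Valuation forms (for use with a plain `Valuation`, e.g. `A.valuation`) -/

omit [Algebra ℚ K] [CharZero K] in
theorem valuation_eq_one_of_mem_of_not_mem_nonunits {x : K} (hx : x ∈ A)
    (h : x ∉ A.nonunits) : A.valuation x = 1 := by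
  rw [ValuationSubring.mem_nonunits_iff] at h
  exact le_antisymm ((A.valuation_le_one_iff x).2 hx) (not_lt.1 h)

omit [Algebra ℚ K] [CharZero K] in
theorem valuation_eq_one_iff {x : K} : A.valuation x = 1 ↔ x ∈ A ∧ x ∉ A.nonunits := by
  constructor
  · intro h
    refine ⟨(A.valuation_le_one_iff x).1 h.le, ?_⟩
    rw [ValuationSubring.mem_nonunits_iff, h]
    exact lt_irrefl _
  · rintro ⟨h1, h2⟩
    exact valuation_eq_one_of_mem_of_not_mem_nonunits h1 h2

theorem freyK_evalEval_polynomialX_mem {x y : K} (hx : x ∈ A) (hy : y ∈ A) :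
    (freyK P K).polynomialX.evalEval x y ∈ A := by
  rw [WeierstrassCurve.Affine.evalEval_polynomialX]
  have h1 := freyK_a₁_mem P K A
  have h2 := freyK_a₂_mem P K A
  have h4 := freyK_a₄_mem P K A
  have h3 : (3 : K) ∈ A := by exact_mod_cast natCast_mem A 3
  have h2' : (2 : K) ∈ A := by exact_mod_cast natCast_mem A 2
  exact sub_mem (mul_mem h1 hy)
    (add_mem (add_mem (mul_mem h3 (pow_mem hx 2)) (mul_mem (mul_mem h2' h2) hx)) h4)

theorem freyK_evalEval_polynomialY_mem {x y : K} (hx : x ∈ A) (hy : y ∈ A) :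
    (freyK P K).polynomialY.evalEval x y ∈ A := by
  rw [WeierstrassCurve.Affine.evalEval_polynomialY]
  have h1 := freyK_a₁_mem P K A
  have h3 := freyK_a₃_mem P K A
  have h2' : (2 : K) ∈ A := by exact_mod_cast natCast_mem A 2
  exact add_mem (add_mem (mul_mem h2' hy) (mul_mem h1 hx)) h3

/-- Good reduction, valuation form. -/
theorem freyK_good_reduction_valuation (hq : q.Prime) (hA : A.LiesOverPrime q) (hq2 : q ≠ 2)
    (hqabc : ¬ (q : ℤ) ∣ P.a * P.b * P.c) {x y : K} (hx : A.valuation x ≤ 1)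
    (hy : A.valuation y ≤ 1) (h : (freyK P K).Equation x y) :
    A.valuation ((freyK P K).polynomialX.evalEval x y) = 1 ∨
      A.valuation ((freyK P K).polynomialY.evalEval x y) = 1 := by
  rw [A.valuation_le_one_iff] at hx hy
  rcases freyK_good_reduction P hq hA hq2 hqabc hx h with h1 | h1
  · exact Or.inl (valuation_eq_one_of_mem_of_not_mem_nonunits
      (freyK_evalEval_polynomialX_mem P hx hy) h1)
  · exact Or.inr (valuation_eq_one_of_mem_of_not_mem_nonunits
      (freyK_evalEval_polynomialY_mem P hx hy) h1)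

/-- Dichotomy for an integral point at a place over an odd prime `q ∣ ab`: either the reduction
is nonsingular, or `x` and `η = y + x/2` lie in the maximal ideal. -/
theorem freyK_dichotomy_ab (hq : q.Prime) (hA : A.LiesOverPrime q) (hq2 : q ≠ 2)
    (hqab : (q : ℤ) ∣ P.a * P.b) {x y : K} (hx : A.valuation x ≤ 1)
    (hy : A.valuation y ≤ 1) (h : (freyK P K).Equation x y) :
    (A.valuation ((freyK P K).polynomialX.evalEval x y) = 1 ∨
      A.valuation ((freyK P K).polynomialY.evalEval x y) = 1) ∨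
    (A.valuation x < 1 ∧ A.valuation (y + x / 2) < 1) := by
  rw [A.valuation_le_one_iff] at hx hy
  by_cases hX : (freyK P K).polynomialX.evalEval x y ∈ A.nonunits
  · by_cases hY : (freyK P K).polynomialY.evalEval x y ∈ A.nonunits
    · right
      have := freyK_node_ab P hq hA hq2 hqab hx h hX hY
      rw [ValuationSubring.mem_nonunits_iff, ValuationSubring.mem_nonunits_iff] at this
      exact this
    · exact Or.inl (Or.inr (valuation_eq_one_of_mem_of_not_mem_nonunits
        (freyK_evalEval_polynomialY_mem P hx hy) hY))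
  · exact Or.inl (Or.inl (valuation_eq_one_of_mem_of_not_mem_nonunits
      (freyK_evalEval_polynomialX_mem P hx hy) hX))

/-- Dichotomy for an integral point at a place over an odd prime `q ∣ c`: either the reduction
is nonsingular, or `x - A/4` and `η = y + x/2` lie in the maximal ideal. -/
theorem freyK_dichotomy_c (hq : q.Prime) (hA : A.LiesOverPrime q) (hq2 : q ≠ 2)
    (hqc : (q : ℤ) ∣ P.c) {x y : K} (hx : A.valuation x ≤ 1)
    (hy : A.valuation y ≤ 1) (h : (freyK P K).Equation x y) :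
    (A.valuation ((freyK P K).polynomialX.evalEval x y) = 1 ∨
      A.valuation ((freyK P K).polynomialY.evalEval x y) = 1) ∨
    (A.valuation (x - fA P K / 4) < 1 ∧ A.valuation (y + x / 2) < 1) := by
  rw [A.valuation_le_one_iff] at hx hy
  by_cases hX : (freyK P K).polynomialX.evalEval x y ∈ A.nonunits
  · by_cases hY : (freyK P K).polynomialY.evalEval x y ∈ A.nonunits
    · right
      have := freyK_node_c P hq hA hq2 hqc hx h hX hY
      rw [ValuationSubring.mem_nonunits_iff, ValuationSubring.mem_nonunits_iff] at this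
      exact this
    · exact Or.inl (Or.inr (valuation_eq_one_of_mem_of_not_mem_nonunits
        (freyK_evalEval_polynomialY_mem P hx hy) hY))
  · exact Or.inl (Or.inl (valuation_eq_one_of_mem_of_not_mem_nonunits
      (freyK_evalEval_polynomialX_mem P hx hy) hX))

/-! ### Node data

In both bad cases the curve is `η² = X³ + c₂ X² + c₁ X` with `η = y + x/2`, `X = x - e`,
`e ∈ ℚ`, `c₂` a unit and `c₁` a nonzero element of the maximal ideal whose valuation is a
`p`-th power of the valuation of a rational integer.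

* `q ∣ ab`: `e = 0`,   `c₂ = (B - A)/4`, `c₁ = -(A B)/16`, `t = a b`;
* `q ∣ c` : `e = A/4`, `c₂ = (A + C)/4`, `c₁ = (A C)/16`,  `t = a c`.
-/

theorem freyK_equation_iff_ab (x y : K) :
    (freyK P K).Equation x y ↔
      (y + x / 2) ^ 2 = x ^ 3 + ((fB P K - fA P K) / 4) * x ^ 2 +
        (-(fA P K * fB P K) / 16) * x := by
  rw [freyK_equation_iff]
  constructor
  · intro h; rw [h]; ring
  · intro h; rw [h]; ring

theorem freyK_equation_iff_c (x y : K) :
    (freyK P K).Equation x y ↔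
      (y + x / 2) ^ 2 = (x - fA P K / 4) ^ 3 + ((fA P K + fC P K) / 4) * (x - fA P K / 4) ^ 2 +
        ((fA P K * fC P K) / 16) * (x - fA P K / 4) := by
  rw [freyK_equation_iff, ← fA_add_fB P K]
  constructor
  · intro h; rw [h]; ring
  · intro h; rw [h]; ring

theorem freyK_b₂ : (freyK P K).b₂ = fB P K - fA P K := by
  rw [WeierstrassCurve.b₂, freyK_a₁]
  linear_combination four_mul_freyK_a₂ P K

theorem eight_mul_freyK_b₄ : 8 * (freyK P K).b₄ = -(fA P K * fB P K) := by
  rw [WeierstrassCurve.b₄, freyK_a₁, freyK_a₃]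
  linear_combination sixteen_mul_freyK_a₄ P K

theorem freyK_b₄ : (freyK P K).b₄ = -(fA P K * fB P K) / 8 := by
  have := eight_mul_freyK_b₄ P (K := K)
  field_simp
  linear_combination this

theorem freyK_b₆ : (freyK P K).b₆ = 0 := by
  rw [WeierstrassCurve.b₆, freyK_a₃, freyK_a₆]; ring

theorem freyK_Δ : 256 * (freyK P K).Δ = (fA P K * fB P K * fC P K) ^ 2 := by
  have h2 := four_mul_freyK_a₂ P K
  have h4 := sixteen_mul_freyK_a₄ P K
  rw [WeierstrassCurve.Δ, WeierstrassCurve.b₂, WeierstrassCurve.b₄, WeierstrassCurve.b₆,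
    WeierstrassCurve.b₈, freyK_a₁, freyK_a₃, freyK_a₆, ← fA_add_fB P K]
  have e2 : (freyK P K).a₂ = (fB P K - 1 - fA P K) / 4 := by
    field_simp; linear_combination h2
  have e4 : (freyK P K).a₄ = -(fA P K * fB P K) / 16 := by
    field_simp; linear_combination h4
  rw [e2, e4]
  ring

omit [Algebra ℚ K] in
theorem fA_ne_zero : fA P K ≠ 0 := pow_ne_zero _ (Int.cast_ne_zero.2 P.ha0)
omit [Algebra ℚ K] in
theorem fB_ne_zero : fB P K ≠ 0 := pow_ne_zero _ (Int.cast_ne_zero.2 P.hb0)
omit [Algebra ℚ K] in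
theorem fC_ne_zero : fC P K ≠ 0 := pow_ne_zero _ (Int.cast_ne_zero.2 P.hc0)

/-- Case `q ∣ ab`: `c₂ = (B - A)/4` is a unit. -/
theorem c₂_ab_unit (hq : q.Prime) (hA : A.LiesOverPrime q) (hq2 : q ≠ 2)
    (hqab : (q : ℤ) ∣ P.a * P.b) :
    (fB P K - fA P K) / 4 ∈ A ∧ (fB P K - fA P K) / 4 ∉ A.nonunits := by
  have h4 := inv_four_mem (K := K) hq hA hq2
  refine ⟨div_mem_of_mem (sub_mem (fB_mem P) (fA_mem P)) h4, ?_⟩
  intro h
  have h' : fB P K - fA P K ∈ A.nonunits :=
    mem_nonunits_of_div_mem_nonunits (by exact_mod_cast natCast_mem A 4) (by norm_num) h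
  rw [dvd_ab_iff P hq] at hqab
  rcases hqab with ha | hb
  · have hAm := (fA_mem_nonunits_iff P (K := K) hq hA).2 ha
    have hBm := (sub_mem_nonunits_iff_left hAm).1 h'
    exact not_dvd_b_of_dvd_a P hq ha ((fB_mem_nonunits_iff P hq hA).1 hBm)
  · have hBm := (fB_mem_nonunits_iff P (K := K) hq hA).2 hb
    have hAm : fA P K ∈ A.nonunits := by
      have := A.nonunits.sub_mem hBm h'
      have e : fB P K - (fB P K - fA P K) = fA P K := by ring
      rwa [e] at this
    exact not_dvd_a_of_dvd_b P hq hb ((fA_mem_nonunits_iff P hq hA).1 hAm)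

/-- Case `q ∣ ab`: `c₁ = -(A B)/16` lies in the maximal ideal. -/
theorem c₁_ab_mem_nonunits (hq : q.Prime) (hA : A.LiesOverPrime q) (hq2 : q ≠ 2)
    (hqab : (q : ℤ) ∣ P.a * P.b) :
    -(fA P K * fB P K) / 16 ∈ A.nonunits := by
  have h16 := inv_sixteen_mem (K := K) hq hA hq2
  rw [dvd_ab_iff P hq] at hqab
  have := (fA_mul_fB_mem_nonunits_iff P (K := K) hq hA).2 hqab
  have h2 : -(fA P K * fB P K) ∈ A.nonunits := by
    have := A.nonunits.sub_mem this (A.nonunits.add_mem this this)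
    have e : fA P K * fB P K - (fA P K * fB P K + fA P K * fB P K) = -(fA P K * fB P K) := by
      ring
    rwa [e] at this
  exact div_mem_nonunits h2 h16

omit [Algebra ℚ K] in
theorem c₁_ab_ne_zero : -(fA P K * fB P K) / 16 ≠ 0 := by
  have := fA_ne_zero P (K := K)
  have := fB_ne_zero P (K := K)
  simp [*]

omit [Algebra ℚ K] [CharZero K] in
theorem valuation_sixteen (hq : q.Prime) (hA : A.LiesOverPrime q) (hq2 : q ≠ 2) :
    A.valuation (16 : K) = 1 := by
  have h := valuation_intCast_eq_one_of_not_dvd (A := A) hq hA (n := 16) (by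
    intro hdvd
    have h2 : q ∣ 16 := by exact_mod_cast hdvd
    have h3 : q ∣ 2 ^ 4 := by simpa using h2
    have h4 := hq.dvd_of_dvd_pow h3
    exact hq2 ((Nat.prime_dvd_prime_iff_eq hq Nat.prime_two).1 h4))
  simpa using h

omit [Algebra ℚ K] [CharZero K] in
theorem valuation_four (hq : q.Prime) (hA : A.LiesOverPrime q) (hq2 : q ≠ 2) :
    A.valuation (4 : K) = 1 := by
  have h := valuation_intCast_eq_one_of_not_dvd (A := A) hq hA (n := 4) (by
    intro hdvd
    have h2 : q ∣ 4 := by exact_mod_cast hdvd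
    have h3 : q ∣ 2 ^ 2 := by simpa using h2
    have h4 := hq.dvd_of_dvd_pow h3
    exact hq2 ((Nat.prime_dvd_prime_iff_eq hq Nat.prime_two).1 h4))
  simpa using h

omit [Algebra ℚ K] [CharZero K] in
theorem valuation_two (hq : q.Prime) (hA : A.LiesOverPrime q) (hq2 : q ≠ 2) :
    A.valuation (2 : K) = 1 := by
  have h := valuation_intCast_eq_one_of_not_dvd (A := A) hq hA (n := 2) (by
    intro hdvd
    have h2 : q ∣ 2 := by exact_mod_cast hdvd
    exact hq2 ((Nat.prime_dvd_prime_iff_eq hq Nat.prime_two).1 h2))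
  simpa using h

omit [Algebra ℚ K] [CharZero K] in
/-- Case `q ∣ ab`: `v(c₁) = v(a b)^p`. -/
theorem valuation_c₁_ab (hq : q.Prime) (hA : A.LiesOverPrime q) (hq2 : q ≠ 2) :
    A.valuation (-(fA P K * fB P K) / 16) = A.valuation (((P.a * P.b : ℤ) : K)) ^ P.p := by
  rw [map_div₀, Valuation.map_neg, valuation_sixteen hq hA hq2, div_one, ← map_pow]
  congr 1
  push_cast
  ring

/-- Case `q ∣ c`: `c₂ = (A + C)/4` is a unit. -/
theorem c₂_c_unit (hq : q.Prime) (hA : A.LiesOverPrime q) (hq2 : q ≠ 2)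
    (hqc : (q : ℤ) ∣ P.c) :
    (fA P K + fC P K) / 4 ∈ A ∧ (fA P K + fC P K) / 4 ∉ A.nonunits := by
  have h4 := inv_four_mem (K := K) hq hA hq2
  refine ⟨div_mem_of_mem (add_mem (fA_mem P) (fC_mem P)) h4, ?_⟩
  intro h
  have h' : fA P K + fC P K ∈ A.nonunits :=
    mem_nonunits_of_div_mem_nonunits (by exact_mod_cast natCast_mem A 4) (by norm_num) h
  have hCm := (fC_mem_nonunits_iff P (K := K) hq hA).2 hqc
  have hAm := (add_mem_nonunits_iff_left hCm).1 h'
  exact not_dvd_a_of_dvd_c P hq hqc ((fA_mem_nonunits_iff P hq hA).1 hAm)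

/-- Case `q ∣ c`: `c₁ = (A C)/16` lies in the maximal ideal. -/
theorem c₁_c_mem_nonunits (hq : q.Prime) (hA : A.LiesOverPrime q) (hq2 : q ≠ 2)
    (hqc : (q : ℤ) ∣ P.c) :
    (fA P K * fC P K) / 16 ∈ A.nonunits := by
  have h16 := inv_sixteen_mem (K := K) hq hA hq2
  have := (fA_mul_fC_mem_nonunits_iff P (K := K) hq hA).2 (Or.inr hqc)
  exact div_mem_nonunits this h16

omit [Algebra ℚ K] in
theorem c₁_c_ne_zero : (fA P K * fC P K) / 16 ≠ 0 := by
  have := fA_ne_zero P (K := K)
  have := fC_ne_zero P (K := K)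
  simp [*]

omit [Algebra ℚ K] [CharZero K] in
/-- Case `q ∣ c`: `v(c₁) = v(a c)^p`. -/
theorem valuation_c₁_c (hq : q.Prime) (hA : A.LiesOverPrime q) (hq2 : q ≠ 2) :
    A.valuation ((fA P K * fC P K) / 16) = A.valuation (((P.a * P.c : ℤ) : K)) ^ P.p := by
  rw [map_div₀, valuation_sixteen hq hA hq2, div_one, ← map_pow]
  congr 1
  push_cast
  ring

/-! ### Rationality: the data is fixed by every `ℚ`-automorphism -/

omit [CharZero K] in
theorem apply_intCast (σ : K ≃ₐ[ℚ] K) (n : ℤ) : σ (n : K) = (n : K) := map_intCast σ n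

omit [CharZero K] in
theorem apply_fA (σ : K ≃ₐ[ℚ] K) : σ (fA P K) = fA P K := by
  rw [map_pow, map_intCast]

omit [CharZero K] in
theorem apply_fB (σ : K ≃ₐ[ℚ] K) : σ (fB P K) = fB P K := by
  rw [map_pow, map_intCast]

omit [CharZero K] in
theorem apply_fC (σ : K ≃ₐ[ℚ] K) : σ (fC P K) = fC P K := by
  rw [map_pow, map_intCast]

omit [CharZero K] in
theorem apply_fA_div_four (σ : K ≃ₐ[ℚ] K) : σ (fA P K / 4) = fA P K / 4 := by
  rw [map_div₀, apply_fA, map_ofNat]

end FreyLocal

end Fermat.Agent.S05.helper92
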