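import Mathlib
import Fermat.Agent.S05.MainA
import Fermat.Agent.S05.Transport
import Fermat.Agent.S05.helper92_FreyLocal

set_option autoImplicit false
set_option linter.unusedSectionVars false
set_option linter.unusedVariables false

namespace Fermat.Agent.S05

open WeierstrassCurve WeierstrassCurve.Affine
open Fermat.Agent.S05.helper92

section Models

variable (P : FreyPackage)

/-- The short model `η² = X³ + ((B - A)/4) X² - (A B / 16) X` of the Frey curve
(`X = x`, `η = y + x / 2`). -/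
def shortAB : WeierstrassCurve ℚ where
  a₁ := 0
  a₂ := ((P.b : ℚ) ^ P.p - (P.a : ℚ) ^ P.p) / 4
  a₃ := 0
  a₄ := -((P.a : ℚ) ^ P.p * (P.b : ℚ) ^ P.p) / 16
  a₆ := 0

/-- The short model `η² = X³ + ((A + C)/4) X² + (A C / 16) X` of the Frey curve
(`X = x - A / 4`, `η = y + x / 2`). -/
def shortC : WeierstrassCurve ℚ where
  a₁ := 0
  a₂ := ((P.a : ℚ) ^ P.p + (P.c : ℚ) ^ P.p) / 4
  a₃ := 0
  a₄ := ((P.a : ℚ) ^ P.p * (P.c : ℚ) ^ P.p) / 16
  a₆ := 0

variable (K : Type*) [Field K] [Algebra ℚ K] [CharZero K]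

lemma shortAB_a₂ : ((shortAB P : Affine ℚ)⁄K).a₂ = (fB P K - fA P K) / 4 := by
  simp [shortAB, fA, fB]

lemma shortAB_a₄ : ((shortAB P : Affine ℚ)⁄K).a₄ = -(fA P K * fB P K) / 16 := by
  simp [shortAB, fA, fB]

lemma shortC_a₂ : ((shortC P : Affine ℚ)⁄K).a₂ = (fA P K + fC P K) / 4 := by
  simp [shortC, fA, fC]

lemma shortC_a₄ : ((shortC P : Affine ℚ)⁄K).a₄ = (fA P K * fC P K) / 16 := by
  simp [shortC, fA, fC]

lemma shortAB_nf : IsTwoNF ((shortAB P : Affine ℚ)⁄K) :=
  ⟨by simp [shortAB], by simp [shortAB], by simp [shortAB]⟩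

lemma shortC_nf : IsTwoNF ((shortC P : Affine ℚ)⁄K) :=
  ⟨by simp [shortC], by simp [shortC], by simp [shortC]⟩

lemma isShift_ab : IsShift (freyK P K) ((shortAB P : Affine ℚ)⁄K) 0 where
  two := two_ne_zero
  a₁ := freyK_a₁ P K
  a₃ := freyK_a₃ P K
  a₆ := freyK_a₆ P K
  nf := shortAB_nf P K
  a₂' := by
    rw [shortAB_a₂]
    have := four_mul_freyK_a₂ P K
    linear_combination -this
  a₄' := by
    rw [shortAB_a₄]
    have := sixteen_mul_freyK_a₄ P K
    linear_combination (-1 / 8) * this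
  root := by simp

lemma isShift_c : IsShift (freyK P K) ((shortC P : Affine ℚ)⁄K) (fA P K / 4) where
  two := two_ne_zero
  a₁ := freyK_a₁ P K
  a₃ := freyK_a₃ P K
  a₆ := freyK_a₆ P K
  nf := shortC_nf P K
  a₂' := by
    rw [shortC_a₂]
    have := four_mul_freyK_a₂ P K
    have hc := fA_add_fB P K
    linear_combination -this - hc
  a₄' := by
    rw [shortC_a₄]
    have := sixteen_mul_freyK_a₄ P K
    have h4 := four_mul_freyK_a₂ P K
    have hc := fA_add_fB P K
    linear_combination (-1 / 8) * this + (-(fA P K) / 4) * h4 + (-(fA P K) / 8) * hc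
  root := by
    have := sixteen_mul_freyK_a₄ P K
    have h4 := four_mul_freyK_a₂ P K
    linear_combination (fA P K / 16) * this + (fA P K ^ 2 / 16) * h4

end Models

section Commute

variable {K : Type*} [Field K] [DecidableEq K] [Algebra ℚ K]

/-- The transport commutes with the Galois action. -/
lemma IsShift.hom_map {W₀ W₀' : Affine ℚ} {e : K} (h : IsShift (W₀⁄K) (W₀'⁄K) e)
    (σ : K ≃ₐ[ℚ] K) (he : σ e = e) (T : (W₀⁄K).Point) :
    h.hom (Point.map (W' := W₀) σ.toAlgHom T) = Point.map (W' := W₀') σ.toAlgHom (h.hom T) := by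
  rcases T with _ | ⟨x, y, hxy⟩
  · rfl
  · rw [Point.map_some, IsShift.hom_some, IsShift.hom_some, Point.map_some, Point.some.injEq]
    refine ⟨?_, ?_⟩
    · simp [he]
    · have h2 : σ (2 : K) = 2 := map_ofNat σ 2
      simp [h2]

end Commute

section Main

variable {K : Type*} [Field K] [DecidableEq K] [Algebra ℚ K] [CharZero K]

/-- The general step: once the Frey curve is transported to a short model satisfying the
reduction hypotheses at `q`, inertia at `q` fixes the `p`-torsion. -/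
lemma fixed_of_shift (P : FreyPackage) {q : ℕ} (hq : q.Prime) (hq2 : q ≠ 2) (hqp : q ≠ P.p)
    (A : ValuationSubring K) (hA : A.LiesOverPrime q) (σ : K ≃ₐ[ℚ] K)
    (hσ : σ ∈ A.inertiaSubgroupIn ℚ)
    {W₀' : Affine ℚ} {e : K} (h : IsShift (freyK P K) (W₀'⁄K) e) (he : σ e = e)
    (ha : A.valuation (W₀'⁄K).a₂ ≤ 1) (hb : A.valuation (W₀'⁄K).a₄ ≤ 1)
    (hb0 : (W₀'⁄K).a₄ ≠ 0)
    (hred : A.valuation ((W₀'⁄K).a₄ * ((W₀'⁄K).a₂ ^ 2 - 4 * (W₀'⁄K).a₄)) = 1 ∨
      (A.valuation (W₀'⁄K).a₂ = 1 ∧ A.valuation (W₀'⁄K).a₄ < 1 ∧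
        ∃ (ϖ : K) (m : ℕ), σ ϖ = ϖ ∧ A.valuation (W₀'⁄K).a₄ = A.valuation ϖ ^ (P.p * m)))
    (T : (freyK P K).Point) (hT : (P.p : ℤ) • T = 0) : σ • T = T := by
  have hvp : A.valuation ((P.p : ℕ) : K) = 1 := by
    have hn : ¬ (q : ℤ) ∣ ((P.p : ℕ) : ℤ) := by
      rw [Int.natCast_dvd_natCast]
      exact fun hdvd => hqp ((Nat.prime_dvd_prime_iff_eq hq P.pp).1 hdvd)
    have := valuation_intCast_eq_one_of_not_dvd (L := K) hq hA hn
    simpa using this
  have hσ' : ∀ x : K, A.valuation x ≤ 1 → A.valuation ((σ : K →+* K) x - x) < 1 := by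
    intro x hx
    have hxA : x ∈ A := (A.valuation_le_one_iff x).mp hx
    have := apply_sub_mem_nonunits_of_mem_inertiaSubgroupIn hσ hxA
    exact A.mem_nonunits_iff.mp this
  have hσb : (σ : K →+* K) (W₀'⁄K).a₄ = (W₀'⁄K).a₄ := by
    show σ (algebraMap ℚ K W₀'.a₄) = algebraMap ℚ K W₀'.a₄
    exact σ.commutes _
  have hP : P.p • h.hom T = 0 := by
    rw [← map_nsmul]
    have : P.p • T = 0 := by
      rw [← natCast_zsmul]; exact hT
    rw [this, map_zero]
  have hfix := IsTwoNF.fixes_torsion (v := A.valuation) h.nf (valuation_two hq hA hq2) ha hb hb0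
    P.p P.pp (by have := P.hp5; omega) hvp (σ : K →+* K) hσ' hσb
    (Point.map (W' := W₀') σ.toAlgHom) (fun x y hxy => ⟨_, Point.map_some _ hxy⟩) hred
    (h.hom T) hP
  apply h.hom_injective
  exact (h.hom_map σ he T).trans hfix

omit [DecidableEq K] in
lemma val_fA_eq_one (P : FreyPackage) {q : ℕ} (hq : q.Prime) {A : ValuationSubring K}
    (hA : A.LiesOverPrime q) (h : ¬ (q : ℤ) ∣ P.a) : A.valuation (fA P K) = 1 :=
  valuation_eq_one_iff.mpr ⟨fA_mem P, fun hm => h ((fA_mem_nonunits_iff P hq hA).mp hm)⟩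

omit [DecidableEq K] in
lemma val_fB_eq_one (P : FreyPackage) {q : ℕ} (hq : q.Prime) {A : ValuationSubring K}
    (hA : A.LiesOverPrime q) (h : ¬ (q : ℤ) ∣ P.b) : A.valuation (fB P K) = 1 :=
  valuation_eq_one_iff.mpr ⟨fB_mem P, fun hm => h ((fB_mem_nonunits_iff P hq hA).mp hm)⟩

omit [DecidableEq K] in
lemma val_fC_eq_one (P : FreyPackage) {q : ℕ} (hq : q.Prime) {A : ValuationSubring K}
    (hA : A.LiesOverPrime q) (h : ¬ (q : ℤ) ∣ P.c) : A.valuation (fC P K) = 1 :=
  valuation_eq_one_iff.mpr ⟨fC_mem P, fun hm => h ((fC_mem_nonunits_iff P hq hA).mp hm)⟩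

/-- Inertia at an odd prime `q ≠ p` acts trivially on the `p`-torsion of the Frey curve. -/
theorem frey_inertia_fixed (P : FreyPackage) {q : ℕ} (hq : q.Prime) (hq2 : q ≠ 2)
    (hqp : q ≠ P.p) (A : ValuationSubring K) (hA : A.LiesOverPrime q) (σ : K ≃ₐ[ℚ] K)
    (hσ : σ ∈ A.inertiaSubgroupIn ℚ) (T : (freyK P K).Point) (hT : (P.p : ℤ) • T = 0) :
    σ • T = T := by
  by_cases hc : (q : ℤ) ∣ P.c
  · have hu := c₂_c_unit P (K := K) hq hA hq2 hc
    have hn := c₁_c_mem_nonunits P (K := K) hq hA hq2 hc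
    refine fixed_of_shift P hq hq2 hqp A hA σ hσ (isShift_c P K) (apply_fA_div_four P σ)
      ?_ ?_ ?_ ?_ T hT
    · rw [shortC_a₂]; exact (A.valuation_le_one_iff _).mpr hu.1
    · rw [shortC_a₄]; exact (A.valuation_le_one_iff _).mpr (mem_of_mem_nonunits hn)
    · rw [shortC_a₄]; exact c₁_c_ne_zero P
    · right
      rw [shortC_a₂, shortC_a₄]
      refine ⟨valuation_eq_one_iff.mpr hu, A.mem_nonunits_iff.mp hn,
        ((P.a * P.c : ℤ) : K), 1, apply_intCast σ _, ?_⟩
      rw [mul_one]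
      exact valuation_c₁_c P hq hA hq2
  · by_cases hab : (q : ℤ) ∣ P.a * P.b
    · have hu := c₂_ab_unit P (K := K) hq hA hq2 hab
      have hn := c₁_ab_mem_nonunits P (K := K) hq hA hq2 hab
      refine fixed_of_shift P hq hq2 hqp A hA σ hσ (isShift_ab P K) (map_zero σ)
        ?_ ?_ ?_ ?_ T hT
      · rw [shortAB_a₂]; exact (A.valuation_le_one_iff _).mpr hu.1
      · rw [shortAB_a₄]; exact (A.valuation_le_one_iff _).mpr (mem_of_mem_nonunits hn)
      · rw [shortAB_a₄]; exact c₁_ab_ne_zero P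
      · right
        rw [shortAB_a₂, shortAB_a₄]
        refine ⟨valuation_eq_one_iff.mpr hu, A.mem_nonunits_iff.mp hn,
          ((P.a * P.b : ℤ) : K), 1, apply_intCast σ _, ?_⟩
        rw [mul_one]
        exact valuation_c₁_ab P hq hA hq2
    · have hna : ¬ (q : ℤ) ∣ P.a := fun h => hab (dvd_mul_of_dvd_left h _)
      have hnb : ¬ (q : ℤ) ∣ P.b := fun h => hab (dvd_mul_of_dvd_right h _)
      have vA := val_fA_eq_one P hq hA hna
      have vB := val_fB_eq_one P hq hA hnb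
      have vC := val_fC_eq_one P hq hA hc
      have v4 := valuation_four (K := K) hq hA hq2
      have v16 := valuation_sixteen (K := K) hq hA hq2
      have h4 := inv_four_mem (K := K) hq hA hq2
      have h16 := inv_sixteen_mem (K := K) hq hA hq2
      refine fixed_of_shift P hq hq2 hqp A hA σ hσ (isShift_ab P K) (map_zero σ)
        ?_ ?_ ?_ ?_ T hT
      · rw [shortAB_a₂]
        exact (A.valuation_le_one_iff _).mpr (div_mem_of_mem (sub_mem (fB_mem P) (fA_mem P)) h4)
      · rw [shortAB_a₄]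
        exact (A.valuation_le_one_iff _).mpr
          (div_mem_of_mem (neg_mem (mul_mem (fA_mem P) (fB_mem P))) h16)
      · rw [shortAB_a₄]; exact c₁_ab_ne_zero P
      · left
        rw [shortAB_a₂, shortAB_a₄]
        have hcc := fA_add_fB P K
        have e1 : -(fA P K * fB P K) / 16 * (((fB P K - fA P K) / 4) ^ 2
            - 4 * (-(fA P K * fB P K) / 16)) = -(fA P K * fB P K * fC P K ^ 2) / (16 * 16) := by
          rw [← hcc]
          ring
        rw [e1, map_div₀, Valuation.map_neg, map_mul, map_mul, map_mul, vA, vB, map_pow, vC, v16]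
        simp

end Main

end Fermat.Agent.S05
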