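import Fermat.Agent.S05.Formal

set_option autoImplicit false
set_option linter.unusedSectionVars false
set_option linter.unusedVariables false

namespace Fermat.Agent.S05

open WeierstrassCurve WeierstrassCurve.Affine

variable {K : Type*} [Field K] [DecidableEq K]
variable {Γ₀ : Type*} [LinearOrderedCommGroupWithZero Γ₀]
variable (v : Valuation K Γ₀) {W : Affine K}

/-- if the slope is non-integral, the `x`-coordinate of the sum is non-integral -/
lemma val_addX_of_one_lt {a x x' ℓ : K} (ha : v a ≤ 1) (hx : v x ≤ 1) (hx' : v x' ≤ 1)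
    (hℓ : 1 < v ℓ) : 1 < v (ℓ ^ 2 - a - x - x') := by
  have h1 : (1 : Γ₀) < v (ℓ ^ 2) := by rw [map_pow]; exact one_lt_pow₀ hℓ (by norm_num)
  have h2 : v (ℓ ^ 2 - a) = v (ℓ ^ 2) := v.map_sub_eq_of_lt_left (lt_of_le_of_lt ha h1)
  have h3 : v (ℓ ^ 2 - a - x) = v (ℓ ^ 2) := by
    rw [v.map_sub_eq_of_lt_left (by rw [h2]; exact lt_of_le_of_lt hx h1), h2]
  rw [v.map_sub_eq_of_lt_left (by rw [h3]; exact lt_of_le_of_lt hx' h1), h3]
  exact h1

/-- Lemma S: secant with non-integral slope -/
lemma IsTwoNF.sub_secant (hW : IsTwoNF W) (ha : v W.a₂ ≤ 1)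
    {x y x' y' : K} (h : W.Nonsingular x y) (h' : W.Nonsingular x' y')
    (hx : v x ≤ 1) (hx' : v x' ≤ 1) (hne : x ≠ x') (hlt : v (x - x') < v (y + y')) :
    ∃ x₃ y₃ h₃, Point.some x y h - Point.some x' y' h' = Point.some x₃ y₃ h₃ ∧ 1 < v x₃ := by
  obtain ⟨hn, hneg⟩ := hW.neg_some h'
  rw [sub_eq_add_neg, hneg, Point.add_of_X_ne hne]
  refine ⟨_, _, _, rfl, ?_⟩
  rw [slope_of_X_ne hne, Affine.addX, hW.a₁, zero_mul, add_zero, sub_neg_eq_add]
  apply val_addX_of_one_lt v ha hx hx'
  rw [map_div₀]
  have h0 : 0 < v (x - x') := val_pos v (sub_ne_zero.mpr hne)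
  rw [one_lt_div₀ h0]
  exact hlt

/-- Lemma D: doubling with non-integral slope -/
lemma IsTwoNF.double_tangent (hW : IsTwoNF W) (ha : v W.a₂ ≤ 1)
    {x y : K} (h : W.Nonsingular x y) (hx : v x ≤ 1) (hy : 2 * y ≠ 0)
    (hlt : v (2 * y) < v (3 * x ^ 2 + 2 * W.a₂ * x + W.a₄)) :
    ∃ x₃ y₃ h₃, Point.some x y h + Point.some x y h = Point.some x₃ y₃ h₃ ∧ 1 < v x₃ := by
  have hne : y ≠ W.negY x y := by
    rw [hW.negY]; intro e; apply hy; linear_combination e
  rw [Point.add_self_of_Y_ne hne]
  refine ⟨_, _, _, rfl, ?_⟩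
  rw [slope_of_Y_ne rfl hne, Affine.addX]
  simp only [hW.a₁, zero_mul, add_zero, sub_zero, hW.negY, sub_neg_eq_add]
  rw [← two_mul]
  apply val_addX_of_one_lt v ha hx hx
  rw [map_div₀]
  have h0 : 0 < v (2 * y) := val_pos v hy
  rw [one_lt_div₀ h0]
  exact hlt

/-- integrality of `y` -/
lemma IsTwoNF.val_y_le_one (hW : IsTwoNF W) (ha : v W.a₂ ≤ 1) (hb : v W.a₄ ≤ 1)
    {x y : K} (h : W.Nonsingular x y) (hx : v x ≤ 1) : v y ≤ 1 := by
  have e := hW.eq_of_nonsingular h
  apply le_one_of_sq_le_one
  rw [← map_pow, e]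
  apply v.map_add_le
  · apply v.map_add_le
    · rw [map_pow]; exact pow_le_one₀ zero_le hx
    · rw [map_mul, map_pow]
      calc v W.a₂ * v x ^ 2 ≤ 1 * 1 := by
            gcongr
            exact pow_le_one₀ zero_le hx
        _ = 1 := one_mul 1
  · rw [map_mul]
    calc v W.a₄ * v x ≤ 1 * 1 := by gcongr
      _ = 1 := one_mul 1

/-- Lemma U: two distinct points with the same reduction, unit `x`-coordinate -/
lemma IsTwoNF.sub_of_close_unit (hW : IsTwoNF W) (ha : v W.a₂ ≤ 1) (hb : v W.a₄ ≤ 1)
    (hv2 : v 2 = 1)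
    {x y x' y' : K} (h : W.Nonsingular x y) (h' : W.Nonsingular x' y')
    (hx : v x = 1) (hxx : v (x - x') < 1) (hyy : v (y - y') < 1)
    (hns : v (x ^ 2 + W.a₂ * x + W.a₄) < 1 → v (x ^ 2 - W.a₄) = 1)
    (hne : Point.some x y h ≠ Point.some x' y' h') :
    ∃ x₃ y₃ h₃, Point.some x y h - Point.some x' y' h' = Point.some x₃ y₃ h₃ ∧ 1 < v x₃ := by
  have e := hW.eq_of_nonsingular h
  have e' := hW.eq_of_nonsingular h'
  have hx' : v x' = 1 := by
    have : x' = x - (x - x') := by ring
    rw [this]; exact val_sub_eq_one v hx hxx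
  have hy : v y ≤ 1 := hW.val_y_le_one v ha hb h hx.le
  have hy' : v y' ≤ 1 := hW.val_y_le_one v ha hb h' hx'.le
  have h2 : (2 : K) ≠ 0 := ne_zero_of_val_eq_one v hv2
  -- the key unit
  have hunit : v y < 1 → v (3 * x ^ 2 + 2 * W.a₂ * x + W.a₄) = 1 := by
    intro hy1
    have hq : v (x ^ 2 + W.a₂ * x + W.a₄) < 1 := by
      have e2 : y ^ 2 = x * (x ^ 2 + W.a₂ * x + W.a₄) := by linear_combination e
      have := congrArg v e2
      rw [map_pow, map_mul, hx, one_mul] at this
      rw [← this]
      exact pow_lt_one₀ zero_le hy1 (by norm_num)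
    have h1 := hns hq
    have : 3 * x ^ 2 + 2 * W.a₂ * x + W.a₄ =
        (x ^ 2 - W.a₄) + 2 * (x ^ 2 + W.a₂ * x + W.a₄) := by ring
    rw [this]
    apply val_add_eq_one v h1
    rw [map_mul, hv2, one_mul]; exact hq
  by_cases hxe : x = x'
  · subst hxe
    have hyy' : y' = -y := by
      have : (y' - y) * (y' + y) = 0 := by linear_combination e' - e
      rcases mul_eq_zero.mp this with h1 | h1
      · exfalso; apply hne
        have : y = y' := by linear_combination -h1
        subst this; rfl
      · linear_combination h1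
    subst hyy'
    have hy2 : v (2 * y) < 1 := by
      have : 2 * y = y - -y := by ring
      rw [this]; exact hyy
    have hy1 : v y < 1 := by
      rw [map_mul, hv2, one_mul] at hy2; exact hy2
    have hy0 : 2 * y ≠ 0 := by
      intro h0
      apply hne
      have : y = -y := by linear_combination h0
      have hh : ∃ h'' : W.Nonsingular x (-y), Point.some x y h = Point.some x (-y) h'' :=
        some_congr h rfl this
      obtain ⟨_, hh⟩ := hh
      exact hh
    obtain ⟨hn, hneg⟩ := hW.neg_some h'
    have hnn : Point.some x y h - Point.some x (-y) h' = Point.some x y h + Point.some x y h := by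
      rw [sub_eq_add_neg, hneg]
      congr 1
      obtain ⟨_, hh⟩ := some_congr hn rfl (neg_neg y)
      exact hh
    rw [hnn]
    apply hW.double_tangent v ha h hx.le hy0
    rw [hunit hy1]; exact hy2
  · apply hW.sub_secant v ha h h' hx.le hx'.le hxe
    have hxx0 : 0 < v (x - x') := val_pos v (sub_ne_zero.mpr hxe)
    rcases lt_or_eq_of_le hy with hy1 | hy1
    · -- `y` is small
      have hu := hunit hy1
      obtain ⟨g, hg⟩ : ∃ g, g = x ^ 2 + x * x' + x' ^ 2 + W.a₂ * (x + x') + W.a₄ := ⟨_, rfl⟩
      have hgv : v g = 1 := by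
        have : g = (3 * x ^ 2 + 2 * W.a₂ * x + W.a₄) - (x - x') * (2 * x + x' + W.a₂) := by
          rw [hg]; ring
        rw [this]
        apply val_sub_eq_one v hu
        rw [map_mul]
        calc v (x - x') * v (2 * x + x' + W.a₂) ≤ v (x - x') * 1 := by
              gcongr
              apply v.map_add_le _ ha
              apply v.map_add_le _ hx'.le
              rw [map_mul, hv2, hx, one_mul]
          _ = v (x - x') := mul_one _
          _ < 1 := hxx
      have hprod : (y + y') * (y - y') = (x - x') * g := by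
        rw [hg]; linear_combination e - e'
      have hvp := congrArg v hprod
      rw [map_mul, map_mul, hgv, mul_one] at hvp
      have hyy0 : 0 < v (y - y') := by
        rw [zero_lt_iff]
        intro h0
        rw [h0, mul_zero] at hvp
        exact hxx0.ne hvp
      rw [← hvp]
      calc v (y + y') * v (y - y') < v (y + y') * 1 := by
            apply mul_lt_mul_of_pos_left hyy
            rw [zero_lt_iff]
            intro h0
            rw [h0, zero_mul] at hvp
            exact hxx0.ne hvp
        _ = v (y + y') := mul_one _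
    · -- `y` is a unit
      have : y + y' = 2 * y - (y - y') := by ring
      rw [this, val_sub_eq_one v (by rw [map_mul, hv2, hy1, one_mul]) hyy]
      exact hxx

/-- Lemma N: two distinct points close to each other, both reducing to the node -/
lemma IsTwoNF.sub_of_close_node (hW : IsTwoNF W) (ha : v W.a₂ ≤ 1)
    (hv2 : v 2 = 1)
    {x y x' y' : K} (h : W.Nonsingular x y) (h' : W.Nonsingular x' y')
    (hx0 : x ≠ 0) (hx : v x ≤ 1) (hxx : v (x - x') < v x)
    (hα : v (y / x) = 1) (hαα : v (y / x - y' / x') < 1)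
    (hne : Point.some x y h ≠ Point.some x' y' h') :
    ∃ x₃ y₃ h₃, Point.some x y h - Point.some x' y' h' = Point.some x₃ y₃ h₃ ∧ 1 < v x₃ := by
  have e := hW.eq_of_nonsingular h
  have e' := hW.eq_of_nonsingular h'
  have hx' : v x' = v x := by
    have : x' = x - (x - x') := by ring
    rw [this]; exact v.map_sub_eq_of_lt_left hxx
  have hx'0 : x' ≠ 0 := by
    apply ne_zero_of_val_pos v
    rw [hx']; exact val_pos v hx0
  have h2 : (2 : K) ≠ 0 := ne_zero_of_val_eq_one v hv2
  have hxe : x ≠ x' := by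
    intro hxe
    subst hxe
    have : (y' - y) * (y' + y) = 0 := by linear_combination e' - e
    rcases mul_eq_zero.mp this with h1 | h1
    · apply hne
      have : y = y' := by linear_combination -h1
      subst this; rfl
    · have hy' : y' = -y := by linear_combination h1
      subst hy'
      have : y / x - -y / x = 2 * (y / x) := by ring
      rw [this, map_mul, hv2, hα, one_mul] at hαα
      exact lt_irrefl _ hαα
  apply hW.sub_secant v ha h h' hx (hx' ▸ hx) hxe
  have hsum : y + y' = 2 * (y / x) * x - ((y / x) * (x - x') + (y / x - y' / x') * x') := by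
    field_simp
    ring
  have hmain : v (2 * (y / x) * x) = v x := by
    rw [map_mul, map_mul, hv2, hα, one_mul, one_mul]
  have hsmall : v ((y / x) * (x - x') + (y / x - y' / x') * x') < v x := by
    apply v.map_add_lt
    · rw [map_mul, hα, one_mul]; exact hxx
    · rw [map_mul, hx']
      calc v (y / x - y' / x') * v x < 1 * v x :=
            mul_lt_mul_of_pos_right hαα (val_pos v hx0)
        _ = v x := one_mul _
  have hfin : v (y + y') = v x := by
    rw [hsum]
    have := v.map_sub_eq_of_lt_left (x := 2 * (y / x) * x)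
      (y := (y / x) * (x - x') + (y / x - y' / x') * x') (by rw [hmain]; exact hsmall)
    rw [this, hmain]
  rw [hfin]
  exact hxx

end Fermat.Agent.S05
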