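import Fermat.Agent.S05.Close

set_option autoImplicit false
set_option linter.unusedSectionVars false
set_option linter.unusedVariables false

namespace Fermat.Agent.S05

open WeierstrassCurve WeierstrassCurve.Affine

variable {K : Type*} [Field K] [DecidableEq K]
variable {Γ₀ : Type*} [LinearOrderedCommGroupWithZero Γ₀]
variable (v : Valuation K Γ₀) {W : Affine K}

/-- formulas for `α₃ = y₃ / x₃` -/
lemma alpha3_formulas (x₁ x₂ α₁ α₂ b x₃ y₃ s d : K) (hx₁ : x₁ ≠ 0) (hx₂ : x₂ ≠ 0) (hs : s ≠ 0)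
    (hd0 : d ≠ 0) (hx₃0 : x₃ ≠ 0) (hs' : s = α₁ + α₂) (hd : d = x₁ * x₂ - b)
    (hx₃ : x₃ * (x₁ * x₂ * s ^ 2) = d ^ 2)
    (hy₃ : y₃ = -((α₁ + d / (x₁ * s)) * x₃) + d / s) :
    y₃ / x₃ - α₂ = s * b / d - d / (x₁ * s) ∧ y₃ / x₃ + α₁ = -(d / (x₁ * s)) + x₁ * x₂ * s / d := by
  have h2 : y₃ / x₃ + α₁ = -(d / (x₁ * s)) + x₁ * x₂ * s / d := by
    rw [hy₃]
    field_simp
    linear_combination (-x₁) * hx₃
  refine ⟨?_, h2⟩
  have : y₃ / x₃ - α₂ = (y₃ / x₃ + α₁) - s := by rw [hs']; ring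
  rw [this, h2]
  have hb : b = x₁ * x₂ - d := by rw [hd]; ring
  rw [hb]
  field_simp
  ring

/-- for a point reducing to the node, `α = y / x` is a unit -/
lemma IsTwoNF.val_alpha_node (hW : IsTwoNF W) (ha : v W.a₂ = 1)
    {x y : K} (h : W.Nonsingular x y) (hxl : v W.a₄ < v x) (hxu : v x < 1) : v (y / x) = 1 := by
  have hx0 : x ≠ 0 := by rintro rfl; simp at hxl
  have hvx : 0 < v x := val_pos v hx0
  have e := hW.alpha_sq h hx0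
  have h1 : v (x ^ 2 + W.a₂ * x + W.a₄) = v x := by
    have : x ^ 2 + W.a₂ * x + W.a₄ = W.a₂ * x + x ^ 2 + W.a₄ := by ring
    rw [this]
    have hax : v (W.a₂ * x) = v x := by rw [map_mul, ha, one_mul]
    rw [val_add3_eq v (A := W.a₂ * x), hax]
    · rw [hax, map_pow, pow_two]
      calc v x * v x < 1 * v x := mul_lt_mul_of_pos_right hxu hvx
        _ = v x := one_mul _
    · rw [hax]; exact hxl
  have h2 := congrArg v e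
  rw [h1, map_mul, map_pow] at h2
  apply eq_one_of_sq_eq_one
  have : v (y / x) ^ 2 * v x = 1 * v x := by rw [h2, one_mul]
  exact mul_right_cancel₀ hvx.ne' this

/-- for a point with `1 ≤ v x`, `v (y/x)^2 ≤ v x` -/
lemma IsTwoNF.val_alpha_sq_le (hW : IsTwoNF W) (ha : v W.a₂ ≤ 1) (hb : v W.a₄ ≤ 1)
    {x y : K} (h : W.Nonsingular x y) (hx : 1 ≤ v x) : v (y / x) ^ 2 ≤ v x := by
  have hx0 : x ≠ 0 := ne_zero_of_one_le_val v hx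
  have hvx : 0 < v x := val_pos v hx0
  have e := hW.alpha_sq h hx0
  have h1 : v (x ^ 2 + W.a₂ * x + W.a₄) ≤ v x * v x := by
    apply v.map_add_le
    · apply v.map_add_le
      · rw [map_pow, pow_two]
      · rw [map_mul]
        gcongr
        exact le_trans ha hx
    · calc v W.a₄ ≤ 1 * 1 := by rw [one_mul]; exact hb
        _ ≤ v x * v x := by gcongr
  have h2 := congrArg v e
  rw [map_mul, map_pow] at h2
  rw [← h2] at h1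
  exact le_of_mul_le_mul_right h1 hvx

/-- (A-Z): adding a point of `E₀` to a point reducing to the node -/
lemma IsTwoNF.add_Z_N (hW : IsTwoNF W) (ha : v W.a₂ = 1) (hb : v W.a₄ < 1)
    {x₁ y₁ x₂ y₂ : K} (h₁ : W.Nonsingular x₁ y₁) (h₂ : W.Nonsingular x₂ y₂)
    (hx₁ : 1 ≤ v x₁) (hx₂l : v W.a₄ < v x₂) (hx₂u : v x₂ < 1) :
    ∃ x₃ y₃ h₃, Point.some x₁ y₁ h₁ + Point.some x₂ y₂ h₂ = Point.some x₃ y₃ h₃ ∧
      v x₃ = v x₂ ∧ v (y₃ / x₃ - y₂ / x₂) < 1 := by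
  have hx₁0 : x₁ ≠ 0 := ne_zero_of_one_le_val v hx₁
  have hx₂0 : x₂ ≠ 0 := by rintro rfl; simp at hx₂l
  have hX₁ : 0 < v x₁ := val_pos v hx₁0
  have hX₂ : 0 < v x₂ := val_pos v hx₂0
  have e₁ := hW.alpha_sq h₁ hx₁0
  have e₂ := hW.alpha_sq h₂ hx₂0
  have hα₂ := hW.val_alpha_node v ha h₂ hx₂l hx₂u
  have hα₁ := hW.val_alpha_sq_le v ha.le hb.le h₁ hx₁
  obtain ⟨α₁, hα₁'⟩ : ∃ α₁, α₁ = y₁ / x₁ := ⟨_, rfl⟩
  obtain ⟨α₂, hα₂'⟩ : ∃ α₂, α₂ = y₂ / x₂ := ⟨_, rfl⟩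
  obtain ⟨s, hs'⟩ : ∃ s, s = α₁ + α₂ := ⟨_, rfl⟩
  obtain ⟨d, hd'⟩ : ∃ d, d = x₁ * x₂ - W.a₄ := ⟨_, rfl⟩
  rw [← hα₁'] at e₁ hα₁
  rw [← hα₂'] at e₂ hα₂
  have hvd : v d = v x₁ * v x₂ := by
    rw [hd', ← map_mul]
    apply v.map_sub_eq_of_lt_left
    rw [map_mul]
    calc v W.a₄ < v x₂ := hx₂l
      _ = 1 * v x₂ := (one_mul _).symm
      _ ≤ v x₁ * v x₂ := by gcongr
  have hd0 : d ≠ 0 := by
    apply ne_zero_of_val_pos v; rw [hvd]; exact mul_pos hX₁ hX₂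
  have hvx12 : v (x₁ - x₂) = v x₁ :=
    v.map_sub_eq_of_lt_left (lt_of_lt_of_le hx₂u hx₁)
  -- `v s * v (α₁ - α₂) = v x₁`
  have hid : s * (α₁ - α₂) * (x₁ * x₂) = (x₁ - x₂) * d := by
    rw [hs', hd']; linear_combination x₂ * e₁ - x₁ * e₂
  have hsv : v s * v (α₁ - α₂) = v x₁ := by
    have := congrArg v hid
    simp only [map_mul] at this
    rw [hvx12, hvd] at this
    exact mul_right_cancel₀ (mul_pos hX₁ hX₂).ne' this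
  have hs2 : v s ^ 2 ≤ v x₁ := by
    rcases (by rw [hs']; exact v.map_add' α₁ α₂ : v s ≤ v α₁ ∨ v s ≤ v α₂) with h | h
    · exact le_trans (pow_le_pow_left₀ zero_le h 2) hα₁
    · rw [hα₂] at h
      exact le_trans (pow_le_one₀ zero_le h) hx₁
  have hm2 : v (α₁ - α₂) ^ 2 ≤ v x₁ := by
    rcases (by
      have := v.map_add' α₁ (-α₂)
      rwa [← sub_eq_add_neg, Valuation.map_neg] at this :
        v (α₁ - α₂) ≤ v α₁ ∨ v (α₁ - α₂) ≤ v α₂) with h | h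
    · exact le_trans (pow_le_pow_left₀ zero_le h 2) hα₁
    · rw [hα₂] at h
      exact le_trans (pow_le_one₀ zero_le h) hx₁
  have hs2' : v s ^ 2 = v x₁ := by
    rcases lt_or_eq_of_le hs2 with hlt | heq
    · exfalso
      have h1 : v s ^ 2 * v (α₁ - α₂) ^ 2 = v x₁ * v x₁ := by
        rw [← mul_pow, hsv, pow_two]
      have hmpos : 0 < v (α₁ - α₂) ^ 2 := by
        rw [zero_lt_iff]
        intro h0
        rw [h0, mul_zero] at h1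
        exact (mul_pos hX₁ hX₁).ne h1
      have h2 : v s ^ 2 * v (α₁ - α₂) ^ 2 < v x₁ * v x₁ := by
        calc v s ^ 2 * v (α₁ - α₂) ^ 2 < v x₁ * v (α₁ - α₂) ^ 2 :=
              mul_lt_mul_of_pos_right hlt hmpos
          _ ≤ v x₁ * v x₁ := by gcongr
      exact h2.ne h1
    · exact heq
  have hS : 0 < v s := by
    rw [zero_lt_iff]; intro h0; rw [h0] at hs2'; simp at hs2'; exact hX₁.ne hs2'
  have hs0 : s ≠ 0 := ne_zero_of_val_pos v hS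
  have hs0' : y₁ / x₁ + y₂ / x₂ ≠ 0 := by rw [← hα₁', ← hα₂', ← hs']; exact hs0
  obtain ⟨x₃, y₃, h₃, hadd, hx₃, hy₃⟩ := hW.add_sd h₁ h₂ hx₁0 hx₂0 hs0'
  rw [← hα₁', ← hα₂', ← hs', ← hd'] at hx₃ hy₃
  refine ⟨x₃, y₃, h₃, hadd, ?_⟩
  have hvx₃ : v x₃ = v x₂ := by
    have := congrArg v hx₃
    simp only [map_mul, map_pow] at this
    rw [hvd, hs2'] at this
    have h0 : v x₁ * v x₂ * v x₁ ≠ 0 := (mul_pos (mul_pos hX₁ hX₂) hX₁).ne'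
    apply mul_right_cancel₀ h0
    rw [this]; simp only [pow_two]; ac_rfl
  refine ⟨hvx₃, ?_⟩
  have hx₃0 : x₃ ≠ 0 := by apply ne_zero_of_val_pos v; rw [hvx₃]; exact hX₂
  obtain ⟨hf1, -⟩ := alpha3_formulas x₁ x₂ α₁ α₂ W.a₄ x₃ y₃ s d hx₁0 hx₂0 hs0 hd0 hx₃0 hs' hd'
    hx₃ hy₃
  rw [← hα₂', hf1]
  apply v.map_sub_lt
  · apply lt_one_of_sq_lt_one
    rw [map_div₀, map_mul, div_pow, mul_pow, hs2', hvd]
    rw [div_lt_one₀ (pow_pos (mul_pos hX₁ hX₂) 2)]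
    calc v x₁ * v W.a₄ ^ 2 < v x₁ * v x₂ ^ 2 := by
          apply mul_lt_mul_of_pos_left _ hX₁
          exact pow_lt_pow_left₀ hx₂l zero_le (by norm_num)
      _ = 1 * (v x₁ * v x₂ ^ 2) := (one_mul _).symm
      _ ≤ v x₁ * (v x₁ * v x₂ ^ 2) := by gcongr
      _ = (v x₁ * v x₂) ^ 2 := by simp only [pow_two]; ac_rfl
  · apply lt_one_of_sq_lt_one
    rw [map_div₀, map_mul, div_pow, mul_pow, hs2', hvd]
    rw [div_lt_one₀ (mul_pos (pow_pos hX₁ 2) hX₁)]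
    calc (v x₁ * v x₂) ^ 2 = v x₁ ^ 2 * (v x₂ ^ 2) := mul_pow _ _ _
      _ < v x₁ ^ 2 * 1 := by
          apply mul_lt_mul_of_pos_left _ (pow_pos hX₁ 2)
          exact pow_lt_one₀ zero_le hx₂u (by norm_num)
      _ ≤ v x₁ ^ 2 * v x₁ := by gcongr

/-- (A-N): adding two points reducing to the node with the same tangent direction -/
lemma IsTwoNF.add_N_N (hW : IsTwoNF W) (ha : v W.a₂ = 1) (hb0 : W.a₄ ≠ 0) (hv2 : v 2 = 1)
    {x₁ y₁ x₂ y₂ : K} (h₁ : W.Nonsingular x₁ y₁) (h₂ : W.Nonsingular x₂ y₂)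
    (hx₁l : v W.a₄ < v x₁) (hx₁u : v x₁ < 1) (hx₂l : v W.a₄ < v x₂) (hx₂u : v x₂ < 1)
    (hα : v (y₁ / x₁ - y₂ / x₂) < 1) :
    ∃ x₃ y₃ h₃, Point.some x₁ y₁ h₁ + Point.some x₂ y₂ h₂ = Point.some x₃ y₃ h₃ ∧
      (v W.a₄ < v x₁ * v x₂ → v x₃ = v x₁ * v x₂ ∧ v (y₃ / x₃ - y₂ / x₂) < 1) ∧
      (v x₁ * v x₂ < v W.a₄ → v x₃ * (v x₁ * v x₂) = v W.a₄ ^ 2 ∧ v (y₃ / x₃ + y₂ / x₂) < 1) ∧
      (v x₁ * v x₂ = v W.a₄ → v x₃ ≤ v W.a₄) := by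
  have hx₁0 : x₁ ≠ 0 := by rintro rfl; simp at hx₁l
  have hx₂0 : x₂ ≠ 0 := by rintro rfl; simp at hx₂l
  have hX₁ : 0 < v x₁ := val_pos v hx₁0
  have hX₂ : 0 < v x₂ := val_pos v hx₂0
  have hβ : 0 < v W.a₄ := val_pos v hb0
  have hα₁ := hW.val_alpha_node v ha h₁ hx₁l hx₁u
  have hα₂ := hW.val_alpha_node v ha h₂ hx₂l hx₂u
  obtain ⟨α₁, hα₁'⟩ : ∃ α₁, α₁ = y₁ / x₁ := ⟨_, rfl⟩
  obtain ⟨α₂, hα₂'⟩ : ∃ α₂, α₂ = y₂ / x₂ := ⟨_, rfl⟩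
  obtain ⟨s, hs'⟩ : ∃ s, s = α₁ + α₂ := ⟨_, rfl⟩
  obtain ⟨d, hd'⟩ : ∃ d, d = x₁ * x₂ - W.a₄ := ⟨_, rfl⟩
  rw [← hα₁'] at hα₁
  rw [← hα₂'] at hα₂
  rw [← hα₁', ← hα₂'] at hα
  have hvs : v s = 1 := by
    have : s = 2 * α₂ + (α₁ - α₂) := by rw [hs']; ring
    rw [this]
    exact val_add_eq_one v (by rw [map_mul, hv2, hα₂, one_mul]) hα
  have hs0 : s ≠ 0 := ne_zero_of_val_eq_one v hvs
  have hs0' : y₁ / x₁ + y₂ / x₂ ≠ 0 := by rw [← hα₁', ← hα₂', ← hs']; exact hs0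
  obtain ⟨x₃, y₃, h₃, hadd, hx₃, hy₃⟩ := hW.add_sd h₁ h₂ hx₁0 hx₂0 hs0'
  rw [← hα₁', ← hα₂', ← hs', ← hd'] at hx₃ hy₃
  refine ⟨x₃, y₃, h₃, hadd, ?_⟩
  rw [← hα₂']
  have hvx₃ : v x₃ * (v x₁ * v x₂) = v d ^ 2 := by
    have := congrArg v hx₃
    simp only [map_mul, map_pow] at this
    rw [hvs, one_pow, mul_one] at this
    exact this
  have hX₁₂ : 0 < v x₁ * v x₂ := mul_pos hX₁ hX₂
  refine ⟨fun hgt => ?_, fun hlt => ?_, fun heq => ?_⟩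
  · -- `v b < v (x₁ x₂)`
    have hvd : v d = v x₁ * v x₂ := by
      rw [hd', ← map_mul]
      apply v.map_sub_eq_of_lt_left
      rw [map_mul]; exact hgt
    have hd0 : d ≠ 0 := by
      apply ne_zero_of_val_pos v; rw [hvd]; exact hX₁₂
    have hvx₃' : v x₃ = v x₁ * v x₂ := by
      rw [hvd, pow_two] at hvx₃
      exact mul_right_cancel₀ hX₁₂.ne' hvx₃
    refine ⟨hvx₃', ?_⟩
    have hx₃0 : x₃ ≠ 0 := by apply ne_zero_of_val_pos v; rw [hvx₃']; exact hX₁₂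
    obtain ⟨hf1, -⟩ := alpha3_formulas x₁ x₂ α₁ α₂ W.a₄ x₃ y₃ s d hx₁0 hx₂0 hs0 hd0 hx₃0 hs' hd'
      hx₃ hy₃
    rw [hf1]
    apply v.map_sub_lt
    · rw [map_div₀, map_mul, hvs, one_mul, hvd, div_lt_one₀ hX₁₂]
      exact hgt
    · rw [map_div₀, map_mul, hvs, mul_one, hvd, div_lt_one₀ hX₁]
      calc v x₁ * v x₂ < v x₁ * 1 := mul_lt_mul_of_pos_left hx₂u hX₁
        _ = v x₁ := mul_one _
  · -- `v (x₁ x₂) < v b`
    have hvd : v d = v W.a₄ := by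
      rw [hd']
      apply v.map_sub_eq_of_lt_right
      rw [map_mul]; exact hlt
    have hd0 : d ≠ 0 := by
      apply ne_zero_of_val_pos v; rw [hvd]; exact hβ
    rw [hvd] at hvx₃
    refine ⟨hvx₃, ?_⟩
    have hx₃0 : x₃ ≠ 0 := by
      rintro rfl
      rw [map_zero, zero_mul] at hvx₃
      exact (pow_pos hβ 2).ne hvx₃
    obtain ⟨-, hf2⟩ := alpha3_formulas x₁ x₂ α₁ α₂ W.a₄ x₃ y₃ s d hx₁0 hx₂0 hs0 hd0 hx₃0 hs' hd'
      hx₃ hy₃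
    have : y₃ / x₃ + α₂ = (y₃ / x₃ + α₁) - (α₁ - α₂) := by ring
    rw [this, hf2]
    apply v.map_sub_lt _ hα
    apply v.map_add_lt
    · rw [Valuation.map_neg, map_div₀, map_mul, hvs, mul_one, hvd, div_lt_one₀ hX₁]
      exact hx₁l
    · rw [map_div₀, map_mul, map_mul, hvs, mul_one, hvd, div_lt_one₀ hβ]
      exact hlt
  · -- `v (x₁ x₂) = v b`
    have hvd : v d ≤ v W.a₄ := by
      rw [hd']
      apply v.map_sub_le _ (le_refl _)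
      rw [map_mul, heq]
    rw [heq] at hvx₃
    have : v x₃ * v W.a₄ ≤ v W.a₄ * v W.a₄ := by
      rw [hvx₃, pow_two]; gcongr
    exact le_of_mul_le_mul_right this hβ

end Fermat.Agent.S05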