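import Fermat.Agent.S05.Comp

set_option autoImplicit false
set_option linter.unusedSectionVars false
set_option linter.unusedVariables false

namespace Fermat.Agent.S05

open WeierstrassCurve WeierstrassCurve.Affine

variable {K : Type*} [Field K] [DecidableEq K]
variable {Γ₀ : Type*} [LinearOrderedCommGroupWithZero Γ₀]
variable (v : Valuation K Γ₀) {W : Affine K}

/-- type `Z`: the point lies in `E₀` -/
def TZ (Q : W.Point) (γ : Γ₀) : Prop :=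
  (Q = 0 ∨ ∃ x y, ∃ h : W.Nonsingular x y, Q = Point.some x y h ∧ 1 ≤ v x) ∧
    ∃ i j : ℕ, γ * v W.a₄ ^ (2 * i) = v W.a₄ ^ (2 * j)

/-- type `N+` -/
def TP (α₀ : K) (Q : W.Point) (γ : Γ₀) : Prop :=
  ∃ x y, ∃ h : W.Nonsingular x y, Q = Point.some x y h ∧ v W.a₄ < v x ∧ v x < 1 ∧
    v (y / x - α₀) < 1 ∧ ∃ i j : ℕ, v x * v W.a₄ ^ (2 * i) = γ * v W.a₄ ^ (2 * j)

/-- type `N-` -/
def TM (α₀ : K) (Q : W.Point) (γ : Γ₀) : Prop :=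
  ∃ x y, ∃ h : W.Nonsingular x y, Q = Point.some x y h ∧ v W.a₄ < v x ∧ v x < 1 ∧
    v (y / x + α₀) < 1 ∧ ∃ i j : ℕ, v x * γ * v W.a₄ ^ (2 * i) = v W.a₄ ^ (2 * j)

/-- type `H`: the point lies in `T + E₀` -/
def TH (Q : W.Point) (γ : Γ₀) : Prop :=
  (∃ x y, ∃ h : W.Nonsingular x y, Q = Point.some x y h ∧ v x ≤ v W.a₄) ∧
    ∃ i j : ℕ, γ * v W.a₄ ^ (2 * i) = v W.a₄ ^ (2 * j + 1)

/-- the state of a point -/
def St (α₀ : K) (Q : W.Point) (γ : Γ₀) : Prop :=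
  TZ v Q γ ∨ TP v α₀ Q γ ∨ TM v α₀ Q γ ∨ TH v Q γ

variable {v}

lemma pow_two_mul_succ (β : Γ₀) (i : ℕ) : β ^ (2 * (i + 1)) = β ^ (2 * i) * β * β := by
  rw [mul_add, pow_add, mul_one, pow_two, mul_assoc]

lemma IsTwoNF.T_Z (hW : IsTwoNF W) (hb0 : W.a₄ ≠ 0) {Q : W.Point} {γ : Γ₀}
    (hQ : TZ v Q γ) : TH v (Q + Point.some 0 0 (hW.nonsingular_zero hb0)) (γ * v W.a₄) := by
  obtain ⟨hQ, i, j, hij⟩ := hQ
  have hβ : 0 < v W.a₄ := val_pos v hb0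
  refine ⟨?_, i, j, ?_⟩
  · rcases hQ with rfl | ⟨x, y, h, rfl, hx⟩
    · rw [zero_add]
      exact ⟨0, 0, _, rfl, by simp⟩
    · have hx0 : x ≠ 0 := ne_zero_of_one_le_val v hx
      obtain ⟨h', hadd⟩ := hW.add_T hb0 h hx0
      refine ⟨_, _, h', hadd, ?_⟩
      rw [map_div₀, div_le_iff₀ (val_pos v hx0)]
      calc v W.a₄ = v W.a₄ * 1 := (mul_one _).symm
        _ ≤ v W.a₄ * v x := by gcongr
  · calc γ * v W.a₄ * v W.a₄ ^ (2 * i) = γ * v W.a₄ ^ (2 * i) * v W.a₄ := by ac_rfl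
      _ = v W.a₄ ^ (2 * j + 1) := by rw [hij, pow_succ]

lemma IsTwoNF.T_H (hW : IsTwoNF W) (hb0 : W.a₄ ≠ 0) {Q : W.Point} {γ : Γ₀}
    (hQ : TH v Q γ) : TZ v (Q + Point.some 0 0 (hW.nonsingular_zero hb0)) (γ * v W.a₄) := by
  obtain ⟨⟨x, y, h, rfl, hx⟩, i, j, hij⟩ := hQ
  have hβ : 0 < v W.a₄ := val_pos v hb0
  refine ⟨?_, i, j + 1, ?_⟩
  · by_cases hx0 : x = 0
    · subst hx0
      have hy : y = 0 := by
        have := hW.eq_of_nonsingular h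
        simpa using this
      subst hy
      left
      exact hW.T_add_T hb0
    · right
      obtain ⟨h', hadd⟩ := hW.add_T hb0 h hx0
      refine ⟨_, _, h', hadd, ?_⟩
      rw [map_div₀, le_div_iff₀ (val_pos v hx0), one_mul]
      exact hx
  · calc γ * v W.a₄ * v W.a₄ ^ (2 * i) = γ * v W.a₄ ^ (2 * i) * v W.a₄ := by ac_rfl
      _ = v W.a₄ ^ (2 * (j + 1)) := by rw [hij, pow_two_mul_succ, pow_succ]

/-- valuation of `b / x` for points reducing to the node -/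
lemma val_b_div_x {b x : K} (hb0 : b ≠ 0) (hxl : v b < v x) (hxu : v x < 1) :
    v b < v (b / x) ∧ v (b / x) < 1 ∧ v (b / x) * v x = v b := by
  have hx0 : x ≠ 0 := by rintro rfl; simp at hxl
  have hX : 0 < v x := val_pos v hx0
  have hβ : 0 < v b := val_pos v hb0
  refine ⟨?_, ?_, ?_⟩
  · rw [map_div₀, lt_div_iff₀ hX]
    calc v b * v x < v b * 1 := mul_lt_mul_of_pos_left hxu hβ
      _ = v b := mul_one _
  · rw [map_div₀, div_lt_one₀ hX]; exact hxl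
  · rw [map_div₀, div_mul_cancel₀ _ hX.ne']

lemma IsTwoNF.T_P (hW : IsTwoNF W) (hb0 : W.a₄ ≠ 0) {α₀ : K} {Q : W.Point} {γ : Γ₀}
    (hQ : TP v α₀ Q γ) :
    TM v α₀ (Q + Point.some 0 0 (hW.nonsingular_zero hb0)) (γ * v W.a₄) := by
  obtain ⟨x, y, h, rfl, hxl, hxu, hα, i, j, hij⟩ := hQ
  have hx0 : x ≠ 0 := by rintro rfl; simp at hxl
  obtain ⟨h', hadd⟩ := hW.add_T hb0 h hx0
  obtain ⟨h1, h2, h3⟩ := val_b_div_x (v := v) hb0 hxl hxu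
  refine ⟨_, _, h', hadd, h1, h2, ?_, j, i + 1, ?_⟩
  · have : -(W.a₄ * y / x ^ 2) / (W.a₄ / x) + α₀ = -(y / x - α₀) := by
      field_simp
      ring
    rw [this, Valuation.map_neg]; exact hα
  · calc v (W.a₄ / x) * (γ * v W.a₄) * v W.a₄ ^ (2 * j)
        = v (W.a₄ / x) * v W.a₄ * (γ * v W.a₄ ^ (2 * j)) := by ac_rfl
      _ = v (W.a₄ / x) * v W.a₄ * (v x * v W.a₄ ^ (2 * i)) := by rw [hij]
      _ = (v (W.a₄ / x) * v x) * v W.a₄ * v W.a₄ ^ (2 * i) := by ac_rfl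
      _ = v W.a₄ ^ (2 * (i + 1)) := by rw [h3, pow_two_mul_succ]; ac_rfl

lemma IsTwoNF.T_M (hW : IsTwoNF W) (hb0 : W.a₄ ≠ 0) {α₀ : K} {Q : W.Point} {γ : Γ₀}
    (hQ : TM v α₀ Q γ) :
    TP v α₀ (Q + Point.some 0 0 (hW.nonsingular_zero hb0)) (γ * v W.a₄) := by
  obtain ⟨x, y, h, rfl, hxl, hxu, hα, i, j, hij⟩ := hQ
  have hx0 : x ≠ 0 := by rintro rfl; simp at hxl
  have hX : 0 < v x := val_pos v hx0
  obtain ⟨h', hadd⟩ := hW.add_T hb0 h hx0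
  obtain ⟨h1, h2, h3⟩ := val_b_div_x (v := v) hb0 hxl hxu
  refine ⟨_, _, h', hadd, h1, h2, ?_, j, i, ?_⟩
  · have : -(W.a₄ * y / x ^ 2) / (W.a₄ / x) - α₀ = -(y / x + α₀) := by
      field_simp
      ring
    rw [this, Valuation.map_neg]; exact hα
  · apply mul_right_cancel₀ hX.ne'
    calc v (W.a₄ / x) * v W.a₄ ^ (2 * j) * v x
        = (v (W.a₄ / x) * v x) * v W.a₄ ^ (2 * j) := by ac_rfl
      _ = v W.a₄ * (v x * γ * v W.a₄ ^ (2 * i)) := by rw [h3, hij]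
      _ = γ * v W.a₄ * v W.a₄ ^ (2 * i) * v x := by ac_rfl

lemma IsTwoNF.St_T (hW : IsTwoNF W) (hb0 : W.a₄ ≠ 0) {α₀ : K} {Q : W.Point} {γ : Γ₀}
    (hQ : St v α₀ Q γ) :
    St v α₀ (Q + Point.some 0 0 (hW.nonsingular_zero hb0)) (γ * v W.a₄) := by
  rcases hQ with h | h | h | h
  · exact Or.inr (Or.inr (Or.inr (hW.T_Z hb0 h)))
  · exact Or.inr (Or.inr (Or.inl (hW.T_P hb0 h)))
  · exact Or.inr (Or.inl (hW.T_M hb0 h))
  · exact Or.inl (hW.T_H hb0 h)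

lemma St_shift {α₀ : K} {Q : W.Point} {γ : Γ₀}
    (hQ : St v α₀ Q (γ * v W.a₄ * v W.a₄)) : St v α₀ Q γ := by
  rcases hQ with ⟨h, i, j, hij⟩ | ⟨x, y, h, rfl, hxl, hxu, hα, i, j, hij⟩ |
    ⟨x, y, h, rfl, hxl, hxu, hα, i, j, hij⟩ | ⟨h, i, j, hij⟩
  · refine Or.inl ⟨h, i + 1, j, ?_⟩
    rw [← hij, pow_two_mul_succ]; ac_rfl
  · refine Or.inr (Or.inl ⟨x, y, h, rfl, hxl, hxu, hα, i, j + 1, ?_⟩)
    rw [hij, pow_two_mul_succ]; ac_rfl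
  · refine Or.inr (Or.inr (Or.inl ⟨x, y, h, rfl, hxl, hxu, hα, i + 1, j, ?_⟩))
    rw [← hij, pow_two_mul_succ]; ac_rfl
  · refine Or.inr (Or.inr (Or.inr ⟨h, i + 1, j, ?_⟩))
    rw [← hij, pow_two_mul_succ]; ac_rfl

/-- adding a point of type `N+` to a point of type `Z` or `N+` -/
lemma IsTwoNF.St_add_pos (hW : IsTwoNF W) (ha : v W.a₂ = 1) (hb0 : W.a₄ ≠ 0) (hb : v W.a₄ < 1)
    (hv2 : v 2 = 1) {α₀ : K} {x₂ y₂ : K} (h₂ : W.Nonsingular x₂ y₂)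
    (hx₂l : v W.a₄ < v x₂) (hx₂u : v x₂ < 1) (hα₂ : v (y₂ / x₂ - α₀) < 1)
    {Q : W.Point} {γ : Γ₀} (hQ : TZ v Q γ ∨ TP v α₀ Q γ) :
    St v α₀ (Q + Point.some x₂ y₂ h₂) (γ * v x₂) := by
  have hβ : 0 < v W.a₄ := val_pos v hb0
  have hX₂ : 0 < v x₂ := lt_trans hβ hx₂l
  rcases hQ with ⟨hQ, i, j, hij⟩ | ⟨x₁, y₁, h₁, rfl, hx₁l, hx₁u, hα₁, i, j, hij⟩
  · have hexp : v x₂ * v W.a₄ ^ (2 * j) = γ * v x₂ * v W.a₄ ^ (2 * i) := by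
      rw [← hij]; ac_rfl
    rcases hQ with rfl | ⟨x₁, y₁, h₁, rfl, hx₁⟩
    · rw [zero_add]
      exact Or.inr (Or.inl ⟨x₂, y₂, h₂, rfl, hx₂l, hx₂u, hα₂, j, i, hexp⟩)
    · obtain ⟨x₃, y₃, h₃, hadd, hvx₃, hα₃⟩ := hW.add_Z_N v ha hb h₁ h₂ hx₁ hx₂l hx₂u
      rw [hadd]
      refine Or.inr (Or.inl ⟨x₃, y₃, h₃, rfl, hvx₃ ▸ hx₂l, hvx₃ ▸ hx₂u, ?_, j, i, hvx₃ ▸ hexp⟩)
      have : y₃ / x₃ - α₀ = (y₃ / x₃ - y₂ / x₂) + (y₂ / x₂ - α₀) := by ring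
      rw [this]
      exact v.map_add_lt hα₃ hα₂
  · have hX₁ : 0 < v x₁ := lt_trans hβ hx₁l
    have hα : v (y₁ / x₁ - y₂ / x₂) < 1 := by
      have : y₁ / x₁ - y₂ / x₂ = (y₁ / x₁ - α₀) - (y₂ / x₂ - α₀) := by ring
      rw [this]
      exact v.map_sub_lt hα₁ hα₂
    obtain ⟨x₃, y₃, h₃, hadd, hgt, hlt, heq⟩ :=
      hW.add_N_N v ha hb0 hv2 h₁ h₂ hx₁l hx₁u hx₂l hx₂u hα
    rw [hadd]
    rcases lt_trichotomy (v W.a₄) (v x₁ * v x₂) with hc | hc | hc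
    · obtain ⟨hvx₃, hα₃⟩ := hgt hc
      refine Or.inr (Or.inl ⟨x₃, y₃, h₃, rfl, hvx₃ ▸ hc, ?_, ?_, i, j, ?_⟩)
      · rw [hvx₃]
        calc v x₁ * v x₂ < 1 * 1 := mul_lt_mul'' hx₁u hx₂u zero_le zero_le
          _ = 1 := one_mul 1
      · have : y₃ / x₃ - α₀ = (y₃ / x₃ - y₂ / x₂) + (y₂ / x₂ - α₀) := by ring
        rw [this]
        exact v.map_add_lt hα₃ hα₂
      · calc v x₃ * v W.a₄ ^ (2 * i) = (v x₁ * v W.a₄ ^ (2 * i)) * v x₂ := by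
              rw [hvx₃]; ac_rfl
          _ = γ * v x₂ * v W.a₄ ^ (2 * j) := by rw [hij]; ac_rfl
    · have hvx₃ := heq hc.symm
      refine Or.inr (Or.inr (Or.inr ⟨⟨x₃, y₃, h₃, rfl, hvx₃⟩, j, i, ?_⟩))
      calc γ * v x₂ * v W.a₄ ^ (2 * j) = (γ * v W.a₄ ^ (2 * j)) * v x₂ := by ac_rfl
        _ = (v x₁ * v x₂) * v W.a₄ ^ (2 * i) := by rw [← hij]; ac_rfl
        _ = v W.a₄ ^ (2 * i + 1) := by rw [← hc, pow_succ]; ac_rfl
    · obtain ⟨hvx₃, hα₃⟩ := hlt hc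
      have hX₁₂ : 0 < v x₁ * v x₂ := mul_pos hX₁ hX₂
      refine Or.inr (Or.inr (Or.inl ⟨x₃, y₃, h₃, rfl, ?_, ?_, ?_, j, i + 1, ?_⟩))
      · have : v W.a₄ * (v x₁ * v x₂) < v x₃ * (v x₁ * v x₂) := by
          rw [hvx₃, pow_two]
          exact mul_lt_mul_of_pos_left hc hβ
        exact lt_of_mul_lt_mul_right this zero_le
      · have : v x₃ * (v x₁ * v x₂) < 1 * (v x₁ * v x₂) := by
          rw [hvx₃, pow_two, one_mul]
          exact mul_lt_mul'' hx₁l hx₂l zero_le zero_le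
        exact lt_of_mul_lt_mul_right this zero_le
      · have : y₃ / x₃ + α₀ = (y₃ / x₃ + y₂ / x₂) - (y₂ / x₂ - α₀) := by ring
        rw [this]
        exact v.map_sub_lt hα₃ hα₂
      · calc v x₃ * (γ * v x₂) * v W.a₄ ^ (2 * j)
            = v x₃ * v x₂ * (γ * v W.a₄ ^ (2 * j)) := by ac_rfl
          _ = v x₃ * v x₂ * (v x₁ * v W.a₄ ^ (2 * i)) := by rw [hij]
          _ = (v x₃ * (v x₁ * v x₂)) * v W.a₄ ^ (2 * i) := by ac_rfl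
          _ = v W.a₄ ^ (2 * (i + 1)) := by rw [hvx₃, pow_two_mul_succ, pow_two]; ac_rfl

/-- adding a point of type `N+` to any point -/
lemma IsTwoNF.St_add (hW : IsTwoNF W) (ha : v W.a₂ = 1) (hb0 : W.a₄ ≠ 0) (hb : v W.a₄ < 1)
    (hv2 : v 2 = 1) {α₀ : K} {x₂ y₂ : K} (h₂ : W.Nonsingular x₂ y₂)
    (hx₂l : v W.a₄ < v x₂) (hx₂u : v x₂ < 1) (hα₂ : v (y₂ / x₂ - α₀) < 1)
    {Q : W.Point} {γ : Γ₀} (hQ : St v α₀ Q γ) :
    St v α₀ (Q + Point.some x₂ y₂ h₂) (γ * v x₂) := by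
  have key : ∀ {R : W.Point} {δ : Γ₀}, (TZ v R δ ∨ TP v α₀ R δ) →
      R = Q + Point.some 0 0 (hW.nonsingular_zero hb0) → δ = γ * v W.a₄ →
      St v α₀ (Q + Point.some x₂ y₂ h₂) (γ * v x₂) := by
    intro R δ hR hRQ hδ
    have h1 := hW.St_add_pos ha hb0 hb hv2 h₂ hx₂l hx₂u hα₂ hR
    have h2 := hW.St_T hb0 h1
    have e1 : R + Point.some x₂ y₂ h₂ + Point.some 0 0 (hW.nonsingular_zero hb0) =
        Q + Point.some x₂ y₂ h₂ := by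
      rw [hRQ]
      have := hW.T_add_T hb0
      calc Q + Point.some 0 0 (hW.nonsingular_zero hb0) + Point.some x₂ y₂ h₂ +
            Point.some 0 0 (hW.nonsingular_zero hb0)
          = Q + Point.some x₂ y₂ h₂ + (Point.some 0 0 (hW.nonsingular_zero hb0) +
              Point.some 0 0 (hW.nonsingular_zero hb0)) := by abel
        _ = Q + Point.some x₂ y₂ h₂ := by rw [this, add_zero]
    have e2 : δ * v x₂ * v W.a₄ = γ * v x₂ * v W.a₄ * v W.a₄ := by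
      rw [hδ]; ac_rfl
    rw [e1, e2] at h2
    exact St_shift h2
  rcases hQ with h | h | h | h
  · exact hW.St_add_pos ha hb0 hb hv2 h₂ hx₂l hx₂u hα₂ (Or.inl h)
  · exact hW.St_add_pos ha hb0 hb hv2 h₂ hx₂l hx₂u hα₂ (Or.inr h)
  · exact key (Or.inr (hW.T_M hb0 h)) rfl rfl
  · exact key (Or.inl (hW.T_H hb0 h)) rfl rfl

/-- Lemma Y: the valuation of the `x`-coordinate of a torsion point reducing to the node -/
theorem IsTwoNF.node_torsion_val (hW : IsTwoNF W) (ha : v W.a₂ = 1) (hb0 : W.a₄ ≠ 0)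
    (hb : v W.a₄ < 1) (hv2 : v 2 = 1) {x y : K} (h : W.Nonsingular x y)
    (hxl : v W.a₄ < v x) (hxu : v x < 1) (n : ℕ) (hn : n • Point.some x y h = 0) :
    ∃ i j : ℕ, v x ^ n * v W.a₄ ^ (2 * i) = v W.a₄ ^ (2 * j) := by
  have key : ∀ k : ℕ, St v (y / x) (k • Point.some x y h) (v x ^ k) := by
    intro k
    induction k with
    | zero =>
      rw [zero_smul, pow_zero]
      exact Or.inl ⟨Or.inl rfl, 0, 0, by simp⟩
    | succ k ih =>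
      rw [succ_nsmul, pow_succ]
      exact hW.St_add ha hb0 hb hv2 h hxl hxu (by simp) ih
  have := key n
  rw [hn] at this
  rcases this with ⟨-, i, j, hij⟩ | ⟨x', y', h', h0, -⟩ | ⟨x', y', h', h0, -⟩ |
    ⟨⟨x', y', h', h0⟩, -⟩
  · exact ⟨i, j, hij⟩
  · exact absurd h0.symm (Point.some_ne_zero h')
  · exact absurd h0.symm (Point.some_ne_zero h')
  · exact absurd h0.1.symm (Point.some_ne_zero h')

end Fermat.Agent.S05
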