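import Fermat.Agent.S05.Formulas

set_option autoImplicit false
set_option linter.unusedSectionVars false
set_option linter.unusedVariables false

namespace Fermat.Agent.S05

open WeierstrassCurve WeierstrassCurve.Affine

variable {K : Type*} [Field K] [DecidableEq K]
variable {Γ₀ : Type*} [LinearOrderedCommGroupWithZero Γ₀]
variable (v : Valuation K Γ₀) {W : Affine K}

/-- for a point with `1 < v x`, `v (y/x)^2 = v x` -/
lemma IsTwoNF.val_alpha_sq_of_one_lt (hW : IsTwoNF W) (ha : v W.a₂ ≤ 1) (hb : v W.a₄ ≤ 1)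
    {x y : K} (h : W.Nonsingular x y) (hx : 1 < v x) : v (y / x) ^ 2 = v x := by
  have hx0 : x ≠ 0 := by rintro rfl; simp at hx
  have hvx0 : v x ≠ 0 := by simpa using hx0
  have e := hW.alpha_sq h hx0
  have h1 : v (x ^ 2 + W.a₂ * x + W.a₄) = v (x ^ 2) := by
    apply val_add3_eq
    · rw [map_mul, map_pow, pow_two]
      calc v W.a₂ * v x ≤ 1 * v x := by gcongr
        _ < v x * v x := by
          rw [one_mul]
          exact lt_mul_of_one_lt_left (zero_lt_iff.mpr hvx0) hx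
    · rw [map_pow]
      calc v W.a₄ ≤ 1 := hb
        _ < v x ^ 2 := one_lt_pow₀ hx (by norm_num)
  have h2 := congrArg v e
  rw [h1, map_mul, map_pow, map_pow, pow_two (v x)] at h2
  exact mul_right_cancel₀ hvx0 h2

/-- sum of two points in the kernel of reduction, non-degenerate case -/
lemma IsTwoNF.E1_add_aux (hW : IsTwoNF W) (ha : v W.a₂ ≤ 1) (hb : v W.a₄ ≤ 1)
    {x₁ y₁ x₂ y₂ : K} (h₁ : W.Nonsingular x₁ y₁) (h₂ : W.Nonsingular x₂ y₂)
    (hx₁ : 1 < v x₁) (hx₂ : 1 < v x₂) (hs : y₁ / x₁ + y₂ / x₂ ≠ 0)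
    {r : Γ₀} (ht₁ : v (x₁ / y₁) ≤ r) (ht₂ : v (x₂ / y₂) ≤ r) :
    ∃ x₃ y₃ h₃, Point.some x₁ y₁ h₁ + Point.some x₂ y₂ h₂ = Point.some x₃ y₃ h₃ ∧
      1 < v x₃ ∧ v (x₃ / y₃ - x₁ / y₁ - x₂ / y₂) < r := by
  have hx₁0 : x₁ ≠ 0 := by rintro rfl; simp at hx₁
  have hx₂0 : x₂ ≠ 0 := by rintro rfl; simp at hx₂
  have hA := hW.val_alpha_sq_of_one_lt v ha hb h₁ hx₁
  have hB := hW.val_alpha_sq_of_one_lt v ha hb h₂ hx₂
  have e₁ := hW.alpha_sq h₁ hx₁0
  have e₂ := hW.alpha_sq h₂ hx₂0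
  obtain ⟨x₃, y₃, h₃, hadd, hx₃, hy₃⟩ := hW.add_sd h₁ h₂ hx₁0 hx₂0 hs
  refine ⟨x₃, y₃, h₃, hadd, ?_⟩
  -- abbreviations
  obtain ⟨α₁, hα₁⟩ : ∃ α₁, α₁ = y₁ / x₁ := ⟨_, rfl⟩
  obtain ⟨α₂, hα₂⟩ : ∃ α₂, α₂ = y₂ / x₂ := ⟨_, rfl⟩
  have ht₁' : x₁ / y₁ = 1 / α₁ := by rw [hα₁]; simp
  have ht₂' : x₂ / y₂ = 1 / α₂ := by rw [hα₂]; simp
  rw [ht₁'] at ht₁ ⊢
  rw [ht₂'] at ht₂ ⊢
  rw [← hα₁] at hA e₁ hs hx₃ hy₃
  rw [← hα₂] at hB e₂ hs hx₃ hy₃
  obtain ⟨s, hs'⟩ : ∃ s, s = α₁ + α₂ := ⟨_, rfl⟩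
  obtain ⟨d, hd'⟩ : ∃ d, d = x₁ * x₂ - W.a₄ := ⟨_, rfl⟩
  rw [← hs'] at hs hx₃ hy₃
  rw [← hd'] at hx₃ hy₃
  -- valuations
  have hA1 : 1 < v α₁ := one_lt_of_one_lt_sq (by rw [hA]; exact hx₁)
  have hB1 : 1 < v α₂ := one_lt_of_one_lt_sq (by rw [hB]; exact hx₂)
  have hα₁0 : α₁ ≠ 0 := by rintro rfl; simp at hA1
  have hα₂0 : α₂ ≠ 0 := by rintro rfl; simp at hB1
  have hApos : 0 < v α₁ := lt_trans zero_lt_one hA1
  have hBpos : 0 < v α₂ := lt_trans zero_lt_one hB1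
  have hA2pos : 0 < v α₁ ^ 2 := pow_pos hApos 2
  have hB2pos : 0 < v α₂ ^ 2 := pow_pos hBpos 2
  have hA21 : 1 < v α₁ ^ 2 := one_lt_pow₀ hA1 (by norm_num)
  have hB21 : 1 < v α₂ ^ 2 := one_lt_pow₀ hB1 (by norm_num)
  have hvd : v d = v x₁ * v x₂ := by
    rw [hd', ← map_mul]
    apply v.map_sub_eq_of_lt_left
    rw [map_mul]
    calc v W.a₄ ≤ 1 := hb
      _ < v x₁ * v x₂ := by
        calc (1 : Γ₀) = 1 * 1 := (one_mul 1).symm
          _ < v x₁ * v x₂ := mul_lt_mul'' hx₁ hx₂ zero_le zero_le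
  have hvd' : v d = v α₁ ^ 2 * v α₂ ^ 2 := by rw [hvd, hA, hB]
  have hvdpos : 0 < v d := by rw [hvd']; exact mul_pos hA2pos hB2pos
  have hd0 : d ≠ 0 := by rintro rfl; simp at hvdpos
  have hvs0 : 0 < v s := by rw [zero_lt_iff]; simpa using hs
  have hvx₃ : v x₃ * v s ^ 2 = v α₁ ^ 2 * v α₂ ^ 2 := by
    have := congrArg v hx₃
    simp only [map_mul, map_pow] at this
    rw [hvd, ← hA, ← hB] at this
    have h0 : v α₁ ^ 2 * v α₂ ^ 2 ≠ 0 := (mul_pos hA2pos hB2pos).ne'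
    apply mul_right_cancel₀ h0
    calc v x₃ * v s ^ 2 * (v α₁ ^ 2 * v α₂ ^ 2)
        = v x₃ * (v α₁ ^ 2 * v α₂ ^ 2 * v s ^ 2) := by ac_rfl
      _ = _ := by rw [this, pow_two]
  -- the bound on `v s`
  have hs_le : v s ≤ v α₁ ∨ v s ≤ v α₂ := by rw [hs']; exact v.map_add' α₁ α₂
  have hx₃1 : 1 < v x₃ := by
    rcases hs_le with hsl | hsl
    · have h1 : v x₃ * v s ^ 2 ≤ v x₃ * v α₁ ^ 2 := by gcongr
      rw [hvx₃, mul_comm (v x₃)] at h1
      have h2 : v α₂ ^ 2 ≤ v x₃ := le_of_mul_le_mul_left h1 hA2pos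
      exact lt_of_lt_of_le hB21 h2
    · have h1 : v x₃ * v s ^ 2 ≤ v x₃ * v α₂ ^ 2 := by gcongr
      rw [hvx₃] at h1
      have h2 : v α₁ ^ 2 ≤ v x₃ := le_of_mul_le_mul_right h1 hB2pos
      exact lt_of_lt_of_le hA21 h2
  refine ⟨hx₃1, ?_⟩
  have hx₃0 : x₃ ≠ 0 := by rintro rfl; simp at hx₃1
  have hy₃0 : y₃ ≠ 0 := by
    have := hW.val_alpha_sq_of_one_lt v ha hb h₃ hx₃1
    rintro rfl
    simp at this
    exact hx₃0 ((v.zero_iff).mp this.symm)
  obtain ⟨m, hm⟩ : ∃ m, m = α₁ * s + d / x₁ := ⟨_, rfl⟩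
  have hF := F4_identity x₁ x₂ α₁ α₂ W.a₂ W.a₄ x₃ y₃ s d m e₁ e₂ hx₁0 hx₂0 hs hs' hd'
    hα₁0 hα₂0 hy₃0 hm hx₃ hy₃
  -- `v m < v d`
  have hAB1 : 1 < v α₁ * v α₂ := by
    calc (1 : Γ₀) = 1 * 1 := (one_mul 1).symm
      _ < v α₁ * v α₂ := mul_lt_mul'' hA1 hB1 zero_le zero_le
  have hvs_lt : v α₁ * v s < v d := by
    rw [hvd']
    rcases hs_le with hsl | hsl
    · calc v α₁ * v s ≤ v α₁ * v α₁ := by gcongr
        _ = v α₁ ^ 2 * 1 := by rw [mul_one, pow_two]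
        _ < v α₁ ^ 2 * v α₂ ^ 2 := mul_lt_mul_of_pos_left hB21 hA2pos
    · calc v α₁ * v s ≤ v α₁ * v α₂ := by gcongr
        _ = (v α₁ * v α₂) * 1 := (mul_one _).symm
        _ < (v α₁ * v α₂) * (v α₁ * v α₂) :=
            mul_lt_mul_of_pos_left hAB1 (mul_pos hApos hBpos)
        _ = v α₁ ^ 2 * v α₂ ^ 2 := by simp only [pow_two]; ac_rfl
  have hvm : v m < v d := by
    rw [hm]
    apply v.map_add_lt
    · rw [map_mul]; exact hvs_lt
    · have hvx₁0 : v x₁ ≠ 0 := (val_pos v hx₁0).ne'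
      have hdx : v (d / x₁) = v x₂ := by
        rw [map_div₀, hvd]; field_simp
      rw [hdx, hvd]
      calc v x₂ = 1 * v x₂ := (one_mul _).symm
        _ < v x₁ * v x₂ := by
          apply mul_lt_mul_of_pos_right hx₁ (lt_trans zero_lt_one hx₂)
  have hQ : v (d ^ 2 + W.a₂ * d * m + W.a₄ * m ^ 2) = v d ^ 2 := by
    rw [← map_pow]
    apply val_add3_eq
    · rw [map_mul, map_mul, map_pow, pow_two]
      calc v W.a₂ * v d * v m ≤ 1 * v d * v m := by gcongr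
        _ = v d * v m := by rw [one_mul]
        _ < v d * v d := by
          apply mul_lt_mul_of_pos_left hvm hvdpos
    · rw [map_mul, map_pow, map_pow]
      calc v W.a₄ * v m ^ 2 ≤ 1 * v m ^ 2 := by gcongr
        _ = v m ^ 2 := one_mul _
        _ < v d ^ 2 := by
          apply pow_lt_pow_left₀ hvm zero_le (by norm_num)
  have hR : v (-(s * (2 * W.a₄ * m + W.a₂ * d))) ≤ v s * v d := by
    rw [Valuation.map_neg, map_mul]
    gcongr
    apply v.map_add_le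
    · rw [map_mul, map_mul]
      calc v 2 * v W.a₄ * v m ≤ 1 * 1 * v m := by
            gcongr
            exact val_two_le_one v
        _ = v m := by rw [one_mul, one_mul]
        _ ≤ v d := hvm.le
    · rw [map_mul]
      calc v W.a₂ * v d ≤ 1 * v d := by gcongr
        _ = v d := one_mul _
  have hF' := congrArg v hF
  rw [map_mul, hQ] at hF'
  have hle : v (x₃ / y₃ - 1 / α₁ - 1 / α₂) * v d ≤ v s := by
    have : v (x₃ / y₃ - 1 / α₁ - 1 / α₂) * v d * v d ≤ v s * v d := by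
      rw [mul_assoc, ← pow_two, hF']; exact hR
    exact le_of_mul_le_mul_right this hvdpos
  -- now conclude
  have hfin : v (x₃ / y₃ - 1 / α₁ - 1 / α₂) * v d < r * v d := by
    rcases hs_le with hsl | hsl
    · have hr1 : 1 ≤ r * v α₁ := by
        have : v (1 / α₁) * v α₁ = 1 := by
          rw [← map_mul]; field_simp; simp
        rw [← this]; gcongr
      have hrpos : 0 < r := by
        rw [zero_lt_iff]; rintro rfl; simp at hr1
      calc v (x₃ / y₃ - 1 / α₁ - 1 / α₂) * v d ≤ v s := hle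
        _ ≤ v α₁ := hsl
        _ = 1 * v α₁ := (one_mul _).symm
        _ ≤ r * v α₁ * v α₁ := by gcongr
        _ = r * v α₁ ^ 2 * 1 := by simp only [pow_two, mul_one]; ac_rfl
        _ < r * v α₁ ^ 2 * v α₂ ^ 2 :=
            mul_lt_mul_of_pos_left hB21 (mul_pos hrpos hA2pos)
        _ = r * v d := by rw [hvd']; ac_rfl
    · have hr1 : 1 ≤ r * v α₂ := by
        have : v (1 / α₂) * v α₂ = 1 := by
          rw [← map_mul]; field_simp; simp
        rw [← this]; gcongr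
      have hrpos : 0 < r := by
        rw [zero_lt_iff]; rintro rfl; simp at hr1
      calc v (x₃ / y₃ - 1 / α₁ - 1 / α₂) * v d ≤ v s := hle
        _ ≤ v α₂ := hsl
        _ = 1 * v α₂ := (one_mul _).symm
        _ ≤ r * v α₂ * v α₂ := by gcongr
        _ = r * v α₂ ^ 2 * 1 := by simp only [pow_two, mul_one]; ac_rfl
        _ < r * v α₂ ^ 2 * v α₁ ^ 2 :=
            mul_lt_mul_of_pos_left hA21 (mul_pos hrpos hB2pos)
        _ = r * v d := by rw [hvd']; ac_rfl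
  exact lt_of_mul_lt_mul_right hfin zero_le

/-- degenerate case: if `s = 0` then the two points are opposite -/
lemma IsTwoNF.E1_add_zero (hW : IsTwoNF W) (hb : v W.a₄ ≤ 1)
    {x₁ y₁ x₂ y₂ : K} (h₁ : W.Nonsingular x₁ y₁) (h₂ : W.Nonsingular x₂ y₂)
    (hx₁ : 1 < v x₁) (hx₂ : 1 < v x₂) (hs : y₁ / x₁ + y₂ / x₂ = 0) :
    Point.some x₁ y₁ h₁ + Point.some x₂ y₂ h₂ = 0 ∧ x₁ / y₁ + x₂ / y₂ = 0 := by
  have hx₁0 : x₁ ≠ 0 := by rintro rfl; simp at hx₁
  have hx₂0 : x₂ ≠ 0 := by rintro rfl; simp at hx₂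
  have e₁ := hW.alpha_sq h₁ hx₁0
  have e₂ := hW.alpha_sq h₂ hx₂0
  have hα : y₁ / x₁ = -(y₂ / x₂) := by linear_combination hs
  rw [hα] at e₁
  have hd : x₁ * x₂ - W.a₄ ≠ 0 := by
    intro h
    have h1 : v (x₁ * x₂) = v W.a₄ := by
      congr 1; linear_combination h
    rw [map_mul] at h1
    have : (1 : Γ₀) < v x₁ * v x₂ := by
      calc (1 : Γ₀) = 1 * 1 := (one_mul 1).symm
        _ < v x₁ * v x₂ := mul_lt_mul'' hx₁ hx₂ zero_le zero_le
    rw [h1] at this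
    exact absurd hb (not_le.mpr this)
  have hx : x₁ = x₂ := by
    have : (x₁ - x₂) * (x₁ * x₂ - W.a₄) = 0 := by
      linear_combination x₁ * e₂ - x₂ * e₁
    rcases mul_eq_zero.mp this with h | h
    · exact sub_eq_zero.mp h
    · exact absurd h hd
  subst hx
  have hy : y₁ = -y₂ := by
    field_simp at hα
    exact hα
  subst hy
  refine ⟨Point.add_of_Y_eq rfl (by rw [hW.negY]), ?_⟩
  rw [div_neg, neg_add_cancel]

/-- membership in the kernel of reduction -/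
def InE1 (P : W.Point) : Prop :=
  P = 0 ∨ ∃ x y, ∃ h : W.Nonsingular x y, P = Point.some x y h ∧ 1 < v x

/-- the local parameter `t = x / y` at the origin -/
def tC : W.Point → K
  | .zero => 0
  | .some x y _ => x / y

@[simp] lemma tC_zero : tC (0 : W.Point) = 0 := rfl

@[simp] lemma tC_some {x y : K} (h : W.Nonsingular x y) : tC (Point.some x y h) = x / y := rfl

/-- the kernel of reduction is closed under addition and `t` is additive to first order -/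
lemma IsTwoNF.E1_add (hW : IsTwoNF W) (ha : v W.a₂ ≤ 1) (hb : v W.a₄ ≤ 1)
    {P₁ P₂ : W.Point} (h₁ : InE1 v P₁) (h₂ : InE1 v P₂) {r : Γ₀} (hr : 0 < r)
    (ht₁ : v (tC P₁) ≤ r) (ht₂ : v (tC P₂) ≤ r) :
    InE1 v (P₁ + P₂) ∧ v (tC (P₁ + P₂) - tC P₁ - tC P₂) < r := by
  rcases h₁ with rfl | ⟨x₁, y₁, h₁, rfl, hx₁⟩
  · simp only [zero_add, tC_zero, sub_zero, sub_self, map_zero]
    exact ⟨h₂, hr⟩
  rcases h₂ with rfl | ⟨x₂, y₂, h₂, rfl, hx₂⟩
  · simp only [add_zero, tC_zero, sub_zero, sub_self, map_zero]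
    exact ⟨Or.inr ⟨x₁, y₁, h₁, rfl, hx₁⟩, hr⟩
  by_cases hs : y₁ / x₁ + y₂ / x₂ = 0
  · obtain ⟨h0, ht⟩ := hW.E1_add_zero v hb h₁ h₂ hx₁ hx₂ hs
    rw [h0]
    refine ⟨Or.inl rfl, ?_⟩
    simp only [tC_zero, tC_some]
    have : (0 : K) - x₁ / y₁ - x₂ / y₂ = 0 := by linear_combination -ht
    rw [this, map_zero]
    exact hr
  · obtain ⟨x₃, y₃, h₃, hadd, hx₃, ht⟩ := hW.E1_add_aux v ha hb h₁ h₂ hx₁ hx₂ hs ht₁ ht₂
    rw [hadd]
    exact ⟨Or.inr ⟨x₃, y₃, h₃, rfl, hx₃⟩, ht⟩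

/-- the kernel of reduction has no `n`-torsion if `n` is a unit -/
theorem IsTwoNF.E1_torsion_free (hW : IsTwoNF W) (ha : v W.a₂ ≤ 1) (hb : v W.a₄ ≤ 1)
    {x y : K} (h : W.Nonsingular x y) (hx : 1 < v x) (n : ℕ) (hn : v (n : K) = 1) :
    n • Point.some x y h ≠ 0 := by
  have hx0 : x ≠ 0 := by rintro rfl; simp at hx
  have hα := hW.val_alpha_sq_of_one_lt v ha hb h hx
  have hα1 : 1 < v (y / x) := one_lt_of_one_lt_sq (by rw [hα]; exact hx)
  have hy0 : y ≠ 0 := by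
    rintro rfl
    simp at hα1
  have ht0 : x / y ≠ 0 := div_ne_zero hx0 hy0
  have hr : 0 < v (x / y) := val_pos v ht0
  have key : ∀ k : ℕ, InE1 v (k • Point.some x y h) ∧
      v (tC (k • Point.some x y h) - k * (x / y)) < v (x / y) := by
    intro k
    induction k with
    | zero =>
      simp only [zero_smul, tC_zero, Nat.cast_zero, zero_mul, sub_self, map_zero]
      exact ⟨Or.inl rfl, hr⟩
    | succ k ih =>
      obtain ⟨ih1, ih2⟩ := ih
      have hk : v (tC (k • Point.some x y h)) ≤ v (x / y) := by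
        have : tC (k • Point.some x y h) =
            (tC (k • Point.some x y h) - k * (x / y)) + k * (x / y) := by ring
        rw [this]
        apply v.map_add_le ih2.le
        rw [map_mul]
        calc v (k : K) * v (x / y) ≤ 1 * v (x / y) := by
              gcongr
              exact val_natCast_le_one v k
          _ = v (x / y) := one_mul _
      have := hW.E1_add v ha hb ih1 (Or.inr ⟨x, y, h, rfl, hx⟩) hr hk (le_refl _)
      rw [succ_nsmul]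
      refine ⟨this.1, ?_⟩
      have e : tC (k • Point.some x y h + Point.some x y h) - ((k + 1 : ℕ) : K) * (x / y) =
          (tC (k • Point.some x y h + Point.some x y h) - tC (k • Point.some x y h)
            - tC (Point.some x y h)) + (tC (k • Point.some x y h) - k * (x / y)) := by
        rw [tC_some]; push_cast; ring
      rw [e]
      exact v.map_add_lt this.2 ih2
  intro h0
  have := (key n).2
  rw [h0, tC_zero, zero_sub, Valuation.map_neg, map_mul, hn, one_mul] at this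
  exact lt_irrefl _ this

end Fermat.Agent.S05
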