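import Fermat.Agent.S05.helper67_Val

/-!
# The local step of the Chebyshev-type induction (helper67)

Abstract valuation computation for the curve `η² = X³ + a X² + b X` with `|2| = |a| = 1`,
`0 < |b| < 1`: if `Z₁, Z₂` are the `X`-coordinates of `Q + P` and `Q - P`, then their classes are
determined (as an unordered pair, up to the relation `Rel`) by the classes of `Q` and `P`.
-/

set_option autoImplicit false

namespace Fermat.Agent.S05.helper67

section Roots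

variable {K : Type*} [Field K] {Γ₀ : Type*} [LinearOrderedCommGroupWithZero Γ₀]
  (v : Valuation K Γ₀)

lemma g0_pos_iff {x : Γ₀} : 0 < x ↔ x ≠ 0 := zero_lt_iff

lemma g0_le_of_sq_le {x y : Γ₀} (h : x ^ 2 ≤ y ^ 2) : x ≤ y := by
  by_contra hh
  rw [not_le] at hh
  exact absurd h (not_le.mpr (pow_lt_pow_left₀ hh zero_le (by norm_num)))

lemma g0_eq_of_sq_eq {x y : Γ₀} (h : x ^ 2 = y ^ 2) : x = y :=
  le_antisymm (g0_le_of_sq_le h.le) (g0_le_of_sq_le h.ge)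

lemma g0_lt_of_sq_lt {x y : Γ₀} (h : x ^ 2 < y ^ 2) : x < y := by
  by_contra hh
  rw [not_lt] at hh
  exact absurd h (not_lt.mpr (pow_le_pow_left₀ zero_le hh 2))

lemma g0_le_of_mul_le_mul_left {c x y : Γ₀} (hc : c ≠ 0) (h : c * x ≤ c * y) : x ≤ y := by
  by_contra hh
  rw [not_le] at hh
  have hc' : 0 < c := zero_lt_iff.mpr hc
  exact absurd h (not_le.mpr (by gcongr))

lemma g0_lt_of_mul_lt_mul_left {c x y : Γ₀} (h : c * x < c * y) : x < y := by
  by_contra hh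
  rw [not_lt] at hh
  exact absurd h (not_lt.mpr (by gcongr))

lemma g0_eq_of_mul_eq_mul_left {c x y : Γ₀} (hc : c ≠ 0) (h : c * x = c * y) : x = y :=
  le_antisymm (g0_le_of_mul_le_mul_left hc h.le) (g0_le_of_mul_le_mul_left hc h.ge)

/-- both roots have absolute value `≥ 1` -/
lemma roots_ge_one {Z₁ Z₂ : K} (h₁ : v (Z₁ + Z₂) ≤ v (Z₁ * Z₂)) (h₂ : 1 ≤ v (Z₁ * Z₂)) :
    1 ≤ v Z₁ ∧ 1 ≤ v Z₂ := by
  rw [map_mul] at h₁ h₂
  have key : ∀ {x y : K}, v (x + y) ≤ v x * v y → 1 ≤ v x * v y → 1 ≤ v x := by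
    intro x y h₁ h₂
    by_contra hx
    rw [not_le] at hx
    have hy0 : 0 < v y := by
      rcases eq_or_ne (v y) 0 with h0 | h0
      · rw [h0, mul_zero] at h₂
        exact absurd h₂ (not_le.mpr zero_lt_one)
      · exact zero_lt_iff.mpr h0
    have hxy : v x * v y < v y := by
      calc v x * v y < 1 * v y := by gcongr
        _ = v y := one_mul _
    have hy1 : 1 < v y := lt_of_le_of_lt h₂ hxy
    have hs : v (x + y) = v y := v.map_add_eq_of_lt_right (hx.trans hy1)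
    rw [hs] at h₁
    exact absurd h₁ (not_le.mpr hxy)
  refine ⟨key h₁ h₂, ?_⟩
  rw [add_comm, mul_comm] at h₁
  rw [mul_comm] at h₂
  exact key h₁ h₂

/-- both roots have absolute value `≤ c` -/
lemma roots_le {Z₁ Z₂ : K} {c : Γ₀} (h₁ : v (Z₁ + Z₂) ≤ c) (h₂ : v (Z₁ * Z₂) ≤ c ^ 2) :
    v Z₁ ≤ c ∧ v Z₂ ≤ c := by
  rw [map_mul] at h₂
  have key : ∀ {x y : K}, v (x + y) ≤ c → v x * v y ≤ c ^ 2 → v x ≤ c := by
    intro x y h₁ h₂
    by_contra hx
    rw [not_le] at hx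
    have hx0 : 0 < v x := lt_of_le_of_lt zero_le hx
    have hy : v y < v x := by
      by_contra hy
      rw [not_lt] at hy
      have : c ^ 2 < v x * v y := by
        calc c ^ 2 = c * c := sq c
          _ ≤ c * v x := by gcongr
          _ < v x * v x := by gcongr
          _ ≤ v x * v y := by gcongr
      exact absurd h₂ (not_le.mpr this)
    have hs : v (x + y) = v x := v.map_add_eq_of_lt_left hy
    rw [hs] at h₁
    exact absurd h₁ (not_le.mpr hx)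
  refine ⟨key h₁ h₂, ?_⟩
  rw [add_comm] at h₁
  rw [mul_comm] at h₂
  exact key h₁ h₂

/-- both roots have absolute value exactly `c` -/
lemma roots_eq {Z₁ Z₂ : K} {c : Γ₀} (h₁ : v (Z₁ + Z₂) ≤ c) (h₂ : v (Z₁ * Z₂) = c ^ 2) :
    v Z₁ = c ∧ v Z₂ = c := by
  obtain ⟨a1, a2⟩ := roots_le v h₁ h₂.le
  rw [map_mul] at h₂
  rcases eq_or_ne c 0 with hc | hc
  · subst hc
    exact ⟨le_antisymm a1 zero_le, le_antisymm a2 zero_le⟩
  have hc0 : 0 < c := zero_lt_iff.mpr hc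
  constructor
  · by_contra hne
    have hlt : v Z₁ < c := lt_of_le_of_ne a1 hne
    have : v Z₁ * v Z₂ < c ^ 2 := by
      calc v Z₁ * v Z₂ ≤ v Z₁ * c := by gcongr
        _ < c * c := by gcongr
        _ = c ^ 2 := (sq c).symm
    exact absurd h₂ this.ne
  · by_contra hne
    have hlt : v Z₂ < c := lt_of_le_of_ne a2 hne
    have : v Z₁ * v Z₂ < c ^ 2 := by
      calc v Z₁ * v Z₂ ≤ c * v Z₂ := by gcongr
        _ < c * c := by gcongr
        _ = c ^ 2 := (sq c).symm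
    exact absurd h₂ this.ne

/-- two different slopes -/
lemma roots_split {Z₁ Z₂ : K} (h : v (Z₁ * Z₂) < v (Z₁ + Z₂) ^ 2) :
    (v Z₁ = v (Z₁ + Z₂) ∧ v Z₂ * v (Z₁ + Z₂) = v (Z₁ * Z₂)) ∨
      (v Z₂ = v (Z₁ + Z₂) ∧ v Z₁ * v (Z₁ + Z₂) = v (Z₁ * Z₂)) := by
  rcases np_split v h with ⟨h1, _⟩ | ⟨h1, _⟩
  · left
    refine ⟨h1, ?_⟩
    rw [← h1, map_mul, mul_comm]
  · right
    refine ⟨h1, ?_⟩
    rw [← h1, map_mul]

end Roots

section Clamp

variable {Γ₀ : Type*} [LinearOrderedCommGroupWithZero Γ₀]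

/-- clamp `g` into the interval `[β, 1]` -/
def clamp (β g : Γ₀) : Γ₀ := max β (min 1 g)

lemma clamp_of_one_le {β g : Γ₀} (hβ : β ≤ 1) (h : 1 ≤ g) : clamp β g = 1 := by
  rw [clamp, min_eq_left h, max_eq_right hβ]

lemma clamp_of_le {β g : Γ₀} (hβ : β ≤ 1) (h : g ≤ β) : clamp β g = β := by
  rw [clamp, min_eq_right (h.trans hβ), max_eq_left h]

lemma clamp_of_mem {β g : Γ₀} (h₁ : β ≤ g) (h₂ : g ≤ 1) : clamp β g = g := by
  rw [clamp, min_eq_right h₂, max_eq_right h₁]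

lemma le_clamp (β g : Γ₀) : β ≤ clamp β g := le_max_left _ _

lemma clamp_le_one {β : Γ₀} (hβ : β ≤ 1) (g : Γ₀) : clamp β g ≤ 1 :=
  max_le hβ (min_le_left _ _)

lemma clamp_ne_zero {β : Γ₀} (hβ : β ≠ 0) (g : Γ₀) : clamp β g ≠ 0 :=
  (lt_of_lt_of_le (zero_lt_iff.mpr hβ) (le_clamp β g)).ne'

end Clamp

end Fermat.Agent.S05.helper67
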