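import Fermat.Agent.S05.helper67_Step

/-!
# The component class of a multiple of a point (helper67)

`x`-only addition formulas on a Weierstrass curve, in the coordinate `X = x - x₀` centred at
a rational 2-torsion point, and the Chebyshev-type induction computing the class of `n • P`.
-/

set_option autoImplicit false

namespace Fermat.Agent.S05.helper67

open WeierstrassCurve.Affine

variable {K : Type*} [Field K] {Γ₀ : Type*} [LinearOrderedCommGroupWithZero Γ₀]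

section Abstract


variable {X₁ X₂ η₁ η₂ a b : K}

lemma xonly_sum (hD : X₁ - X₂ ≠ 0)
    (h₁ : η₁ ^ 2 = X₁ ^ 3 + a * X₁ ^ 2 + b * X₁) (h₂ : η₂ ^ 2 = X₂ ^ 3 + a * X₂ ^ 2 + b * X₂) :
    (X₁ - X₂) ^ 2 * ((((η₁ - η₂) / (X₁ - X₂)) ^ 2 - a - X₁ - X₂) +
        (((η₁ + η₂) / (X₁ - X₂)) ^ 2 - a - X₁ - X₂)) =
      2 * ((X₁ + X₂) * (X₁ * X₂ + b) + 2 * a * X₁ * X₂) := by
  field_simp
  linear_combination 2 * h₁ + 2 * h₂

lemma xonly_prod (hD : X₁ - X₂ ≠ 0)
    (h₁ : η₁ ^ 2 = X₁ ^ 3 + a * X₁ ^ 2 + b * X₁) (h₂ : η₂ ^ 2 = X₂ ^ 3 + a * X₂ ^ 2 + b * X₂) :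
    (X₁ - X₂) ^ 2 * ((((η₁ - η₂) / (X₁ - X₂)) ^ 2 - a - X₁ - X₂) *
        (((η₁ + η₂) / (X₁ - X₂)) ^ 2 - a - X₁ - X₂)) =
      (X₁ * X₂ - b) ^ 2 := by
  have hD2 : (X₁ - X₂) ^ 2 ≠ 0 := pow_ne_zero 2 hD
  have e1 : ((η₁ - η₂) / (X₁ - X₂)) ^ 2 - a - X₁ - X₂ =
      ((η₁ - η₂) ^ 2 - (a + X₁ + X₂) * (X₁ - X₂) ^ 2) / (X₁ - X₂) ^ 2 := by
    field_simp
    ring
  have e2 : ((η₁ + η₂) / (X₁ - X₂)) ^ 2 - a - X₁ - X₂ =
      ((η₁ + η₂) ^ 2 - (a + X₁ + X₂) * (X₁ - X₂) ^ 2) / (X₁ - X₂) ^ 2 := by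
    field_simp
    ring
  rw [e1, e2, div_mul_div_comm, ← mul_div_assoc, div_eq_iff (mul_ne_zero hD2 hD2)]
  linear_combination (exp := 1) (X₁ - X₂) ^ 2 * (η₁ ^ 2 - η₂ ^ 2 + (X₁ ^ 3 + a * X₁ ^ 2 + b * X₁) - (X₂ ^ 3 + a * X₂ ^ 2 + b * X₂) - 2 * (a + X₁ + X₂) * (X₁ - X₂) ^ 2) * h₁
    + (X₁ - X₂) ^ 2 * (-(η₁ ^ 2 - η₂ ^ 2 + (X₁ ^ 3 + a * X₁ ^ 2 + b * X₁) - (X₂ ^ 3 + a * X₂ ^ 2 + b * X₂)) - 2 * (a + X₁ + X₂) * (X₁ - X₂) ^ 2) * h₂

lemma xonly_dup {X η : K} (h2 : (2 : K) ≠ 0) (hη0 : η ≠ 0)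
    (h₁ : η ^ 2 = X ^ 3 + a * X ^ 2 + b * X) :
    4 * η ^ 2 * (((3 * X ^ 2 + 2 * a * X + b) / (2 * η)) ^ 2 - a - X - X) = (X ^ 2 - b) ^ 2 := by
  field_simp
  linear_combination (-(16 * (a + 2 * X))) * h₁

end Abstract

/-- A Weierstrass curve together with a rational `2`-torsion `x`-coordinate `x₀` such that,
in the coordinate `X = x - x₀`, `η = y + (a₁ x + a₃)/2`, the curve reads
`η² = X³ + a X² + b X` with `|2| = |a| = 1` and `0 < |b| < 1`. -/
structure NodeModel (W : WeierstrassCurve.Affine K) (v : Valuation K Γ₀) (x₀ a b : K) : Prop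
    extends NodeData v a b where
  ha : 4 * a = W.b₂ + 12 * x₀
  hb : 2 * b = W.b₄ + W.b₂ * x₀ + 6 * x₀ ^ 2
  hx₀ : 4 * x₀ ^ 3 + W.b₂ * x₀ ^ 2 + 2 * W.b₄ * x₀ + W.b₆ = 0

namespace NodeModel

variable {W : WeierstrassCurve.Affine K} {v : Valuation K Γ₀} {x₀ a b : K}
  (hM : NodeModel W v x₀ a b)
include hM

lemma two_ne_zero' : (2 : K) ≠ 0 := by
  intro h
  have := hM.two
  rw [h, map_zero] at this
  exact zero_ne_one this

lemma four_ne_zero' : (4 : K) ≠ 0 := by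
  have := hM.two_ne_zero'
  rw [show (4 : K) = 2 * 2 by norm_num]
  exact mul_ne_zero this this

/-- the equation in the coordinates `(X, η)` -/
lemma eta_sq {x y η : K} (h : W.Equation x y) (hη : 2 * η = 2 * y + W.a₁ * x + W.a₃) :
    η ^ 2 = (x - x₀) ^ 3 + a * (x - x₀) ^ 2 + b * (x - x₀) := by
  rw [W.equation_iff] at h
  have h4 := hM.four_ne_zero'
  have ha := hM.ha
  have hb := hM.hb
  have hx := hM.hx₀
  simp only [WeierstrassCurve.b₂, WeierstrassCurve.b₄, WeierstrassCurve.b₆] at ha hb hx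
  have : 4 * η ^ 2 = 4 * ((x - x₀) ^ 3 + a * (x - x₀) ^ 2 + b * (x - x₀)) := by
    linear_combination (2 * η + 2 * y + W.a₁ * x + W.a₃) * hη + 4 * h - (x - x₀) ^ 2 * ha
      - 2 * (x - x₀) * hb + hx
  exact mul_left_cancel₀ h4 this


/-- the `η`-coordinate `y + (a₁ x + a₃) / 2` -/
lemma two_mul_eta (x y : K) :
    2 * ((2 * y + W.a₁ * x + W.a₃) / 2) = 2 * y + W.a₁ * x + W.a₃ := by
  have := hM.two_ne_zero'
  field_simp

lemma eta_sq' {x y : K} (h : W.Equation x y) :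
    ((2 * y + W.a₁ * x + W.a₃) / 2) ^ 2 = (x - x₀) ^ 3 + a * (x - x₀) ^ 2 + b * (x - x₀) :=
  hM.eta_sq h (hM.two_mul_eta x y)

lemma a_eq : a = (W.a₁ ^ 2 + 4 * W.a₂ + 12 * x₀) / 4 := by
  have h4 := hM.four_ne_zero'
  have ha := hM.ha
  simp only [WeierstrassCurve.b₂] at ha
  rw [eq_div_iff h4]
  linear_combination ha

lemma b_eq : b = (2 * W.a₄ + W.a₁ * W.a₃ + (W.a₁ ^ 2 + 4 * W.a₂) * x₀ + 6 * x₀ ^ 2) / 2 := by
  have h2 := hM.two_ne_zero'
  have hb := hM.hb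
  simp only [WeierstrassCurve.b₂, WeierstrassCurve.b₄] at hb
  rw [eq_div_iff h2]
  linear_combination hb

variable [DecidableEq K]

/-- `X(P + Q)` for `x(P) ≠ x(Q)` -/
lemma addX_sub {x₁ y₁ x₂ y₂ : K} (hx : x₁ ≠ x₂) :
    W.addX x₁ x₂ (W.slope x₁ x₂ y₁ y₂) - x₀ =
      (((2 * y₁ + W.a₁ * x₁ + W.a₃) / 2 - (2 * y₂ + W.a₁ * x₂ + W.a₃) / 2) /
        ((x₁ - x₀) - (x₂ - x₀))) ^ 2 - a - (x₁ - x₀) - (x₂ - x₀) := by
  have h2 := hM.two_ne_zero'
  have h4 := hM.four_ne_zero'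
  have hD : x₁ - x₂ ≠ 0 := sub_ne_zero.mpr hx
  rw [slope_of_X_ne hx, hM.a_eq, addX, show (x₁ - x₀) - (x₂ - x₀) = x₁ - x₂ by ring]
  field_simp
  ring

/-- `X(P - Q)` for `x(P) ≠ x(Q)` -/
lemma addX_sub_neg {x₁ y₁ x₂ y₂ : K} (hx : x₁ ≠ x₂) :
    W.addX x₁ x₂ (W.slope x₁ x₂ y₁ (W.negY x₂ y₂)) - x₀ =
      (((2 * y₁ + W.a₁ * x₁ + W.a₃) / 2 + (2 * y₂ + W.a₁ * x₂ + W.a₃) / 2) /
        ((x₁ - x₀) - (x₂ - x₀))) ^ 2 - a - (x₁ - x₀) - (x₂ - x₀) := by
  have h2 := hM.two_ne_zero'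
  have h4 := hM.four_ne_zero'
  have hD : x₁ - x₂ ≠ 0 := sub_ne_zero.mpr hx
  rw [slope_of_X_ne hx, hM.a_eq, addX, negY, show (x₁ - x₀) - (x₂ - x₀) = x₁ - x₂ by ring]
  field_simp
  ring

/-- `X(2P)` -/
lemma addX_sub_dup {x y : K} (hy : y ≠ W.negY x y) :
    W.addX x x (W.slope x x y y) - x₀ =
      ((3 * (x - x₀) ^ 2 + 2 * a * (x - x₀) + b) / (2 * ((2 * y + W.a₁ * x + W.a₃) / 2))) ^ 2
        - a - (x - x₀) - (x - x₀) := by
  have h2 := hM.two_ne_zero'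
  have h4 := hM.four_ne_zero'
  have hD : y - W.negY x y ≠ 0 := sub_ne_zero.mpr hy
  have hD' : 2 * y + W.a₁ * x + W.a₃ ≠ 0 := by
    intro h0
    apply hD
    rw [negY]
    linear_combination h0
  rw [slope_of_Y_ne rfl hy, hM.two_mul_eta, hM.a_eq, hM.b_eq, addX, negY]
  have e : y - (-y - W.a₁ * x - W.a₃) = 2 * y + W.a₁ * x + W.a₃ := by ring
  rw [e]
  obtain ⟨D, hDdef⟩ : ∃ D, D = 2 * y + W.a₁ * x + W.a₃ := ⟨_, rfl⟩
  rw [← hDdef] at hD' ⊢
  field_simp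
  subst hDdef
  ring

end NodeModel

end Fermat.Agent.S05.helper67

namespace Fermat.Agent.S05.helper67

open WeierstrassCurve.Affine

variable {K : Type*} [Field K] {Γ₀ : Type*} [LinearOrderedCommGroupWithZero Γ₀]

/-- The class of a point: `1` for the point at infinity, and `|x - x₀|` clamped to `[β, 1]`
for an affine point. -/
def cls {W : WeierstrassCurve.Affine K} (v : Valuation K Γ₀) (x₀ b : K) : W.Point → Γ₀
  | .zero => 1
  | .some x _ _ => clamp (v b) (v (x - x₀))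

section Cls

variable {W : WeierstrassCurve.Affine K} {v : Valuation K Γ₀} {x₀ a b : K}

@[simp] lemma cls_zero : cls v x₀ b (0 : W.Point) = 1 := rfl

@[simp] lemma cls_some {x y : K} (h : W.Nonsingular x y) :
    cls v x₀ b (Point.some x y h) = clamp (v b) (v (x - x₀)) := rfl

@[simp] lemma cls_neg (P : W.Point) : cls v x₀ b (-P) = cls v x₀ b P := by
  rcases P with _ | ⟨x, y, h⟩
  · rfl
  · rfl

lemma cls_ne_zero (hb : v b ≠ 0) (P : W.Point) : cls v x₀ b P ≠ 0 := by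
  rcases P with _ | ⟨x, y, h⟩
  · exact one_ne_zero
  · exact clamp_ne_zero hb _

end Cls

namespace NodeModel

variable {W : WeierstrassCurve.Affine K} {v : Valuation K Γ₀} {x₀ a b : K}
  (hM : NodeModel W v x₀ a b) [DecidableEq K]
include hM

/-- the class of `2 • P` -/
lemma cls_double (P : W.Point) :
    Rel (v b) (cls v x₀ b (P + P)) (cls v x₀ b P * cls v x₀ b P) := by
  have hD := hM.toNodeData
  rcases P with _ | ⟨x, y, h⟩
  · change Rel (v b) (cls v x₀ b (0 + 0 : W.Point)) (1 * 1)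
    rw [add_zero, cls_zero, one_mul]
    exact Rel.refl _
  by_cases hy : y = W.negY x y
  · rw [Point.add_self_of_Y_eq hy, cls_zero, cls_some]
    -- 2-torsion point
    have hη : ((2 * y + W.a₁ * x + W.a₃) / 2) = 0 := by
      have h2 := hM.two_ne_zero'
      rw [negY] at hy
      rw [div_eq_zero_iff]
      left
      linear_combination hy
    have hq := hM.eta_sq' h.1
    rw [hη] at hq
    have hq' : (x - x₀) ^ 3 + a * (x - x₀) ^ 2 + b * (x - x₀) = 0 := by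
      rw [← hq]; ring
    rcases hD.two_torsion_class hq' with e | e
    · rw [e, one_mul]; exact Rel.refl _
    · rw [e]; exact hD.rel_one_sq_beta
  · rw [Point.add_self_of_Y_ne hy, cls_some, cls_some, ← sq]
    have hη0 : ((2 * y + W.a₁ * x + W.a₃) / 2) ≠ 0 := by
      have h2 := hM.two_ne_zero'
      intro h0
      apply hy
      rw [div_eq_zero_iff] at h0
      rcases h0 with h0 | h0
      · rw [negY]; linear_combination h0
      · exact absurd h0 h2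
    have hq := hM.eta_sq' h.1
    refine hD.dup_step hq hη0 ?_
    rw [hM.addX_sub_dup hy]
    exact xonly_dup hM.two_ne_zero' hη0 hq

/-- **The pair lemma**: the classes of `Q + P` and `Q - P` are, up to `Rel` and in some
order, `cls Q * cls P` and `cls Q / cls P`. -/
theorem pair_class (Q P : W.Point) :
    StepGoal (v b) (cls v x₀ b Q) (cls v x₀ b P) (cls v x₀ b (Q + P)) (cls v x₀ b (Q - P)) := by
  have hD := hM.toNodeData
  have hbne := hD.b_ne'
  rcases Q with _ | ⟨x₁, y₁, h₁⟩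
  · change StepGoal (v b) 1 (cls v x₀ b P) (cls v x₀ b (0 + P)) (cls v x₀ b (0 - P))
    rw [zero_add, zero_sub, cls_neg]
    left
    rw [one_mul, one_div]
    exact ⟨Rel.refl _, (Rel.refl _).inv_right⟩
  rcases P with _ | ⟨x₂, y₂, h₂⟩
  · change StepGoal (v b) _ 1 (cls v x₀ b (_ + 0)) (cls v x₀ b (_ - 0))
    rw [add_zero, sub_zero]
    left
    rw [mul_one, div_one]
    exact ⟨Rel.refl _, Rel.refl _⟩
  by_cases hx : x₁ = x₂
  · have hc : cls v x₀ b (Point.some x₁ y₁ h₁) = cls v x₀ b (Point.some x₂ y₂ h₂) := by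
      rw [cls_some, cls_some, hx]
    have hcne : cls v x₀ b (Point.some x₂ y₂ h₂) ≠ 0 := cls_ne_zero hbne _
    rw [hc]
    rcases (Point.X_eq_iff (h₁ := h₁) (h₂ := h₂)).mp hx with e | e
    · rw [e, sub_self, cls_zero]
      left
      rw [div_self hcne]
      exact ⟨hM.cls_double _, Rel.refl _⟩
    · rw [e, neg_add_cancel, cls_zero]
      right
      rw [div_self hcne]
      refine ⟨Rel.refl _, ?_⟩
      have : -Point.some x₂ y₂ h₂ - Point.some x₂ y₂ h₂ =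
          -(Point.some x₂ y₂ h₂ + Point.some x₂ y₂ h₂) := by abel
      rw [this, cls_neg]
      exact hM.cls_double _
  · rw [sub_eq_add_neg, Point.neg_some, Point.add_of_X_ne hx, Point.add_of_X_ne hx]
    simp only [cls_some]
    have hX : x₁ - x₀ ≠ x₂ - x₀ := fun h => hx (by linear_combination h)
    have hDne : (x₁ - x₀) - (x₂ - x₀) ≠ 0 := sub_ne_zero.mpr hX
    have hq₁ := hM.eta_sq' h₁.1
    have hq₂ := hM.eta_sq' h₂.1
    refine hD.local_step hX ?_ ?_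
    · rw [hM.addX_sub hx, hM.addX_sub_neg hx]
      exact xonly_sum hDne hq₁ hq₂
    · rw [hM.addX_sub hx, hM.addX_sub_neg hx]
      exact xonly_prod hDne hq₁ hq₂

/-- **Main induction**: the class of `n • P` is the `n`-th power of the class of `P`, up to
the dihedral relation. -/
theorem cls_nsmul (P : W.Point) (n : ℕ) :
    Rel (v b) (cls v x₀ b (n • P)) (cls v x₀ b P ^ n) := by
  have hD := hM.toNodeData
  have hbne := hD.b_ne'
  induction n using Nat.twoStepInduction with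
  | zero => rw [zero_smul, pow_zero, cls_zero]; exact Rel.refl _
  | one => rw [one_smul, pow_one]; exact Rel.refl _
  | more m hm hn =>
    have hpair := hM.pair_class ((m + 1) • P) P
    have e1 : (m + 1) • P + P = (m + 2) • P := by
      rw [add_smul, add_smul, one_smul]
      rw [show (2 : ℕ) • P = P + P from two_nsmul P]
      abel
    have e2 : (m + 1) • P - P = m • P := by
      rw [add_smul, one_smul]; abel
    rw [e1, e2] at hpair
    exact rel_step hbne (cls_ne_zero hbne P) hn hm hpair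

/-- If `n • P = 0` then the `n`-th power of the class of `P` is an even power of `β`. -/
theorem cls_pow_of_nsmul_eq_zero (P : W.Point) (n : ℕ) (hP : n • P = 0) :
    ∃ k : ℤ, cls v x₀ b P ^ n = v b ^ (2 * k) := by
  have hD := hM.toNodeData
  have hbne := hD.b_ne'
  have h := hM.cls_nsmul P n
  rw [hP, cls_zero] at h
  have hc : cls v x₀ b P ^ n ≠ 0 := pow_ne_zero _ (cls_ne_zero hbne P)
  obtain ⟨k, hk | hk⟩ := h
  · refine ⟨-k, ?_⟩
    have h1 : cls v x₀ b P ^ n * v b ^ (2 * k) = 1 := hk.symm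
    rw [mul_neg, zpow_neg]
    exact eq_inv_of_mul_eq_one_left h1
  · refine ⟨k, ?_⟩
    have h1 : (cls v x₀ b P ^ n)⁻¹ * v b ^ (2 * k) = 1 := hk.symm
    exact inv_injective (eq_inv_of_mul_eq_one_left h1)

end NodeModel

end Fermat.Agent.S05.helper67
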