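import Mathlib

/-!
# Valuation helpers for the multiplicative-reduction analysis (helper67)

Newton polygon of a quadratic, the "dihedral" equivalence relation on the value group,
and the combinatorial step used in the Chebyshev-type induction.
-/

set_option autoImplicit false

namespace Fermat.Agent.S05.helper67

section NewtonPolygon

variable {K : Type*} [Field K] {Γ₀ : Type*} [LinearOrderedCommGroupWithZero Γ₀]
  (v : Valuation K Γ₀)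

/-- Newton polygon, one slope: if `|Z₁+Z₂|² ≤ |Z₁Z₂|` then `|Z₁| = |Z₂|`. -/
lemma np_same {Z₁ Z₂ : K} (h : v (Z₁ + Z₂) ^ 2 ≤ v (Z₁ * Z₂)) : v Z₁ = v Z₂ := by
  rcases lt_trichotomy (v Z₁) (v Z₂) with hlt | heq | hgt
  · exfalso
    have hs : v (Z₁ + Z₂) = v Z₂ := v.map_add_eq_of_lt_right hlt
    have h2 : 0 < v Z₂ := lt_of_le_of_lt zero_le hlt
    rw [hs, map_mul, sq] at h
    exact absurd h (not_le.mpr (mul_lt_mul_of_pos_right hlt h2))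
  · exact heq
  · exfalso
    have hs : v (Z₁ + Z₂) = v Z₁ := v.map_add_eq_of_lt_left hgt
    have h1 : 0 < v Z₁ := lt_of_le_of_lt zero_le hgt
    rw [hs, map_mul, sq] at h
    exact absurd h (not_le.mpr (mul_lt_mul_of_pos_left hgt h1))

lemma np_same_sq {Z₁ Z₂ : K} (h : v (Z₁ + Z₂) ^ 2 ≤ v (Z₁ * Z₂)) :
    v Z₁ ^ 2 = v (Z₁ * Z₂) ∧ v Z₂ ^ 2 = v (Z₁ * Z₂) := by
  have := np_same v h
  constructor
  · rw [map_mul, sq, ← this]
  · rw [map_mul, sq, this]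

/-- Newton polygon, two slopes: if `|Z₁Z₂| < |Z₁+Z₂|²` then the larger root has the absolute
value of the sum. -/
lemma np_split {Z₁ Z₂ : K} (h : v (Z₁ * Z₂) < v (Z₁ + Z₂) ^ 2) :
    (v Z₁ = v (Z₁ + Z₂) ∧ v Z₂ < v Z₁) ∨ (v Z₂ = v (Z₁ + Z₂) ∧ v Z₁ < v Z₂) := by
  rcases lt_trichotomy (v Z₁) (v Z₂) with hlt | heq | hgt
  · right
    exact ⟨(v.map_add_eq_of_lt_right hlt).symm, hlt⟩
  · exfalso
    have hs : v (Z₁ + Z₂) ≤ v Z₁ := by
      calc v (Z₁ + Z₂) ≤ max (v Z₁) (v Z₂) := v.map_add _ _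
        _ = v Z₁ := by rw [heq, max_self]
    have : v (Z₁ + Z₂) ^ 2 ≤ v (Z₁ * Z₂) := by
      rw [map_mul, sq]
      calc v (Z₁ + Z₂) * v (Z₁ + Z₂) ≤ v Z₁ * v Z₁ := mul_le_mul' hs hs
        _ = v Z₁ * v Z₂ := by rw [heq]
    exact absurd h (not_lt.mpr this)
  · left
    exact ⟨(v.map_add_eq_of_lt_left hgt).symm, hgt⟩

end NewtonPolygon

end Fermat.Agent.S05.helper67

namespace Fermat.Agent.S05.helper67

section Rel

variable {Γ₀ : Type*} [LinearOrderedCommGroupWithZero Γ₀]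

/-- `g` and `h` are in the same orbit of the infinite dihedral group generated by
`h ↦ h⁻¹` and `h ↦ h * β²`. -/
def Rel (β g h : Γ₀) : Prop := ∃ k : ℤ, g = h * β ^ (2 * k) ∨ g = h⁻¹ * β ^ (2 * k)

variable {β : Γ₀}

lemma Rel.refl (g : Γ₀) : Rel β g g := ⟨0, Or.inl (by simp)⟩

lemma Rel.of_eq {g h : Γ₀} (e : g = h) : Rel β g h := e ▸ Rel.refl g

lemma Rel.inv_right {g h : Γ₀} (H : Rel β g h) : Rel β g h⁻¹ := by
  obtain ⟨k, hk | hk⟩ := H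
  · exact ⟨k, Or.inr (by rw [inv_inv]; exact hk)⟩
  · exact ⟨k, Or.inl hk⟩

lemma Rel.symm (hβ : β ≠ 0) {g h : Γ₀} (_hh : h ≠ 0) (H : Rel β g h) : Rel β h g := by
  obtain ⟨k, hk | hk⟩ := H
  · refine ⟨-k, Or.inl ?_⟩
    rw [hk, mul_assoc, ← zpow_add₀ hβ]
    simp
  · refine ⟨k, Or.inr ?_⟩
    rw [hk, mul_inv, inv_inv, mul_assoc, ← zpow_neg, ← zpow_add₀ hβ]
    simp

lemma Rel.ne_zero (hβ : β ≠ 0) {g h : Γ₀} (hh : h ≠ 0) (H : Rel β g h) : g ≠ 0 := by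
  obtain ⟨k, hk | hk⟩ := H
  · rw [hk]; exact mul_ne_zero hh (zpow_ne_zero _ hβ)
  · rw [hk]; exact mul_ne_zero (inv_ne_zero hh) (zpow_ne_zero _ hβ)

lemma Rel.trans (hβ : β ≠ 0) {f g h : Γ₀} (H₁ : Rel β f g) (H₂ : Rel β g h) : Rel β f h := by
  obtain ⟨k, hk | hk⟩ := H₁ <;> obtain ⟨l, hl | hl⟩ := H₂
  · refine ⟨l + k, Or.inl ?_⟩
    rw [hk, hl, mul_assoc, ← zpow_add₀ hβ, mul_add]
  · refine ⟨l + k, Or.inr ?_⟩
    rw [hk, hl, mul_assoc, ← zpow_add₀ hβ, mul_add]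
  · refine ⟨k - l, Or.inr ?_⟩
    rw [hk, hl, mul_inv, mul_assoc, ← zpow_neg, ← zpow_add₀ hβ]
    congr 2; ring
  · refine ⟨k - l, Or.inl ?_⟩
    rw [hk, hl, mul_inv, inv_inv, mul_assoc, ← zpow_neg, ← zpow_add₀ hβ]
    congr 2; ring

/-- multiplying the target by `β ^ 2` does not change the class -/
lemma Rel.mul_sq_right (hβ : β ≠ 0) {g h : Γ₀} (H : Rel β g h) : Rel β g (h * β ^ 2) := by
  refine Rel.trans hβ H ⟨-1, Or.inl ?_⟩
  rw [mul_assoc, ← zpow_ofNat, ← zpow_add₀ hβ]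
  simp

lemma rel_sq_div (g : Γ₀) : Rel β (β ^ 2 / g) g :=
  ⟨1, Or.inr (by rw [div_eq_mul_inv, mul_comm]; norm_num [zpow_ofNat])⟩

lemma rel_one_div (g : Γ₀) : Rel β (1 / g) g :=
  ⟨0, Or.inr (by simp)⟩

lemma rel_inv (g : Γ₀) : Rel β g⁻¹ g :=
  ⟨0, Or.inr (by simp)⟩

/-- The basic dichotomy: from `cₙ ~ c ^ (m+1)` we get that `{cₙ * c, cₙ / c}` is
`{c ^ (m+2), c ^ m}` up to the relation. -/
lemma rel_mul_div (hβ : β ≠ 0) {c cn : Γ₀} (hc : c ≠ 0) {m : ℕ} (hn : Rel β cn (c ^ (m + 1))) :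
    (Rel β (cn * c) (c ^ (m + 2)) ∧ Rel β (cn / c) (c ^ m)) ∨
      (Rel β (cn * c) (c ^ m) ∧ Rel β (cn / c) (c ^ (m + 2))) := by
  have hβk : ∀ k : ℤ, β ^ (2 * k) ≠ 0 := fun k => zpow_ne_zero _ hβ
  obtain ⟨k, hk | hk⟩ := hn
  · left
    constructor
    · refine ⟨k, Or.inl ?_⟩
      rw [hk, pow_succ c (m + 1)]
      ac_rfl
    · refine ⟨k, Or.inl ?_⟩
      rw [hk, pow_succ c m]
      have := hβk k
      field_simp
  · right
    constructor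
    · refine ⟨k, Or.inr ?_⟩
      rw [hk, pow_succ c m]
      have := hβk k
      field_simp
    · refine ⟨k, Or.inr ?_⟩
      rw [hk, pow_succ c (m + 1)]
      have := hβk k
      field_simp

/-- The combinatorial induction step of the Chebyshev-type induction. -/
lemma rel_step (hβ : β ≠ 0) {c cn cm cp : Γ₀} (hc : c ≠ 0) {m : ℕ}
    (hn : Rel β cn (c ^ (m + 1))) (hm : Rel β cm (c ^ m))
    (h : (Rel β cp (cn * c) ∧ Rel β cm (cn / c)) ∨ (Rel β cp (cn / c) ∧ Rel β cm (cn * c))) :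
    Rel β cp (c ^ (m + 2)) := by
  have hcm : c ^ m ≠ 0 := pow_ne_zero _ hc
  have hcm2 : c ^ (m + 2) ≠ 0 := pow_ne_zero _ hc
  have hcmne : cm ≠ 0 := hm.ne_zero hβ hcm
  rcases rel_mul_div hβ hc hn with ⟨h1, h2⟩ | ⟨h1, h2⟩
  · rcases h with ⟨hp, _⟩ | ⟨hp, hq⟩
    · exact hp.trans hβ h1
    · -- cp ~ cn / c ~ c^m ~ cm ~ cn * c ~ c^(m+2)
      have a1 : Rel β cp (c ^ m) := hp.trans hβ h2
      have a2 : Rel β (c ^ m) cm := hm.symm hβ hcm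
      have a3 : Rel β cm (c ^ (m + 2)) := hq.trans hβ h1
      exact (a1.trans hβ a2).trans hβ a3
  · rcases h with ⟨hp, hq⟩ | ⟨hp, _⟩
    · have a1 : Rel β cp (c ^ m) := hp.trans hβ h1
      have a2 : Rel β (c ^ m) cm := hm.symm hβ hcm
      have a3 : Rel β cm (c ^ (m + 2)) := hq.trans hβ h2
      exact (a1.trans hβ a2).trans hβ a3
    · exact hp.trans hβ h2

end Rel

end Fermat.Agent.S05.helper67
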