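import Mathlib.AlgebraicGeometry.EllipticCurve.Affine.Point

set_option autoImplicit false

/-!
# Vieta relations for three points summing to zero on a Weierstrass curve

If `P₁ + P₂ + P₃ = 0` for three affine points of a Weierstrass curve over a field (Mathlib's
group law), then the three points lie on a line `y = ℓ x + κ` and the `x`-coordinates satisfy the
Vieta relations of the cubic obtained by restricting the Weierstrass equation to that line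
(with multiplicities taken into account automatically).
-/

namespace Fermat.Agent.S05.helper6

open WeierstrassCurve WeierstrassCurve.Affine Polynomial

variable {F : Type*} [Field F] [DecidableEq F] {W : Affine F}

/-- Vieta relations for the chord/tangent construction: with `ℓ` the slope and
`x₃ = addX`, `y₃ = negAddY` the third point of intersection. -/
theorem vieta_slope {x₁ x₂ y₁ y₂ : F} (h₁ : W.Equation x₁ y₁) (h₂ : W.Equation x₂ y₂)
    (hxy : ¬(x₁ = x₂ ∧ y₁ = W.negY x₂ y₂)) :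
    let ℓ := W.slope x₁ x₂ y₁ y₂
    let κ := y₁ - ℓ * x₁
    let x₃ := W.addX x₁ x₂ ℓ
    y₂ = ℓ * x₂ + κ ∧ W.negAddY x₁ x₂ y₁ ℓ = ℓ * x₃ + κ ∧
      x₁ + x₂ + x₃ = ℓ ^ 2 + W.a₁ * ℓ - W.a₂ ∧
      x₁ * x₂ + x₁ * x₃ + x₂ * x₃ = W.a₄ - 2 * ℓ * κ - W.a₁ * κ - W.a₃ * ℓ ∧
      x₁ * x₂ * x₃ = κ ^ 2 + W.a₃ * κ - W.a₆ := by
  intro ℓ κ x₃
  have hpoly := addPolynomial_slope h₁ h₂ hxy
  rw [addPolynomial_eq, neg_inj, Cubic.prod_X_sub_C_eq, Cubic.toPoly_injective] at hpoly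
  have hb := congrArg Cubic.b hpoly
  have hc := congrArg Cubic.c hpoly
  have hd := congrArg Cubic.d hpoly
  simp only at hb hc hd
  have hy₂ : y₂ = ℓ * x₂ + κ := by
    by_cases hx : x₁ = x₂
    · have hy : y₁ ≠ W.negY x₂ y₂ := fun h => hxy ⟨hx, h⟩
      have := Y_eq_of_Y_ne h₁ h₂ hx hy
      subst hx
      rw [← this]
      simp only [κ]
      ring
    · have hℓ : ℓ = (y₁ - y₂) / (x₁ - x₂) := slope_of_X_ne hx
      have hne : x₁ - x₂ ≠ 0 := sub_ne_zero.mpr hx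
      simp only [κ]
      rw [hℓ]
      field_simp
      ring
  refine ⟨hy₂, ?_, ?_, ?_, ?_⟩
  · simp only [negAddY, κ, x₃]
    ring
  · simp only [x₃, addX]
    ring
  · simp only [κ]
    linear_combination -hc
  · simp only [κ]
    linear_combination hd

/-- If three affine points sum to zero then they are collinear and satisfy Vieta's relations. -/
theorem vieta_of_add_eq_zero {x₁ y₁ x₂ y₂ x₃ y₃ : F} (h₁ : W.Nonsingular x₁ y₁)
    (h₂ : W.Nonsingular x₂ y₂) (h₃ : W.Nonsingular x₃ y₃)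
    (h : Point.some x₁ y₁ h₁ + Point.some x₂ y₂ h₂ + Point.some x₃ y₃ h₃ = 0) :
    ∃ ℓ κ : F, y₁ = ℓ * x₁ + κ ∧ y₂ = ℓ * x₂ + κ ∧ y₃ = ℓ * x₃ + κ ∧
      x₁ + x₂ + x₃ = ℓ ^ 2 + W.a₁ * ℓ - W.a₂ ∧
      x₁ * x₂ + x₁ * x₃ + x₂ * x₃ = W.a₄ - 2 * ℓ * κ - W.a₁ * κ - W.a₃ * ℓ ∧
      x₁ * x₂ * x₃ = κ ^ 2 + W.a₃ * κ - W.a₆ := by
  have hxy : ¬(x₁ = x₂ ∧ y₁ = W.negY x₂ y₂) := by
    rintro ⟨hx, hy⟩
    rw [Point.add_of_Y_eq hx hy, zero_add] at h
    exact Point.some_ne_zero h₃ h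
  have h12 := Point.add_some hxy (h₁ := h₁) (h₂ := h₂)
  have h3 : Point.some x₃ y₃ h₃ = -(Point.some x₁ y₁ h₁ + Point.some x₂ y₂ h₂) := by
    rw [eq_neg_iff_add_eq_zero, add_comm]; exact h
  rw [h12, Point.neg_some] at h3
  injection h3 with hx3 hy3
  have hy3' : y₃ = W.negAddY x₁ x₂ y₁ (W.slope x₁ x₂ y₁ y₂) := by
    rw [hy3, addY, negY_negY]
  obtain ⟨e2, e3, e4, e5, e6⟩ := vieta_slope h₁.1 h₂.1 hxy
  refine ⟨W.slope x₁ x₂ y₁ y₂, y₁ - W.slope x₁ x₂ y₁ y₂ * x₁, by ring, e2, ?_, ?_, ?_, ?_⟩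
  · rw [hy3', hx3]; exact e3
  · rw [hx3]; exact e4
  · rw [hx3]; exact e5
  · rw [hx3]; exact e6

end Fermat.Agent.S05.helper6
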