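import Mathlib

/-!
# Legendre coordinates on an abelian group (helper97, statement S05)

An abstract interface through which the group law of an elliptic curve of the shape
`Y ^ 2 = X * (X ^ 2 + a * X + b)` is used: nonzero elements are affine points, negation is
`(X, Y) ↦ (X, -Y)`, and three nonzero elements with sum zero lie on a line `Y = Λ * X + N`
for which the Vieta relations of the cubic `X * (X ^ 2 + a * X + b) - (Λ * X + N) ^ 2` hold.
-/

set_option autoImplicit false

namespace Fermat.Agent.S05.helper97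

/-- Legendre coordinates on an abelian group `G`, for the curve
`Y ^ 2 = X * (X ^ 2 + a * X + b)`. -/
structure LegendreCoords (K : Type*) [Field K] (G : Type*) [AddCommGroup G] (a b : K) where
  /-- the first coordinate -/
  X : G → K
  /-- the second coordinate -/
  Y : G → K
  eqn : ∀ P, P ≠ 0 → Y P ^ 2 = X P * (X P ^ 2 + a * X P + b)
  ext : ∀ P Q, P ≠ 0 → Q ≠ 0 → X P = X Q → Y P = Y Q → P = Q
  X_neg : ∀ P, P ≠ 0 → X (-P) = X P
  Y_neg : ∀ P, P ≠ 0 → Y (-P) = -Y P
  exists_of_eqn : ∀ x y : K, y ^ 2 = x * (x ^ 2 + a * x + b) → ∃ P, P ≠ 0 ∧ X P = x ∧ Y P = y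
  collinear : ∀ P₁ P₂ P₃, P₁ ≠ 0 → P₂ ≠ 0 → P₃ ≠ 0 → P₁ + P₂ + P₃ = 0 →
    ∃ Λ N : K, Y P₁ = Λ * X P₁ + N ∧ Y P₂ = Λ * X P₂ + N ∧ Y P₃ = Λ * X P₃ + N ∧
      X P₁ + X P₂ + X P₃ = Λ ^ 2 - a ∧
      X P₁ * X P₂ + X P₁ * X P₃ + X P₂ * X P₃ = b - 2 * Λ * N ∧
      X P₁ * X P₂ * X P₃ = N ^ 2

namespace LegendreCoords

variable {K : Type*} [Field K] {G : Type*} [AddCommGroup G] {a b : K}
  (C : LegendreCoords K G a b)

/-- The kernel of reduction with respect to a valuation: zero, or first coordinate not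
integral. -/
def InKer {Γ₀ : Type*} [LinearOrderedCommGroupWithZero Γ₀] (v : Valuation K Γ₀) (P : G) : Prop :=
  P = 0 ∨ 1 < v (C.X P)

/-- A valuation-compatible pair: an additive self-map `σ` of `G` and a ring automorphism
`τ` of `K` which fixes `a` and `b`, such that `σ` acts on coordinates through `τ`. -/
structure Compat (σ : G →+ G) (τ : K ≃+* K) : Prop where
  ne_zero : ∀ P, P ≠ 0 → σ P ≠ 0
  X_map : ∀ P, P ≠ 0 → C.X (σ P) = τ (C.X P)
  Y_map : ∀ P, P ≠ 0 → C.Y (σ P) = τ (C.Y P)

end LegendreCoords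

/-- An automorphism `τ` of a valued field behaves like an inertia element: it preserves the
valuation and moves integral elements only by elements of the maximal ideal. -/
structure InertiaLike {K : Type*} [Field K] {Γ₀ : Type*} [LinearOrderedCommGroupWithZero Γ₀]
    (v : Valuation K Γ₀) (τ : K ≃+* K) : Prop where
  map_val : ∀ x, v (τ x) = v x
  sub_lt : ∀ x, v x ≤ 1 → v (τ x - x) < 1

end Fermat.Agent.S05.helper97
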