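import Mathlib.AlgebraicGeometry.EllipticCurve.Affine.Point
import Fermat.Agent.S05.helper6_Vieta
import Fermat.Agent.S05.helper97_Legendre

set_option autoImplicit false

/-!
# Legendre coordinates on a Weierstrass curve `y² + xy = x³ + a₂x² + a₄x`

For a Weierstrass curve `W` over a field `K` (with `2 ≠ 0`) of the shape `a₁ = 1`, `a₃ = a₆ = 0`
and nonzero discriminant, and a root `r` of `X³ + (4a₂+1)X² + 16a₄X`, the functions
`X = 4x - r`, `Y = 8y + 4x` are Legendre coordinates (in the sense of helper97's interface) on the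
group of points of `W`, for the curve `Y² = X (X² + a X + b)` with
`a = 3r + 4a₂ + 1`, `b = 3r² + 2(4a₂+1)r + 16a₄`.
-/

namespace Fermat.Agent.S05.helper6

open WeierstrassCurve WeierstrassCurve.Affine Fermat.Agent.S05.helper97

variable {K : Type*} [Field K]

/-- The Legendre `X`-coordinate `4x - r` of a point (junk value `0` at the origin). -/
def legX (W : Affine K) (r : K) : W.Point → K
  | .zero => 0
  | .some x _ _ => 4 * x - r

/-- The Legendre `Y`-coordinate `8y + 4x` of a point (junk value `0` at the origin). -/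
def legY (W : Affine K) : W.Point → K
  | .zero => 0
  | .some x y _ => 8 * y + 4 * x

@[simp] lemma legX_some (W : Affine K) (r : K) {x y : K} (h : W.Nonsingular x y) :
    legX W r (.some x y h) = 4 * x - r := rfl

@[simp] lemma legY_some (W : Affine K) {x y : K} (h : W.Nonsingular x y) :
    legY W (.some x y h) = 8 * y + 4 * x := rfl

/-- The parameter `a` of the Legendre model. -/
def legA (W : Affine K) (r : K) : K := 3 * r + 4 * W.a₂ + 1

/-- The parameter `b` of the Legendre model. -/
def legB (W : Affine K) (r : K) : K := 3 * r ^ 2 + 2 * (4 * W.a₂ + 1) * r + 16 * W.a₄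

variable [DecidableEq K]

/-- Legendre coordinates on the points of `y² + xy = x³ + a₂x² + a₄x`. -/
noncomputable def legendreCoords (W : Affine K) (h2 : (2 : K) ≠ 0) (ha₁ : W.a₁ = 1)
    (ha₃ : W.a₃ = 0) (ha₆ : W.a₆ = 0) (hΔ : W.Δ ≠ 0) (r : K)
    (hr : r ^ 3 + (4 * W.a₂ + 1) * r ^ 2 + 16 * W.a₄ * r = 0) :
    LegendreCoords K W.Point (legA W r) (legB W r) where
  X := legX W r
  Y := legY W
  eqn := by
    rintro (_ | ⟨x, y, h⟩) hP
    · exact absurd rfl hP
    · have heq := (equation_iff _ _).mp h.1
      rw [ha₁, ha₃, ha₆] at heq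
      simp only [legX_some, legY_some, legA, legB]
      linear_combination 64 * heq + hr
  ext := by
    rintro (_ | ⟨x₁, y₁, h₁⟩) (_ | ⟨x₂, y₂, h₂⟩) hP hQ hX hY
    · exact absurd rfl hP
    · exact absurd rfl hP
    · exact absurd rfl hQ
    · simp only [legX_some, legY_some] at hX hY
      have h4 : (4 : K) ≠ 0 := by
        have : (4 : K) = 2 * 2 := by norm_num
        rw [this]; exact mul_ne_zero h2 h2
      have h8 : (8 : K) ≠ 0 := by
        have : (8 : K) = 2 * 4 := by norm_num
        rw [this]; exact mul_ne_zero h2 h4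
      have hx : x₁ = x₂ := by
        have : 4 * (x₁ - x₂) = 0 := by linear_combination hX
        rcases mul_eq_zero.mp this with h | h
        · exact absurd h h4
        · exact sub_eq_zero.mp h
      have hy : y₁ = y₂ := by
        have : 8 * (y₁ - y₂) = 0 := by linear_combination hY - 4 * hx
        rcases mul_eq_zero.mp this with h | h
        · exact absurd h h8
        · exact sub_eq_zero.mp h
      subst hx hy
      rfl
  X_neg := by
    rintro (_ | ⟨x, y, h⟩) hP
    · exact absurd rfl hP
    · rw [Point.neg_some]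
      simp only [legX_some]
  Y_neg := by
    rintro (_ | ⟨x, y, h⟩) hP
    · exact absurd rfl hP
    · rw [Point.neg_some]
      simp only [legY_some, negY, ha₁, ha₃]
      ring
  exists_of_eqn := by
    intro X Y hXY
    have h4 : (4 : K) ≠ 0 := by
      have : (4 : K) = 2 * 2 := by norm_num
      rw [this]; exact mul_ne_zero h2 h2
    have h8 : (8 : K) ≠ 0 := by
      have : (8 : K) = 2 * 4 := by norm_num
      rw [this]; exact mul_ne_zero h2 h4
    have h64 : (64 : K) ≠ 0 := by
      have : (64 : K) = 8 * 8 := by norm_num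
      rw [this]; exact mul_ne_zero h8 h8
    obtain ⟨x, hx⟩ : ∃ x : K, X = 4 * x - r := ⟨(X + r) / 4, by field_simp; ring⟩
    obtain ⟨y, hy⟩ : ∃ y : K, Y = 8 * y + 4 * x := ⟨(Y - 4 * x) / 8, by field_simp; ring⟩
    subst hx hy
    have heq : W.Equation x y := by
      rw [equation_iff, ha₁, ha₃, ha₆]
      simp only [legA, legB] at hXY
      apply mul_left_cancel₀ h64
      linear_combination hXY - hr
    have hns : W.Nonsingular x y :=
      (equation_iff_nonsingular_of_Δ_ne_zero hΔ).mp heq
    exact ⟨.some _ _ hns, Point.some_ne_zero hns, rfl, rfl⟩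
  collinear := by
    rintro (_ | ⟨x₁, y₁, h₁⟩) (_ | ⟨x₂, y₂, h₂⟩) (_ | ⟨x₃, y₃, h₃⟩) hP₁ hP₂ hP₃ hsum
    any_goals exact absurd rfl hP₁
    any_goals exact absurd rfl hP₂
    any_goals exact absurd rfl hP₃
    obtain ⟨ℓ, κ, e1, e2, e3, e4, e5, e6⟩ := vieta_of_add_eq_zero h₁ h₂ h₃ hsum
    rw [ha₁] at e4
    rw [ha₁, ha₃] at e5
    rw [ha₃, ha₆] at e6
    refine ⟨2 * ℓ + 1, (2 * ℓ + 1) * r + 8 * κ, ?_, ?_, ?_, ?_, ?_, ?_⟩
    · simp only [legX_some, legY_some]; linear_combination 8 * e1
    · simp only [legX_some, legY_some]; linear_combination 8 * e2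
    · simp only [legX_some, legY_some]; linear_combination 8 * e3
    · simp only [legX_some, legA]; linear_combination 4 * e4
    · simp only [legX_some, legB]
      linear_combination 16 * e5 - 8 * r * e4
    · simp only [legX_some]
      linear_combination 64 * e6 - 16 * r * e5 + 4 * r ^ 2 * e4 - hr

end Fermat.Agent.S05.helper6
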