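import Fermat.Prelude.Def_FLTPrelim_FreyPackage
import Fermat.Prelude.Def_FLTPrelim_GaloisRep
import Fermat.Prelude.Def_FLTPrelim_Ramification
import Fermat.Agent.S04.Wiring
import Fermat.Agent.S05.helper6_Bridge
import Fermat.Agent.S05.helper92_Inertia

set_option autoImplicit false

/-!
# Legendre coordinates on the Frey curve, and compatibility with the Galois action

This file instantiates helper97's `LegendreCoords` interface for the base change of the Frey curve
to an arbitrary field extension `K` of `ℚ`, and shows that the Galois action is compatible with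
the coordinates, and that inertia elements are `InertiaLike`.
-/

namespace Fermat.Agent.S05.helper6

open WeierstrassCurve WeierstrassCurve.Affine WeierstrassCurve.Affine.Point
open Fermat.Agent.S05.helper97

section Galois

variable {R : Type*} {S : Type*} {K : Type*} [CommRing R] [CommRing S] [Field K]
  [DecidableEq K] {W' : Affine R} [Algebra R S] [Algebra R K] [Algebra S K]
  [IsScalarTower R S K]

/-- The Galois action on points, as an additive homomorphism. -/
noncomputable def galoisAddHom (σ : K ≃ₐ[S] K) : (W'⁄K).Point →+ (W'⁄K).Point :=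
  Point.map (W' := W') σ.toAlgHom

lemma galoisAddHom_apply (σ : K ≃ₐ[S] K) (P : (W'⁄K).Point) :
    galoisAddHom (W' := W') σ P = σ • P := rfl

/-- The Galois action is compatible with Legendre coordinates when `σ` fixes `r`. -/
theorem compat_galois (σ : K ≃ₐ[S] K) (h2 : (2 : K) ≠ 0) (ha₁ : (W'⁄K).a₁ = 1)
    (ha₃ : (W'⁄K).a₃ = 0) (ha₆ : (W'⁄K).a₆ = 0) (hΔ : (W'⁄K).Δ ≠ 0) (r : K)
    (hr : r ^ 3 + (4 * (W'⁄K).a₂ + 1) * r ^ 2 + 16 * (W'⁄K).a₄ * r = 0) (hσr : σ r = r) :
    (legendreCoords (W'⁄K) h2 ha₁ ha₃ ha₆ hΔ r hr).Compat (galoisAddHom (W' := W') σ)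
      σ.toRingEquiv where
  ne_zero := by
    rintro (_ | ⟨x, y, h⟩) hP
    · exact absurd rfl hP
    · exact Point.some_ne_zero _
  X_map := by
    rintro (_ | ⟨x, y, h⟩) hP
    · exact absurd rfl hP
    · show legX (W'⁄K) r (Point.map (W' := W') σ.toAlgHom (.some x y h)) = σ (4 * x - r)
      rw [Point.map_some]
      simp only [legX_some, map_sub, map_mul, hσr, map_ofNat]
      rfl
  Y_map := by
    rintro (_ | ⟨x, y, h⟩) hP
    · exact absurd rfl hP
    · show legY (W'⁄K) (Point.map (W' := W') σ.toAlgHom (.some x y h)) = σ (8 * y + 4 * x)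
      rw [Point.map_some]
      simp only [legY_some, map_add, map_mul, map_ofNat]
      rfl

end Galois

section Inertia

variable {K L : Type*} [Field K] [Field L] [Algebra K L] [Algebra.IsAlgebraic K L]

/-- Inertia elements are `InertiaLike` for the valuation of the valuation subring. -/
theorem inertiaLike_of_mem {A : ValuationSubring L} {σ : L ≃ₐ[K] L}
    (hσ : σ ∈ A.inertiaSubgroupIn K) : InertiaLike A.valuation σ.toRingEquiv where
  map_val := fun x =>
    Fermat.Agent.S05.helper92.valuation_apply_of_mem_inertiaSubgroupIn hσ x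
  sub_lt := fun x hx => by
    have hxA : x ∈ A := (A.valuation_le_one_iff x).1 hx
    have := Fermat.Agent.S05.helper92.apply_sub_mem_nonunits_of_mem_inertiaSubgroupIn hσ hxA
    exact (ValuationSubring.mem_nonunits_iff A).1 this

end Inertia

section Frey

variable (K : Type*) [Field K] (P : FreyPackage)

/-- `a ^ p` in `K`. -/
def fA : K := ((P.a ^ P.p : ℤ) : K)
/-- `b ^ p` in `K`. -/
def fB : K := ((P.b ^ P.p : ℤ) : K)
/-- `c ^ p` in `K`. -/
def fC : K := ((P.c ^ P.p : ℤ) : K)

lemma fA_add_fB : fA K P + fB K P = fC K P := by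
  simp only [fA, fB, fC]
  rw [← Int.cast_add, P.hFLT]

variable [Algebra ℚ K]

lemma frey_a₁ : (P.freyCurve⁄K).a₁ = 1 := by
  simp [WeierstrassCurve.baseChange, FreyPackage.freyCurve]

lemma frey_a₃ : (P.freyCurve⁄K).a₃ = 0 := by
  simp [WeierstrassCurve.baseChange, FreyPackage.freyCurve]

lemma frey_a₆ : (P.freyCurve⁄K).a₆ = 0 := by
  simp [WeierstrassCurve.baseChange, FreyPackage.freyCurve]

lemma frey_four_a₂ [CharZero K] : 4 * (P.freyCurve⁄K).a₂ + 1 = fB K P - fA K P := by
  simp only [WeierstrassCurve.baseChange, FreyPackage.freyCurve, WeierstrassCurve.map_a₂, fA, fB]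
  have h4 : (4 : K) ≠ 0 := by norm_num
  rw [map_div₀]
  simp only [map_sub, map_pow, map_intCast, map_one, map_ofNat, Int.cast_pow]
  field_simp
  ring

lemma frey_sixteen_a₄ [CharZero K] : 16 * (P.freyCurve⁄K).a₄ = -(fA K P * fB K P) := by
  simp only [WeierstrassCurve.baseChange, FreyPackage.freyCurve, WeierstrassCurve.map_a₄, fA, fB]
  have h16 : (16 : K) ≠ 0 := by norm_num
  rw [map_div₀]
  simp only [map_neg, map_mul, map_pow, map_intCast, map_ofNat, Int.cast_pow]
  field_simp

lemma freyCurve_Δ_ne_zero : P.freyCurve.Δ ≠ 0 := by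
  rw [← Fermat.Agent.S04.freyCurveInt_map, WeierstrassCurve.map_Δ]
  simpa using Fermat.Agent.S04.freyCurveInt_Δ_ne_zero P

lemma frey_Δ_ne_zero : (P.freyCurve⁄K).Δ ≠ 0 := by
  simp only [WeierstrassCurve.baseChange, WeierstrassCurve.map_Δ]
  intro h
  exact freyCurve_Δ_ne_zero P ((map_eq_zero_iff _ (algebraMap ℚ K).injective).1 h)

end Frey

end Fermat.Agent.S05.helper6
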