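/-
S05, multiplicative (node) case, part 5: an inertia-like automorphism acts trivially on the
`p`-torsion of a curve with a node in the reduction, if `v C1` is a `p`-th power of the
valuation of a fixed element.

Inputs (hypotheses): "Lemma A" (`p`-torsion points are integral) and the `E₀`-case
(points whose reduction is not the node).
-/
import Fermat.Agent.S05.helper7_Sawtooth

set_option autoImplicit false
set_option linter.unusedSimpArgs false
set_option linter.unusedVariables false
set_option linter.unusedSectionVars false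

namespace Fermat.Agent.S05.helper7

open WeierstrassCurve

variable {K : Type*} [Field K] [DecidableEq K] {Γ₀ : Type*} [LinearOrderedCommGroupWithZero Γ₀]
  {v : Valuation K Γ₀} {W : WeierstrassCurve K} {e C1 C2 : K}

/-- If `f` is congruent to the identity on units and fixes `T`, then it is congruent to the
identity (relative to `v T`) on elements of the same valuation as `T`. -/
lemma v_apply_sub_lt (f : K →+* K) (hfI : ∀ x, v x = 1 → v (f x - x) < 1) {X T : K}
    (hT : f T = T) (hT0 : T ≠ 0) (hXT : v X = v T) : v (f X - X) < v X := by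
  have hvT : v T ≠ 0 := (Valuation.ne_zero_iff v).mpr hT0
  have hu : v (X / T) = 1 := by rw [map_div₀, hXT, div_self hvT]
  have h1 := hfI (X / T) hu
  have e1 : f X - X = T * (f (X / T) - X / T) := by
    rw [map_div₀, hT]
    field_simp
  rw [e1, map_mul, hXT]
  calc v T * v (f (X / T) - X / T) < v T * 1 :=
        mul_lt_mul_of_pos_left h1 (zero_lt_iff.mpr hvT)
    _ = v T := mul_one _

/-- **Node case, abstract form.**  `f` is a ring endomorphism of `K` which is congruent to the
identity on units, `φ` the induced endomorphism of the group of points.  If `v C1 = v t ^ p`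
with `f t = t`, then `φ` fixes every `p`-torsion point, provided `p`-torsion points are
integral (`hA`) and `φ` fixes the `p`-torsion points not reducing to the node (`h0`). -/
theorem node_inertia_fixes_torsion (hm : NodeModel W e C1 C2) (hv : NodeVal v C1 C2)
    {p : ℕ} (hp : p.Prime) (hp2 : p ≠ 2) {t : K} (ht : v C1 = v t ^ p)
    (f : K →+* K) (hfI : ∀ x, v x = 1 → v (f x - x) < 1) (hft : f t = t)
    (φ : W.toAffine.Point →+ W.toAffine.Point)
    (hφX : ∀ Q, pX W e (φ Q) = f (pX W e Q)) (hφM : ∀ Q, pM W (φ Q) = f (pM W Q))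
    (hA : ∀ Q : W.toAffine.Point, p • Q = 0 → Q ≠ 0 → v (pX W e Q) ≤ 1)
    (h0 : ∀ Q : W.toAffine.Point, p • Q = 0 → v (pX W e Q) = 1 → φ Q = Q)
    {P : W.toAffine.Point} (hpP : p • P = 0) : φ P = P := by
  by_cases hP : P = 0
  · rw [hP, map_zero]
  by_cases hex : ∃ k : ℕ, k • P ≠ 0 ∧ 1 ≤ v (pX W e (k • P))
  · obtain ⟨k, hk, hk1⟩ := hex
    have hpk : p • (k • P) = 0 := by rw [smul_comm, hpP, smul_zero]
    have hfix : φ (k • P) = k • P := h0 _ hpk (le_antisymm (hA _ hpk hk) hk1)
    obtain ⟨j, hj⟩ := exists_nsmul_eq_of_nsmul_ne_zero hp hpP hk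
    calc φ P = φ (j • (k • P)) := by rw [hj]
      _ = j • φ (k • P) := map_nsmul φ j _
      _ = j • (k • P) := by rw [hfix]
      _ = P := hj
  · have hE0 : ∀ k : ℕ, k • P ≠ 0 → v (pX W e (k • P)) < 1 := by
      intro k hk
      by_contra hcon
      exact hex ⟨k, hk, not_lt.mp hcon⟩
    obtain ⟨γ0, hγ0, hγp, j, hj⟩ := sawtooth hm hv hp hp2 hpP hP hE0
    have hmidP : Mid v C1 (pX W e P) := by
      have := mid_of_torsion hm hv hp hp2 hpP hP hE0 1 (by rw [one_nsmul]; exact hP)
      rwa [one_nsmul] at this
    have hγ : γ0 = v t ^ 2 := by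
      apply pow_left_injective (M := Γ₀) hp.ne_zero
      show γ0 ^ p = (v t ^ 2) ^ p
      rw [hγp, ht, ← pow_mul, ← pow_mul, mul_comm]
    have hvt : v t ≠ 0 := by
      intro h
      rw [hγ, h] at hγ0
      exact hγ0 (by simp)
    have ht0 : t ≠ 0 := (Valuation.ne_zero_iff v).mp hvt
    have hTT : f (t ^ (2 * j)) = t ^ (2 * j) := by rw [map_pow, hft]
    have hT0 : t ^ (2 * j) ≠ 0 := pow_ne_zero _ ht0
    have hXT : v (pX W e P) = v (t ^ (2 * j)) := by rw [hj, hγ, map_pow, ← pow_mul]
    have hpt := isPt_of_ne_zero hm hP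
    have hvM : v (pM W P) = v (pX W e P) := v_M_eq hv hpt hmidP
    have hMT : v (pM W P) = v (t ^ (2 * j)) := by rw [hvM, hXT]
    have hdX := v_apply_sub_lt f hfI hTT hT0 hXT
    have hdM := v_apply_sub_lt f hfI hTT hT0 hMT
    have hvX0 : v (pX W e P) ≠ 0 := hmidP.ne_zero
    have hvXpos : 0 < v (pX W e P) := zero_lt_iff.mpr hvX0
    have hvfX : v (f (pX W e P)) = v (pX W e P) := by
      have e1 : f (pX W e P) = pX W e P + (f (pX W e P) - pX W e P) := by ring
      rw [e1, Valuation.map_add_eq_of_lt_left v hdX]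
    have hS : v (pM W P * f (pX W e P) + f (pM W P) * pX W e P) =
        v (pX W e P) * v (f (pX W e P)) := by
      have e1 : pM W P * f (pX W e P) + f (pM W P) * pX W e P =
          2 * (pM W P * pX W e P) +
            (pM W P * (f (pX W e P) - pX W e P) + (f (pM W P) - pM W P) * pX W e P) := by
        ring
      have h2 : v (2 * (pM W P * pX W e P)) = v (pX W e P) * v (pX W e P) := by
        rw [map_mul, hv.v2, one_mul, map_mul, hvM]
      have h3 : v (pM W P * (f (pX W e P) - pX W e P) + (f (pM W P) - pM W P) * pX W e P) <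
          v (pX W e P) * v (pX W e P) := by
        refine lt_of_le_of_lt (Valuation.map_add _ _ _) (max_lt ?_ ?_)
        · rw [map_mul, hvM]
          exact mul_lt_mul_of_pos_left hdX hvXpos
        · rw [map_mul]
          rw [hvM] at hdM
          exact mul_lt_mul_of_pos_right hdM hvXpos
      rw [e1, hvfX, Valuation.map_add_eq_of_lt_left v (by rw [h2]; exact h3), h2]
    by_contra hne
    have hφP0 : φ P ≠ 0 := by
      intro h
      have h1 := hφX P
      rw [h] at h1
      have h0' : pX W e (0 : W.toAffine.Point) = 0 := rfl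
      rw [h0'] at h1
      rw [← h1, map_zero] at hvfX
      exact hvX0 hvfX.symm
    by_cases hXX : f (pX W e P) = pX W e P
    · rcases eq_or_eq_neg_of_pX_eq hm (two_ne_zero_of_nodeVal hv) hφP0 hP
        (by rw [hφX]; exact hXX) with h | h
      · exact hne h
      · have hM' : f (pM W P) = -pM W P := by rw [← hφM, h, pM_neg]
        rw [hM', hXX] at hS
        have e1 : pM W P * pX W e P + -pM W P * pX W e P = 0 := by ring
        rw [e1, map_zero] at hS
        exact (mul_ne_zero hvX0 hvX0) hS.symm
    · have hR : φ P + -P ≠ 0 := by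
        intro h
        exact hne ((eq_neg_of_add_eq_zero_left h).trans (neg_neg P))
      have hpR : p • (φ P + -P) = 0 := by
        rw [smul_add, smul_neg, ← map_nsmul, hpP, map_zero, neg_zero, add_zero]
      obtain ⟨-, -, -, I1⟩ := add_identities hm hφP0 (neg_ne_zero.mpr hP) hR
      have I1' := I1 (by rw [pX_neg, hφX]; exact hXX)
      rw [pX_neg, pM_neg, hφX, hφM] at I1'
      have I1'' : 4 * f (pX W e P) * pX W e P * pX W e (φ P + -P) *
          (f (pX W e P) - pX W e P) ^ 2 =
          (pM W P * f (pX W e P) + f (pM W P) * pX W e P) ^ 2 := by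
        rw [I1']; ring
      have h1 := rule_inertia hv hvX0 hvfX hXX hdX hS I1''
      exact absurd (hA _ hpR hR) (not_le.mpr h1)

end Fermat.Agent.S05.helper7
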