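import Mathlib

/-!
# S05-T2 : the kernel of reduction in Legendre coordinates

Curve `Y² = X (X² + a X + b)` over a field `K` with a valuation subring `A`, `a b ∈ A`.
The *kernel of reduction* is `E₁ = {0} ∪ {P | X P ∉ A}`.  We prove (for an abstract abelian
group `G` with coordinate functions `X Y : G → K` satisfying the curve equation, the negation
rules, injectivity of `(X, Y)` and the Vieta relations of collinear triples):

* `kernel_add` : `E₁` is closed under addition;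
* `kernel_torsion_free` : if `n : ℕ` is a unit of `A`, `P ∈ E₁` and `n • P = 0` then `P = 0`.

No assumption on `2` is needed.  Method: `zw`-chart `z = X / Y`, `w = 1 / Y` (formal group
estimate `z(P + Q) = z(P) + z(Q) + c z³` with `c ∈ A`).
-/

set_option autoImplicit false

namespace Fermat.Agent.S05.helper90

/-! ### Valuation subring basics -/

section ValBasics

variable {K : Type*} [Field K] (A : ValuationSubring K)

lemma nu_of_not_mem {x : K} (hx : x ∉ A) : x⁻¹ ∈ A.nonunits :=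
  A.inv_mem_nonunits_iff.mpr (Or.inr hx)

lemma mem_of_nu {x : K} (hx : x ∈ A.nonunits) : x ∈ A := A.nonunits_subset hx

lemma nu_mul_left {c t : K} (hc : c ∈ A) (ht : t ∈ A.nonunits) : c * t ∈ A.nonunits := by
  rw [A.mem_nonunits_iff] at ht ⊢
  rw [map_mul]
  have hc' : A.valuation c ≤ 1 := (A.valuation_le_one_iff c).mpr hc
  exact Right.mul_lt_one_of_le_of_lt hc' ht

lemma nu_mul_right {c t : K} (ht : t ∈ A.nonunits) (hc : c ∈ A) : t * c ∈ A.nonunits := by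
  rw [mul_comm]; exact nu_mul_left A hc ht

lemma nu_add {s t : K} (hs : s ∈ A.nonunits) (ht : t ∈ A.nonunits) : s + t ∈ A.nonunits :=
  A.nonunits.add_mem hs ht

lemma nu_neg {s : K} (hs : s ∈ A.nonunits) : -s ∈ A.nonunits :=
  A.nonunits.neg_mem hs

lemma one_add_nu {t : K} (ht : t ∈ A.nonunits) : 1 + t ≠ 0 ∧ (1 + t)⁻¹ ∈ A := by
  rw [A.mem_nonunits_iff] at ht
  have h1 : A.valuation (1 + t) = 1 := (A.valuation).map_one_add_of_lt ht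
  refine ⟨fun h0 => ?_, ?_⟩
  · rw [h0, map_zero] at h1; exact zero_ne_one h1
  · rw [← A.valuation_le_one_iff, map_inv₀, h1, inv_one]

lemma nu_of_sq {z : K} (hz : z ^ 2 ∈ A.nonunits) : z ∈ A.nonunits := by
  rw [A.mem_nonunits_iff] at hz ⊢
  rw [map_pow] at hz
  by_contra h
  rw [not_lt] at h
  exact absurd hz (not_lt.mpr (one_le_pow₀ h))

lemma mem_of_sq_mem {y : K} (hy : y ^ 2 ∈ A) : y ∈ A := by
  rw [← A.valuation_le_one_iff] at hy ⊢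
  rw [map_pow] at hy
  by_contra h
  rw [not_le] at h
  exact absurd hy (not_le.mpr (one_lt_pow₀ h two_ne_zero))

lemma not_nu_one : (1 : K) ∉ A.nonunits := by
  rw [A.mem_nonunits_iff, map_one]; exact lt_irrefl _

lemma natCast_mem (n : ℕ) : (n : K) ∈ A := by
  induction n with
  | zero => simp
  | succ k ih => rw [Nat.cast_succ]; exact A.add_mem _ _ ih A.one_mem

end ValBasics

/-! ### Points of the kernel of reduction in the `zw`-chart -/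

section KerPoint

variable {K : Type*} [Field K] (A : ValuationSubring K)

/-- Data attached to a point `(X, Y)` of `Y² = X (X² + a X + b)` with `X ∉ A`:
`z = X / Y`, `w = Y⁻¹`, `t = X⁻¹`, `g = (1 - a z² - b z w)⁻¹`. -/
structure KerData (a b X Y : K) : Prop where
  X_ne : X ≠ 0
  Y_ne : Y ≠ 0
  t_nu : X⁻¹ ∈ A.nonunits
  z_nu : X / Y ∈ A.nonunits
  w_nu : Y⁻¹ ∈ A.nonunits
  curve : Y⁻¹ = (X / Y) ^ 3 + a * (X / Y) ^ 2 * Y⁻¹ + b * (X / Y) * Y⁻¹ ^ 2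
  g_ne : 1 - a * (X / Y) ^ 2 - b * (X / Y) * Y⁻¹ ≠ 0
  g_mem : (1 - a * (X / Y) ^ 2 - b * (X / Y) * Y⁻¹)⁻¹ ∈ A
  w_eq : Y⁻¹ = (X / Y) ^ 3 * (1 - a * (X / Y) ^ 2 - b * (X / Y) * Y⁻¹)⁻¹
  t_eq : X⁻¹ = (X / Y) ^ 2 * (1 - a * (X / Y) ^ 2 - b * (X / Y) * Y⁻¹)⁻¹

variable {A}

lemma kerData {a b : K} (ha : a ∈ A) (hb : b ∈ A) {X Y : K}
    (h : Y ^ 2 = X * (X ^ 2 + a * X + b)) (hX : X ∉ A) : KerData A a b X Y := by
  have hX0 : X ≠ 0 := fun h0 => hX (h0 ▸ A.zero_mem)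
  have ht : X⁻¹ ∈ A.nonunits := nu_of_not_mem A hX
  have hs : a * X⁻¹ + b * X⁻¹ ^ 2 ∈ A.nonunits := by
    refine nu_add A (nu_mul_left A ha ht) (nu_mul_left A hb ?_)
    rw [pow_two]; exact nu_mul_left A (mem_of_nu A ht) ht
  obtain ⟨hs0, hsinv⟩ := one_add_nu A hs
  have hY2 : Y ^ 2 = X ^ 3 * (1 + (a * X⁻¹ + b * X⁻¹ ^ 2)) := by
    rw [h]; field_simp; ring
  have hY0 : Y ≠ 0 := by
    intro h0
    rw [h0] at hY2
    have : X ^ 3 * (1 + (a * X⁻¹ + b * X⁻¹ ^ 2)) ≠ 0 := mul_ne_zero (pow_ne_zero _ hX0) hs0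
    exact this (by rw [← hY2]; ring)
  have hz2 : (X / Y) ^ 2 = X⁻¹ * (1 + (a * X⁻¹ + b * X⁻¹ ^ 2))⁻¹ := by
    rw [div_pow, hY2]; field_simp
  have hz : X / Y ∈ A.nonunits := by
    apply nu_of_sq
    rw [hz2]; exact nu_mul_right A ht hsinv
  have hw' : Y⁻¹ = X / Y * X⁻¹ := by field_simp
  have hw : Y⁻¹ ∈ A.nonunits := by
    rw [hw']; exact nu_mul_right A hz (mem_of_nu A ht)
  have hcurve : Y⁻¹ = (X / Y) ^ 3 + a * (X / Y) ^ 2 * Y⁻¹ + b * (X / Y) * Y⁻¹ ^ 2 := by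
    field_simp
    linear_combination h
  have hm : -(a * (X / Y) ^ 2 + b * (X / Y) * Y⁻¹) ∈ A.nonunits := by
    apply nu_neg
    refine nu_add A (nu_mul_left A ha ?_) ?_
    · rw [pow_two]; exact nu_mul_left A (mem_of_nu A hz) hz
    · rw [mul_assoc]; exact nu_mul_left A hb (nu_mul_left A (mem_of_nu A hz) hw)
  obtain ⟨hg0, hginv⟩ := one_add_nu A hm
  have hgeq : 1 + -(a * (X / Y) ^ 2 + b * (X / Y) * Y⁻¹)
      = 1 - a * (X / Y) ^ 2 - b * (X / Y) * Y⁻¹ := by ring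
  rw [hgeq] at hg0 hginv
  have hweq : Y⁻¹ = (X / Y) ^ 3 * (1 - a * (X / Y) ^ 2 - b * (X / Y) * Y⁻¹)⁻¹ := by
    rw [eq_mul_inv_iff_mul_eq₀ hg0]
    linear_combination hcurve
  have hz0 : X / Y ≠ 0 := div_ne_zero hX0 hY0
  have hteq : X⁻¹ = (X / Y) ^ 2 * (1 - a * (X / Y) ^ 2 - b * (X / Y) * Y⁻¹)⁻¹ := by
    have h1 : X⁻¹ = Y⁻¹ * (X / Y)⁻¹ := by field_simp
    rw [h1]
    nth_rewrite 1 [hweq]
    field_simp
  exact ⟨hX0, hY0, ht, hz, hw, hcurve, hg0, hginv, hweq, hteq⟩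

/-- The difference formula in the `zw`-chart. -/
lemma zw_diff {a b z₁ w₁ z₂ w₂ : K}
    (h₁ : w₁ = z₁ ^ 3 + a * z₁ ^ 2 * w₁ + b * z₁ * w₁ ^ 2)
    (h₂ : w₂ = z₂ ^ 3 + a * z₂ ^ 2 * w₂ + b * z₂ * w₂ ^ 2) :
    (w₁ - w₂) * (1 - a * z₂ ^ 2 - b * z₂ * (w₁ + w₂))
      = (z₁ - z₂) * (z₁ ^ 2 + z₁ * z₂ + z₂ ^ 2 + a * (z₁ + z₂) * w₁ + b * w₁ ^ 2) := by
  linear_combination h₁ - h₂

end KerPoint

/-! ### The algebraic core -/

section Core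

variable {K : Type*} [Field K] {A : ValuationSubring K}

/-- From the line relation in the `zw`-chart and the slope relation `L U + N V = 0`,
compute `N⁻¹` and `-L / N` up to elements of `A`. -/
lemma core_alg {a b z₁ w₁ z₂ w₂ L N z u₁ u₂ g₁ : K} (ha : a ∈ A) (hb : b ∈ A)
    (hz : z ∈ A.nonunits) (hu₁ : u₁ ∈ A) (hu₂ : u₂ ∈ A) (hg₁ : g₁ ∈ A)
    (e₁ : z₁ = z * u₁) (e₂ : z₂ = z * u₂) (hw₁ : w₁ = z₁ ^ 3 * g₁) (hw₂ : w₂ ∈ A.nonunits)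
    (hline : L * z₁ + N * w₁ = 1)
    (hLUNV : L * (1 - a * z₂ ^ 2 - b * z₂ * (w₁ + w₂))
      + N * (z₁ ^ 2 + z₁ * z₂ + z₂ ^ 2 + a * (z₁ + z₂) * w₁ + b * w₁ ^ 2) = 0) :
    N ≠ 0 ∧ ∃ ν' ∈ A, ∃ l' ∈ A, N⁻¹ = z ^ 3 * ν' ∧ -L * N⁻¹ = z ^ 2 * l' := by
  have hzA : z ∈ A := mem_of_nu A hz
  have hz₁ : z₁ ∈ A.nonunits := e₁ ▸ nu_mul_right A hz hu₁
  have hz₂ : z₂ ∈ A.nonunits := e₂ ▸ nu_mul_right A hz hu₂
  have hw₁nu : w₁ ∈ A.nonunits := by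
    rw [hw₁, pow_succ, mul_assoc]
    exact nu_mul_left A (A.pow_mem (mem_of_nu A hz₁) 2) (nu_mul_right A hz₁ hg₁)
  -- the unit `U`
  have hs : -(a * z₂ ^ 2 + b * z₂ * (w₁ + w₂)) ∈ A.nonunits := by
    apply nu_neg
    refine nu_add A (nu_mul_left A ha ?_) ?_
    · rw [pow_two]; exact nu_mul_left A (mem_of_nu A hz₂) hz₂
    · rw [mul_assoc]
      exact nu_mul_left A hb (nu_mul_left A (mem_of_nu A hz₂) (nu_add A hw₁nu hw₂))
  obtain ⟨hU0, hUinv⟩ := one_add_nu A hs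
  have hUeq : 1 + -(a * z₂ ^ 2 + b * z₂ * (w₁ + w₂))
      = 1 - a * z₂ ^ 2 - b * z₂ * (w₁ + w₂) := by ring
  rw [hUeq] at hU0 hUinv
  set U := 1 - a * z₂ ^ 2 - b * z₂ * (w₁ + w₂) with hUdef
  -- `V = z² V'`
  set V' := u₁ ^ 2 + u₁ * u₂ + u₂ ^ 2 + a * (u₁ + u₂) * (u₁ ^ 3 * g₁) * z ^ 2
    + b * (u₁ ^ 6 * g₁ ^ 2) * z ^ 4 with hV'def
  have hV'mem : V' ∈ A := by
    have h1 : u₁ ^ 2 + u₁ * u₂ + u₂ ^ 2 ∈ A :=
      A.add_mem _ _ (A.add_mem _ _ (A.pow_mem hu₁ 2) (A.mul_mem _ _ hu₁ hu₂)) (A.pow_mem hu₂ 2)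
    have h2 : a * (u₁ + u₂) * (u₁ ^ 3 * g₁) * z ^ 2 ∈ A :=
      A.mul_mem _ _ (A.mul_mem _ _ (A.mul_mem _ _ ha (A.add_mem _ _ hu₁ hu₂))
        (A.mul_mem _ _ (A.pow_mem hu₁ 3) hg₁)) (A.pow_mem hzA 2)
    have h3 : b * (u₁ ^ 6 * g₁ ^ 2) * z ^ 4 ∈ A :=
      A.mul_mem _ _ (A.mul_mem _ _ hb (A.mul_mem _ _ (A.pow_mem hu₁ 6) (A.pow_mem hg₁ 2)))
        (A.pow_mem hzA 4)
    exact A.add_mem _ _ (A.add_mem _ _ h1 h2) h3
  have hV : z₁ ^ 2 + z₁ * z₂ + z₂ ^ 2 + a * (z₁ + z₂) * w₁ + b * w₁ ^ 2 = z ^ 2 * V' := by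
    rw [hw₁, e₁, e₂, hV'def]; ring
  rw [hV] at hLUNV
  have hL : L = -(N * (z ^ 2 * V') * U⁻¹) := by
    field_simp
    linear_combination hLUNV
  have h1 : N * (w₁ - z₁ * (z ^ 2 * V') * U⁻¹) = 1 := by
    rw [hL] at hline
    linear_combination hline
  have hN0 : N ≠ 0 := left_ne_zero_of_mul_eq_one h1
  have hNinv : N⁻¹ = w₁ - z₁ * (z ^ 2 * V') * U⁻¹ := (eq_inv_of_mul_eq_one_right h1).symm ▸ rfl
  refine ⟨hN0, u₁ ^ 3 * g₁ - u₁ * V' * U⁻¹, ?_, V' * U⁻¹, A.mul_mem _ _ hV'mem hUinv, ?_, ?_⟩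
  · exact A.sub_mem (A.mul_mem _ _ (A.pow_mem hu₁ 3) hg₁)
      (A.mul_mem _ _ (A.mul_mem _ _ hu₁ hV'mem) hUinv)
  · rw [hNinv, hw₁, e₁]; ring
  · rw [hL]
    field_simp

/-- The third point of a collinear triple lies in the kernel of reduction. -/
lemma core_third_not_mem {a b X₃ Y₃ L N z ν' l' : K} (ha : a ∈ A) (hb : b ∈ A)
    (h₃ : Y₃ ^ 2 = X₃ * (X₃ ^ 2 + a * X₃ + b)) (hl₃ : Y₃ = L * X₃ + N) (hN : N ≠ 0)
    (hz : z ∈ A.nonunits) (hν' : ν' ∈ A) (hl' : l' ∈ A)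
    (hν : N⁻¹ = z ^ 3 * ν') (hl : -L * N⁻¹ = z ^ 2 * l') : X₃ ∉ A := by
  intro hX₃
  have hzA : z ∈ A := mem_of_nu A hz
  have hY₃ : Y₃ ∈ A := by
    apply mem_of_sq_mem
    rw [h₃]
    exact A.mul_mem _ _ hX₃ (A.add_mem _ _ (A.add_mem _ _ (A.pow_mem hX₃ 2)
      (A.mul_mem _ _ ha hX₃)) hb)
  have h1 : (1 : K) = Y₃ * (z ^ 3 * ν') + z ^ 2 * l' * X₃ := by
    rw [← hν, ← hl, hl₃]
    field_simp
    ring
  have h2 : Y₃ * (z ^ 3 * ν') + z ^ 2 * l' * X₃ ∈ A.nonunits := by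
    refine nu_add A (nu_mul_left A hY₃ ?_) ?_
    · rw [pow_succ, mul_comm (z ^ 2) z, mul_assoc]
      exact nu_mul_right A hz (A.mul_mem _ _ (A.pow_mem hzA 2) hν')
    · rw [pow_two, mul_assoc, mul_assoc]
      exact nu_mul_right A hz (A.mul_mem _ _ hzA (A.mul_mem _ _ hl' hX₃))
  rw [← h1] at h2
  exact not_nu_one A h2

/-- Vieta: the sum of the `z`-coordinates of a collinear triple. -/
lemma core_sum {a b X₁ Y₁ X₂ Y₂ X₃ Y₃ L N : K}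
    (hl₁ : Y₁ = L * X₁ + N) (hl₂ : Y₂ = L * X₂ + N) (hl₃ : Y₃ = L * X₃ + N)
    (v₁ : X₁ + X₂ + X₃ = L ^ 2 - a) (v₂ : X₁ * X₂ + X₁ * X₃ + X₂ * X₃ = b - 2 * L * N)
    (v₃ : X₁ * X₂ * X₃ = N ^ 2)
    (hY₁ : Y₁ ≠ 0) (hY₂ : Y₂ ≠ 0) (hY₃ : Y₃ ≠ 0) (hN : N ≠ 0) :
    (X₁ / Y₁ + X₂ / Y₂ + X₃ / Y₃) * (1 + a * (-L * N⁻¹) + b * (-L * N⁻¹) ^ 2)
      = -(N⁻¹ * (a + 2 * b * (-L * N⁻¹))) := by
  have hprod : Y₁ * Y₂ * Y₃ = N * (N ^ 2 - a * L * N + b * L ^ 2) := by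
    rw [hl₁, hl₂, hl₃]
    linear_combination (L ^ 3) * v₃ + (L ^ 2 * N) * v₂ + (L * N ^ 2) * v₁
  have hnum : X₁ * Y₂ * Y₃ + X₂ * Y₁ * Y₃ + X₃ * Y₁ * Y₂ = -(N * (a * N - 2 * b * L)) := by
    rw [hl₁, hl₂, hl₃]
    linear_combination (3 * L ^ 2) * v₃ + (2 * L * N) * v₂ + (N ^ 2) * v₁
  have hsum : X₁ / Y₁ + X₂ / Y₂ + X₃ / Y₃
      = (X₁ * Y₂ * Y₃ + X₂ * Y₁ * Y₃ + X₃ * Y₁ * Y₂) / (Y₁ * Y₂ * Y₃) := by
    field_simp
  have hD : N * (N ^ 2 - a * L * N + b * L ^ 2) ≠ 0 := by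
    rw [← hprod]; exact mul_ne_zero (mul_ne_zero hY₁ hY₂) hY₃
  have hD' : N ^ 2 - a * L * N + b * L ^ 2 ≠ 0 := right_ne_zero_of_mul hD
  have key : 1 + a * (-L * N⁻¹) + b * (-L * N⁻¹) ^ 2
      = (N ^ 2 - a * L * N + b * L ^ 2) * (N⁻¹) ^ 2 := by
    field_simp
    ring
  rw [hsum, hprod, hnum, key]
  generalize N ^ 2 - a * L * N + b * L ^ 2 = D at hD' ⊢
  field_simp
  ring

end Core

/-! ### Abstract Legendre coordinates on an abelian group -/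

section Group

variable {K : Type*} [Field K] (A : ValuationSubring K)
variable {G : Type*} [AddCommGroup G]

/-- The hypotheses on the coordinate functions `X Y : G → K` (a weak form of the
`LegendreCoords` interface: only what the kernel-of-reduction argument needs). -/
structure LegendreHyp (a b : K) (X Y : G → K) : Prop where
  eqn : ∀ P, P ≠ 0 → Y P ^ 2 = X P * (X P ^ 2 + a * X P + b)
  X_neg : ∀ P, P ≠ 0 → X (-P) = X P
  Y_neg : ∀ P, P ≠ 0 → Y (-P) = -Y P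
  collinear : ∀ P₁ P₂ P₃, P₁ ≠ 0 → P₂ ≠ 0 → P₃ ≠ 0 → P₁ + P₂ + P₃ = 0 →
    ∃ L N : K, Y P₁ = L * X P₁ + N ∧ Y P₂ = L * X P₂ + N ∧ Y P₃ = L * X P₃ + N ∧
      X P₁ + X P₂ + X P₃ = L ^ 2 - a ∧
      X P₁ * X P₂ + X P₁ * X P₃ + X P₂ * X P₃ = b - 2 * L * N ∧
      X P₁ * X P₂ * X P₃ = N ^ 2

/-- Membership in the kernel of reduction `E₁`. -/
def InKer (X : G → K) (P : G) : Prop := P = 0 ∨ X P ∉ A

open Classical in
/-- The `z`-coordinate `X / Y`, with value `0` at the origin. -/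
noncomputable def zCoord (X Y : G → K) (P : G) : K := if P = 0 then 0 else X P / Y P

lemma zCoord_zero (X Y : G → K) : zCoord X Y (0 : G) = 0 := by simp [zCoord]

lemma zCoord_of_ne (X Y : G → K) {P : G} (hP : P ≠ 0) : zCoord X Y P = X P / Y P := by
  simp [zCoord, hP]

variable {A} {a b : K} {X Y : G → K}

lemma inKer_zero : InKer A X (0 : G) := Or.inl rfl

lemma zCoord_nu (H : LegendreHyp a b X Y) (ha : a ∈ A) (hb : b ∈ A) {P : G}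
    (hP : InKer A X P) : zCoord X Y P ∈ A.nonunits := by
  by_cases h0 : P = 0
  · rw [h0, zCoord_zero]; exact A.nonunits.zero_mem
  · rw [zCoord_of_ne X Y h0]
    exact (kerData ha hb (H.eqn P h0) (hP.resolve_left h0)).z_nu

lemma zCoord_ne_zero (H : LegendreHyp a b X Y) (ha : a ∈ A) (hb : b ∈ A) {P : G}
    (hP : InKer A X P) (h0 : P ≠ 0) : zCoord X Y P ≠ 0 := by
  rw [zCoord_of_ne X Y h0]
  have k := kerData ha hb (H.eqn P h0) (hP.resolve_left h0)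
  exact div_ne_zero k.X_ne k.Y_ne

/-- The key estimate for a collinear triple whose first two points are in the kernel. -/
lemma ker_collinear (H : LegendreHyp a b X Y) (ha : a ∈ A) (hb : b ∈ A) {P₁ P₂ P₃ : G}
    (h₁ : P₁ ≠ 0) (h₂ : P₂ ≠ 0) (h₃ : P₃ ≠ 0) (hsum : P₁ + P₂ + P₃ = 0)
    (hk₁ : X P₁ ∉ A) (hk₂ : X P₂ ∉ A) {z u₁ u₂ : K} (hz : z ∈ A.nonunits)
    (hu₁ : u₁ ∈ A) (hu₂ : u₂ ∈ A) (e₁ : X P₁ / Y P₁ = z * u₁) (e₂ : X P₂ / Y P₂ = z * u₂) :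
    X P₃ ∉ A ∧ ∃ c ∈ A, X P₁ / Y P₁ + X P₂ / Y P₂ + X P₃ / Y P₃ = c * z ^ 3 := by
  obtain ⟨L, N, hl₁, hl₂, hl₃, v₁, v₂, v₃⟩ := H.collinear P₁ P₂ P₃ h₁ h₂ h₃ hsum
  have q₁ := H.eqn P₁ h₁
  have q₂ := H.eqn P₂ h₂
  have q₃ := H.eqn P₃ h₃
  have k₁ := kerData ha hb q₁ hk₁
  have k₂ := kerData ha hb q₂ hk₂
  have hzA : z ∈ A := mem_of_nu A hz
  -- generalize the coordinates
  generalize X P₁ = X₁ at *
  generalize Y P₁ = Y₁ at *
  generalize X P₂ = X₂ at *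
  generalize Y P₂ = Y₂ at *
  generalize X P₃ = X₃ at *
  generalize Y P₃ = Y₃ at *
  have hY₁ := k₁.Y_ne
  have hY₂ := k₂.Y_ne
  have hline₁ : L * (X₁ / Y₁) + N * Y₁⁻¹ = 1 := by
    field_simp
    linear_combination -hl₁
  have hline₂ : L * (X₂ / Y₂) + N * Y₂⁻¹ = 1 := by
    field_simp
    linear_combination -hl₂
  -- the unit `U`
  have hs : -(a * (X₂ / Y₂) ^ 2 + b * (X₂ / Y₂) * (Y₁⁻¹ + Y₂⁻¹)) ∈ A.nonunits := by
    apply nu_neg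
    refine nu_add A (nu_mul_left A ha ?_) ?_
    · rw [pow_two]; exact nu_mul_left A (mem_of_nu A k₂.z_nu) k₂.z_nu
    · rw [mul_assoc]
      exact nu_mul_left A hb (nu_mul_left A (mem_of_nu A k₂.z_nu) (nu_add A k₁.w_nu k₂.w_nu))
  have hU0 : 1 - a * (X₂ / Y₂) ^ 2 - b * (X₂ / Y₂) * (Y₁⁻¹ + Y₂⁻¹) ≠ 0 := by
    have := (one_add_nu A hs).1
    intro h; apply this; rw [← h]; ring
  -- the slope relation
  have hLUNV : L * (1 - a * (X₂ / Y₂) ^ 2 - b * (X₂ / Y₂) * (Y₁⁻¹ + Y₂⁻¹))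
      + N * ((X₁ / Y₁) ^ 2 + (X₁ / Y₁) * (X₂ / Y₂) + (X₂ / Y₂) ^ 2
        + a * ((X₁ / Y₁) + (X₂ / Y₂)) * Y₁⁻¹ + b * Y₁⁻¹ ^ 2) = 0 := by
    by_cases hc : X₁ = X₂ ∧ Y₁ = Y₂
    · -- tangent case
      obtain ⟨hX, hY⟩ := hc
      subst hX hY
      have h2L : 2 * Y₁ * L = 3 * X₁ ^ 2 + 2 * a * X₁ + b := by
        linear_combination (2 * L) * hl₁ - (2 * X₁) * v₁ + v₂
      have h2N : 2 * Y₁ * N = -(X₁ * (X₁ ^ 2 - b)) := by
        linear_combination (-2 * Y₁) * hl₁ - X₁ * h2L + 2 * q₁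
      have hXb : X₁ ^ 2 - b ≠ 0 := by
        have ht2 : -(b * X₁⁻¹ ^ 2) ∈ A.nonunits := by
          apply nu_neg
          rw [pow_two]
          exact nu_mul_left A hb (nu_mul_left A (mem_of_nu A k₁.t_nu) k₁.t_nu)
        have h1 := (one_add_nu A ht2).1
        intro h0
        apply h1
        have hX₁ := k₁.X_ne
        field_simp
        linear_combination h0
      have h2 : (2 : K) ≠ 0 := by
        intro h20
        have : -(X₁ * (X₁ ^ 2 - b)) = 0 := by rw [← h2N, h20]; ring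
        exact (neg_ne_zero.mpr (mul_ne_zero k₁.X_ne hXb)) this
      have key : Y₁ * (2 * (L * (Y₁ ^ 2 - a * X₁ ^ 2 - 2 * b * X₁)
          + N * (3 * X₁ ^ 2 + 2 * a * X₁ + b))) = 0 := by
        linear_combination (Y₁ ^ 2 - a * X₁ ^ 2 - 2 * b * X₁) * h2L
          + (3 * X₁ ^ 2 + 2 * a * X₁ + b) * h2N + (3 * X₁ ^ 2 + 2 * a * X₁ + b) * q₁
      have key' : L * (Y₁ ^ 2 - a * X₁ ^ 2 - 2 * b * X₁)
          + N * (3 * X₁ ^ 2 + 2 * a * X₁ + b) = 0 :=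
        ((mul_eq_zero.mp ((mul_eq_zero.mp key).resolve_left hY₁)).resolve_left h2)
      have hexpr : L * (1 - a * (X₁ / Y₁) ^ 2 - b * (X₁ / Y₁) * (Y₁⁻¹ + Y₁⁻¹))
          + N * ((X₁ / Y₁) ^ 2 + (X₁ / Y₁) * (X₁ / Y₁) + (X₁ / Y₁) ^ 2
            + a * ((X₁ / Y₁) + (X₁ / Y₁)) * Y₁⁻¹ + b * Y₁⁻¹ ^ 2)
          = (L * (Y₁ ^ 2 - a * X₁ ^ 2 - 2 * b * X₁)
            + N * (3 * X₁ ^ 2 + 2 * a * X₁ + b)) / Y₁ ^ 2 := by
        field_simp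
        ring
      rw [hexpr, key', zero_div]
    · -- chord case
      have hdiff := zw_diff k₁.curve k₂.curve
      have hzne : X₁ / Y₁ ≠ X₂ / Y₂ := by
        intro hzz
        apply hc
        rw [hzz, sub_self, zero_mul] at hdiff
        have hw : Y₁⁻¹ = Y₂⁻¹ := by
          have := (mul_eq_zero.mp hdiff).resolve_right hU0
          exact sub_eq_zero.mp this
        have hY : Y₁ = Y₂ := inv_injective hw
        refine ⟨?_, hY⟩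
        rw [hY] at hzz
        field_simp at hzz
        exact hzz
      have h3 : (X₁ / Y₁ - X₂ / Y₂) *
          (L * (1 - a * (X₂ / Y₂) ^ 2 - b * (X₂ / Y₂) * (Y₁⁻¹ + Y₂⁻¹))
          + N * ((X₁ / Y₁) ^ 2 + (X₁ / Y₁) * (X₂ / Y₂) + (X₂ / Y₂) ^ 2
            + a * ((X₁ / Y₁) + (X₂ / Y₂)) * Y₁⁻¹ + b * Y₁⁻¹ ^ 2)) = 0 := by
        linear_combination (1 - a * (X₂ / Y₂) ^ 2 - b * (X₂ / Y₂) * (Y₁⁻¹ + Y₂⁻¹))
          * (hline₁ - hline₂) - N * hdiff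
      exact (mul_eq_zero.mp h3).resolve_left (sub_ne_zero.mpr hzne)
  obtain ⟨hN0, ν', hν', l', hl', hν, hl⟩ :=
    core_alg ha hb hz hu₁ hu₂ k₁.g_mem e₁ e₂ k₁.w_eq k₂.w_nu hline₁ hLUNV
  have hX₃ : X₃ ∉ A := core_third_not_mem ha hb q₃ hl₃ hN0 hz hν' hl' hν hl
  have k₃ := kerData ha hb q₃ hX₃
  refine ⟨hX₃, ?_⟩
  have hsum' := core_sum hl₁ hl₂ hl₃ v₁ v₂ v₃ hY₁ hY₂ k₃.Y_ne hN0
  rw [hl, hν] at hsum'
  -- the unit `1 + a λ + b λ²`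
  have hm : a * (z ^ 2 * l') + b * (z ^ 2 * l') ^ 2 ∈ A.nonunits := by
    have hzl : z ^ 2 * l' ∈ A.nonunits := by
      rw [pow_two, mul_assoc]; exact nu_mul_right A hz (A.mul_mem _ _ hzA hl')
    refine nu_add A (nu_mul_left A ha hzl) (nu_mul_left A hb ?_)
    rw [pow_two]; exact nu_mul_left A (mem_of_nu A hzl) hzl
  obtain ⟨hD0, hDinv⟩ := one_add_nu A hm
  have hDeq : 1 + (a * (z ^ 2 * l') + b * (z ^ 2 * l') ^ 2)
      = 1 + a * (z ^ 2 * l') + b * (z ^ 2 * l') ^ 2 := by ring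
  rw [hDeq] at hD0 hDinv
  refine ⟨-(ν' * (a + 2 * b * (z ^ 2 * l'))) * (1 + a * (z ^ 2 * l') + b * (z ^ 2 * l') ^ 2)⁻¹,
    ?_, ?_⟩
  · refine A.mul_mem _ _ (A.neg_mem _ (A.mul_mem _ _ hν' (A.add_mem _ _ ha ?_))) hDinv
    have h2 : (2 : K) ∈ A := by
      have := natCast_mem A 2
      exact_mod_cast this
    exact A.mul_mem _ _ (A.mul_mem _ _ h2 hb) (A.mul_mem _ _ (A.pow_mem hzA 2) hl')
  · rw [eq_comm, mul_comm, ← mul_assoc, mul_inv_eq_iff_eq_mul₀ hD0, hsum']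
    ring

/-- The formal-group estimate `z(P₁ + P₂) = z(P₁) + z(P₂) + c z³` on the kernel of reduction. -/
lemma zCoord_add (H : LegendreHyp a b X Y) (ha : a ∈ A) (hb : b ∈ A) {P₁ P₂ : G}
    (hP₁ : InKer A X P₁) (hP₂ : InKer A X P₂) {z u₁ u₂ : K} (hz : z ∈ A.nonunits)
    (hu₁ : u₁ ∈ A) (hu₂ : u₂ ∈ A) (e₁ : zCoord X Y P₁ = z * u₁)
    (e₂ : zCoord X Y P₂ = z * u₂) :
    InKer A X (P₁ + P₂) ∧
      ∃ c ∈ A, zCoord X Y (P₁ + P₂) = zCoord X Y P₁ + zCoord X Y P₂ + c * z ^ 3 := by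
  by_cases h₁ : P₁ = 0
  · subst h₁
    rw [zero_add]
    exact ⟨hP₂, 0, A.zero_mem, by rw [zCoord_zero]; ring⟩
  by_cases h₂ : P₂ = 0
  · subst h₂
    rw [add_zero]
    exact ⟨hP₁, 0, A.zero_mem, by rw [zCoord_zero]; ring⟩
  by_cases h₁₂ : P₁ + P₂ = 0
  · refine ⟨by rw [h₁₂]; exact inKer_zero, 0, A.zero_mem, ?_⟩
    have hP₂' : P₂ = -P₁ := (neg_eq_of_add_eq_zero_right h₁₂).symm
    rw [h₁₂, zCoord_zero, zCoord_of_ne X Y h₁, zCoord_of_ne X Y h₂, hP₂', H.X_neg P₁ h₁,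
      H.Y_neg P₁ h₁]
    have k₁ := kerData ha hb (H.eqn P₁ h₁) (hP₁.resolve_left h₁)
    have hY := k₁.Y_ne
    field_simp
    ring
  · have h₃ : -(P₁ + P₂) ≠ 0 := neg_ne_zero.mpr h₁₂
    have hsum : P₁ + P₂ + -(P₁ + P₂) = 0 := add_neg_cancel _
    rw [zCoord_of_ne X Y h₁] at e₁
    rw [zCoord_of_ne X Y h₂] at e₂
    obtain ⟨hX₃, c, hc, hsum'⟩ := ker_collinear H ha hb h₁ h₂ h₃ hsum
      (hP₁.resolve_left h₁) (hP₂.resolve_left h₂) hz hu₁ hu₂ e₁ e₂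
    rw [H.X_neg _ h₁₂] at hX₃
    rw [H.X_neg _ h₁₂, H.Y_neg _ h₁₂] at hsum'
    refine ⟨Or.inr hX₃, -c, A.neg_mem _ hc, ?_⟩
    rw [zCoord_of_ne X Y h₁, zCoord_of_ne X Y h₂, zCoord_of_ne X Y h₁₂]
    have k₃ := kerData ha hb (H.eqn _ h₁₂) hX₃
    have hY := k₃.Y_ne
    rw [div_neg] at hsum'
    linear_combination -hsum'

/-- **H1.** The kernel of reduction is closed under addition. -/
theorem kernel_add (H : LegendreHyp a b X Y) (ha : a ∈ A) (hb : b ∈ A) {P₁ P₂ : G}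
    (hP₁ : InKer A X P₁) (hP₂ : InKer A X P₂) : InKer A X (P₁ + P₂) := by
  by_cases h₁ : P₁ = 0
  · subst h₁; rwa [zero_add]
  by_cases h₂ : P₂ = 0
  · subst h₂; rwa [add_zero]
  have hz₁ := zCoord_nu H ha hb hP₁
  have hz₂ := zCoord_nu H ha hb hP₂
  have hz₁0 := zCoord_ne_zero H ha hb hP₁ h₁
  have hz₂0 := zCoord_ne_zero H ha hb hP₂ h₂
  rcases A.mem_or_inv_mem (zCoord X Y P₂ / zCoord X Y P₁) with h | h
  · exact (zCoord_add H ha hb hP₁ hP₂ hz₁ A.one_mem h (by ring) (by field_simp)).1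
  · exact (zCoord_add H ha hb hP₁ hP₂ hz₂ h A.one_mem (by field_simp) (by ring)).1

/-- The kernel of reduction is closed under negation. -/
theorem kernel_neg (H : LegendreHyp a b X Y) {P : G} (hP : InKer A X P) : InKer A X (-P) := by
  by_cases h : P = 0
  · subst h; rw [neg_zero]; exact inKer_zero
  · right; rw [H.X_neg P h]; exact hP.resolve_left h

/-- Multiplication by `n` in the `z`-coordinate: `z(n • P) = z(P) (n + c z(P)²)`. -/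
lemma zCoord_nsmul (H : LegendreHyp a b X Y) (ha : a ∈ A) (hb : b ∈ A) {P : G}
    (hP : InKer A X P) (n : ℕ) :
    InKer A X (n • P) ∧
      ∃ c ∈ A, zCoord X Y (n • P) = zCoord X Y P * ((n : K) + c * zCoord X Y P ^ 2) := by
  have hz := zCoord_nu H ha hb hP
  have hzA := mem_of_nu A hz
  induction n with
  | zero =>
    refine ⟨by rw [zero_smul]; exact inKer_zero, 0, A.zero_mem, ?_⟩
    rw [zero_smul, zCoord_zero]; simp
  | succ n ih =>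
    obtain ⟨hk, c, hc, hn⟩ := ih
    have hu : (n : K) + c * zCoord X Y P ^ 2 ∈ A :=
      A.add_mem _ _ (natCast_mem A n) (A.mul_mem _ _ hc (A.pow_mem hzA 2))
    obtain ⟨hk', c', hc', hn'⟩ := zCoord_add H ha hb hk hP hz hu A.one_mem hn (by ring)
    rw [succ_nsmul]
    refine ⟨hk', c + c', A.add_mem _ _ hc hc', ?_⟩
    rw [hn', hn]
    push_cast
    ring

/-- **H2.** The kernel of reduction has no `n`-torsion when `n` is a unit of `A`. -/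
theorem kernel_torsion_free (H : LegendreHyp a b X Y) (ha : a ∈ A) (hb : b ∈ A) {P : G}
    (hP : InKer A X P) {n : ℕ} (hn : (n : K) ∉ A.nonunits) (hnP : n • P = 0) : P = 0 := by
  by_contra h0
  obtain ⟨-, c, hc, hz⟩ := zCoord_nsmul H ha hb hP n
  rw [hnP, zCoord_zero] at hz
  have hznu := zCoord_nu H ha hb hP
  have hz0 := zCoord_ne_zero H ha hb hP h0
  have h1 : (n : K) + c * zCoord X Y P ^ 2 = 0 :=
    (mul_eq_zero.mp hz.symm).resolve_left hz0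
  apply hn
  have h2 : (n : K) = -(c * zCoord X Y P ^ 2) := by linear_combination h1
  rw [h2]
  apply nu_neg
  rw [pow_two]
  exact nu_mul_left A hc (nu_mul_left A (mem_of_nu A hznu) hznu)

/-- **H2**, valuation form. -/
theorem kernel_torsion_free' (H : LegendreHyp a b X Y) (ha : a ∈ A) (hb : b ∈ A) {P : G}
    (hP : InKer A X P) {n : ℕ} (hn : A.valuation (n : K) = 1) (hnP : n • P = 0) : P = 0 :=
  kernel_torsion_free H ha hb hP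
    (fun h => by rw [A.mem_nonunits_iff, hn] at h; exact lt_irrefl _ h) hnP

/-- The kernel of reduction as an additive subgroup. -/
def kernelSubgroup (H : LegendreHyp a b X Y) (ha : a ∈ A) (hb : b ∈ A) : AddSubgroup G where
  carrier := {P | InKer A X P}
  zero_mem' := inKer_zero
  add_mem' := fun h₁ h₂ => kernel_add H ha hb h₁ h₂
  neg_mem' := fun h => kernel_neg H h

end Group

end Fermat.Agent.S05.helper90
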