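import Mathlib
import Fermat.Agent.S05.helper97_Legendre

/-!
# Same-reduction lemma and the good reduction case (helper97, statement S05)
-/

set_option autoImplicit false

namespace Fermat.Agent.S05.helper97

variable {K : Type*} [Field K] {Γ₀ : Type*} [LinearOrderedCommGroupWithZero Γ₀]
  (v : Valuation K Γ₀)

/-- Natural numbers are integral for every valuation. -/
theorem val_natCast_le_one (n : ℕ) : v (n : K) ≤ 1 := by
  induction n with
  | zero => simp
  | succ n ih =>
    rw [Nat.cast_succ]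
    exact v.map_add_le ih (le_of_eq v.map_one)

theorem val_two_le_one : v (2 : K) ≤ 1 := by
  have := val_natCast_le_one v 2
  simpa using this

theorem val_three_le_one : v (3 : K) ≤ 1 := by
  have := val_natCast_le_one v 3
  simpa using this

theorem val_ofNat_le_one (n : ℕ) [n.AtLeastTwo] : v (OfNat.ofNat n : K) ≤ 1 := by
  rw [← Nat.cast_ofNat]
  exact val_natCast_le_one v _

variable {v}

theorem val_mul_le_one {x y : K} (hx : v x ≤ 1) (hy : v y ≤ 1) : v (x * y) ≤ 1 := by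
  rw [map_mul]
  exact mul_le_one' hx hy

theorem val_pow_le_one {x : K} (hx : v x ≤ 1) (n : ℕ) : v (x ^ n) ≤ 1 := by
  rw [map_pow]
  exact pow_le_one' hx n

theorem val_mul_lt_one_left {x y : K} (hx : v x < 1) (hy : v y ≤ 1) : v (x * y) < 1 := by
  rw [map_mul]
  exact mul_lt_one_of_nonneg_of_lt_one_left zero_le hx hy

theorem val_mul_lt_one_right {x y : K} (hx : v x ≤ 1) (hy : v y < 1) : v (x * y) < 1 := by
  rw [mul_comm]
  exact val_mul_lt_one_left hy hx

/-- If the square of `x` is integral then so is `x`. -/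
theorem val_le_one_of_sq {x : K} (hx : v (x ^ 2) ≤ 1) : v x ≤ 1 := by
  by_contra h
  rw [not_le] at h
  have : 1 < v x ^ 2 := one_lt_pow' h two_ne_zero
  rw [map_pow] at hx
  exact absurd hx (not_le.mpr this)

/-- If the square of `x` lies in the maximal ideal then so does `x`. -/
theorem val_lt_one_of_sq {x : K} (hx : v (x ^ 2) < 1) : v x < 1 := by
  by_contra h
  rw [not_lt] at h
  have : 1 ≤ v x ^ 2 := one_le_pow_of_one_le' h 2
  rw [map_pow] at hx
  exact absurd hx (not_lt.mpr this)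

namespace LegendreCoords

variable {G : Type*} [AddCommGroup G] {a b : K} (C : LegendreCoords K G a b)

theorem inKer_zero : C.InKer v 0 := Or.inl rfl

theorem inKer_neg {P : G} (h : C.InKer v P) : C.InKer v (-P) := by
  rcases h with rfl | h
  · simp [InKer]
  · by_cases hP : P = 0
    · subst hP; simp [InKer]
    · exact Or.inr (by rwa [C.X_neg P hP])

theorem inKer_neg_iff {P : G} : C.InKer v (-P) ↔ C.InKer v P :=
  ⟨fun h => by simpa using C.inKer_neg h, C.inKer_neg⟩

theorem val_X_le_one_of_not_inKer {P : G} (h : ¬ C.InKer v P) : v (C.X P) ≤ 1 := by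
  by_contra h'
  exact h (Or.inr (not_le.mp h'))

theorem ne_zero_of_not_inKer {P : G} (h : ¬ C.InKer v P) : P ≠ 0 :=
  fun h' => h (Or.inl h')

/-- An integral first coordinate forces an integral second coordinate. -/
theorem val_Y_le_one (ha : v a ≤ 1) (hb : v b ≤ 1) {P : G} (hP : P ≠ 0)
    (hX : v (C.X P) ≤ 1) : v (C.Y P) ≤ 1 := by
  apply val_le_one_of_sq
  rw [C.eqn P hP]
  refine val_mul_le_one hX (v.map_add_le (v.map_add_le (val_pow_le_one hX 2) ?_) hb)
  exact val_mul_le_one ha hX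

/-- **Same-reduction lemma.** Two nonzero points with integral coordinates which are congruent
modulo the maximal ideal, the reduction being a nonsingular point, differ by an element of the
kernel of reduction. -/
theorem inKer_sub_of_close (ha : v a ≤ 1) (hb : v b ≤ 1) (h2 : v (2 : K) = 1)
    {P Q : G} (hP : P ≠ 0) (hQ : Q ≠ 0) (hPint : v (C.X P) ≤ 1)
    (hns : v (C.Y P) = 1 ∨ v (3 * C.X P ^ 2 + 2 * a * C.X P + b) = 1)
    (hX : v (C.X Q - C.X P) < 1) (hY : v (C.Y Q - C.Y P) < 1) :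
    C.InKer v (Q - P) := by
  by_cases hQP : Q = P
  · subst hQP; simp [InKer]
  have hsub : Q - P ≠ 0 := sub_ne_zero.mpr hQP
  have hsub' : P - Q ≠ 0 := sub_ne_zero.mpr (Ne.symm hQP)
  have hnegP : -P ≠ 0 := neg_ne_zero.mpr hP
  obtain ⟨Λ, N, hl1, hl2, hl3, he1, he2, he3⟩ :=
    C.collinear Q (-P) (P - Q) hQ hnegP hsub' (by abel)
  rw [C.X_neg P hP] at hl2 he1 he2 he3
  rw [C.Y_neg P hP] at hl2
  have hX3 : C.X (P - Q) = C.X (Q - P) := by
    rw [← neg_sub Q P, C.X_neg _ hsub]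
  rw [hX3] at hl3 he1 he2 he3
  refine Or.inr ?_
  by_contra hcon
  rw [not_lt] at hcon
  have hYP : v (C.Y P) ≤ 1 := C.val_Y_le_one ha hb hP hPint
  have hXQ : v (C.X Q) ≤ 1 := by
    have : C.X Q = (C.X Q - C.X P) + C.X P := by ring
    rw [this]
    exact v.map_add_le hX.le hPint
  -- `Λ` is integral
  have hΛ : v Λ ≤ 1 := by
    apply val_le_one_of_sq
    have : Λ ^ 2 = C.X Q + C.X P + C.X (Q - P) + a := by rw [he1]; ring
    rw [this]
    exact v.map_add_le (v.map_add_le (v.map_add_le hXQ hPint) hcon) ha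
  -- the second coordinate of `P` is in the maximal ideal
  have hYlt : v (C.Y P) < 1 := by
    have h1 : C.Y Q + C.Y P = Λ * (C.X Q - C.X P) := by
      linear_combination hl1 - hl2
    have h1' : v (C.Y Q + C.Y P) < 1 := by
      rw [h1]; exact val_mul_lt_one_right hΛ hX
    have h2' : v (2 * C.Y P) < 1 := by
      have : 2 * C.Y P = (C.Y Q + C.Y P) - (C.Y Q - C.Y P) := by ring
      rw [this]
      exact v.map_sub_lt h1' hY
    rwa [map_mul, h2, one_mul] at h2'
  have hD : v (3 * C.X P ^ 2 + 2 * a * C.X P + b) = 1 := by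
    rcases hns with h | h
    · exact absurd h (ne_of_lt hYlt)
    · exact h
  have key : 3 * C.X P ^ 2 + 2 * a * C.X P + b =
      2 * Λ * (-C.Y P) + (C.X Q - C.X P) * (Λ ^ 2 - a - 3 * C.X P - (C.X Q - C.X P)) := by
    linear_combination -he2 + (C.X Q + C.X P) * he1 - 2 * Λ * hl2
  have hlt : v (3 * C.X P ^ 2 + 2 * a * C.X P + b) < 1 := by
    rw [key]
    refine v.map_add_lt ?_ ?_
    · have : (2 : K) * Λ * (-C.Y P) = (2 * Λ) * (-C.Y P) := by ring
      rw [this]
      refine val_mul_lt_one_right (val_mul_le_one h2.le hΛ) ?_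
      rwa [Valuation.map_neg]
    · refine val_mul_lt_one_left hX ?_
      refine v.map_sub_le (v.map_sub_le (v.map_sub_le (val_pow_le_one hΛ 2) ha) ?_) hX.le
      exact val_mul_le_one (val_three_le_one v) hPint
  exact absurd hD (ne_of_lt hlt)

/-- Hypotheses on the kernel of reduction: it is closed under addition and has no
`p`-torsion. -/
structure KerHyp (C : LegendreCoords K G a b) (v : Valuation K Γ₀) (p : ℕ) : Prop where
  add : ∀ P Q, C.InKer v P → C.InKer v Q → C.InKer v (P + Q)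
  torsion_free : ∀ P, C.InKer v P → p • P = 0 → P = 0

/-- In the good reduction case every integral point has nonsingular reduction. -/
theorem nonsingular_of_good (ha : v a ≤ 1) (hb : v b = 1) (hdisc : v (a ^ 2 - 4 * b) = 1)
    {P : G} (hP : P ≠ 0) (hX : v (C.X P) ≤ 1) :
    v (C.Y P) = 1 ∨ v (3 * C.X P ^ 2 + 2 * a * C.X P + b) = 1 := by
  have hY : v (C.Y P) ≤ 1 := C.val_Y_le_one ha hb.le hP hX
  have hDle : v (3 * C.X P ^ 2 + 2 * a * C.X P + b) ≤ 1 := by
    refine v.map_add_le (v.map_add_le ?_ ?_) hb.le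
    · exact val_mul_le_one (val_three_le_one v) (val_pow_le_one hX 2)
    · exact val_mul_le_one (val_mul_le_one (val_two_le_one v) ha) hX
  by_contra hcon
  rw [not_or] at hcon
  have hYlt : v (C.Y P) < 1 := lt_of_le_of_ne hY hcon.1
  have hDlt : v (3 * C.X P ^ 2 + 2 * a * C.X P + b) < 1 := lt_of_le_of_ne hDle hcon.2
  have key : b ^ 2 * (a ^ 2 - 4 * b) =
      (-6 * (a ^ 2 - 3 * b) * C.X P + (-4 * a ^ 3 + 15 * a * b)) * C.Y P ^ 2 +
      (2 * (a ^ 2 - 3 * b) * C.X P ^ 2 + a * (2 * a ^ 2 - 7 * b) * C.X P + b * (a ^ 2 - 4 * b)) *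
        (3 * C.X P ^ 2 + 2 * a * C.X P + b) := by
    rw [C.eqn P hP]; ring
  have h1 : v (b ^ 2 * (a ^ 2 - 4 * b)) = 1 := by
    rw [map_mul, map_pow, hb, hdisc]; simp
  have hn (n : ℕ) : v (n : K) ≤ 1 := val_natCast_le_one v n
  have hint : ∀ x y : K, v x ≤ 1 → v y ≤ 1 → v (x * y) ≤ 1 := fun x y => val_mul_le_one
  have hadd : ∀ x y : K, v x ≤ 1 → v y ≤ 1 → v (x + y) ≤ 1 := fun x y hx hy => v.map_add_le hx hy
  have hsub : ∀ x y : K, v x ≤ 1 → v y ≤ 1 → v (x - y) ≤ 1 := fun x y hx hy => v.map_sub_le hx hy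
  have hneg : ∀ x : K, v x ≤ 1 → v (-x) ≤ 1 := fun x hx => by rwa [Valuation.map_neg]
  have hpow : ∀ (x : K) (n : ℕ), v x ≤ 1 → v (x ^ n) ≤ 1 := fun x n hx => val_pow_le_one hx n
  have h3 : v (3 : K) ≤ 1 := val_three_le_one v
  have h2 : v (2 : K) ≤ 1 := val_two_le_one v
  have h4 : v (4 : K) ≤ 1 := val_ofNat_le_one v 4
  have h6 : v (6 : K) ≤ 1 := val_ofNat_le_one v 6
  have h7 : v (7 : K) ≤ 1 := val_ofNat_le_one v 7
  have h15 : v (15 : K) ≤ 1 := val_ofNat_le_one v 15
  have hlt : v (b ^ 2 * (a ^ 2 - 4 * b)) < 1 := by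
    rw [key]
    refine v.map_add_lt ?_ ?_
    · refine val_mul_lt_one_right ?_ ?_
      · refine hadd _ _ (hint _ _ (hint _ _ (hneg _ h6) (hsub _ _ (hpow _ _ ha) (hint _ _ h3 hb.le))) hX)
          (hadd _ _ (hint _ _ (hneg _ h4) (hpow _ _ ha)) (hint _ _ (hint _ _ h15 ha) hb.le))
      · rw [map_pow]; exact pow_lt_one₀ zero_le hYlt two_ne_zero
    · refine val_mul_lt_one_right ?_ hDlt
      refine hadd _ _ (hadd _ _ (hint _ _ (hint _ _ h2 (hsub _ _ (hpow _ _ ha) (hint _ _ h3 hb.le)))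
        (hpow _ _ hX)) (hint _ _ (hint _ _ ha (hsub _ _ (hint _ _ h2 (hpow _ _ ha))
          (hint _ _ h7 hb.le))) hX)) (hint _ _ hb.le (hsub _ _ (hpow _ _ ha) (hint _ _ h4 hb.le)))
  exact absurd h1 (ne_of_lt hlt)

/-- **Good reduction case.** If `b` and `a ^ 2 - 4 * b` are units, an inertia-like
automorphism fixes every `p`-torsion point, provided the kernel of reduction is a subgroup
without `p`-torsion. -/
theorem fixed_of_good {σ : G →+ G} {τ : K ≃+* K} (hC : C.Compat σ τ) (hτ : InertiaLike v τ)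
    (ha : v a ≤ 1) (hb : v b = 1) (hdisc : v (a ^ 2 - 4 * b) = 1) (h2 : v (2 : K) = 1)
    {p : ℕ} (hK : C.KerHyp v p) {x : G} (hx : p • x = 0) : σ x = x := by
  by_cases hx0 : x = 0
  · subst hx0; simp
  have hnk : ¬ C.InKer v x := fun h => hx0 (hK.torsion_free x h hx)
  have hXint : v (C.X x) ≤ 1 := C.val_X_le_one_of_not_inKer hnk
  have hYint : v (C.Y x) ≤ 1 := C.val_Y_le_one ha hb.le hx0 hXint
  have hns := C.nonsingular_of_good ha hb hdisc hx0 hXint
  have hker : C.InKer v (σ x - x) := by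
    refine C.inKer_sub_of_close ha hb.le h2 hx0 (hC.ne_zero x hx0) hXint hns ?_ ?_
    · rw [hC.X_map x hx0]; exact hτ.sub_lt _ hXint
    · rw [hC.Y_map x hx0]; exact hτ.sub_lt _ hYint
  have htors : p • (σ x - x) = 0 := by
    rw [smul_sub, ← map_nsmul, hx, map_zero, sub_zero]
  exact sub_eq_zero.mp (hK.torsion_free _ hker htors)

end LegendreCoords

end Fermat.Agent.S05.helper97
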