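import Mathlib
import Fermat.Agent.S05.helper97_Legendre
import Fermat.Agent.S05.helper97_Good
import Fermat.Agent.S05.helper90_Kernel

/-!
# S05-T2 : `KerHyp` for Legendre coordinates

Adapter from `Fermat.Agent.S05.helper90` (kernel of reduction for a valuation subring) to the
`LegendreCoords` interface of `helper97`: for a valuation `v` with `v a ≤ 1`, `v b ≤ 1` and
`v p = 1`, the kernel of reduction `{0} ∪ {P | 1 < v (X P)}` is closed under addition and has
no `p`-torsion, i.e. `C.KerHyp v p` holds.
-/

set_option autoImplicit false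

namespace Fermat.Agent.S05.helper90

open Fermat.Agent.S05.helper97

variable {K : Type*} [Field K] {Γ₀ : Type*} [LinearOrderedCommGroupWithZero Γ₀]
  {G : Type*} [AddCommGroup G] {a b : K}

/-- The weak hypotheses used by the kernel-of-reduction argument follow from
`LegendreCoords`. -/
lemma legendreHyp_of_coords (C : LegendreCoords K G a b) : LegendreHyp a b C.X C.Y :=
  ⟨C.eqn, C.X_neg, C.Y_neg, C.collinear⟩

lemma inKer_iff (C : LegendreCoords K G a b) (v : Valuation K Γ₀) (P : G) :
    InKer v.valuationSubring C.X P ↔ C.InKer v P := by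
  unfold InKer LegendreCoords.InKer
  rw [Valuation.mem_valuationSubring_iff, not_le]

lemma not_mem_nonunits_of_val_eq_one (v : Valuation K Γ₀) {x : K} (hx : v x = 1) :
    x ∉ v.valuationSubring.nonunits := by
  rw [ValuationSubring.mem_nonunits_iff,
    ← (Valuation.isEquiv_valuation_valuationSubring v).lt_one_iff_lt_one, hx]
  exact lt_irrefl _

/-- **H1** in `LegendreCoords` form: the kernel of reduction is closed under addition. -/
theorem inKer_add (C : LegendreCoords K G a b) (v : Valuation K Γ₀) (ha : v a ≤ 1)
    (hb : v b ≤ 1) {P Q : G} (hP : C.InKer v P) (hQ : C.InKer v Q) : C.InKer v (P + Q) :=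
  (inKer_iff C v _).mp (kernel_add (legendreHyp_of_coords C)
    ((Valuation.mem_valuationSubring_iff v a).mpr ha)
    ((Valuation.mem_valuationSubring_iff v b).mpr hb)
    ((inKer_iff C v P).mpr hP) ((inKer_iff C v Q).mpr hQ))

/-- **H2** in `LegendreCoords` form: the kernel of reduction has no `n`-torsion when `n` is a
unit for the valuation. -/
theorem inKer_torsion_free (C : LegendreCoords K G a b) (v : Valuation K Γ₀) (ha : v a ≤ 1)
    (hb : v b ≤ 1) {n : ℕ} (hn : v (n : K) = 1) {P : G} (hP : C.InKer v P)
    (hnP : n • P = 0) : P = 0 :=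
  kernel_torsion_free (legendreHyp_of_coords C)
    ((Valuation.mem_valuationSubring_iff v a).mpr ha)
    ((Valuation.mem_valuationSubring_iff v b).mpr hb)
    ((inKer_iff C v P).mpr hP) (not_mem_nonunits_of_val_eq_one v hn) hnP

/-- **T2.** The hypotheses `KerHyp` on the kernel of reduction hold as soon as `a`, `b` are
integral and `p` is a unit for the valuation. -/
theorem kerHyp (C : LegendreCoords K G a b) (v : Valuation K Γ₀) (ha : v a ≤ 1)
    (hb : v b ≤ 1) {p : ℕ} (hp : v (p : K) = 1) : C.KerHyp v p :=
  ⟨fun _ _ hP hQ => inKer_add C v ha hb hP hQ,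
    fun _ hP hpP => inKer_torsion_free C v ha hb hp hP hpP⟩

/-- Multiplication by `n` preserves the kernel of reduction. -/
theorem inKer_nsmul (C : LegendreCoords K G a b) (v : Valuation K Γ₀) (ha : v a ≤ 1)
    (hb : v b ≤ 1) {P : G} (hP : C.InKer v P) (n : ℕ) : C.InKer v (n • P) :=
  (inKer_iff C v _).mp (zCoord_nsmul (legendreHyp_of_coords C)
    ((Valuation.mem_valuationSubring_iff v a).mpr ha)
    ((Valuation.mem_valuationSubring_iff v b).mpr hb)
    ((inKer_iff C v P).mpr hP) n).1

end Fermat.Agent.S05.helper90
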