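import Mathlib
import Fermat.Agent.S05.helper97_Legendre
import Fermat.Agent.S05.helper97_Good

/-!
# The multiplicative reduction case in Legendre coordinates (helper97, statement S05)

Setting: `Y ^ 2 = X * (X ^ 2 + a * X + b)` with `a = s ^ 2` a unit, `b` a nonzero element of the
maximal ideal, and `2` a unit.  A point is *near the node* if `v b < v X < 1`; such a point has
a sign according to `Y ≡ s * X` or `Y ≡ -s * X` modulo `X * 𝔪`.
-/

set_option autoImplicit false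

namespace Fermat.Agent.S05.helper97

variable {K : Type*} [Field K] {Γ₀ : Type*} [LinearOrderedCommGroupWithZero Γ₀]
  {v : Valuation K Γ₀}

/-- Standing hypotheses of the multiplicative case. -/
structure MultHyp (v : Valuation K Γ₀) (a b s : K) : Prop where
  two : v (2 : K) = 1
  a_unit : v a = 1
  b_lt : v b < 1
  b_ne : b ≠ 0
  s_sq : s ^ 2 = a

namespace MultHyp

variable {a b s : K} (h : MultHyp v a b s)
include h

theorem s_unit : v s = 1 := by
  have h1 : v s ^ 2 = 1 := by rw [← map_pow, h.s_sq, h.a_unit]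
  exact (pow_eq_one_iff_of_nonneg zero_le two_ne_zero).mp h1

theorem neg : MultHyp v a b (-s) :=
  { h with s_sq := by rw [neg_sq, h.s_sq] }

theorem two_s_unit : v (2 * s) = 1 := by
  rw [map_mul, h.two, h.s_unit, one_mul]

theorem b_pos : 0 < v b := zero_lt_iff.mpr ((Valuation.ne_zero_iff v).mpr h.b_ne)

/-- If `Λ ≡ s` then `Λ + s` is a unit. -/
theorem val_add_of_sub_lt {Λ : K} (hΛ : v (Λ - s) < 1) : v (Λ + s) = 1 := by
  have : Λ + s = 2 * s + (Λ - s) := by ring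
  rw [this, Valuation.map_add_eq_of_lt_left]
  · exact h.two_s_unit
  · rw [h.two_s_unit]; exact hΛ

theorem val_sub_of_add_lt {Λ : K} (hΛ : v (Λ + s) < 1) : v (Λ - s) = 1 := by
  have := h.neg.val_add_of_sub_lt (Λ := Λ) (by rwa [sub_neg_eq_add])
  rwa [← sub_eq_add_neg] at this

/-- If neither `Λ ≡ s` nor `Λ ≡ -s`, then `Λ - s` and `Λ + s` have the same valuation. -/
theorem val_sub_eq_val_add {Λ : K} (h1 : 1 ≤ v (Λ - s)) (h2 : 1 ≤ v (Λ + s)) :
    v (Λ - s) = v (Λ + s) := by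
  by_cases hΛ : v Λ ≤ 1
  · have e1 : v (Λ - s) ≤ 1 := v.map_sub_le hΛ h.s_unit.le
    have e2 : v (Λ + s) ≤ 1 := v.map_add_le hΛ h.s_unit.le
    rw [le_antisymm e1 h1, le_antisymm e2 h2]
  · rw [not_le] at hΛ
    rw [Valuation.map_sub_eq_of_lt_left, Valuation.map_add_eq_of_lt_left]
    · rw [h.s_unit]; exact hΛ
    · rw [h.s_unit]; exact hΛ

end MultHyp

namespace LegendreCoords

variable {G : Type*} [AddCommGroup G] {a b : K} (C : LegendreCoords K G a b)

/-- A nonzero point near the node, in a generic component. -/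
def Near (v : Valuation K Γ₀) (P : G) : Prop :=
  P ≠ 0 ∧ v b < v (C.X P) ∧ v (C.X P) < 1

/-- Positive sign: `Y ≡ s * X`. -/
def Pos (v : Valuation K Γ₀) (s : K) (P : G) : Prop :=
  v (C.Y P - s * C.X P) < v (C.X P)

/-- Negative sign: `Y ≡ -s * X`. -/
def Neg (v : Valuation K Γ₀) (s : K) (P : G) : Prop :=
  v (C.Y P + s * C.X P) < v (C.X P)

theorem neg_iff_pos_neg {s : K} {P : G} : C.Neg v s P ↔ C.Pos v (-s) P := by
  unfold Neg Pos
  rw [neg_mul, sub_neg_eq_add]

theorem pos_iff_neg_neg {s : K} {P : G} : C.Pos v s P ↔ C.Neg v (-s) P := by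
  rw [neg_iff_pos_neg, neg_neg]

variable {C}

theorem Near.ne_zero {P : G} (hP : C.Near v P) : P ≠ 0 := hP.1

theorem Near.X_ne_zero {P : G} (hP : C.Near v P) : C.X P ≠ 0 := by
  intro h0
  have := hP.2.1
  rw [h0, map_zero] at this
  exact absurd this (not_lt.mpr zero_le)

theorem Near.val_X_pos {P : G} (hP : C.Near v P) : 0 < v (C.X P) :=
  zero_lt_iff.mpr ((Valuation.ne_zero_iff v).mpr hP.X_ne_zero)

theorem Near.neg {P : G} (hP : C.Near v P) : C.Near v (-P) := by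
  refine ⟨neg_ne_zero.mpr hP.1, ?_, ?_⟩
  · rw [C.X_neg P hP.1]; exact hP.2.1
  · rw [C.X_neg P hP.1]; exact hP.2.2

theorem pos_neg_iff {s : K} {P : G} (hP : P ≠ 0) : C.Pos v s (-P) ↔ C.Neg v s P := by
  unfold Pos Neg
  rw [C.X_neg P hP, C.Y_neg P hP]
  have : -C.Y P - s * C.X P = -(C.Y P + s * C.X P) := by ring
  rw [this, Valuation.map_neg]

theorem neg_neg_iff {s : K} {P : G} (hP : P ≠ 0) : C.Neg v s (-P) ↔ C.Pos v s P := by
  rw [neg_iff_pos_neg, pos_neg_iff hP, ← pos_iff_neg_neg]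

section

variable {s : K} (h : MultHyp v a b s)
include h

omit h in
/-- For a point near the node, `X ^ 2 + b` has valuation less than that of `X`. -/
theorem Near.val_sq_add_b_lt {P : G} (hP : C.Near v P) : v (C.X P ^ 2 + b) < v (C.X P) := by
  refine v.map_add_lt ?_ hP.2.1
  rw [map_pow, sq]
  calc v (C.X P) * v (C.X P) < 1 * v (C.X P) :=
        (mul_lt_mul_iff_left₀ hP.val_X_pos).mpr hP.2.2
    _ = v (C.X P) := one_mul _

/-- The product `(Y - s X) (Y + s X) = X (X ^ 2 + b)`. -/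
theorem sub_mul_add_eq {P : G} (hP : P ≠ 0) :
    (C.Y P - s * C.X P) * (C.Y P + s * C.X P) = C.X P * (C.X P ^ 2 + b) := by
  have := C.eqn P hP
  have hs := h.s_sq
  linear_combination this - C.X P ^ 2 * hs

/-- A point near the node has a sign. -/
theorem Near.pos_or_neg {P : G} (hP : C.Near v P) : C.Pos v s P ∨ C.Neg v s P := by
  by_contra hcon
  rw [not_or] at hcon
  unfold Pos Neg at hcon
  rw [not_lt, not_lt] at hcon
  have h1 := sub_mul_add_eq (C := C) h hP.1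
  have h2 : v (C.X P) * v (C.X P) ≤ v ((C.Y P - s * C.X P) * (C.Y P + s * C.X P)) := by
    rw [map_mul]
    exact mul_le_mul' hcon.1 hcon.2
  rw [h1, map_mul] at h2
  have h3 : v (C.X P) * v (C.X P ^ 2 + b) < v (C.X P) * v (C.X P) :=
    (mul_lt_mul_iff_right₀ hP.val_X_pos).mpr hP.val_sq_add_b_lt
  exact absurd h2 (not_le.mpr h3)

/-- A point near the node does not have both signs. -/
theorem Near.not_pos_and_neg {P : G} (_hP : C.Near v P) : ¬ (C.Pos v s P ∧ C.Neg v s P) := by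
  rintro ⟨h1, h2⟩
  unfold Pos at h1
  unfold Neg at h2
  have h3 : 2 * s * C.X P = (C.Y P + s * C.X P) - (C.Y P - s * C.X P) := by ring
  have h4 : v (2 * s * C.X P) < v (C.X P) := by
    rw [h3]; exact v.map_sub_lt h2 h1
  rw [map_mul, h.two_s_unit, one_mul] at h4
  exact lt_irrefl _ h4

theorem Near.neg_of_not_pos {P : G} (hP : C.Near v P) (hn : ¬ C.Pos v s P) : C.Neg v s P :=
  (hP.pos_or_neg h).resolve_left hn

theorem Near.pos_of_not_neg {P : G} (hP : C.Near v P) (hn : ¬ C.Neg v s P) : C.Pos v s P :=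
  (hP.pos_or_neg h).resolve_right hn

theorem Near.not_neg_of_pos {P : G} (hP : C.Near v P) (hp : C.Pos v s P) : ¬ C.Neg v s P :=
  fun hn => hP.not_pos_and_neg h ⟨hp, hn⟩

theorem Near.not_pos_of_neg {P : G} (hP : C.Near v P) (hn : C.Neg v s P) : ¬ C.Pos v s P :=
  fun hp => hP.not_pos_and_neg h ⟨hp, hn⟩

/-! ### A point near the node on a line `Y = Λ X + N` -/

omit h in
/-- `Λ ≡ s` and positive sign: `v N < v X`. -/
theorem Near.val_N_lt_of_pos {P : G} (hP : C.Near v P) {Λ N : K}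
    (hl : C.Y P = Λ * C.X P + N) (hΛ : v (Λ - s) < 1) (hp : C.Pos v s P) :
    v N < v (C.X P) := by
  have e : N = (C.Y P - s * C.X P) - (Λ - s) * C.X P := by rw [hl]; ring
  rw [e]
  refine v.map_sub_lt hp ?_
  rw [map_mul]
  calc v (Λ - s) * v (C.X P) < 1 * v (C.X P) := (mul_lt_mul_iff_left₀ hP.val_X_pos).mpr hΛ
    _ = v (C.X P) := one_mul _

/-- `Λ ≡ s` and negative sign: `v N = v X`. -/
theorem Near.val_N_eq_of_neg {P : G} (_hP : C.Near v P) {Λ N : K}
    (hl : C.Y P = Λ * C.X P + N) (hΛ : v (Λ - s) < 1) (hn : C.Neg v s P) :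
    v N = v (C.X P) := by
  have e : N = (C.Y P + s * C.X P) - (Λ + s) * C.X P := by rw [hl]; ring
  have e2 : v ((Λ + s) * C.X P) = v (C.X P) := by
    rw [map_mul, h.val_add_of_sub_lt hΛ, one_mul]
  rw [e, Valuation.map_sub_eq_of_lt_right, e2]
  rw [e2]; exact hn

/-- Neither `Λ ≡ s` nor `Λ ≡ -s`: `v N = v (Λ - s) * v X`. -/
theorem Near.val_N_eq_of_generic {P : G} (hP : C.Near v P) {Λ N : K}
    (hl : C.Y P = Λ * C.X P + N) (h1 : 1 ≤ v (Λ - s)) (h2 : 1 ≤ v (Λ + s)) :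
    v N = v (Λ - s) * v (C.X P) := by
  rcases hP.pos_or_neg h with hp | hn
  · have e : N = (C.Y P - s * C.X P) - (Λ - s) * C.X P := by rw [hl]; ring
    have e2 : v ((Λ - s) * C.X P) = v (Λ - s) * v (C.X P) := map_mul _ _ _
    rw [e, Valuation.map_sub_eq_of_lt_right, e2]
    rw [e2]
    calc v (C.Y P - s * C.X P) < v (C.X P) := hp
      _ = 1 * v (C.X P) := (one_mul _).symm
      _ ≤ v (Λ - s) * v (C.X P) := mul_le_mul_left h1 _
  · have e : N = (C.Y P + s * C.X P) - (Λ + s) * C.X P := by rw [hl]; ring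
    have e2 : v ((Λ + s) * C.X P) = v (Λ + s) * v (C.X P) := map_mul _ _ _
    rw [h.val_sub_eq_val_add h1 h2, e, Valuation.map_sub_eq_of_lt_right, e2]
    rw [e2]
    calc v (C.Y P + s * C.X P) < v (C.X P) := hn
      _ = 1 * v (C.X P) := (one_mul _).symm
      _ ≤ v (Λ + s) * v (C.X P) := mul_le_mul_left h2 _

end


/-! ### Lines -/

/-- The three points lie on the line `Y = Λ X + N`, and the Vieta relations hold. -/
structure OnLine (C : LegendreCoords K G a b) (Λ N : K) (P₁ P₂ P₃ : G) : Prop where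
  l1 : C.Y P₁ = Λ * C.X P₁ + N
  l2 : C.Y P₂ = Λ * C.X P₂ + N
  l3 : C.Y P₃ = Λ * C.X P₃ + N
  e1 : C.X P₁ + C.X P₂ + C.X P₃ = Λ ^ 2 - a
  e2 : C.X P₁ * C.X P₂ + C.X P₁ * C.X P₃ + C.X P₂ * C.X P₃ = b - 2 * Λ * N
  e3 : C.X P₁ * C.X P₂ * C.X P₃ = N ^ 2

theorem exists_onLine {P₁ P₂ P₃ : G} (h1 : P₁ ≠ 0) (h2 : P₂ ≠ 0) (h3 : P₃ ≠ 0)
    (hsum : P₁ + P₂ + P₃ = 0) : ∃ Λ N : K, C.OnLine Λ N P₁ P₂ P₃ := by
  obtain ⟨Λ, N, a1, a2, a3, a4, a5, a6⟩ := C.collinear P₁ P₂ P₃ h1 h2 h3 hsum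
  exact ⟨Λ, N, ⟨a1, a2, a3, a4, a5, a6⟩⟩

namespace OnLine

variable {Λ N : K} {P₁ P₂ P₃ : G}

theorem swap12 (hL : C.OnLine Λ N P₁ P₂ P₃) : C.OnLine Λ N P₂ P₁ P₃ :=
  ⟨hL.l2, hL.l1, hL.l3, by rw [← hL.e1]; ring, by rw [← hL.e2]; ring, by rw [← hL.e3]; ring⟩

theorem swap23 (hL : C.OnLine Λ N P₁ P₂ P₃) : C.OnLine Λ N P₁ P₃ P₂ :=
  ⟨hL.l1, hL.l3, hL.l2, by rw [← hL.e1]; ring, by rw [← hL.e2]; ring, by rw [← hL.e3]; ring⟩

theorem swap13 (hL : C.OnLine Λ N P₁ P₂ P₃) : C.OnLine Λ N P₃ P₂ P₁ :=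
  ⟨hL.l3, hL.l2, hL.l1, by rw [← hL.e1]; ring, by rw [← hL.e2]; ring, by rw [← hL.e3]; ring⟩

/-- The valuation form of the third Vieta relation. -/
theorem val_e3 (hL : C.OnLine Λ N P₁ P₂ P₃) :
    v (C.X P₁) * v (C.X P₂) * v (C.X P₃) = v N * v N := by
  rw [← map_mul, ← map_mul, ← map_mul, hL.e3, sq]

end OnLine

section

variable {s : K} (h : MultHyp v a b s)
include h

omit h in
/-- If all three points are near the node then `N ≠ 0`. -/
theorem OnLine.val_N_pos {Λ N : K} {P₁ P₂ P₃ : G} (hL : C.OnLine Λ N P₁ P₂ P₃)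
    (n1 : C.Near v P₁) (n2 : C.Near v P₂) (n3 : C.Near v P₃) : 0 < v N := by
  have := hL.val_e3 (v := v)
  have hpos : 0 < v (C.X P₁) * v (C.X P₂) * v (C.X P₃) :=
    mul_pos (mul_pos n1.val_X_pos n2.val_X_pos) n3.val_X_pos
  rw [this] at hpos
  by_contra hN
  rw [not_lt, le_zero_iff] at hN
  rw [hN, mul_zero] at hpos
  exact lt_irrefl _ hpos

omit h in
/-- Auxiliary: if `x₁ x₂ x₃ = n ^ 2` and `n < x₃` then `x₁ x₂ < n`. -/
theorem aux_prod_lt {x₁ x₂ x₃ n : Γ₀} (hn : 0 < n) (he : x₁ * x₂ * x₃ = n * n) (h3 : n < x₃) :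
    x₁ * x₂ < n := by
  by_contra hcon
  rw [not_lt] at hcon
  have h1 : n * n < n * x₃ := (mul_lt_mul_iff_right₀ hn).mpr h3
  have h2 : n * x₃ ≤ x₁ * x₂ * x₃ := mul_le_mul_left hcon _
  rw [he] at h2
  exact absurd h2 (not_le.mpr h1)

/-- Three positive points near the node on a line with `Λ ≡ s`: then `v N = v b`. -/
theorem OnLine.val_N_eq_val_b {Λ N : K} {P₁ P₂ P₃ : G} (hL : C.OnLine Λ N P₁ P₂ P₃)
    (n1 : C.Near v P₁) (n2 : C.Near v P₂) (n3 : C.Near v P₃) (hΛ : v (Λ - s) < 1)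
    (p1 : C.Pos v s P₁) (p2 : C.Pos v s P₂) (p3 : C.Pos v s P₃) : v N = v b := by
  have hN := hL.val_N_pos n1 n2 n3
  have q1 := n1.val_N_lt_of_pos hL.l1 hΛ p1
  have q2 := n2.val_N_lt_of_pos hL.l2 hΛ p2
  have q3 := n3.val_N_lt_of_pos hL.l3 hΛ p3
  have he := hL.val_e3 (v := v)
  have r12 : v (C.X P₁ * C.X P₂) < v N := by
    rw [map_mul]; exact aux_prod_lt hN he q3
  have r13 : v (C.X P₁ * C.X P₃) < v N := by
    rw [map_mul]; exact aux_prod_lt hN (hL.swap23.val_e3 (v := v)) q2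
  have r23 : v (C.X P₂ * C.X P₃) < v N := by
    rw [map_mul, mul_comm]; exact aux_prod_lt hN (hL.swap13.val_e3 (v := v)) q1
  have hΛ1 : v Λ = 1 := by
    have : Λ = s + (Λ - s) := by ring
    rw [this, Valuation.map_add_eq_of_lt_left, h.s_unit]
    rw [h.s_unit]; exact hΛ
  have hb : b = 2 * Λ * N + (C.X P₁ * C.X P₂ + C.X P₁ * C.X P₃ + C.X P₂ * C.X P₃) := by
    rw [hL.e2]; ring
  have h2N : v (2 * Λ * N) = v N := by
    rw [map_mul, map_mul, h.two, hΛ1, one_mul, one_mul]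
  rw [hb, Valuation.map_add_eq_of_lt_left, h2N]
  rw [h2N]
  exact v.map_add_lt (v.map_add_lt r12 r13) r23

end


/-! ### Signed valuations -/

open Classical in
/-- The signed valuation of a point near the node: `v X` for positive points and `(v X)⁻¹`
for negative ones. -/
noncomputable def sval (C : LegendreCoords K G a b) (v : Valuation K Γ₀) (s : K) (P : G) : Γ₀ :=
  if C.Pos v s P then v (C.X P) else (v (C.X P))⁻¹

theorem sval_of_pos {s : K} {P : G} (hp : C.Pos v s P) : C.sval v s P = v (C.X P) :=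
  if_pos hp

theorem sval_of_not_pos {s : K} {P : G} (hp : ¬ C.Pos v s P) : C.sval v s P = (v (C.X P))⁻¹ :=
  if_neg hp

section

variable {s : K} (h : MultHyp v a b s)
include h

theorem Near.sval_of_neg {P : G} (hP : C.Near v P) (hn : C.Neg v s P) :
    C.sval v s P = (v (C.X P))⁻¹ :=
  sval_of_not_pos (hP.not_pos_of_neg h hn)

theorem Near.sval_ne_zero {P : G} (hP : C.Near v P) : C.sval v s P ≠ 0 := by
  rcases hP.pos_or_neg h with hp | hn
  · rw [sval_of_pos hp]; exact hP.val_X_pos.ne'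
  · rw [hP.sval_of_neg h hn]; exact inv_ne_zero hP.val_X_pos.ne'

/-- Replacing `s` by `-s` inverts the signed valuation. -/
theorem Near.sval_neg_s {P : G} (hP : C.Near v P) : C.sval v (-s) P = (C.sval v s P)⁻¹ := by
  rcases hP.pos_or_neg h with hp | hn
  · rw [sval_of_pos hp, hP.sval_of_neg h.neg (C.pos_iff_neg_neg.mp hp)]
  · rw [hP.sval_of_neg h hn, sval_of_pos (C.neg_iff_pos_neg.mp hn), inv_inv]

/-- Negating the point inverts the signed valuation. -/
theorem Near.sval_neg {P : G} (hP : C.Near v P) : C.sval v s (-P) = (C.sval v s P)⁻¹ := by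
  rcases hP.pos_or_neg h with hp | hn
  · rw [sval_of_pos hp, hP.neg.sval_of_neg h ((neg_neg_iff hP.1).mpr hp), C.X_neg P hP.1]
  · rw [hP.sval_of_neg h hn, sval_of_pos ((pos_neg_iff hP.1).mpr hn), C.X_neg P hP.1, inv_inv]

/-- The valuation of the first coordinate is the signed valuation or its inverse. -/
theorem Near.val_X_eq {P : G} (hP : C.Near v P) :
    v (C.X P) = C.sval v s P ∨ v (C.X P) = (C.sval v s P)⁻¹ := by
  rcases hP.pos_or_neg h with hp | hn
  · exact Or.inl (sval_of_pos hp).symm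
  · right; rw [hP.sval_of_neg h hn, inv_inv]

/-- On a line with `Λ ≡ s`, two negative points near the node are impossible. -/
theorem OnLine.two_neg_absurd {Λ N : K} {P₁ P₂ P₃ : G} (hL : C.OnLine Λ N P₁ P₂ P₃)
    (n1 : C.Near v P₁) (n2 : C.Near v P₂) (n3 : C.Near v P₃) (hΛ : v (Λ - s) < 1)
    (m2 : C.Neg v s P₂) (m3 : C.Neg v s P₃) : False := by
  have hN := hL.val_N_pos n1 n2 n3
  have q2 := n2.val_N_eq_of_neg h hL.l2 hΛ m2
  have q3 := n3.val_N_eq_of_neg h hL.l3 hΛ m3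
  have he := hL.val_e3 (v := v)
  rw [← q2, ← q3, mul_assoc] at he
  have h1 : v (C.X P₁) * (v N * v N) = 1 * (v N * v N) := by rw [he, one_mul]
  have h2 := mul_right_cancel₀ (mul_pos hN hN).ne' h1
  exact absurd h2 (ne_of_lt n1.2.2)

/-- On a line with `Λ ≡ s`, if the third point is negative then `v X₁ * v X₂ = v X₃`. -/
theorem OnLine.val_mul_eq_of_neg {Λ N : K} {P₁ P₂ P₃ : G} (hL : C.OnLine Λ N P₁ P₂ P₃)
    (n1 : C.Near v P₁) (n2 : C.Near v P₂) (n3 : C.Near v P₃) (hΛ : v (Λ - s) < 1)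
    (m3 : C.Neg v s P₃) : v (C.X P₁) * v (C.X P₂) = v (C.X P₃) := by
  have hN := hL.val_N_pos n1 n2 n3
  have q3 := n3.val_N_eq_of_neg h hL.l3 hΛ m3
  have he := hL.val_e3 (v := v)
  rw [q3] at he
  exact mul_right_cancel₀ n3.val_X_pos.ne' he

/-- Additivity of signed valuations, case `Λ ≡ s`. -/
theorem OnLine.sval_mul_of_sub_lt {Λ N : K} {P₁ P₂ P₃ : G} (hL : C.OnLine Λ N P₁ P₂ P₃)
    (n1 : C.Near v P₁) (n2 : C.Near v P₂) (n3 : C.Near v P₃) (hΛ : v (Λ - s) < 1) :
    C.sval v s P₁ * C.sval v s P₂ * C.sval v s P₃ = 1 ∨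
      C.sval v s P₁ * C.sval v s P₂ * C.sval v s P₃ = v b ^ 2 := by
  rcases n1.pos_or_neg h with p1 | m1 <;> rcases n2.pos_or_neg h with p2 | m2 <;>
    rcases n3.pos_or_neg h with p3 | m3
  · right
    rw [sval_of_pos p1, sval_of_pos p2, sval_of_pos p3, hL.val_e3,
      hL.val_N_eq_val_b h n1 n2 n3 hΛ p1 p2 p3, sq]
  · left
    rw [sval_of_pos p1, sval_of_pos p2, n3.sval_of_neg h m3,
      hL.val_mul_eq_of_neg h n1 n2 n3 hΛ m3]
    exact mul_inv_cancel₀ n3.val_X_pos.ne'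
  · left
    rw [sval_of_pos p1, n2.sval_of_neg h m2, sval_of_pos p3, mul_right_comm,
      hL.swap23.val_mul_eq_of_neg h n1 n3 n2 hΛ m2]
    exact mul_inv_cancel₀ n2.val_X_pos.ne'
  · exact (hL.two_neg_absurd h n1 n2 n3 hΛ m2 m3).elim
  · left
    rw [n1.sval_of_neg h m1, sval_of_pos p2, sval_of_pos p3, mul_assoc, mul_comm,
      hL.swap12.swap23.val_mul_eq_of_neg h n2 n3 n1 hΛ m1]
    exact mul_inv_cancel₀ n1.val_X_pos.ne'
  · exact (hL.swap12.two_neg_absurd h n2 n1 n3 hΛ m1 m3).elim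
  · exact (hL.swap13.two_neg_absurd h n3 n2 n1 hΛ m2 m1).elim
  · exact (hL.two_neg_absurd h n1 n2 n3 hΛ m2 m3).elim


/-- Three points near the node cannot lie on a line whose slope is congruent to neither
`s` nor `-s`. -/
theorem OnLine.generic_absurd {Λ N : K} {P₁ P₂ P₃ : G} (hL : C.OnLine Λ N P₁ P₂ P₃)
    (n1 : C.Near v P₁) (n2 : C.Near v P₂) (n3 : C.Near v P₃)
    (h1 : 1 ≤ v (Λ - s)) (h2 : 1 ≤ v (Λ + s)) : False := by
  have hN := hL.val_N_pos n1 n2 n3
  have q1 := n1.val_N_eq_of_generic h hL.l1 h1 h2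
  have q2 := n2.val_N_eq_of_generic h hL.l2 h1 h2
  have q3 := n3.val_N_eq_of_generic h hL.l3 h1 h2
  have he := hL.val_e3 (v := v)
  set ρ := v (Λ - s) with hρ
  have hρpos : 0 < ρ := lt_of_lt_of_le zero_lt_one h1
  -- `v N ^ 3 = ρ ^ 3 * v N ^ 2`
  have e3 : v N * (v N * v N) = ρ * ρ * ρ * (v N * v N) := by
    calc v N * (v N * v N) = (ρ * v (C.X P₁)) * ((ρ * v (C.X P₂)) * (ρ * v (C.X P₃))) := by
          rw [← q1, ← q2, ← q3]
      _ = ρ * ρ * ρ * (v (C.X P₁) * v (C.X P₂) * v (C.X P₃)) := by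
          simp only [mul_comm, mul_left_comm]
      _ = ρ * ρ * ρ * (v N * v N) := by rw [he]
  have e4 : v N = ρ * ρ * ρ := mul_right_cancel₀ (mul_pos hN hN).ne' e3
  have e5 : v N < ρ := by
    rw [q1]
    calc ρ * v (C.X P₁) < ρ * 1 := (mul_lt_mul_iff_right₀ hρpos).mpr n1.2.2
      _ = ρ := mul_one _
  have e6 : ρ ≤ ρ * ρ * ρ := by
    calc ρ = 1 * 1 * ρ := by rw [one_mul, one_mul]
      _ ≤ ρ * ρ * ρ := mul_le_mul_left (mul_le_mul' h1 h1) _
  rw [e4] at e5
  exact absurd e6 (not_le.mpr e5)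

/-- **Additivity of signed valuations** for three points near the node with sum zero. -/
theorem OnLine.sval_mul {Λ N : K} {P₁ P₂ P₃ : G} (hL : C.OnLine Λ N P₁ P₂ P₃)
    (n1 : C.Near v P₁) (n2 : C.Near v P₂) (n3 : C.Near v P₃) :
    C.sval v s P₁ * C.sval v s P₂ * C.sval v s P₃ = 1 ∨
      C.sval v s P₁ * C.sval v s P₂ * C.sval v s P₃ = v b ^ 2 ∨
      C.sval v s P₁ * C.sval v s P₂ * C.sval v s P₃ = (v b ^ 2)⁻¹ := by
  by_cases c1 : v (Λ - s) < 1
  · rcases hL.sval_mul_of_sub_lt h n1 n2 n3 c1 with e | e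
    · exact Or.inl e
    · exact Or.inr (Or.inl e)
  by_cases c2 : v (Λ + s) < 1
  · have c2' : v (Λ - -s) < 1 := by rwa [sub_neg_eq_add]
    have key := hL.sval_mul_of_sub_lt h.neg n1 n2 n3 c2'
    rw [n1.sval_neg_s h, n2.sval_neg_s h, n3.sval_neg_s h, ← mul_inv, ← mul_inv] at key
    rcases key with e | e
    · left; exact inv_eq_one.mp e
    · right; right; rw [← e, inv_inv]
  · exact (hL.generic_absurd h n1 n2 n3 (not_lt.mp c1) (not_lt.mp c2)).elim

end


/-! ### The subgroup of points with nonsingular reduction -/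

variable (C) in
/-- Points with nonsingular reduction (including the kernel of reduction). -/
def InE0 (v : Valuation K Γ₀) (P : G) : Prop :=
  P = 0 ∨ 1 ≤ v (C.X P)

theorem inE0_zero : C.InE0 v 0 := Or.inl rfl

theorem inE0_of_inKer {P : G} (hP : C.InKer v P) : C.InE0 v P := by
  rcases hP with h0 | h1
  · exact Or.inl h0
  · exact Or.inr h1.le

theorem inE0_neg {P : G} (hP : C.InE0 v P) : C.InE0 v (-P) := by
  rcases hP with h0 | h1
  · left; rw [h0, neg_zero]
  · by_cases hP0 : P = 0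
    · left; rw [hP0, neg_zero]
    · right; rwa [C.X_neg P hP0]

theorem inE0_neg_iff {P : G} : C.InE0 v (-P) ↔ C.InE0 v P :=
  ⟨fun h => by simpa using inE0_neg h, inE0_neg⟩

section

variable {s : K} (h : MultHyp v a b s)
include h

/-- A point of the kernel, a unit point and a point reducing to the node are not collinear. -/
theorem OnLine.mixed_absurd {Λ N : K} {P₁ P₂ P₃ : G} (hL : C.OnLine Λ N P₁ P₂ P₃)
    (h1 : 1 < v (C.X P₁)) (h2 : v (C.X P₂) = 1) (h3 : v (C.X P₃) < 1) : False := by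
  have hX1pos : 0 < v (C.X P₁) := lt_trans zero_lt_one h1
  -- `v (Λ ^ 2) = v X₁`
  have eΛ : v Λ * v Λ = v (C.X P₁) := by
    have : Λ ^ 2 = C.X P₁ + (C.X P₂ + C.X P₃ + a) := by linear_combination -hL.e1
    rw [← map_mul, ← sq, this, Valuation.map_add_eq_of_lt_left]
    refine lt_of_le_of_lt ?_ h1
    exact v.map_add_le (v.map_add_le h2.le h3.le) h.a_unit.le
  -- `v (Λ * N) = v X₁`
  have eΛN : v Λ * v N = v (C.X P₁) := by
    have e23 : v (C.X P₂ + C.X P₃) = 1 := by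
      rw [Valuation.map_add_eq_of_lt_left, h2]
      rw [h2]; exact h3
    have : 2 * Λ * N = -(C.X P₁ * (C.X P₂ + C.X P₃)) + (b - C.X P₂ * C.X P₃) := by
      linear_combination hL.e2
    have hv : v (2 * Λ * N) = v (C.X P₁) := by
      rw [this, Valuation.map_add_eq_of_lt_left, Valuation.map_neg, map_mul, e23, mul_one]
      rw [Valuation.map_neg, map_mul, e23, mul_one]
      refine lt_of_lt_of_le ?_ h1.le
      refine v.map_sub_lt h.b_lt ?_
      rw [map_mul, h2, one_mul]; exact h3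
    rwa [map_mul, map_mul, h.two, one_mul] at hv
  -- `v N ^ 2 = v X₁`
  have eN : v N * v N = v (C.X P₁) := by
    have : (v Λ * v Λ) * (v N * v N) = (v Λ * v Λ) * v (C.X P₁) := by
      calc (v Λ * v Λ) * (v N * v N) = (v Λ * v N) * (v Λ * v N) := by
            simp only [mul_comm, mul_left_comm]
        _ = v (C.X P₁) * v (C.X P₁) := by rw [eΛN]
        _ = (v Λ * v Λ) * v (C.X P₁) := by rw [eΛ]
    refine mul_left_cancel₀ ?_ this
    rw [eΛ]; exact hX1pos.ne'
  have he := hL.val_e3 (v := v)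
  rw [eN, h2, mul_one] at he
  have : v (C.X P₁) * v (C.X P₃) = v (C.X P₁) * 1 := by rw [he, mul_one]
  have h3' := mul_left_cancel₀ hX1pos.ne' this
  exact absurd h3' (ne_of_lt h3)

/-- Two unit points and a point reducing to the node are not collinear. -/
theorem OnLine.unit_unit_absurd {Λ N : K} {P₁ P₂ P₃ : G} (hL : C.OnLine Λ N P₁ P₂ P₃)
    (h1 : v (C.X P₁) = 1) (h2 : v (C.X P₂) = 1) (h3 : v (C.X P₃) < 1) : False := by
  have hΛ : v Λ ≤ 1 := by
    apply val_le_one_of_sq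
    have : Λ ^ 2 = C.X P₁ + C.X P₂ + C.X P₃ + a := by linear_combination -hL.e1
    rw [this]
    exact v.map_add_le (v.map_add_le (v.map_add_le h1.le h2.le) h3.le) h.a_unit.le
  have hN : v N < 1 := by
    apply val_lt_one_of_sq
    rw [← hL.e3, map_mul, map_mul, h1, h2, one_mul, one_mul]
    exact h3
  have key : C.X P₁ * C.X P₂ = b - 2 * Λ * N - C.X P₃ * (C.X P₁ + C.X P₂) := by
    linear_combination hL.e2
  have hlt : v (C.X P₁ * C.X P₂) < 1 := by
    rw [key]
    refine v.map_sub_lt (v.map_sub_lt h.b_lt ?_) ?_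
    · rw [mul_assoc]
      exact val_mul_lt_one_right h.two.le (val_mul_lt_one_right hΛ hN)
    · exact val_mul_lt_one_left h3 (v.map_add_le h1.le h2.le)
  rw [map_mul, h1, h2, one_mul] at hlt
  exact lt_irrefl _ hlt

/-- The points with nonsingular reduction are closed under addition, provided the kernel of
reduction is. -/
theorem inE0_add (hadd : ∀ P Q, C.InKer v P → C.InKer v Q → C.InKer v (P + Q))
    {P Q : G} (hP : C.InE0 v P) (hQ : C.InE0 v Q) : C.InE0 v (P + Q) := by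
  by_cases hP0 : P = 0
  · rw [hP0, zero_add]; exact hQ
  by_cases hQ0 : Q = 0
  · rw [hQ0, add_zero]; exact hP
  by_cases hPQ : P + Q = 0
  · exact Or.inl hPQ
  have hP1 : 1 ≤ v (C.X P) := hP.resolve_left hP0
  have hQ1 : 1 ≤ v (C.X Q) := hQ.resolve_left hQ0
  have h3 : -(P + Q) ≠ 0 := neg_ne_zero.mpr hPQ
  obtain ⟨Λ, N, hL⟩ := C.exists_onLine hP0 hQ0 h3 (by abel)
  rw [← inE0_neg_iff]
  refine Or.inr ?_
  by_contra hcon
  rw [not_le] at hcon
  rcases lt_or_eq_of_le hP1 with hP2 | hP2 <;> rcases lt_or_eq_of_le hQ1 with hQ2 | hQ2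
  · have := hadd P Q (Or.inr hP2) (Or.inr hQ2)
    have h4 : 1 < v (C.X (P + Q)) := this.resolve_left hPQ
    rw [C.X_neg _ hPQ] at hcon
    exact absurd h4 (not_lt.mpr hcon.le)
  · exact hL.mixed_absurd h hP2 hQ2.symm hcon
  · exact hL.swap12.mixed_absurd h hQ2 hP2.symm hcon
  · exact hL.unit_unit_absurd h hP2.symm hQ2.symm hcon

theorem inE0_nsmul (hadd : ∀ P Q, C.InKer v P → C.InKer v Q → C.InKer v (P + Q))
    {P : G} (hP : C.InE0 v P) (n : ℕ) : C.InE0 v (n • P) := by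
  induction n with
  | zero => rw [zero_smul]; exact inE0_zero
  | succ n ih => rw [succ_nsmul]; exact inE0_add h hadd ih hP

theorem inE0_sub (hadd : ∀ P Q, C.InKer v P → C.InKer v Q → C.InKer v (P + Q))
    {P Q : G} (hP : C.InE0 v P) (hQ : C.InE0 v Q) : C.InE0 v (P - Q) := by
  rw [sub_eq_add_neg]
  exact inE0_add h hadd hP (inE0_neg hQ)


/-- A point with `v X ≤ v b` has `v Y ≤ v b`. -/
theorem val_Y_le_of_val_X_le {P : G} (hP : P ≠ 0) (hX : v (C.X P) ≤ v b) :
    v (C.Y P) ≤ v b := by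
  have hb1 : v b ≤ 1 := h.b_lt.le
  have hX1 : v (C.X P) ≤ 1 := hX.trans hb1
  have h1 : v (C.X P ^ 2 + a * C.X P + b) ≤ v b := by
    refine v.map_add_le (v.map_add_le ?_ ?_) le_rfl
    · rw [map_pow, sq]
      calc v (C.X P) * v (C.X P) ≤ 1 * v b := mul_le_mul' hX1 hX
        _ = v b := one_mul _
    · rw [map_mul, h.a_unit, one_mul]; exact hX
  have h2 : v (C.Y P) ^ 2 ≤ v b ^ 2 := by
    rw [← map_pow, C.eqn P hP, map_mul, sq (v b)]
    exact mul_le_mul' hX h1
  exact (pow_le_pow_iff_left₀ zero_le zero_le two_ne_zero).mp h2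

/-- Doubling a point of the component of the two-torsion point at the node lands in the part
with nonsingular reduction. -/
theorem OnLine.tcomp_double_absurd {Λ N : K} {P P₃ : G} (hL : C.OnLine Λ N P P P₃)
    (hP : P ≠ 0) (hX : v (C.X P) ≤ v b) (h3 : v (C.X P₃) < 1) : False := by
  have hb1 : v b < 1 := h.b_lt
  have hbpos : 0 < v b := h.b_pos
  have hX1 : v (C.X P) < 1 := lt_of_le_of_lt hX hb1
  have hY : v (C.Y P) ≤ v b := val_Y_le_of_val_X_le h hP hX
  -- `Λ` is a unit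
  have hΛ : v Λ = 1 := by
    have : Λ ^ 2 = a + (C.X P + C.X P + C.X P₃) := by linear_combination -hL.e1
    have h2 : v (Λ ^ 2) = 1 := by
      rw [this, Valuation.map_add_eq_of_lt_left, h.a_unit]
      rw [h.a_unit]
      exact v.map_add_lt (v.map_add_lt hX1 hX1) h3
    rw [map_pow] at h2
    exact (pow_eq_one_iff_of_nonneg zero_le two_ne_zero).mp h2
  -- `v N ≤ v b`
  have hN : v N ≤ v b := by
    have : N = C.Y P - Λ * C.X P := by linear_combination -hL.l1
    rw [this]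
    refine v.map_sub_le hY ?_
    rw [map_mul, hΛ, one_mul]; exact hX
  -- in fact `v N = v b`
  have hNb : v N = v b := by
    have e : 2 * Λ * N = b - (C.X P * C.X P + (C.X P * C.X P₃ + C.X P * C.X P₃)) := by
      linear_combination hL.e2
    have hlt : ∀ y : K, v y < 1 → v (C.X P * y) < v b := by
      intro y hy
      rw [map_mul]
      calc v (C.X P) * v y ≤ v b * v y := mul_le_mul_left hX _
        _ < v b * 1 := (mul_lt_mul_iff_right₀ hbpos).mpr hy
        _ = v b := mul_one _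
    have hv : v (2 * Λ * N) = v b := by
      rw [e, Valuation.map_sub_eq_of_lt_left]
      exact v.map_add_lt (hlt _ hX1) (v.map_add_lt (hlt _ h3) (hlt _ h3))
    rwa [map_mul, map_mul, h.two, hΛ, one_mul, one_mul] at hv
  have he := hL.val_e3 (v := v)
  rw [hNb] at he
  have h4 : v (C.X P) * v (C.X P) * v (C.X P₃) < v b * v b := by
    calc v (C.X P) * v (C.X P) * v (C.X P₃) ≤ v b * v b * v (C.X P₃) :=
          mul_le_mul_left (mul_le_mul' hX hX) _
      _ < v b * v b * 1 := (mul_lt_mul_iff_right₀ (mul_pos hbpos hbpos)).mpr h3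
      _ = v b * v b := mul_one _
  rw [he] at h4
  exact lt_irrefl _ h4

/-- If `P` lies in the component of the two-torsion point at the node, then `2 • P` has
nonsingular reduction. -/
theorem inE0_two_nsmul_of_val_le {P : G} (hP : P ≠ 0) (hX : v (C.X P) ≤ v b) :
    C.InE0 v (2 • P) := by
  by_cases h2P : 2 • P = 0
  · exact Or.inl h2P
  have h3 : -(2 • P) ≠ 0 := neg_ne_zero.mpr h2P
  obtain ⟨Λ, N, hL⟩ := C.exists_onLine hP hP h3 (by rw [two_nsmul]; abel)
  rw [← inE0_neg_iff]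
  refine Or.inr ?_
  by_contra hcon
  rw [not_le] at hcon
  exact hL.tcomp_double_absurd h hP hX hcon

/-- Two positive points near the node with the same valuation of the first coordinate
differ by a point with nonsingular reduction. -/
theorem inE0_sub_of_pos {P Q : G} (nP : C.Near v P) (nQ : C.Near v Q)
    (hX : v (C.X P) = v (C.X Q)) (pP : C.Pos v s P) (pQ : C.Pos v s Q) :
    C.InE0 v (P - Q) := by
  by_cases hPQ : P = Q
  · left; rw [hPQ, sub_self]
  have hsub : Q - P ≠ 0 := sub_ne_zero.mpr (Ne.symm hPQ)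
  have hsub' : P - Q ≠ 0 := sub_ne_zero.mpr hPQ
  have nQ' : C.Near v (-Q) := nQ.neg
  have mQ' : C.Neg v s (-Q) := (neg_neg_iff nQ.1).mpr pQ
  have hXQ' : v (C.X (-Q)) = v (C.X Q) := by rw [C.X_neg Q nQ.1]
  obtain ⟨Λ, N, hL⟩ := C.exists_onLine nP.1 nQ'.1 hsub (by abel)
  have hX3 : C.X (Q - P) = C.X (P - Q) := by
    rw [← neg_sub P Q, C.X_neg _ hsub']
  refine Or.inr ?_
  rw [← hX3]
  by_cases c1 : v (Λ - s) < 1
  · have q1 := nP.val_N_lt_of_pos hL.l1 c1 pP
    have q2 := nQ'.val_N_eq_of_neg h hL.l2 c1 mQ'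
    rw [q2, hXQ', ← hX] at q1
    exact absurd q1 (lt_irrefl _)
  by_cases c2 : v (Λ + s) < 1
  · have c2' : v (Λ - -s) < 1 := by rwa [sub_neg_eq_add]
    have q1 := nP.val_N_eq_of_neg h.neg hL.l1 c2' (C.pos_iff_neg_neg.mp pP)
    have q2 := nQ'.val_N_lt_of_pos hL.l2 c2' (C.neg_iff_pos_neg.mp mQ')
    rw [q1, hXQ', ← hX] at q2
    exact absurd q2 (lt_irrefl _)
  · rw [not_lt] at c1 c2
    have q1 := nP.val_N_eq_of_generic h hL.l1 c1 c2
    have q2 := nQ'.val_N_eq_of_generic h hL.l2 c1 c2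
    have he := hL.val_e3 (v := v)
    have hρ : 0 < v (Λ - s) := lt_of_lt_of_le zero_lt_one c1
    have e1 : v (C.X P) * v (C.X (-Q)) * v (C.X (Q - P)) =
        v (C.X P) * v (C.X (-Q)) * (v (Λ - s) * v (Λ - s)) := by
      rw [he]
      nth_rewrite 1 [q1]
      rw [q2]
      simp only [mul_comm, mul_left_comm]
    have e2 := mul_left_cancel₀ (mul_pos nP.val_X_pos nQ'.val_X_pos).ne' e1
    rw [e2]
    exact one_le_mul_of_one_le_of_one_le c1 c1

/-- Two negative points near the node with the same valuation of the first coordinate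
differ by a point with nonsingular reduction. -/
theorem inE0_sub_of_neg {P Q : G} (nP : C.Near v P) (nQ : C.Near v Q)
    (hX : v (C.X P) = v (C.X Q)) (mP : C.Neg v s P) (mQ : C.Neg v s Q) :
    C.InE0 v (P - Q) :=
  inE0_sub_of_pos h.neg nP nQ hX (C.neg_iff_pos_neg.mp mP) (C.neg_iff_pos_neg.mp mQ)

/-- A point whose first coordinate is a unit has nonsingular reduction. -/
theorem nonsingular_of_unit {P : G} (hP : P ≠ 0) (hX : v (C.X P) = 1) :
    v (C.Y P) = 1 ∨ v (3 * C.X P ^ 2 + 2 * a * C.X P + b) = 1 := by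
  have hY : v (C.Y P) ≤ 1 := C.val_Y_le_one h.a_unit.le h.b_lt.le hP hX.le
  by_cases hY1 : v (C.Y P) = 1
  · exact Or.inl hY1
  right
  have hYlt : v (C.Y P) < 1 := lt_of_le_of_ne hY hY1
  -- `X + a` lies in the maximal ideal
  have h1 : v (C.X P + a) < 1 := by
    have e : C.X P * (C.X P * (C.X P + a)) = C.Y P ^ 2 - C.X P * b := by
      rw [C.eqn P hP]; ring
    have h2 : v (C.X P * (C.X P * (C.X P + a))) < 1 := by
      rw [e]
      refine v.map_sub_lt ?_ ?_
      · rw [map_pow]; exact pow_lt_one₀ zero_le hYlt two_ne_zero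
      · exact val_mul_lt_one_right hX.le h.b_lt
    rwa [map_mul, map_mul, hX, one_mul, one_mul] at h2
  have e : 3 * C.X P ^ 2 + 2 * a * C.X P + b = -(a * C.X P) + (3 * C.X P * (C.X P + a) + b) := by
    ring
  rw [e, Valuation.map_add_eq_of_lt_left, Valuation.map_neg, map_mul, h.a_unit, hX, one_mul]
  rw [Valuation.map_neg, map_mul, h.a_unit, hX, one_mul]
  refine v.map_add_lt ?_ h.b_lt
  exact val_mul_lt_one_right (val_mul_le_one (val_three_le_one v) hX.le) h1

/-- An inertia-like automorphism moves points with nonsingular reduction only by elements of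
the kernel of reduction. -/
theorem inKer_map_sub_of_inE0 {σ : G →+ G} {τ : K ≃+* K} (hC : C.Compat σ τ)
    (hτ : InertiaLike v τ) (hadd : ∀ P Q, C.InKer v P → C.InKer v Q → C.InKer v (P + Q))
    {w : G} (hw : C.InE0 v w) : C.InKer v (σ w - w) := by
  by_cases hw0 : w = 0
  · left; rw [hw0, map_zero, sub_zero]
  have hw1 : 1 ≤ v (C.X w) := hw.resolve_left hw0
  rcases lt_or_eq_of_le hw1 with hlt | heq
  · -- `w` in the kernel
    have h1 : C.InKer v (σ w) := by
      right; rw [hC.X_map w hw0, hτ.map_val]; exact hlt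
    have h2 : C.InKer v (-w) := C.inKer_neg (Or.inr hlt)
    rw [sub_eq_add_neg]
    exact hadd _ _ h1 h2
  · have hXint : v (C.X w) ≤ 1 := heq.symm.le
    have hYint : v (C.Y w) ≤ 1 := C.val_Y_le_one h.a_unit.le h.b_lt.le hw0 hXint
    refine C.inKer_sub_of_close h.a_unit.le h.b_lt.le h.two hw0 (hC.ne_zero w hw0) hXint
      (nonsingular_of_unit h hw0 heq.symm) ?_ ?_
    · rw [hC.X_map w hw0]; exact hτ.sub_lt _ hXint
    · rw [hC.Y_map w hw0]; exact hτ.sub_lt _ hYint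

end

end LegendreCoords

end Fermat.Agent.S05.helper97
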