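import Mathlib
import Fermat.Agent.S05.helper97_Legendre
import Fermat.Agent.S05.helper97_Good
import Fermat.Agent.S05.helper97_Mult

/-!
# The multiplicative reduction case: inertia fixes the `p`-torsion (helper97, statement S05)

Setting as in `helper97_Mult`: `Y ^ 2 = X * (X ^ 2 + a * X + b)` with `a = s ^ 2` a unit, `b` a
nonzero element of the maximal ideal whose valuation is a `p`-th power `v t ^ p`, and `2` a
unit.  The main result `fixed_of_mult` says that an inertia-like automorphism fixing `a`, `b`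
and `t` fixes every `p`-torsion point.
-/

set_option autoImplicit false

namespace Fermat.Agent.S05.helper97

variable {K : Type*} [Field K] {Γ₀ : Type*} [LinearOrderedCommGroupWithZero Γ₀]
  {v : Valuation K Γ₀}

/-- One step of the induction on multiples, in the value group. -/
theorem aux_zpow_step {A S Q B : Γ₀} (hQ : Q ≠ 0) (hB : B ≠ 0) (e : ℤ)
    (h : A * S * Q⁻¹ = B ^ e) : Q = A * S * B ^ (-e) := by
  have h1 : A * S = B ^ e * Q := (mul_inv_eq_iff_eq_mul₀ hQ).mp h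
  rw [h1, zpow_neg, mul_comm (B ^ e) Q, mul_assoc, mul_inv_cancel₀ (zpow_ne_zero e hB), mul_one]

namespace LegendreCoords

variable {G : Type*} [AddCommGroup G] {a b : K} {C : LegendreCoords K G a b}

section

variable {s : K} (h : MultHyp v a b s) {p : ℕ} (hp : p.Prime) (hK : C.KerHyp v p)
include h hp hK

/-- If a multiple `j • x` of a `p`-torsion point, with `j` prime to `p`, has nonsingular
reduction, then so has `x`. -/
theorem inE0_of_inE0_nsmul {x : G} (hx : p • x = 0) {j : ℕ} (hj : ¬ p ∣ j)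
    (hjx : C.InE0 v (j • x)) : C.InE0 v x := by
  have hcop : Nat.Coprime j p := ((Nat.Prime.coprime_iff_not_dvd hp).mpr hj).symm
  obtain ⟨m, -, hm⟩ := Nat.exists_mul_mod_eq_one_of_coprime hcop hp.one_lt
  have key : (j * m) • x = x := by
    have e1 : j * m = j * m / p * p + 1 := by
      have := Nat.div_add_mod' (j * m) p
      omega
    rw [e1, add_smul, mul_smul, hx, smul_zero, zero_add, one_smul]
  rw [← key, mul_comm, mul_smul]
  exact inE0_nsmul h hK.add hjx m

/-- All multiples `j • x`, `j` prime to `p`, of a `p`-torsion point reducing to the node are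
near the node. -/
theorem near_nsmul {x : G} (hx : p • x = 0) (hp2 : p ≠ 2) (hxE : ¬ C.InE0 v x) {j : ℕ}
    (hj : ¬ p ∣ j) : C.Near v (j • x) := by
  have h1 : ¬ C.InE0 v (j • x) := fun hc => hxE (inE0_of_inE0_nsmul h hp hK hx hj hc)
  have hne : j • x ≠ 0 := fun h0 => h1 (Or.inl h0)
  have hlt : v (C.X (j • x)) < 1 := by
    by_contra hcon
    exact h1 (Or.inr (not_lt.mp hcon))
  refine ⟨hne, ?_, hlt⟩
  by_contra hcon
  rw [not_lt] at hcon
  have h2 := inE0_two_nsmul_of_val_le h hne hcon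
  rw [← mul_smul] at h2
  have hnd : ¬ p ∣ 2 * j := by
    intro hd
    rcases (Nat.Prime.dvd_mul hp).mp hd with h' | h'
    · exact hp2 ((Nat.prime_dvd_prime_iff_eq hp Nat.prime_two).mp h')
    · exact hj h'
  exact hxE (inE0_of_inE0_nsmul h hp hK hx hnd h2)

theorem near_of_not_inE0 {x : G} (hx : p • x = 0) (hp2 : p ≠ 2) (hxE : ¬ C.InE0 v x) :
    C.Near v x := by
  have := near_nsmul h hp hK hx hp2 hxE (j := 1) (by
    intro hd
    exact hp.one_lt.ne' (Nat.dvd_one.mp hd))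
  rwa [one_smul] at this

/-- The signed valuation of `j • x` is the `j`-th power of that of `x`, up to a power of
`v b ^ 2`. -/
theorem sval_nsmul {x : G} (hx : p • x = 0) (hp2 : p ≠ 2) (hxE : ¬ C.InE0 v x) :
    ∀ j : ℕ, 1 ≤ j → j < p →
      ∃ k : ℤ, C.sval v s (j • x) = C.sval v s x ^ j * (v b ^ 2) ^ k := by
  intro j hj
  induction j, hj using Nat.le_induction with
  | base => intro _; exact ⟨0, by simp⟩
  | succ j hj ih =>
    intro hlt
    obtain ⟨k, hk⟩ := ih (by omega)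
    have hB : v b ^ 2 ≠ 0 := pow_ne_zero 2 h.b_pos.ne'
    have nj : C.Near v (j • x) := near_nsmul h hp hK hx hp2 hxE (by
      intro hd
      have := Nat.le_of_dvd (by omega) hd
      omega)
    have n1 : C.Near v x := near_of_not_inE0 h hp hK hx hp2 hxE
    have nj1 : C.Near v ((j + 1) • x) := near_nsmul h hp hK hx hp2 hxE (by
      intro hd
      have := Nat.le_of_dvd (by omega) hd
      omega)
    obtain ⟨Λ, N, hL⟩ := C.exists_onLine nj.1 n1.1 nj1.neg.1 (by rw [succ_nsmul]; abel)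
    have key := hL.sval_mul h nj n1 nj1.neg
    rw [nj1.sval_neg h] at key
    have hQ : C.sval v s ((j + 1) • x) ≠ 0 := nj1.sval_ne_zero h
    have main : ∃ e : ℤ, C.sval v s (j • x) * C.sval v s x * (C.sval v s ((j + 1) • x))⁻¹ =
        (v b ^ 2) ^ e := by
      rcases key with e | e | e
      · exact ⟨0, by rw [e, zpow_zero]⟩
      · exact ⟨1, by rw [e, zpow_one]⟩
      · exact ⟨-1, by rw [e, zpow_neg, zpow_one]⟩
    obtain ⟨e, he⟩ := main
    have h3 := aux_zpow_step hQ hB e he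
    refine ⟨k + -e, ?_⟩
    rw [h3, hk, zpow_add₀ hB, pow_succ (C.sval v s x) j]
    simp only [mul_assoc, mul_comm]

/-- The valuation of the first coordinate of a `p`-torsion point reducing to the node is an
integral power of `v t`, if `v b = v t ^ p`. -/
theorem exists_zpow_val_X {x : G} (hx : p • x = 0) (hp2 : p ≠ 2) (hxE : ¬ C.InE0 v x)
    {t : K} (ht : v b = v t ^ p) : ∃ m : ℤ, v (C.X x) = v t ^ m := by
  have hp3 : 3 ≤ p := by
    have := hp.two_le
    omega
  have n1 : C.Near v x := near_of_not_inE0 h hp hK hx hp2 hxE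
  obtain ⟨k, hk⟩ := sval_nsmul h hp hK hx hp2 hxE (p - 1) (by omega) (by omega)
  have hneg : (p - 1) • x = -x := by
    have e : (p - 1 + 1) • x = 0 := by
      rw [Nat.sub_add_cancel (by omega)]; exact hx
    rw [succ_nsmul] at e
    exact eq_neg_of_add_eq_zero_left e
  rw [hneg, n1.sval_neg h] at hk
  have hS : C.sval v s x ≠ 0 := n1.sval_ne_zero h
  have hB : v b ^ 2 ≠ 0 := pow_ne_zero 2 h.b_pos.ne'
  -- `S ^ p = B ^ (-k)`
  have e1 : C.sval v s x ^ p * (v b ^ 2) ^ k = 1 := by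
    have : C.sval v s x ^ p = C.sval v s x ^ (p - 1) * C.sval v s x := by
      rw [← pow_succ, Nat.sub_add_cancel (by omega)]
    rw [this, mul_assoc, mul_comm (C.sval v s x), ← mul_assoc, ← hk, inv_mul_cancel₀ hS]
  have e2 : C.sval v s x ^ p = ((v t ^ 2) ^ (-k)) ^ p := by
    have e3 : C.sval v s x ^ p = ((v b ^ 2) ^ k)⁻¹ := eq_inv_of_mul_eq_one_left e1
    have e4 : v b ^ 2 = (v t ^ 2) ^ p := by
      rw [ht, ← pow_mul, ← pow_mul, mul_comm]
    rw [e3, e4, ← zpow_neg, ← zpow_natCast ((v t ^ 2) ^ (-k)) p, ← zpow_natCast (v t ^ 2) p,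
      ← zpow_mul, ← zpow_mul, mul_comm]
  have e5 : C.sval v s x = (v t ^ 2) ^ (-k) :=
    (pow_left_inj₀ zero_le zero_le hp.ne_zero).mp e2
  have e6 : C.sval v s x = v t ^ (2 * -k) := by
    rw [e5, ← zpow_natCast (v t) 2, ← zpow_mul]
    norm_num
  rcases n1.val_X_eq h with e | e
  · exact ⟨2 * -k, by rw [e, e6]⟩
  · exact ⟨-(2 * -k), by rw [e, e6, zpow_neg]⟩

end

/-! ### Construction of fixed points near the node -/

section

variable {s : K} (h : MultHyp v a b s)
include h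

/-- For every `X₀` fixed by `τ` with `v b < v X₀ < 1` there is a positive point near the node,
fixed by `σ`, with first coordinate `X₀`. -/
theorem exists_fixed_pos (hsqrt : ∀ c : K, ∃ ρ : K, ρ ^ 2 = c)
    {σ : G →+ G} {τ : K ≃+* K} (hC : C.Compat σ τ) (hτ : InertiaLike v τ)
    (hτa : τ a = a) (hτb : τ b = b) {X₀ : K} (hτX : τ X₀ = X₀) (hXb : v b < v X₀)
    (hX1 : v X₀ < 1) :
    ∃ y : G, C.Near v y ∧ C.Pos v s y ∧ σ y = y ∧ C.X y = X₀ := by
  have hX0pos : 0 < v X₀ := lt_of_le_of_lt zero_le hXb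
  have hX0 : X₀ ≠ 0 := (Valuation.ne_zero_iff v).mp hX0pos.ne'
  obtain ⟨ρ₀, hρ₀⟩ := hsqrt (X₀ + a + b / X₀)
  -- `X₀ + b / X₀` lies in the maximal ideal
  have hlt : v (X₀ + b / X₀) < 1 := by
    refine v.map_add_lt hX1 ?_
    rw [map_div₀]
    exact (div_lt_one₀ hX0pos).mpr hXb
  have hprod : (ρ₀ - s) * (ρ₀ + s) = X₀ + b / X₀ := by
    have : (ρ₀ - s) * (ρ₀ + s) = ρ₀ ^ 2 - s ^ 2 := by ring
    rw [this, hρ₀, h.s_sq]; ring
  -- choose the sign of the square root
  have hchoice : ∃ ρ : K, ρ ^ 2 = X₀ + a + b / X₀ ∧ v (ρ - s) < 1 := by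
    by_cases c1 : v (ρ₀ - s) < 1
    · exact ⟨ρ₀, hρ₀, c1⟩
    by_cases c2 : v (ρ₀ + s) < 1
    · refine ⟨-ρ₀, by rw [neg_sq, hρ₀], ?_⟩
      have : -ρ₀ - s = -(ρ₀ + s) := by ring
      rwa [this, Valuation.map_neg]
    · rw [not_lt] at c1 c2
      have : 1 ≤ v ((ρ₀ - s) * (ρ₀ + s)) := by
        rw [map_mul]; exact one_le_mul_of_one_le_of_one_le c1 c2
      rw [hprod] at this
      exact absurd hlt (not_lt.mpr this)
  obtain ⟨ρ, hρ, hρs⟩ := hchoice
  have hρ1 : v ρ = 1 := by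
    have : ρ = s + (ρ - s) := by ring
    rw [this, Valuation.map_add_eq_of_lt_left, h.s_unit]
    rw [h.s_unit]; exact hρs
  -- `ρ` is fixed by `τ`
  have hτρ : τ ρ = ρ := by
    have e1 : τ ρ ^ 2 = ρ ^ 2 := by
      rw [← map_pow, hρ, map_add, map_add, map_div₀, hτX, hτa, hτb]
    have e2 : (τ ρ - ρ) * (τ ρ + ρ) = 0 := by
      have : (τ ρ - ρ) * (τ ρ + ρ) = τ ρ ^ 2 - ρ ^ 2 := by ring
      rw [this, e1, sub_self]
    rcases mul_eq_zero.mp e2 with e | e
    · exact sub_eq_zero.mp e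
    · exfalso
      have e3 : τ ρ - ρ = -(2 * ρ) := by linear_combination e
      have e4 : v (τ ρ - ρ) = 1 := by
        rw [e3, Valuation.map_neg, map_mul, h.two, hρ1, one_mul]
      have e5 := hτ.sub_lt ρ hρ1.le
      rw [e4] at e5
      exact lt_irrefl _ e5
  have heqn : (ρ * X₀) ^ 2 = X₀ * (X₀ ^ 2 + a * X₀ + b) := by
    rw [mul_pow, hρ]
    field_simp
  obtain ⟨y, hy0, hyX, hyY⟩ := C.exists_of_eqn X₀ (ρ * X₀) heqn
  refine ⟨y, ⟨hy0, by rw [hyX]; exact hXb, by rw [hyX]; exact hX1⟩, ?_, ?_, hyX⟩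
  · unfold Pos
    rw [hyX, hyY]
    have : ρ * X₀ - s * X₀ = (ρ - s) * X₀ := by ring
    rw [this, map_mul]
    calc v (ρ - s) * v X₀ < 1 * v X₀ := (mul_lt_mul_iff_left₀ hX0pos).mpr hρs
      _ = v X₀ := one_mul _
  · refine C.ext (σ y) y (hC.ne_zero y hy0) hy0 ?_ ?_
    · rw [hC.X_map y hy0, hyX, hτX]
    · rw [hC.Y_map y hy0, hyY, map_mul, hτρ, hτX]

/-- The analogue of `exists_fixed_pos` for negative points. -/
theorem exists_fixed_neg (hsqrt : ∀ c : K, ∃ ρ : K, ρ ^ 2 = c)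
    {σ : G →+ G} {τ : K ≃+* K} (hC : C.Compat σ τ) (hτ : InertiaLike v τ)
    (hτa : τ a = a) (hτb : τ b = b) {X₀ : K} (hτX : τ X₀ = X₀) (hXb : v b < v X₀)
    (hX1 : v X₀ < 1) :
    ∃ y : G, C.Near v y ∧ C.Neg v s y ∧ σ y = y ∧ C.X y = X₀ := by
  obtain ⟨y, ny, py, hy, hX⟩ := exists_fixed_pos h.neg hsqrt hC hτ hτa hτb hτX hXb hX1
  exact ⟨y, ny, C.neg_iff_pos_neg.mpr py, hy, hX⟩

/-- **Multiplicative reduction case.** If `a` is a unit and a square, `b` is a nonzero element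
of the maximal ideal with `v b = v t ^ p`, then an inertia-like automorphism fixing `a`, `b`
and `t` fixes every `p`-torsion point, provided the kernel of reduction is a subgroup without
`p`-torsion (`p` an odd prime) and every element of `K` is a square. -/
theorem fixed_of_mult' {σ : G →+ G} {τ : K ≃+* K} (hC : C.Compat σ τ) (hτ : InertiaLike v τ)
    {p : ℕ} (hp : p.Prime) (hp2 : p ≠ 2) (hK : C.KerHyp v p)
    (hsqrt : ∀ c : K, ∃ ρ : K, ρ ^ 2 = c) (hτa : τ a = a) (hτb : τ b = b)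
    {t : K} (ht : v b = v t ^ p) (hτt : τ t = t)
    {x : G} (hx : p • x = 0) : σ x = x := by
  have htors : p • (σ x - x) = 0 := by
    rw [smul_sub, ← map_nsmul, hx, map_zero, sub_zero]
  by_cases hxE : C.InE0 v x
  · have hker := inKer_map_sub_of_inE0 h hC hτ hK.add hxE
    exact sub_eq_zero.mp (hK.torsion_free _ hker htors)
  have n1 : C.Near v x := near_of_not_inE0 h hp hK hx hp2 hxE
  obtain ⟨m, hm⟩ := exists_zpow_val_X h hp hK hx hp2 hxE ht
  have hτX : τ (t ^ m) = t ^ m := by rw [map_zpow₀, hτt]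
  have hvX : v (t ^ m) = v (C.X x) := by rw [map_zpow₀, hm]
  have hXb : v b < v (t ^ m) := by rw [hvX]; exact n1.2.1
  have hX1 : v (t ^ m) < 1 := by rw [hvX]; exact n1.2.2
  -- a fixed point `y` with the same sign and valuation as `x`
  have hy : ∃ y : G, σ y = y ∧ C.InE0 v (x - y) := by
    rcases n1.pos_or_neg h with px | mx
    · obtain ⟨y, ny, py, hy, hXy⟩ := exists_fixed_pos h hsqrt hC hτ hτa hτb hτX hXb hX1
      exact ⟨y, hy, inE0_sub_of_pos h n1 ny (by rw [hXy, hvX]) px py⟩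
    · obtain ⟨y, ny, my, hy, hXy⟩ := exists_fixed_neg h hsqrt hC hτ hτa hτb hτX hXb hX1
      exact ⟨y, hy, inE0_sub_of_neg h n1 ny (by rw [hXy, hvX]) mx my⟩
  obtain ⟨y, hy, hw⟩ := hy
  have hker := inKer_map_sub_of_inE0 h hC hτ hK.add hw
  have e : σ (x - y) - (x - y) = σ x - x := by
    rw [map_sub, hy]; abel
  rw [e] at hker
  exact sub_eq_zero.mp (hK.torsion_free _ hker htors)

end

/-- **Multiplicative reduction case**, with the square root of `a` chosen internally. -/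
theorem fixed_of_mult {σ : G →+ G} {τ : K ≃+* K} (hC : C.Compat σ τ) (hτ : InertiaLike v τ)
    (h2 : v (2 : K) = 1) (ha : v a = 1) (hb : v b < 1) (hb0 : b ≠ 0)
    {p : ℕ} (hp : p.Prime) (hp2 : p ≠ 2) (hK : C.KerHyp v p)
    (hsqrt : ∀ c : K, ∃ ρ : K, ρ ^ 2 = c) (hτa : τ a = a) (hτb : τ b = b)
    {t : K} (ht : v b = v t ^ p) (hτt : τ t = t)
    {x : G} (hx : p • x = 0) : σ x = x := by
  obtain ⟨s, hs⟩ := hsqrt a
  exact fixed_of_mult' ⟨h2, ha, hb, hb0, hs⟩ hC hτ hp hp2 hK hsqrt hτa hτb ht hτt hx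

end LegendreCoords

end Fermat.Agent.S05.helper97
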